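/-
JT3 / stage T1 (gateway), node G2.  Prefix `gh_`.

The group `H := Γ₀(N)^ab / (parabolic, elliptic)`:
* universal property (`gh_lift_*`), additive and multiplicative (characters);
* finitely generated (`gh_fg`);
* `rank_ℤ H = 2 · dim S₂(Γ₀(N)) = 2 g` (`gh_finrank`, `gh_finrank_genus`), from S21 + S20;
* structure `H ≃+ ℤ^(2g) × (finite)` and the `Hom`-counts used by the Tate module.
-/
import Fermat.Agent.S20.Final

set_option autoImplicit false
set_option maxHeartbeats 400000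

open CongruenceSubgroup ModularCurve ModularCurve.Period Module
open scoped MatrixGroups

noncomputable section

namespace Fermat.Agent.JT3

/-! ### Elliptic elements of `SL(2, ℤ)` have finite order -/

/-- Cayley–Hamilton for `SL(2, ℤ)`: `γ² = t γ - 1` with `t = tr γ`. -/
theorem gh_sq_eq (γ : SL(2, ℤ)) (t : ℤ) (ht : γ 0 0 + γ 1 1 = t) :
    (γ : Matrix (Fin 2) (Fin 2) ℤ) * (γ : Matrix (Fin 2) (Fin 2) ℤ) =
      t • (γ : Matrix (Fin 2) (Fin 2) ℤ) - 1 := by
  have hdet : γ 0 0 * γ 1 1 - γ 0 1 * γ 1 0 = 1 := by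
    have := γ.2
    rw [Matrix.det_fin_two] at this
    exact this
  subst ht
  ext i j
  fin_cases i <;> fin_cases j <;>
    simp [Matrix.mul_apply, Fin.sum_univ_two, Matrix.smul_apply, Matrix.sub_apply, -zsmul_eq_mul] <;>
    first | ring1 | linear_combination hdet | linear_combination (-1 : ℤ) * hdet

/-- An element of `SL(2, ℤ)` with `tr² < 4` (an elliptic element) satisfies `γ ^ 12 = 1`. -/
theorem gh_pow_twelve (γ : SL(2, ℤ)) (h : (γ 0 0 + γ 1 1) ^ 2 < 4) : γ ^ 12 = 1 := by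
  have ht : γ 0 0 + γ 1 1 = 0 ∨ γ 0 0 + γ 1 1 = 1 ∨ γ 0 0 + γ 1 1 = -1 := by
    have h1 : -2 < γ 0 0 + γ 1 1 := by nlinarith
    have h2 : γ 0 0 + γ 1 1 < 2 := by nlinarith
    omega
  apply Subtype.ext
  rw [Matrix.SpecialLinearGroup.coe_pow, Matrix.SpecialLinearGroup.coe_one]
  generalize hA : (γ : Matrix (Fin 2) (Fin 2) ℤ) = A
  rcases ht with ht | ht | ht
  · have h2 := gh_sq_eq γ 0 ht
    rw [hA, zero_smul, zero_sub] at h2
    have h3 : A ^ 2 = -1 := by rw [pow_two, h2]
    calc A ^ 12 = (A ^ 2) ^ 6 := by rw [← pow_mul]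
      _ = 1 := by rw [h3]; exact Even.neg_one_pow ⟨3, rfl⟩
  · have h2 := gh_sq_eq γ 1 ht
    rw [hA, one_smul] at h2
    have h3 : A ^ 3 = -1 := by
      calc A ^ 3 = A * (A * A) := by rw [pow_succ, pow_two, mul_assoc]
        _ = A * A - A := by rw [h2, mul_sub, mul_one, h2]
        _ = -1 := by rw [h2]; abel
    calc A ^ 12 = (A ^ 3) ^ 4 := by rw [← pow_mul]
      _ = 1 := by rw [h3]; exact Even.neg_one_pow ⟨2, rfl⟩
  · have h2 := gh_sq_eq γ (-1) ht
    rw [hA, neg_one_smul] at h2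
    have h3 : A ^ 3 = 1 := by
      calc A ^ 3 = A * (A * A) := by rw [pow_succ, pow_two, mul_assoc]
        _ = -(A * A) - A := by rw [h2, mul_sub, mul_one, mul_neg, h2]
        _ = 1 := by rw [h2]; abel
    calc A ^ 12 = (A ^ 3) ^ 4 := by rw [← pow_mul]
      _ = 1 := by rw [h3, one_pow]

/-! ### The group `H = Γ₀(N)^ab / (parabolic, elliptic)` -/

variable (N : ℕ)

/-- `γ ∈ Γ₀(N)` is parabolic (or `±1`) or elliptic: `tr(γ)² ≤ 4`. -/
def gh_IsParEll (γ : Gamma0 N) : Prop :=
  ((γ : SL(2, ℤ)) : Matrix (Fin 2) (Fin 2) ℤ).trace ^ 2 ≤ 4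

/-- the abelianisation of `Γ₀(N)`, additively. -/
abbrev gh_Ab : Type := Additive (Abelianization (Gamma0 N))

/-- `Γ₀(N) → Γ₀(N)^ab`, additively. -/
def gh_of : Additive (Gamma0 N) →+ gh_Ab N := MonoidHom.toAdditive Abelianization.of

theorem gh_of_surjective : Function.Surjective (gh_of N) := by
  intro x
  obtain ⟨γ, hγ⟩ := QuotientGroup.mk_surjective (s := commutator (Gamma0 N)) (Additive.toMul x)
  exact ⟨Additive.ofMul γ, congrArg Additive.ofMul hγ⟩

/-- the subgroup of `Γ₀(N)^ab` generated by the parabolic and the elliptic elements. -/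
def gh_rel : AddSubgroup (gh_Ab N) :=
  AddSubgroup.closure {x | ∃ γ : Gamma0 N, gh_IsParEll N γ ∧ gh_of N (Additive.ofMul γ) = x}

/-- **`H := Γ₀(N)^ab / (parabolic, elliptic)`** (`= H₁(X₀(N), ℤ)`). -/
abbrev gh_H : Type := gh_Ab N ⧸ gh_rel N

/-- the projection `Γ₀(N) → H`. -/
def gh_mk : Additive (Gamma0 N) →+ gh_H N := (QuotientAddGroup.mk' (gh_rel N)).comp (gh_of N)

theorem gh_mk_surjective : Function.Surjective (gh_mk N) :=
  (QuotientAddGroup.mk'_surjective (gh_rel N)).comp (gh_of_surjective N)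

theorem gh_mk_parEll (γ : Gamma0 N) (h : gh_IsParEll N γ) : gh_mk N (Additive.ofMul γ) = 0 := by
  change (QuotientAddGroup.mk' (gh_rel N)) (gh_of N (Additive.ofMul γ)) = 0
  rw [QuotientAddGroup.mk'_apply, QuotientAddGroup.eq_zero_iff]
  exact AddSubgroup.subset_closure ⟨γ, h, rfl⟩

variable {N} {A : Type*} [AddCommGroup A]

/-- the factorisation of `φ : Γ₀(N) → A` through `Γ₀(N)^ab`. -/
def gh_liftAb (φ : Additive (Gamma0 N) →+ A) : gh_Ab N →+ A :=
  MonoidHom.toAdditiveLeft (Abelianization.lift (AddMonoidHom.toMultiplicativeRight φ))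

theorem gh_liftAb_of (φ : Additive (Gamma0 N) →+ A) (x : Additive (Gamma0 N)) :
    gh_liftAb φ (gh_of N x) = φ x := by
  change Multiplicative.toAdd
    (Abelianization.lift (AddMonoidHom.toMultiplicativeRight φ) (Abelianization.of (Additive.toMul x))) = _
  rw [Abelianization.lift_apply_of]
  rfl

/-- **universal property of `H`**: a homomorphism `Γ₀(N) → A` killing the parabolic and the
elliptic elements factors through `H`. -/
def gh_lift (φ : Additive (Gamma0 N) →+ A)
    (hφ : ∀ γ : Gamma0 N, gh_IsParEll N γ → φ (Additive.ofMul γ) = 0) : gh_H N →+ A :=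
  QuotientAddGroup.lift (gh_rel N) (gh_liftAb φ) (by
    rw [gh_rel, AddSubgroup.closure_le]
    rintro x ⟨γ, hγ, rfl⟩
    rw [SetLike.mem_coe, AddMonoidHom.mem_ker, gh_liftAb_of]
    exact hφ γ hγ)

@[simp]
theorem gh_lift_mk (φ : Additive (Gamma0 N) →+ A)
    (hφ : ∀ γ : Gamma0 N, gh_IsParEll N γ → φ (Additive.ofMul γ) = 0) (x : Additive (Gamma0 N)) :
    gh_lift φ hφ (gh_mk N x) = φ x := by
  change QuotientAddGroup.lift (gh_rel N) (gh_liftAb φ) _ (QuotientAddGroup.mk (gh_of N x)) = _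
  rw [QuotientAddGroup.lift_mk, gh_liftAb_of]

theorem gh_hom_ext {ψ ψ' : gh_H N →+ A} (h : ∀ x, ψ (gh_mk N x) = ψ' (gh_mk N x)) : ψ = ψ' := by
  refine AddMonoidHom.ext fun y => ?_
  obtain ⟨x, rfl⟩ := gh_mk_surjective N y
  exact h x

theorem gh_comp_mk_parEll (ψ : gh_H N →+ A) (γ : Gamma0 N) (h : gh_IsParEll N γ) :
    (ψ.comp (gh_mk N)) (Additive.ofMul γ) = 0 := by
  rw [AddMonoidHom.comp_apply, gh_mk_parEll N γ h, map_zero]

variable (N A) in
/-- the homomorphisms `Γ₀(N) → A` killing the parabolic and the elliptic elements. -/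
def gh_parEllHoms : AddSubgroup (Additive (Gamma0 N) →+ A) where
  carrier := {φ | ∀ γ : Gamma0 N, gh_IsParEll N γ → φ (Additive.ofMul γ) = 0}
  zero_mem' := fun _ _ => rfl
  add_mem' := by
    intro φ ψ hφ hψ γ hγ
    rw [AddMonoidHom.add_apply, hφ γ hγ, hψ γ hγ, add_zero]
  neg_mem' := by
    intro φ hφ γ hγ
    rw [AddMonoidHom.neg_apply, hφ γ hγ, neg_zero]

theorem gh_mem_parEllHoms_iff (φ : Additive (Gamma0 N) →+ A) :
    φ ∈ gh_parEllHoms N A ↔ ∀ γ : Gamma0 N, gh_IsParEll N γ → φ (Additive.ofMul γ) = 0 := Iff.rfl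

/-- `Hom(H, A) ≃ {φ : Γ₀(N) → A | φ kills the parabolic and the elliptic elements}`. -/
def gh_homEquiv : (gh_H N →+ A) ≃+ ↥(gh_parEllHoms N A) where
  toFun ψ := ⟨ψ.comp (gh_mk N), gh_comp_mk_parEll ψ⟩
  invFun φ := gh_lift φ.1 φ.2
  left_inv ψ := gh_hom_ext fun x => by rw [gh_lift_mk]; rfl
  right_inv φ := by
    apply Subtype.ext
    refine AddMonoidHom.ext fun x => ?_
    exact gh_lift_mk φ.1 φ.2 x
  map_add' ψ ψ' := rfl

@[simp]
theorem gh_homEquiv_apply (ψ : gh_H N →+ A) (x : Additive (Gamma0 N)) :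
    (gh_homEquiv ψ : Additive (Gamma0 N) →+ A) x = ψ (gh_mk N x) := rfl

/-! ### Finite generation -/

theorem gh_fg_SL2Z : Group.FG SL(2, ℤ) :=
  Group.fg_iff.2 ⟨{ModularGroup.S, ModularGroup.T}, SpecialLinearGroup.SL2Z_generators,
    by simp⟩

variable (N) in
theorem gh_fg_Gamma0 [NeZero N] : Group.FG (Gamma0 N) := by
  have := gh_fg_SL2Z
  exact Subgroup.fg_of_index_ne_zero (Gamma0 N)

variable (N) in
/-- `H` is finitely generated. -/
instance gh_fg [NeZero N] : AddGroup.FG (gh_H N) := by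
  have : AddGroup.FG (Additive (Gamma0 N)) := GroupFG.iff_add_fg.1 (gh_fg_Gamma0 N)
  exact AddGroup.fg_of_surjective (gh_mk_surjective N)

/-! ### `dim_ℂ Hom(H, ℂ) = rank_ℤ H` for a finitely generated abelian group -/

section Abstract

/-- a finite factor does not change the rank (copy of the `kds_` lemma, to stay Mathlib-only). -/
theorem gh_finrank_prod_finite (F Y : Type*) [AddCommGroup F] [AddCommGroup Y]
    [Module.Finite ℤ F] [Finite Y] : Module.finrank ℤ (F × Y) = Module.finrank ℤ F := by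
  have : Module.Finite ℤ Y := Module.Finite.of_finite
  let N : Submodule ℤ (F × Y) := LinearMap.ker (LinearMap.fst ℤ F Y)
  have h := Submodule.finrank_quotient_add_finrank N
  have h1 : Module.finrank ℤ ((F × Y) ⧸ N) = Module.finrank ℤ F :=
    LinearEquiv.finrank_eq ((LinearMap.fst ℤ F Y).quotKerEquivOfSurjective LinearMap.fst_surjective)
  have hNfin : Finite N := by
    refine Finite.of_injective (fun x : N => (x : F × Y).2) ?_
    intro a b hab
    apply Subtype.ext
    have ha : (a : F × Y).1 = 0 := a.2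
    have hb : (b : F × Y).1 = 0 := b.2
    exact Prod.ext (ha.trans hb.symm) hab
  have h2 : Module.finrank ℤ N = 0 := by
    rw [Module.finrank_eq_zero_iff_isTorsion]
    intro x
    refine ⟨⟨(Nat.card N : ℤ), ?_⟩, ?_⟩
    · rw [mem_nonZeroDivisors_iff_ne_zero]
      exact_mod_cast Nat.card_pos.ne'
    · show (Nat.card N : ℤ) • x = 0
      rw [natCast_zsmul]
      exact card_nsmul_eq_zero'
  omega

open DirectSum in
/-- **structure of a finitely generated abelian group**: `G ≃+ ℤ^r × Y` with `Y` finite and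
`r = rank_ℤ G`. -/
theorem gh_exists_equiv (G : Type*) [AddCommGroup G] [AddGroup.FG G] :
    ∃ (Y : Type) (_ : AddCommGroup Y) (_ : Finite Y),
      Nonempty (G ≃+ (Fin (Module.finrank ℤ G) → ℤ) × Y) := by
  classical
  obtain ⟨n, ι, _, q, hq, e, ⟨f⟩⟩ := AddCommGroup.equiv_free_prod_directSum_zmod G
  have : ∀ i, NeZero (q i ^ e i) := fun i => ⟨pow_ne_zero _ (hq i).ne_zero⟩
  have hY : Finite (⨁ i : ι, ZMod (q i ^ e i)) := by
    have : ∀ i, Fintype (ZMod (q i ^ e i)) := fun i => ZMod.fintype _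
    exact Finite.of_fintype (Π₀ i : ι, ZMod (q i ^ e i))
  let g : (Fin n →₀ ℤ) ≃+ (Fin n → ℤ) := (Finsupp.linearEquivFunOnFinite ℤ ℤ (Fin n)).toAddEquiv
  let f' : G ≃+ (Fin n → ℤ) × ⨁ i : ι, ZMod (q i ^ e i) := f.trans (g.prodCongr (AddEquiv.refl _))
  have hrank : Module.finrank ℤ G = n := by
    rw [LinearEquiv.finrank_eq f'.toIntLinearEquiv, gh_finrank_prod_finite, Module.finrank_fin_fun]
  rw [hrank]
  exact ⟨⨁ i : ι, ZMod (q i ^ e i), inferInstance, hY, ⟨f'⟩⟩

/-- homomorphisms from `ℤ^n × Y` (`Y` finite) to a group on which `|Y|` is injective are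
determined by the values on the standard basis. -/
theorem gh_hom_eq_zero_of_basis' {n : ℕ} {Y A : Type*} [AddCommGroup Y] [Finite Y] [AddCommGroup A]
    (hA : ∀ a : A, Nat.card Y • a = 0 → a = 0) (χ : (Fin n → ℤ) × Y →+ A)
    (h : ∀ i, χ (Pi.single i 1, 0) = 0) : χ = 0 := by
  classical
  have h1 : χ.comp (AddMonoidHom.inl (Fin n → ℤ) Y) = 0 := by
    apply AddMonoidHom.functions_ext
    intro i x
    have hx : (Pi.single i x : Fin n → ℤ) = x • Pi.single i 1 := by
      rw [← Pi.single_smul, smul_eq_mul, mul_one]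
    rw [hx, map_zsmul, AddMonoidHom.comp_apply, AddMonoidHom.inl_apply, h i, smul_zero]
    rfl
  have h2 : ∀ y : Y, χ (0, y) = 0 := by
    intro y
    have hy : Nat.card Y • y = 0 := card_nsmul_eq_zero'
    apply hA
    rw [← map_nsmul, Prod.smul_mk, smul_zero, hy]
    exact map_zero χ
  refine AddMonoidHom.ext fun z => ?_
  have hz : z = (z.1, 0) + (0, z.2) := by
    rw [Prod.mk_add_mk, add_zero, zero_add]
  rw [hz, map_add, h2, add_zero]
  exact DFunLike.congr_fun h1 z.1

theorem gh_card_smul_injective_of_torsionFree (Y A : Type*) [Finite Y] [Nonempty Y] [AddCommGroup A]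
    [NoZeroSMulDivisors ℕ A] (a : A) (h : Nat.card Y • a = 0) : a = 0 := by
  rcases smul_eq_zero.1 h with h4 | h4
  · exact absurd h4 Nat.card_pos.ne'
  · exact h4

/-- homomorphisms from `ℤ^n × Y` (`Y` finite) to a torsion-free group are determined by the
values on the standard basis. -/
theorem gh_hom_eq_zero_of_basis {n : ℕ} {Y A : Type*} [AddCommGroup Y] [Finite Y] [AddCommGroup A]
    [NoZeroSMulDivisors ℕ A] (χ : (Fin n → ℤ) × Y →+ A)
    (h : ∀ i, χ (Pi.single i 1, 0) = 0) : χ = 0 :=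
  gh_hom_eq_zero_of_basis' (gh_card_smul_injective_of_torsionFree Y A) χ h

/-- **`Hom(G, A) ≃+ A^n`** for `G ≃+ ℤ^n × Y` (`Y` finite), when `|Y|` is injective on `A`. -/
def gh_homEquivPi {G Y A : Type*} [AddCommGroup G] [AddCommGroup Y] [Finite Y] [AddCommGroup A]
    {n : ℕ} (f : G ≃+ (Fin n → ℤ) × Y) (hA : ∀ a : A, Nat.card Y • a = 0 → a = 0) :
    (G →+ A) ≃+ (Fin n → A) :=
  AddEquiv.ofBijective
    ({ toFun := fun ψ i => ψ (f.symm (Pi.single i 1, 0))
       map_zero' := rfl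
       map_add' := fun _ _ => rfl } : (G →+ A) →+ (Fin n → A))
    (by
      classical
      constructor
      · rw [injective_iff_map_eq_zero]
        intro ψ hψ
        have h1 : ψ.comp f.symm.toAddMonoidHom = 0 :=
          gh_hom_eq_zero_of_basis' hA _ (fun i => congrFun hψ i)
        refine AddMonoidHom.ext fun x => ?_
        have := DFunLike.congr_fun h1 (f x)
        simpa using this
      · intro c
        let ψ : G →+ A :=
          { toFun := fun x => ∑ i, ((f x).1 i : ℤ) • c i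
            map_zero' := by simp
            map_add' := fun x y => by
              simp only [map_add, Prod.fst_add, Pi.add_apply, add_smul]
              exact Finset.sum_add_distrib }
        refine ⟨ψ, ?_⟩
        funext i
        change ∑ j, ((f (f.symm (Pi.single i 1, 0))).1 j : ℤ) • c j = c i
        rw [f.apply_symm_apply]
        simp [Pi.single_apply, ite_smul])

theorem gh_homEquivPi_apply {G Y A : Type*} [AddCommGroup G] [AddCommGroup Y] [Finite Y]
    [AddCommGroup A] {n : ℕ} (f : G ≃+ (Fin n → ℤ) × Y) (hA : ∀ a : A, Nat.card Y • a = 0 → a = 0)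
    (ψ : G →+ A) (i : Fin n) :
    gh_homEquivPi f hA ψ i = ψ (f.symm (Pi.single i 1, 0)) := rfl

/-- the torsion subgroup of `G ≃+ ℤ^n × Y` has `|Y|` elements. -/
theorem gh_card_torsion {G Y : Type*} [AddCommGroup G] [AddCommGroup Y] [Finite Y] {n : ℕ}
    (f : G ≃+ (Fin n → ℤ) × Y) : Nat.card (AddCommGroup.torsion G) = Nat.card Y := by
  symm
  refine Nat.card_congr (Equiv.ofBijective
    (fun y : Y => (⟨f.symm (0, y), ?_⟩ : AddCommGroup.torsion G)) ⟨?_, ?_⟩)
  · rw [AddCommGroup.mem_torsion, isOfFinAddOrder_iff_nsmul_eq_zero]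
    refine ⟨Nat.card Y, Nat.card_pos, ?_⟩
    rw [← map_nsmul, Prod.smul_mk, smul_zero, card_nsmul_eq_zero']
    exact map_zero f.symm
  · intro y y' h
    have h1 := congrArg Subtype.val h
    have h2 := f.symm.injective h1
    exact (Prod.ext_iff.1 h2).2
  · rintro ⟨g, hg⟩
    rw [AddCommGroup.mem_torsion, isOfFinAddOrder_iff_nsmul_eq_zero] at hg
    obtain ⟨k, hk, hkg⟩ := hg
    have h1 : k • (f g) = 0 := by rw [← map_nsmul, hkg, map_zero]
    have h2 : (f g).1 = 0 := by
      have h3 : k • (f g).1 = 0 := congrArg Prod.fst h1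
      funext i
      have h4 : k • (f g).1 i = 0 := congrFun h3 i
      rcases smul_eq_zero.1 h4 with h5 | h5
      · exact absurd h5 hk.ne'
      · exact h5
    refine ⟨(f g).2, Subtype.ext ?_⟩
    change f.symm (0, (f g).2) = g
    rw [← h2, Prod.mk.eta, f.symm_apply_apply]

/-- `|Hom(G, ℤ/m)| = m^n` for `G ≃+ ℤ^n × Y` with `m` prime to `|Y|`. -/
theorem gh_card_hom_zmod_of_equiv {G Y : Type*} [AddCommGroup G] [AddCommGroup Y] [Finite Y]
    {n : ℕ} (f : G ≃+ (Fin n → ℤ) × Y) (m : ℕ) (hm : Nat.Coprime m (Nat.card Y)) :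
    Nat.card (G →+ ZMod m) = m ^ n := by
  have hA : ∀ a : ZMod m, Nat.card Y • a = 0 → a = 0 := by
    intro a ha
    rw [nsmul_eq_mul] at ha
    have hu : IsUnit ((Nat.card Y : ℕ) : ZMod m) := (ZMod.isUnit_iff_coprime _ _).2 hm.symm
    exact (hu.mul_right_eq_zero).1 ha
  rw [Nat.card_congr (gh_homEquivPi f hA).toEquiv, Nat.card_fun, Nat.card_zmod, Nat.card_eq_fintype_card,
    Fintype.card_fin]

/-- `dim_ℂ Hom(G, ℂ) = rank_ℤ G` for a finitely generated abelian group `G`. -/
theorem gh_finrank_hom_complex (G : Type*) [AddCommGroup G] [AddGroup.FG G] :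
    Module.finrank ℂ (G →+ ℂ) = Module.finrank ℤ G := by
  classical
  obtain ⟨Y, _, _, ⟨f⟩⟩ := gh_exists_equiv G
  set n := Module.finrank ℤ G
  let Φ : (G →+ ℂ) →ₗ[ℂ] (Fin n → ℂ) :=
    { toFun := fun ψ i => ψ (f.symm (Pi.single i 1, 0))
      map_add' := fun _ _ => rfl
      map_smul' := fun _ _ => rfl }
  have hinj : Function.Injective Φ := by
    rw [injective_iff_map_eq_zero]
    intro ψ hψ
    have h1 : ψ.comp f.symm.toAddMonoidHom = 0 :=
      gh_hom_eq_zero_of_basis _ (fun i => congrFun hψ i)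
    refine AddMonoidHom.ext fun x => ?_
    have := DFunLike.congr_fun h1 (f x)
    simpa using this
  have hsurj : Function.Surjective Φ := by
    intro c
    let ψ : G →+ ℂ :=
      { toFun := fun x => ∑ i, (((f x).1 i : ℤ) : ℂ) * c i
        map_zero' := by simp
        map_add' := fun x y => by
          simp only [map_add, Prod.fst_add, Pi.add_apply, Int.cast_add, add_mul]
          exact Finset.sum_add_distrib }
    refine ⟨ψ, ?_⟩
    funext i
    change ∑ j, ((((f (f.symm (Pi.single i 1, 0))).1 j : ℤ) : ℂ)) * c j = c i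
    rw [f.apply_symm_apply]
    simp [Pi.single_apply]
  rw [LinearEquiv.finrank_eq (LinearEquiv.ofBijective Φ ⟨hinj, hsurj⟩), Module.finrank_fin_fun]

end Abstract

/-! ### `Hom(H, ℂ)` = parabolic homomorphisms; the rank of `H` -/

theorem gh_trace_eq (γ : Gamma0 N) :
    ((γ : SL(2, ℤ)) : Matrix (Fin 2) (Fin 2) ℤ).trace = (γ : SL(2, ℤ)) 0 0 + (γ : SL(2, ℤ)) 1 1 :=
  Matrix.trace_fin_two _

/-- a homomorphism to a torsion-free group kills the elliptic elements. -/
theorem gh_elliptic_eq_zero {A : Type*} [AddCommGroup A] [NoZeroSMulDivisors ℕ A]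
    (φ : Additive (Gamma0 N) →+ A) (γ : Gamma0 N)
    (h : ((γ : SL(2, ℤ)) : Matrix (Fin 2) (Fin 2) ℤ).trace ^ 2 < 4) :
    φ (Additive.ofMul γ) = 0 := by
  rw [gh_trace_eq] at h
  have h1 : γ ^ 12 = 1 := by
    apply Subtype.ext
    rw [SubgroupClass.coe_pow, OneMemClass.coe_one]
    exact gh_pow_twelve _ h
  have h2 : (12 : ℕ) • φ (Additive.ofMul γ) = 0 := by
    rw [← map_nsmul, ← ofMul_pow, h1]
    exact map_zero φ
  rcases smul_eq_zero.1 h2 with h3 | h3
  · exact absurd h3 (by norm_num)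
  · exact h3

/-- for a torsion-free target, killing the parabolic elements suffices. -/
theorem gh_mem_parEllHoms_of_parabolic {A : Type*} [AddCommGroup A] [NoZeroSMulDivisors ℕ A]
    (φ : Additive (Gamma0 N) →+ A) (hφ : IsParabolicHom (Gamma0 N) φ) :
    φ ∈ gh_parEllHoms N A := by
  intro γ hγ
  rcases lt_or_eq_of_le hγ with h | h
  · exact gh_elliptic_eq_zero φ γ h
  · exact hφ γ h

theorem gh_parabolic_of_mem_parEllHoms {A : Type*} [AddCommGroup A]
    (φ : Additive (Gamma0 N) →+ A) (hφ : φ ∈ gh_parEllHoms N A) :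
    IsParabolicHom (Gamma0 N) φ :=
  fun γ hγ => hφ γ (le_of_eq hγ)

variable (N) in
/-- `ψ ↦ ψ ∘ (Γ₀(N) → H)`, as a `ℂ`-linear map. -/
def gh_pullC : (gh_H N →+ ℂ) →ₗ[ℂ] (Additive (Gamma0 N) →+ ℂ) where
  toFun ψ := ψ.comp (gh_mk N)
  map_add' _ _ := rfl
  map_smul' _ _ := rfl

theorem gh_pullC_injective : Function.Injective (gh_pullC N) := by
  intro ψ ψ' h
  exact gh_hom_ext fun x => DFunLike.congr_fun h x

theorem gh_range_pullC :
    LinearMap.range (gh_pullC N) = parabolicHoms ℂ (Gamma0 N) ℂ := by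
  ext φ
  rw [mem_parabolicHoms_iff]
  constructor
  · rintro ⟨ψ, rfl⟩
    exact gh_parabolic_of_mem_parEllHoms _ (gh_comp_mk_parEll ψ)
  · intro hφ
    have hφ' := gh_mem_parEllHoms_of_parabolic φ hφ
    refine ⟨gh_lift φ hφ', ?_⟩
    refine AddMonoidHom.ext fun x => ?_
    exact gh_lift_mk φ hφ' x

variable (N) in
/-- **`rank_ℤ H = 2 · dim S₂(Γ₀(N))`** (from the Eichler–Shimura statement S21). -/
theorem gh_finrank [NeZero N] :
    Module.finrank ℤ (gh_H N) = 2 * Module.finrank ℂ (CuspForm (Gamma0 N) 2) := by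
  have h21 := Fermat.Agent.S20.gl_s21 N
  have := Fermat.Agent.S20.gl_finiteDimensional_cuspForm N
  rw [← gh_finrank_hom_complex, ← LinearMap.finrank_range_of_inj (gh_pullC_injective (N := N)),
    gh_range_pullC, ← h21.2, LinearMap.finrank_range_of_inj h21.1, Module.finrank_prod]
  ring

variable (N) in
/-- **`rank_ℤ H = 2 g`**, `g` the genus of `X₀(N)` (S20). -/
theorem gh_finrank_genus [NeZero N] :
    (Module.finrank ℤ (gh_H N) : ℚ) = 2 * ModularCurve.genusFormula N := by
  rw [gh_finrank, ← Fermat.Agent.S20.gl_s20 N]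
  push_cast
  ring

/-! ### Structure of `H` and the counts used by the Tate module -/

section Structure

variable (N) [NeZero N]

/-- **`H ≃+ ℤ^(2g) × (finite)`**, `g = dim S₂(Γ₀(N))`. -/
theorem gh_exists_equiv_H :
    ∃ (Y : Type) (_ : AddCommGroup Y) (_ : Finite Y),
      Nonempty (gh_H N ≃+ (Fin (2 * Module.finrank ℂ (CuspForm (Gamma0 N) 2)) → ℤ) × Y) := by
  have h := gh_exists_equiv (gh_H N)
  rw [gh_finrank N] at h
  exact h

/-- the order of the torsion subgroup of `H` (it is `1`, but this is not needed). -/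
def gh_torsCard : ℕ := Nat.card (AddCommGroup.torsion (gh_H N))

/-- **`Hom(H, A) ≃+ A^(2g)`** for a torsion-free group `A` (e.g. `ℤ_p`, `ℤ_p(1)`, `ℂ`). -/
theorem gh_hom_torsionFree (A : Type*) [AddCommGroup A] [NoZeroSMulDivisors ℕ A] :
    Nonempty ((gh_H N →+ A) ≃+ (Fin (2 * Module.finrank ℂ (CuspForm (Gamma0 N) 2)) → A)) := by
  obtain ⟨Y, _, _, ⟨f⟩⟩ := gh_exists_equiv_H N
  exact ⟨gh_homEquivPi f (gh_card_smul_injective_of_torsionFree Y A)⟩

/-- **`|Hom(H, ℤ/m)| = m^(2g)`** for `m` prime to the order of the torsion of `H`. -/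
theorem gh_card_hom_zmod (m : ℕ) (hm : Nat.Coprime m (gh_torsCard N)) :
    Nat.card (gh_H N →+ ZMod m) = m ^ (2 * Module.finrank ℂ (CuspForm (Gamma0 N) 2)) := by
  obtain ⟨Y, _, _, ⟨f⟩⟩ := gh_exists_equiv_H N
  refine gh_card_hom_zmod_of_equiv f m ?_
  rw [← gh_card_torsion f]
  exact hm

end Structure

/-! ### Characters (multiplicative form) -/

section Characters

variable (N)

/-- a character `Γ₀(N) →* M` trivial on the parabolic and the elliptic elements, as a
homomorphism `H →+ Additive M`. -/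
def gh_charToHom (M : Type*) [CommGroup M]
    (χ : {χ : Gamma0 N →* M // ∀ γ : Gamma0 N, gh_IsParEll N γ → χ γ = 1}) :
    gh_H N →+ Additive M :=
  gh_lift (MonoidHom.toAdditive χ.1) (fun γ h => congrArg Additive.ofMul (χ.2 γ h))

theorem gh_charToHom_mk (M : Type*) [CommGroup M]
    (χ : {χ : Gamma0 N →* M // ∀ γ : Gamma0 N, gh_IsParEll N γ → χ γ = 1}) (γ : Gamma0 N) :
    gh_charToHom N M χ (gh_mk N (Additive.ofMul γ)) = Additive.ofMul (χ.1 γ) :=
  gh_lift_mk _ _ _

/-- characters `Γ₀(N) →* M` trivial on the parabolic and the elliptic elements are the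
homomorphisms `H →+ Additive M`. -/
def gh_charEquiv (M : Type*) [CommGroup M] :
    {χ : Gamma0 N →* M // ∀ γ : Gamma0 N, gh_IsParEll N γ → χ γ = 1} ≃ (gh_H N →+ Additive M) where
  toFun χ := gh_charToHom N M χ
  invFun ψ := ⟨MonoidHom.toAdditive.symm (ψ.comp (gh_mk N)), fun γ h => by
    change Additive.toMul (ψ (gh_mk N (Additive.ofMul γ))) = 1
    rw [gh_mk_parEll N γ h, map_zero]
    rfl⟩
  left_inv χ := by
    apply Subtype.ext
    refine MonoidHom.ext fun γ => ?_
    exact congrArg Additive.toMul (gh_charToHom_mk N M χ γ)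
  right_inv ψ := gh_hom_ext fun x => by
    change gh_charToHom N M _ (gh_mk N (Additive.ofMul (Additive.toMul x))) = _
    rw [gh_charToHom_mk]
    rfl

theorem gh_charEquiv_apply_mk (M : Type*) [CommGroup M]
    (χ : {χ : Gamma0 N →* M // ∀ γ : Gamma0 N, gh_IsParEll N γ → χ γ = 1}) (γ : Gamma0 N) :
    gh_charEquiv N M χ (gh_mk N (Additive.ofMul γ)) = Additive.ofMul (χ.1 γ) :=
  gh_charToHom_mk N M χ γ

/-- post-composition with an isomorphism. -/
def gh_postcompEquiv {G A B : Type*} [AddCommGroup G] [AddCommGroup A] [AddCommGroup B]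
    (e : A ≃+ B) : (G →+ A) ≃ (G →+ B) where
  toFun ψ := e.toAddMonoidHom.comp ψ
  invFun ψ := e.symm.toAddMonoidHom.comp ψ
  left_inv ψ := AddMonoidHom.ext fun x => by simp
  right_inv ψ := AddMonoidHom.ext fun x => by simp

variable [NeZero N]

/-- **the number of characters of `Γ₀(N)` with values in a finite cyclic group `M` of order prime
to the torsion of `H`, trivial on parabolic and elliptic elements, is `|M|^(2g)`**. -/
theorem gh_card_char (M : Type*) [CommGroup M] [IsCyclic M] [Finite M]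
    (hM : Nat.Coprime (Nat.card M) (gh_torsCard N)) :
    Nat.card {χ : Gamma0 N →* M // ∀ γ : Gamma0 N, gh_IsParEll N γ → χ γ = 1} =
      Nat.card M ^ (2 * Module.finrank ℂ (CuspForm (Gamma0 N) 2)) := by
  have hcyc : IsAddCyclic (Additive M) := isAddCyclic_additive_iff.2 inferInstance
  have hcard : Nat.card (Additive M) = Nat.card M := rfl
  have e : ZMod (Nat.card M) ≃+ Additive M := hcard ▸ zmodAddCyclicAddEquiv hcyc
  rw [Nat.card_congr (gh_charEquiv N M), Nat.card_congr (gh_postcompEquiv e.symm)]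
  exact gh_card_hom_zmod N _ hM

/-- the case `M = μ_n(ℂ)`. -/
theorem gh_card_char_rootsOfUnity (n : ℕ) [NeZero n] (hn : Nat.Coprime n (gh_torsCard N)) :
    Nat.card {χ : Gamma0 N →* rootsOfUnity n ℂ // ∀ γ : Gamma0 N, gh_IsParEll N γ → χ γ = 1} =
      n ^ (2 * Module.finrank ℂ (CuspForm (Gamma0 N) 2)) := by
  have h := gh_card_char N (rootsOfUnity n ℂ) (by rw [Complex.card_rootsOfUnity]; exact hn)
  rw [Complex.card_rootsOfUnity] at h
  exact h

end Characters

end Fermat.Agent.JT3
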