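/-
JT3 / T1 gateway, node G1d (helper9): completeness over `Q̄`.

`gb_complete`: a holomorphic `Γ₀(N)`-invariant `n`-th root `h` of the analytic realisation of a
nonzero `a ∈ A0 N` is, up to a constant `c`, a quotient `u / v` of elements of `A0 N`.
-/
import Mathlib
import Fermat.Agent.S24.Bridge.Degree

set_option autoImplicit false

open UpperHalfPlane ModularForm Filter Topology Function Complex
open scoped MatrixGroups IntermediateField Manifold
open Fermat.Agent.S23.QF (IsQFun)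
open Fermat.Agent.S24

namespace Fermat.Agent.JT3

attribute [local instance] br_algebra

/-! ### Part A: the root is a weakly holomorphic modular function -/

/-- a function whose `n`-th power is bounded at `i∞` is bounded at `i∞` -/
theorem gb_bdd_of_pow {F : ℍ → ℂ} {n : ℕ} (hn : 0 < n) (h : IsBoundedAtImInfty (F ^ n)) :
    IsBoundedAtImInfty F := by
  rw [isBoundedAtImInfty_iff] at h ⊢
  obtain ⟨M, A, hMA⟩ := h
  refine ⟨max M 1, A, fun z hz => ?_⟩
  have h1 := hMA z hz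
  rw [Pi.pow_apply, norm_pow] at h1
  by_cases h2 : ‖F z‖ ≤ 1
  · exact h2.trans (le_max_right _ _)
  · rw [not_le] at h2
    have h3 : ‖F z‖ ≤ ‖F z‖ ^ n := le_self_pow₀ h2.le hn.ne'
    exact (h3.trans h1).trans (le_max_left _ _)

/-- an invariant holomorphic `n`-th root of a weakly holomorphic modular function is weakly
holomorphic -/
theorem gb_isWeakModFun {N n : ℕ} (hn : 0 < n) {g h : ℍ → ℂ} (hg : IsWeakModFun N g)
    (hh : MDiff h) (hinv : ∀ γ ∈ CongruenceSubgroup.Gamma0 N, ∀ z : ℍ, h (γ • z) = h z)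
    (hpow : ∀ z, h z ^ n = g z) : IsWeakModFun N h := by
  refine ⟨hh, hinv, fun γ => ?_⟩
  obtain ⟨m, hm⟩ := hg.growth γ
  refine ⟨m, gb_bdd_of_pow hn ?_⟩
  have e : (qH ^ m * fun z => h (γ • z)) ^ n =
      qH ^ (m * (n - 1)) * (qH ^ m * fun z => g (γ • z)) := by
    ext z
    simp only [Pi.pow_apply, Pi.mul_apply, mul_pow, hpow]
    rw [← mul_assoc, ← pow_mul, ← pow_add]
    congr 2
    obtain ⟨k, rfl⟩ : ∃ k, n = k + 1 := ⟨n - 1, by omega⟩
    simp only [Nat.add_sub_cancel]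
    ring
  rw [e]
  exact (isBoundedAtImInfty_qH_pow _).mul hm

/-- a weakly holomorphic modular function has a Laurent `q`-expansion -/
theorem gb_exists_laurentQ {N : ℕ} {h : ℍ → ℂ} (hh : IsWeakModFun N h) :
    ∃ H : LaurentSeries ℂ, br_HasLaurentQ h H := by
  obtain ⟨m, hm⟩ := hh.growth 1
  have hm' : IsBoundedAtImInfty (qH ^ m * h) := by
    have e : (fun z => h ((1 : SL(2, ℤ)) • z)) = h := by ext z; rw [one_smul]
    rwa [e] at hm
  have hper : Periodic (h ∘ ofComplex) (1 : ℂ) := by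
    have := SlashInvariantFormClass.periodic_comp_ofComplex hh.toSIF
      (CongruenceSubgroup.one_mem_strictPeriods_Gamma0 N)
    rw [IsWeakModFun.coe_toSIF] at this
    simpa using this
  have hQ : IsQFun (qH ^ m * h) :=
    ⟨(qH_mdiff.pow m).mul hh.mdiff, (isQFun_qH.pow m).periodic.mul hper, hm'⟩
  refine ⟨HahnSeries.single (-(m : ℤ)) (1 : ℂ) *
    HahnSeries.ofPowerSeries ℤ ℂ (qExpansion 1 (qH ^ m * h)), m, hQ, ?_⟩
  rw [← mul_assoc, br_single_mul_single, add_neg_cancel]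
  exact (one_mul _).symm

/-! ### Part B: descent of the coefficients of an `n`-th root -/

open PowerSeries in
/-- if `g(0) = 1` and `g ^ n` has coefficients in a subfield `S` of `ℂ`, so has `g` -/
theorem gb_coeff_mem (S : Subfield ℂ) {n : ℕ} (hn : n ≠ 0) (g : PowerSeries ℂ)
    (hg0 : PowerSeries.coeff 0 g = 1) (hB : ∀ j, PowerSeries.coeff j (g ^ n) ∈ S) :
    ∀ j, PowerSeries.coeff j g ∈ S := by
  intro j
  induction j using Nat.strong_induction_on with
  | _ j ih =>
    cases j with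
    | zero => rw [hg0]; exact one_mem S
    | succ k =>
      have key : PowerSeries.C (n : ℂ) * (g ^ n * d⁄dX ℂ g) = g * d⁄dX ℂ (g ^ n) := by
        rw [PowerSeries.derivative_pow, map_natCast]
        have e : g * g ^ (n - 1) = g ^ n := mul_pow_sub_one hn g
        calc (n : PowerSeries ℂ) * (g ^ n * d⁄dX ℂ g)
            = (n : PowerSeries ℂ) * ((g * g ^ (n - 1)) * d⁄dX ℂ g) := by rw [e]
          _ = g * ((n : PowerSeries ℂ) * g ^ (n - 1) * d⁄dX ℂ g) := by ring
      have hk := congrArg (PowerSeries.coeff k) key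
      rw [PowerSeries.coeff_C_mul, PowerSeries.coeff_mul, PowerSeries.coeff_mul,
        Finset.Nat.sum_antidiagonal_eq_sum_range_succ_mk, Finset.sum_range_succ'] at hk
      simp only [Nat.sub_zero, PowerSeries.coeff_derivative] at hk
      have hB0 : PowerSeries.coeff 0 (g ^ n) = 1 := by
        rw [PowerSeries.coeff_zero_eq_constantCoeff_apply, map_pow,
          ← PowerSeries.coeff_zero_eq_constantCoeff_apply, hg0, one_pow]
      rw [hB0, one_mul] at hk
      -- the two sums lie in `S`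
      have hT : ∑ i ∈ Finset.range k, PowerSeries.coeff (i + 1) (g ^ n) *
          (PowerSeries.coeff (k - (i + 1) + 1) g * ((k - (i + 1) : ℕ) + 1 : ℂ)) ∈ S := by
        refine sum_mem fun i hi => ?_
        have hi' := Finset.mem_range.mp hi
        refine mul_mem (hB _) (mul_mem (ih _ (by omega)) ?_)
        exact add_mem (natCast_mem S _) (one_mem S)
      have hR : ∑ p ∈ Finset.HasAntidiagonal.antidiagonal k, PowerSeries.coeff p.1 g *
          (PowerSeries.coeff (p.2 + 1) (g ^ n) * ((p.2 : ℂ) + 1)) ∈ S := by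
        refine sum_mem fun p hp => ?_
        have hp' := Finset.HasAntidiagonal.mem_antidiagonal.mp hp
        refine mul_mem (ih _ (by omega)) (mul_mem (hB _) ?_)
        exact add_mem (natCast_mem S _) (one_mem S)
      have hn' : (n : ℂ) ≠ 0 := Nat.cast_ne_zero.mpr hn
      have hk1 : ((k : ℂ) + 1) ≠ 0 := Nat.cast_add_one_ne_zero k
      set T := ∑ i ∈ Finset.range k, PowerSeries.coeff (i + 1) (g ^ n) *
          (PowerSeries.coeff (k - (i + 1) + 1) g * ((k - (i + 1) : ℕ) + 1 : ℂ)) with hTdef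
      set R := ∑ p ∈ Finset.HasAntidiagonal.antidiagonal k, PowerSeries.coeff p.1 g *
          (PowerSeries.coeff (p.2 + 1) (g ^ n) * ((p.2 : ℂ) + 1)) with hRdef
      have hx : PowerSeries.coeff (k + 1) g = (R / n - T) / ((k : ℂ) + 1) := by
        field_simp
        linear_combination hk
      rw [hx]
      exact div_mem (sub_mem (div_mem hR (natCast_mem S n)) hT)
        (add_mem (natCast_mem S k) (one_mem S))

/-- **descent of an `n`-th root**: a Laurent series over `ℂ` whose `n`-th power has coefficients in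
`Q̄` is a constant times a Laurent series with coefficients in `Q̄`. -/
theorem gb_descend {n : ℕ} (hn : 0 < n) (H : LaurentSeries ℂ) (a' : LaurentSeries Kbar)
    (ha' : a' ≠ 0) (hpow : H ^ n = ModularCurve.coeffMap (br_iota : Kbar →+* ℂ) a') :
    ∃ (c : ℂ) (H₀ : LaurentSeries Kbar), c ≠ 0 ∧
      H = HahnSeries.C c * ModularCurve.coeffMap (br_iota : Kbar →+* ℂ) H₀ := by
  have hH0 : H ≠ 0 := by
    rintro rfl
    rw [zero_pow hn.ne'] at hpow
    apply ha'
    refine br_coeffMap_injective (br_iota : Kbar →+* ℂ) br_iota_injective ?_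
    rw [← hpow, map_zero]
  obtain ⟨k, hk⟩ : ∃ k : ℤ, k = H.order := ⟨_, rfl⟩
  obtain ⟨g', hg'⟩ : ∃ g' : PowerSeries ℂ, g' = LaurentSeries.powerSeriesPart H := ⟨_, rfl⟩
  have hsplit : HahnSeries.single k (1 : ℂ) * HahnSeries.ofPowerSeries ℤ ℂ g' = H := by
    rw [hk, hg']
    exact LaurentSeries.single_order_mul_powerSeriesPart H
  obtain ⟨c, hc⟩ : ∃ c : ℂ, c = PowerSeries.coeff 0 g' := ⟨_, rfl⟩
  have hc0 : c ≠ 0 := by
    rw [hc, hg', LaurentSeries.powerSeriesPart_coeff, Nat.cast_zero, add_zero]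
    exact fun h => hH0 (HahnSeries.coeff_order_eq_zero.mp h)
  obtain ⟨g, hg⟩ : ∃ g : PowerSeries ℂ, g = PowerSeries.C c⁻¹ * g' := ⟨_, rfl⟩
  have hg0 : PowerSeries.coeff 0 g = 1 := by
    rw [hg, PowerSeries.coeff_C_mul, ← hc, inv_mul_cancel₀ hc0]
  have hgg' : g' = PowerSeries.C c * g := by
    rw [hg, ← mul_assoc, ← map_mul, mul_inv_cancel₀ hc0, map_one, one_mul]
  obtain ⟨S, hS⟩ : ∃ S : Subfield ℂ, S = (br_iota : Kbar →+* ℂ).fieldRange := ⟨_, rfl⟩
  -- the key identity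
  have hid : HahnSeries.ofPowerSeries ℤ ℂ (PowerSeries.C (c ^ n) * g ^ n) =
      HahnSeries.single (-(n • k)) (1 : ℂ) * ModularCurve.coeffMap (br_iota : Kbar →+* ℂ) a' := by
    have e1 : H ^ n = HahnSeries.single (n • k) (1 : ℂ) *
        HahnSeries.ofPowerSeries ℤ ℂ (PowerSeries.C (c ^ n) * g ^ n) := by
      rw [← hsplit, mul_pow, HahnSeries.single_pow, one_pow, ← map_pow, hgg', mul_pow, ← map_pow]
    rw [← hpow, e1, ← mul_assoc, br_single_mul_single, neg_add_cancel]
    exact (one_mul _).symm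
  have hcoef : ∀ j : ℕ, c ^ n * PowerSeries.coeff j (g ^ n) ∈ S := by
    intro j
    have h1 := congrArg (fun x : LaurentSeries ℂ => x.coeff (j : ℤ)) hid
    simp only [HahnSeries.ofPowerSeries_apply_coeff, PowerSeries.coeff_C_mul,
      HahnSeries.coeff_single_mul, one_mul, ModularCurve.coeffMap_coeff] at h1
    rw [h1, hS]
    exact ⟨_, rfl⟩
  have hB0 : PowerSeries.coeff 0 (g ^ n) = 1 := by
    rw [PowerSeries.coeff_zero_eq_constantCoeff_apply, map_pow,
      ← PowerSeries.coeff_zero_eq_constantCoeff_apply, hg0, one_pow]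
  have hcn : c ^ n ∈ S := by
    have h1 := hcoef 0
    rwa [hB0, mul_one] at h1
  have hcn0 : c ^ n ≠ 0 := pow_ne_zero _ hc0
  have hB : ∀ j, PowerSeries.coeff j (g ^ n) ∈ S := by
    intro j
    have h1 : PowerSeries.coeff j (g ^ n) = (c ^ n)⁻¹ * (c ^ n * PowerSeries.coeff j (g ^ n)) := by
      rw [← mul_assoc, inv_mul_cancel₀ hcn0, one_mul]
    rw [h1]
    exact mul_mem (inv_mem hcn) (hcoef j)
  have hgS := gb_coeff_mem S hn.ne' g hg0 hB
  have hex : ∀ j, ∃ x : Kbar, (br_iota : Kbar →+* ℂ) x = PowerSeries.coeff j g := by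
    intro j
    have := hgS j
    rw [hS] at this
    exact RingHom.mem_fieldRange.mp this
  choose x hx using hex
  refine ⟨c, HahnSeries.single k (1 : Kbar) * HahnSeries.ofPowerSeries ℤ Kbar (PowerSeries.mk x),
    hc0, ?_⟩
  have hmap : (PowerSeries.mk x).map (br_iota : Kbar →+* ℂ) = g := by
    ext j
    rw [PowerSeries.coeff_map, PowerSeries.coeff_mk, hx]
  rw [map_mul, ModularCurve.coeffMap_single, map_one, br_coeffMap_ofPowerSeries, hmap, ← hsplit,
    hgg', map_mul, HahnSeries.ofPowerSeries_C]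
  ring

/-! ### Part C: expansions of weakly holomorphic modular functions with `Q̄`-coefficients -/

local notation "ι" => (br_iota : Kbar →+* ℂ)

/-- the Laurent series over `Q̄` whose complexification is the `q`-expansion of a weakly holomorphic
modular function of level `Γ₀(N)` -/
def gb_W (N : ℕ) : Subalgebra Kbar (LaurentSeries Kbar) where
  carrier := {x | ∃ g : ℍ → ℂ, IsWeakModFun N g ∧ br_HasLaurentQ g (ModularCurve.coeffMap ι x)}
  mul_mem' := by
    rintro x y ⟨g₁, w₁, h₁⟩ ⟨g₂, w₂, h₂⟩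
    exact ⟨g₁ * g₂, w₁.mul w₂, by rw [map_mul]; exact h₁.mul h₂⟩
  add_mem' := by
    rintro x y ⟨g₁, w₁, h₁⟩ ⟨g₂, w₂, h₂⟩
    exact ⟨g₁ + g₂, w₁.add w₂, by rw [map_add]; exact h₁.add h₂⟩
  algebraMap_mem' c :=
    ⟨fun _ => br_iota c, IsWeakModFun.const N _, by
      rw [br_coeffMap_algebraMap]; exact br_HasLaurentQ.const _⟩

theorem gb_mem_W {N : ℕ} {x : LaurentSeries Kbar} :
    x ∈ gb_W N ↔ ∃ g : ℍ → ℂ, IsWeakModFun N g ∧
      br_HasLaurentQ g (ModularCurve.coeffMap ι x) := Iff.rfl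

theorem gb_A0_le_W (N : ℕ) [NeZero N] : A0 N ≤ gb_W N := fun x hx =>
  ⟨_, br_an_isWeakModFun N ⟨x, hx⟩, br_an_spec N ⟨x, hx⟩⟩

theorem gb_aeval_mem_W (N : ℕ) [NeZero N] (p : Polynomial Kbar) :
    Polynomial.aeval br_jqK p ∈ gb_W N := gb_A0_le_W N (br_aeval_jqK_mem_A0 N p)

/-- the algebraic relation of degree `ψ(N)` over `Q̄[j]` for the elements of `gb_W N` -/
theorem gb_relation (N : ℕ) [NeZero N] {x : LaurentSeries Kbar} (hx : x ∈ gb_W N) :
    ∃ c : ℕ → Polynomial Kbar, c 0 ≠ 0 ∧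
      ∑ r ∈ Finset.range (br_psi N + 1),
        Polynomial.aeval br_jqK (c r) * x ^ (br_psi N - r) = 0 := by
  obtain ⟨h, hw, hL⟩ := hx
  obtain ⟨P, hP0, hP⟩ := exists_monic_relation hw
  change ∀ z : ℍ, ∑ r ∈ Finset.range (br_psi N + 1), (-1) ^ r * Polynomial.eval (kleinJ z) (P r) *
    h z ^ (br_psi N - r) = 0 at hP
  set n := br_psi N with hn
  -- bound on the degrees
  set D := (Finset.range (n + 1)).sup (fun r => (P r).natDegree) + 1 with hD
  have hdeg : ∀ r ∈ Finset.range (n + 1), (P r).natDegree < D := fun r hr =>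
    Nat.lt_succ_of_le (Finset.le_sup (f := fun r => (P r).natDegree) hr)
  -- index set
  let s : Finset (ℕ × ℕ) := Finset.range D ×ˢ Finset.range (n + 1)
  let lam : ℕ × ℕ → ℂ := fun i => (-1) ^ i.2 * (P i.2).coeff i.1
  let v : ℕ × ℕ → LaurentSeries Kbar := fun i => br_jqK ^ i.1 * x ^ (n - i.2)
  have hlam0 : lam (0, 0) ≠ 0 := by simp [lam, hP0]
  have hrel : ∑ i ∈ s, HahnSeries.C (lam i) * ModularCurve.coeffMap ι (v i) = 0 := by
    have hLs : br_HasLaurentQ (∑ i ∈ s, (fun _ => lam i) * (kleinJ ^ i.1 * h ^ (n - i.2)))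
        (∑ i ∈ s, HahnSeries.C (lam i) * ModularCurve.coeffMap ι (v i)) := by
      refine br_HasLaurentQ.sum s fun i _ => (br_HasLaurentQ.const _).mul ?_
      simp only [v, map_mul, map_pow, br_coeffMap_jqK]
      exact (br_HasLaurentQ_kleinJ.pow _).mul (hL.pow _)
    refine hLs.eq_zero_iff.mp ?_
    ext z
    rw [Finset.sum_apply, Pi.zero_apply, Finset.sum_product_right]
    rw [← hP z]
    refine Finset.sum_congr rfl fun r hr => ?_
    rw [Polynomial.eval_eq_sum_range' (hdeg r hr), Finset.mul_sum, Finset.sum_mul]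
    refine Finset.sum_congr rfl fun k _ => ?_
    simp only [Pi.mul_apply, Pi.pow_apply, lam]
    ring
  obtain ⟨μ, hμ0, hμ⟩ := br_exists_rel_of_complex_rel s v lam (0, 0) hlam0 hrel
  refine ⟨fun r => ∑ k ∈ Finset.range D, Polynomial.monomial k (μ (k, r)), ?_, ?_⟩
  · intro h0
    have h1 := congrArg (fun p => Polynomial.coeff p 0) h0
    simp only [Polynomial.finsetSum_coeff, Polynomial.coeff_monomial, Polynomial.coeff_zero,
      Finset.sum_ite_eq', Finset.mem_range] at h1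
    rw [if_pos (by rw [hD]; exact Nat.succ_pos _)] at h1
    exact hμ0 h1
  · rw [← hμ, Finset.sum_product_right]
    refine Finset.sum_congr rfl fun r _ => ?_
    rw [map_sum, Finset.sum_mul]
    refine Finset.sum_congr rfl fun k _ => ?_
    rw [Polynomial.aeval_monomial]
    simp only [v]
    ring

/-- a nonzero element of `gb_W N` has an inverse in `gb_W N` up to a nonzero polynomial in `j` -/
theorem gb_exists_inv (N : ℕ) [NeZero N] {w : LaurentSeries Kbar} (hw : w ∈ gb_W N)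
    (hw0 : w ≠ 0) :
    ∃ b ∈ gb_W N, ∃ d : Polynomial Kbar, d ≠ 0 ∧ w * b = Polynomial.aeval br_jqK d := by
  obtain ⟨c, hc0, hc⟩ := gb_relation N hw
  obtain ⟨b, hb, r₀, hr₀, hsb⟩ := br_exists_mul_eq_coeff (gb_W N) hw hw0 (br_psi N)
    (fun r => Polynomial.aeval br_jqK (c r)) (fun r => gb_aeval_mem_W N (c r))
    ⟨0, Nat.zero_le _, br_aeval_jqK_ne_zero hc0⟩ hc
  refine ⟨b, hb, c r₀, ?_, hsb⟩
  rintro h0
  rw [h0, map_zero] at hr₀
  exact hr₀ rfl

/-! ### Part D: the field of quotients `w / d(j)` and the degree count -/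

section Field

variable (N : ℕ) [NeZero N]

/-- the quotients `w / d(j)`, `w ∈ gb_W N`, `0 ≠ d ∈ Q̄[j]`, as a field over `Q̄(j) ⊆ Fbar N` -/
def gb_D : IntermediateField ↥(Kbar⟮br_jBar N⟯) (LaurentSeries Kbar) where
  carrier := {x | ∃ w ∈ gb_W N, ∃ d : Polynomial Kbar, d ≠ 0 ∧
    x * Polynomial.aeval br_jqK d = w}
  mul_mem' := by
    rintro x y ⟨w₁, hw₁, d₁, hd₁, h₁⟩ ⟨w₂, hw₂, d₂, hd₂, h₂⟩
    refine ⟨w₁ * w₂, mul_mem hw₁ hw₂, d₁ * d₂, mul_ne_zero hd₁ hd₂, ?_⟩
    rw [map_mul, ← h₁, ← h₂]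
    ring
  one_mem' := ⟨1, one_mem _, 1, one_ne_zero, by rw [map_one, mul_one]⟩
  add_mem' := by
    rintro x y ⟨w₁, hw₁, d₁, hd₁, h₁⟩ ⟨w₂, hw₂, d₂, hd₂, h₂⟩
    refine ⟨w₁ * Polynomial.aeval br_jqK d₂ + w₂ * Polynomial.aeval br_jqK d₁,
      add_mem (mul_mem hw₁ (gb_aeval_mem_W N d₂)) (mul_mem hw₂ (gb_aeval_mem_W N d₁)),
      d₁ * d₂, mul_ne_zero hd₁ hd₂, ?_⟩
    rw [map_mul, ← h₁, ← h₂]
    ring
  zero_mem' := ⟨0, zero_mem _, 1, one_ne_zero, by rw [zero_mul]⟩
  algebraMap_mem' e := by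
    show ∃ w ∈ gb_W N, ∃ d : Polynomial Kbar, d ≠ 0 ∧
      br_EtoL N e * Polynomial.aeval br_jqK d = w
    obtain ⟨r, s, hrs⟩ := (IntermediateField.mem_adjoin_simple_iff Kbar (e : Fbar N)).mp e.2
    have h1 : br_EtoL N e = Polynomial.aeval br_jqK r / Polynomial.aeval br_jqK s := by
      show (ModularCurve.modularFunctionFieldBar N).val (e : Fbar N) = _
      rw [hrs, map_div₀, ← Polynomial.aeval_algHom_apply, ← Polynomial.aeval_algHom_apply]
      rfl
    by_cases hs : s = 0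
    · refine ⟨0, zero_mem _, 1, one_ne_zero, ?_⟩
      rw [h1, hs, map_zero, div_zero, zero_mul]
    · refine ⟨Polynomial.aeval br_jqK r, gb_aeval_mem_W N r, s, hs, ?_⟩
      rw [h1, div_mul_cancel₀ _ (br_aeval_jqK_ne_zero hs)]
  inv_mem' := by
    rintro x ⟨w, hw, d, hd, h⟩
    by_cases hx : x = 0
    · subst hx
      exact ⟨0, zero_mem _, 1, one_ne_zero, by rw [inv_zero, zero_mul]⟩
    · have hd0 : Polynomial.aeval br_jqK d ≠ 0 := br_aeval_jqK_ne_zero hd
      have hw0 : w ≠ 0 := by rw [← h]; exact mul_ne_zero hx hd0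
      obtain ⟨b, hb, d', hd', hwb⟩ := gb_exists_inv N hw hw0
      refine ⟨Polynomial.aeval br_jqK d * b, mul_mem (gb_aeval_mem_W N d) hb, d', hd', ?_⟩
      rw [← hwb, ← h]
      field_simp

theorem gb_mem_D {x : LaurentSeries Kbar} :
    x ∈ gb_D N ↔ ∃ w ∈ gb_W N, ∃ d : Polynomial Kbar, d ≠ 0 ∧
      x * Polynomial.aeval br_jqK d = w := Iff.rfl

theorem gb_W_le_D {x : LaurentSeries Kbar} (hx : x ∈ gb_W N) : x ∈ gb_D N :=
  ⟨x, hx, 1, one_ne_zero, by rw [map_one, mul_one]⟩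

/-- every element of `gb_D N` is a root of a nonzero polynomial of degree `≤ ψ(N)` over `Q̄(j)` -/
theorem gb_exists_poly {x : LaurentSeries Kbar} (hx : x ∈ gb_D N) :
    ∃ p : Polynomial ↥(Kbar⟮br_jBar N⟯), p ≠ 0 ∧ p.natDegree ≤ br_psi N ∧
      Polynomial.aeval x p = 0 := by
  obtain ⟨w, hw, d, hd0, hxd⟩ := hx
  obtain ⟨c, hc0, hc⟩ := gb_relation N hw
  set n := br_psi N with hn
  let e : ℕ → Kbar⟮br_jBar N⟯ := fun r =>
    Polynomial.aeval (IntermediateField.AdjoinSimple.gen Kbar (br_jBar N)) (c r * d ^ (n - r))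
  have he : ∀ r, br_EtoL N (e r) = Polynomial.aeval br_jqK (c r * d ^ (n - r)) :=
    fun r => br_EtoL_aeval N _
  refine ⟨∑ r ∈ Finset.range (n + 1), Polynomial.C (e r) * Polynomial.X ^ (n - r), ?_, ?_, ?_⟩
  · intro h0
    have h1 := congrArg (fun p => Polynomial.coeff p n) h0
    simp only [Polynomial.finsetSum_coeff, Polynomial.coeff_C_mul_X_pow,
      Polynomial.coeff_zero] at h1
    rw [Finset.sum_eq_single 0] at h1
    · rw [if_pos (by simp)] at h1
      have h2 := he 0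
      rw [h1, map_zero] at h2
      exact br_aeval_jqK_ne_zero (mul_ne_zero hc0 (pow_ne_zero _ hd0)) h2.symm
    · intro r hr hr0
      have := Finset.mem_range.mp hr
      rw [if_neg (by omega)]
    · intro h
      exact absurd (Finset.mem_range.mpr (Nat.succ_pos n)) h
  · refine Polynomial.natDegree_sum_le_of_forall_le _ _ fun r _ => ?_
    exact (Polynomial.natDegree_C_mul_X_pow_le _ _).trans (Nat.sub_le _ _)
  · rw [map_sum, ← hc]
    refine Finset.sum_congr rfl fun r _ => ?_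
    rw [map_mul, map_pow, Polynomial.aeval_C, Polynomial.aeval_X]
    have h3 : algebraMap ↥(Kbar⟮br_jBar N⟯) (LaurentSeries Kbar) (e r) = br_EtoL N (e r) := rfl
    rw [h3, he r, map_mul, map_pow, ← hxd, mul_pow]
    ring

set_option synthInstance.maxHeartbeats 400000 in
/-- **the degree count**: an expansion with `Q̄`-coefficients of a weakly holomorphic modular
function of level `Γ₀(N)` lies in the function field `Q̄(X₀(N))`. -/
theorem gb_mem_field {x : LaurentSeries Kbar} (hx : x ∈ gb_W N) :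
    x ∈ ModularCurve.modularFunctionFieldBar N := by
  have hfin : FiniteDimensional ↥(Kbar⟮br_jBar N⟯) ↥(gb_D N) ∧
      Module.finrank ↥(Kbar⟮br_jBar N⟯) ↥(gb_D N) ≤ br_psi N := by
    refine finrank_le_of_forall_natDegree_minpoly_le (br_psi N) (fun y => ?_) (fun y => ?_)
    · obtain ⟨p, hp0, -, hp⟩ := gb_exists_poly N y.2
      refine IsAlgebraic.isIntegral ⟨p, hp0, ?_⟩
      apply (algebraMap ↥(gb_D N) (LaurentSeries Kbar)).injective
      rw [← Polynomial.aeval_algebraMap_apply, map_zero]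
      exact hp
    · obtain ⟨p, hp0, hpn, hp⟩ := gb_exists_poly N y.2
      have hp' : Polynomial.aeval y p = 0 := by
        apply (algebraMap ↥(gb_D N) (LaurentSeries Kbar)).injective
        rw [← Polynomial.aeval_algebraMap_apply, map_zero]
        exact hp
      exact (Polynomial.natDegree_le_natDegree (minpoly.degree_le_of_ne_zero _ y hp0 hp')).trans hpn
  have := hfin.1
  let φ : Fbar N →ₐ[↥(Kbar⟮br_jBar N⟯)] LaurentSeries Kbar :=
    IsScalarTower.toAlgHom ↥(Kbar⟮br_jBar N⟯) (Fbar N) (LaurentSeries Kbar)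
  have hle : φ.fieldRange ≤ gb_D N := by
    rintro _ ⟨z, rfl⟩
    obtain ⟨a, ha, d, hd, h⟩ := br_exists_div_poly N z.2
    exact ⟨a, gb_A0_le_W N ha, d, hd, h⟩
  have hrank : Module.finrank ↥(Kbar⟮br_jBar N⟯) ↥φ.fieldRange = br_psi N := by
    have h1 : Module.finrank ↥(Kbar⟮br_jBar N⟯) ↥(LinearMap.range φ.toLinearMap) =
        Module.finrank ↥(Kbar⟮br_jBar N⟯) (Fbar N) :=
      LinearMap.finrank_range_of_inj (f := φ.toLinearMap) φ.toRingHom.injective
    rw [br_psi_eq, ← an_finrank_jBar N, ← h1]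
    rfl
  have heq : φ.fieldRange = gb_D N :=
    IntermediateField.eq_of_le_of_finrank_le hle (by rw [hrank]; exact hfin.2)
  have hxD : x ∈ φ.fieldRange := by rw [heq]; exact gb_W_le_D N hx
  obtain ⟨z, rfl⟩ := hxD
  exact z.2

end Field

/-! ### The completeness theorem -/

/-- **G1d, completeness over `Q̄`**: a holomorphic `Γ₀(N)`-invariant `n`-th root of the analytic
realisation of a nonzero `a ∈ A0 N` is a constant times a quotient of realisations of elements of
`A0 N`. -/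
theorem gb_complete (N n : ℕ) [NeZero N] (hn : 0 < n) (a : A0 N) (ha : a ≠ 0) (h : ℍ → ℂ)
    (hh : MDiff h)
    (hinv : ∀ γ ∈ CongruenceSubgroup.Gamma0 N, ∀ z : ℍ, h (γ • z) = h z)
    (hpow : ∀ z, h z ^ n = ff_an N a z) :
    ∃ (c : ℂ) (u v : A0 N), c ≠ 0 ∧ v ≠ 0 ∧ ∀ z, h z * ff_an N v z = c * ff_an N u z := by
  have hW : IsWeakModFun N h :=
    gb_isWeakModFun hn (br_an_isWeakModFun N a) hh hinv hpow
  obtain ⟨H, hH⟩ := gb_exists_laurentQ hW
  have hHn : H ^ n = ModularCurve.coeffMap ι (a : LaurentSeries Kbar) := by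
    have h1 : br_HasLaurentQ (h ^ n) (ModularCurve.coeffMap ι (a : LaurentSeries Kbar)) := by
      have h2 : h ^ n = ff_an N a := funext hpow
      rw [h2]
      exact br_an_spec N a
    exact (hH.pow n).unique_right h1
  have ha' : (a : LaurentSeries Kbar) ≠ 0 := fun h0 => ha (Subtype.ext h0)
  obtain ⟨c, H₀, hc0, hH₀⟩ := gb_descend hn H a ha' hHn
  have hH₀W : H₀ ∈ gb_W N := by
    refine ⟨(fun _ => c⁻¹) * h, (IsWeakModFun.const N c⁻¹).mul hW, ?_⟩
    have h1 := (br_HasLaurentQ.const c⁻¹).mul hH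
    rwa [hH₀, ← mul_assoc, ← map_mul, inv_mul_cancel₀ hc0, map_one, one_mul] at h1
  obtain ⟨u, hu, v, hv, hv0, hdiv⟩ := br_exists_div N (gb_mem_field N hH₀W)
  refine ⟨c, ⟨u, hu⟩, ⟨v, hv⟩, hc0, fun h0 => hv0 (congrArg Subtype.val h0), fun z => ?_⟩
  have hL : br_HasLaurentQ (h * ff_an N ⟨v, hv⟩)
      (HahnSeries.C c * ModularCurve.coeffMap ι u) := by
    have h1 := hH.mul (br_an_spec N ⟨v, hv⟩)
    have e : H * ModularCurve.coeffMap ι v = HahnSeries.C c * ModularCurve.coeffMap ι u := by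
      rw [hH₀, mul_assoc, ← map_mul, hdiv, div_mul_cancel₀ _ hv0]
    rw [← e]
    exact h1
  have hR : br_HasLaurentQ ((fun _ => c) * ff_an N ⟨u, hu⟩)
      (HahnSeries.C c * ModularCurve.coeffMap ι u) :=
    (br_HasLaurentQ.const c).mul (br_an_spec N ⟨u, hu⟩)
  exact congrFun (hL.unique_left hR) z

end Fermat.Agent.JT3
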