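import Mathlib
import Fermat.Prelude.Def_AlgebraicCurve_DivisorClassGroup
import Fermat.Agent.S24.FamilyFinite
import Fermat.Agent.S24.FamilyInfty

/-!
# JT3 / T1 gateway: shared definitions

* `gw_Ctx N K F A`: an abstract analytic context: a function field `F/K` (`K ⊆ ℂ`), a `K`-algebra
  `A` with `Frac A = F`, and an analytic realisation `an : A →+* (ℍ → ℂ)` of `A` by
  `Γ₀(N)`-invariant holomorphic functions on the upper half plane all of whose `SL(2,ℤ)`-translates
  are meromorphic at `∞` in `e^{2πiz/N}` (exactly what `S24/Family.lean` consumes).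
  `gw_ctxBar N` is the context `K = Q̄`, `F = modularFunctionFieldBar N`, `A = A0 N` of S24.
* `gw_IsDiv K n f`: the divisor of `f` is divisible by `n`.
* `gw_HasChar C n f χ`: for some `b ≠ 0` in `A`, `f · bⁿ ∈ A` has a holomorphic `n`-th root on `ℍ`
  with multiplier `χ : Γ₀(N) →* ℂˣ`.
-/

set_option autoImplicit false

open UpperHalfPlane CongruenceSubgroup
open scoped MatrixGroups Manifold

namespace Fermat.Agent.JT3

open Fermat.Agent.S24 AlgebraicCurve

/-- an abstract analytic context of level `N` -/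
structure gw_Ctx (N : ℕ) [NeZero N] (K F A : Type) [Field K] [Algebra K ℂ] [Field F] [Algebra K F]
    [CommRing A] [IsDomain A] [Algebra K A] [Algebra A F] [IsScalarTower K A F]
    [IsFractionRing A F] where
  /-- the analytic realisation -/
  an : A →+* (ℍ → ℂ)
  /-- an element realised by `z ↦ j(Nz)` -/
  jN : A
  /-- admissibility at the points of `ℍ` -/
  fin : fam_IsRealisation (K := K) N (fun h => MDiff h) an jN
  /-- admissibility at the cusps -/
  inf : fam_IsRealisation (K := K) N (fi_P N) an jN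

section ctx

variable {N : ℕ} [NeZero N] {K F A : Type} [Field K] [Algebra K ℂ] [Field F] [Algebra K F]
  [CommRing A] [IsDomain A] [Algebra K A] [Algebra A F] [IsScalarTower K A F]
  [IsFractionRing A F]

namespace gw_Ctx

variable (C : gw_Ctx N K F A)

theorem an_const (c : K) : C.an (algebraMap K A c) = fun _ => algebraMap K ℂ c := C.fin.const c

theorem an_injective : Function.Injective C.an := C.fin.inj

theorem an_inv (a : A) (γ : SL(2, ℤ)) (hγ : γ ∈ Gamma0 N) (z : ℍ) : C.an a (γ • z) = C.an a z :=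
  C.fin.inv a γ hγ z

theorem an_mdiff (a : A) : MDiff (C.an a) := by
  have h := C.fin.adm a 1
  simpa using h

theorem an_mdiff_smul (a : A) (g : SL(2, ℤ)) : MDiff (fun z => C.an a (g • z)) := C.fin.adm a g

theorem an_merCusp (a : A) (g : SL(2, ℤ)) : fi_P N (fun z => C.an a (g • z)) := C.inf.adm a g

theorem an_ne_zero {a : A} (ha : a ≠ 0) : C.an a ≠ 0 := by
  intro h
  exact ha (C.an_injective (h.trans (map_zero C.an).symm))

end gw_Ctx

/-- the divisor of `f` is divisible by `n` -/
def gw_IsDiv (K : Type) {F : Type} [Field K] [Field F] [Algebra K F] (n : ℕ) (f : F) : Prop :=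
  f ≠ 0 ∧ ∀ P : Place K F, (n : ℤ) ∣ P.ord f

/-- **the character of an `n`-divisible function**: `f · bⁿ ∈ A` has a holomorphic `n`-th root on
`ℍ` with multiplier `χ` -/
def gw_HasChar (C : gw_Ctx N K F A) (n : ℕ) (f : F) (χ : ↥(Gamma0 N) →* ℂˣ) : Prop :=
  ∃ (a b : A) (h : ℍ → ℂ), b ≠ 0 ∧ algebraMap A F a = f * algebraMap A F b ^ n ∧
    MDiff h ∧ h ≠ 0 ∧ (∀ z, h z ^ n = C.an a z) ∧
    ∀ (γ : ↥(Gamma0 N)) (z : ℍ), h ((γ : SL(2, ℤ)) • z) = (χ γ : ℂ) * h z

end ctx

/-! ### The context over `Q̄` -/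

section bar

open Fermat.Agent.S24.Br

/-- the context `K = Q̄`, `F = modularFunctionFieldBar N`, `A = A0 N` -/
noncomputable def gw_ctxBar (N : ℕ) [NeZero N] :
    gw_Ctx N (AlgebraicClosure ℚ) (ModularCurve.modularFunctionFieldBar N) (A0 N) where
  an := ff_an N
  jN := ff_jN N
  fin := ff_isRealisation N
  inf := fi_isRealisation N

theorem gw_ctxBar_an (N : ℕ) [NeZero N] (a : A0 N) :
    (gw_ctxBar N).an a = ((br_an N a : jdAlgebra N) : ℍ → ℂ) := rfl

end bar

end Fermat.Agent.JT3
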