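import Mathlib
import Fermat.Agent.JT.Root.Uhp
import Fermat.Agent.S24.Germ.Disc

/-!
# JT3 / T1 gateway: holomorphic functions on the upper half plane

Pure analysis, no modular input:

* `gw_eq_zero_or_eq_zero`: the ring of holomorphic functions on `ℍ` has no zero divisors;
* `gw_exists_ne_zero₂`: two nonzero holomorphic functions have a common point of non-vanishing;
* `gw_exists_rootOfUnity`: `aⁿ = bⁿ`, `b ≢ 0` implies `a = ζ b` for an `n`-th root of unity `ζ`;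
* `gw_exists_char`: a nonzero holomorphic `h` whose `n`-th power is invariant under a subgroup
  `Γ ≤ SL(2,ℤ)` has a multiplier character `χ : Γ →* ℂˣ`, `h (γ • z) = χ γ * h z`, unique
  (`gw_char_unique`), with `χ γ ^ n = 1`.
-/

set_option autoImplicit false

open UpperHalfPlane Complex Set Filter Topology
open scoped MatrixGroups Manifold

namespace Fermat.Agent.JT3

open Fermat.Agent.JT Fermat.Agent.S24

/-- the upper half plane as a subset of `ℂ` -/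
theorem gw_analyticOnNhd {f : ℍ → ℂ} (hf : MDiff f) : AnalyticOnNhd ℂ (f ∘ ofComplex) nr_H :=
  (UpperHalfPlane.mdifferentiable_iff.mp hf).analyticOnNhd nr_isOpen_H

theorem gw_comp_ofComplex_coe (f : ℍ → ℂ) (z : ℍ) : (f ∘ ofComplex) (z : ℂ) = f z := by
  simp [Function.comp, ofComplex_apply]

/-- a holomorphic function on `ℍ` vanishing near one point vanishes identically -/
theorem gw_eq_zero_of_eventually {f : ℍ → ℂ} (hf : MDiff f) (z₁ : ℍ)
    (h : ∀ᶠ w in 𝓝 (z₁ : ℂ), (f ∘ ofComplex) w = 0) : f = 0 := by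
  have h1 := (gw_analyticOnNhd hf).eqOn_zero_of_preconnected_of_eventuallyEq_zero
    nr_convex_H.isPreconnected (z₁.im_pos : (z₁ : ℂ) ∈ nr_H) h
  ext z
  have := h1 (z.im_pos : (z : ℂ) ∈ nr_H)
  rwa [gw_comp_ofComplex_coe] at this

/-- **no zero divisors** among the holomorphic functions on `ℍ` -/
theorem gw_eq_zero_or_eq_zero {a b : ℍ → ℂ} (ha : MDiff a) (hb : MDiff b)
    (h : ∀ z, a z * b z = 0) : a = 0 ∨ b = 0 := by
  by_cases ha0 : a = 0
  · exact Or.inl ha0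
  · right
    obtain ⟨z₁, hz₁⟩ : ∃ z₁, a z₁ ≠ 0 := by
      by_contra hcon
      push Not at hcon
      exact ha0 (funext hcon)
    refine gw_eq_zero_of_eventually hb z₁ ?_
    have hA : ContinuousAt (a ∘ ofComplex) (z₁ : ℂ) :=
      ((gw_analyticOnNhd ha) _ z₁.im_pos).continuousAt
    have hne : ∀ᶠ w in 𝓝 (z₁ : ℂ), (a ∘ ofComplex) w ≠ 0 :=
      hA.eventually_ne (by rwa [gw_comp_ofComplex_coe])
    filter_upwards [hne, nr_isOpen_H.mem_nhds (z₁.im_pos : (z₁ : ℂ) ∈ nr_H)] with w hw hwH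
    have := h (ofComplex w)
    simp only [Function.comp] at hw ⊢
    exact (mul_eq_zero.mp this).resolve_left hw

/-- two nonzero holomorphic functions on `ℍ` have a common point of non-vanishing -/
theorem gw_exists_ne_zero₂ {a b : ℍ → ℂ} (ha : MDiff a) (hb : MDiff b) (ha0 : a ≠ 0)
    (hb0 : b ≠ 0) : ∃ z, a z ≠ 0 ∧ b z ≠ 0 := by
  by_contra hcon
  push Not at hcon
  rcases gw_eq_zero_or_eq_zero ha hb (fun z => by
    by_cases h : a z = 0
    · rw [h, zero_mul]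
    · rw [hcon z h, mul_zero]) with h | h
  · exact ha0 h
  · exact hb0 h

theorem gw_exists_ne_zero {a : ℍ → ℂ} (ha0 : a ≠ 0) : ∃ z, a z ≠ 0 := by
  by_contra hcon
  push Not at hcon
  exact ha0 (funext hcon)

/-- three nonzero holomorphic functions on `ℍ` have a common point of non-vanishing -/
theorem gw_exists_ne_zero₃ {a b c : ℍ → ℂ} (ha : MDiff a) (hb : MDiff b) (hc : MDiff c)
    (ha0 : a ≠ 0) (hb0 : b ≠ 0) (hc0 : c ≠ 0) : ∃ z, a z ≠ 0 ∧ b z ≠ 0 ∧ c z ≠ 0 := by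
  have hab : MDiff (a * b) := ha.mul hb
  have hab0 : a * b ≠ 0 := by
    intro h
    rcases gw_eq_zero_or_eq_zero ha hb (fun z => congrFun h z) with h | h
    · exact ha0 h
    · exact hb0 h
  obtain ⟨z, h1, h2⟩ := gw_exists_ne_zero₂ hab hc hab0 hc0
  have h3 : a z * b z ≠ 0 := h1
  exact ⟨z, left_ne_zero_of_mul h3, right_ne_zero_of_mul h3, h2⟩

/-- **`aⁿ = bⁿ` with `b ≢ 0` implies `a = ζ b`** for an `n`-th root of unity `ζ` -/
theorem gw_exists_rootOfUnity {a b : ℍ → ℂ} (ha : MDiff a) (hb : MDiff b) {n : ℕ} (hn : n ≠ 0)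
    (hpow : ∀ z, a z ^ n = b z ^ n) (hb0 : b ≠ 0) :
    ∃ ζ : ℂ, ζ ^ n = 1 ∧ ∀ z, a z = ζ * b z := by
  obtain ⟨z₁, hz₁⟩ := gw_exists_ne_zero hb0
  have haz₁ : a z₁ ≠ 0 := by
    intro h
    have := hpow z₁
    rw [h, zero_pow hn] at this
    exact hz₁ (pow_eq_zero_iff hn |>.mp this.symm)
  refine ⟨a z₁ / b z₁, by rw [div_pow, hpow z₁, div_self (pow_ne_zero n hz₁)], ?_⟩
  set ζ := a z₁ / b z₁ with hζ
  have hζn : ζ ^ n = 1 := by rw [hζ, div_pow, hpow z₁, div_self (pow_ne_zero n hz₁)]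
  have hA := UpperHalfPlane.mdifferentiable_iff.mp ha
  have hB : DifferentiableOn ℂ (fun w => ζ * (b ∘ ofComplex) w) nr_H :=
    (UpperHalfPlane.mdifferentiable_iff.mp hb).const_mul ζ
  have key := nr_root_unique nr_isOpen_H nr_convex_H.isPreconnected hn hA hB
    (fun w hw => by
      simp only [Function.comp]
      rw [mul_pow, hζn, one_mul]
      exact hpow _)
    (z₁.im_pos : (z₁ : ℂ) ∈ nr_H)
    (by
      simp only [Function.comp, ofComplex_apply]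
      rw [hζ, div_mul_cancel₀ _ hz₁])
    (by rwa [gw_comp_ofComplex_coe])
  intro z
  have := key (z.im_pos : (z : ℂ) ∈ nr_H)
  simpa [Function.comp, ofComplex_apply] using this

/-! ### Multipliers -/

/-- the multiplier of a nonzero function is unique -/
theorem gw_mult_unique {h : ℍ → ℂ} (hh0 : h ≠ 0) {θ : ℍ → ℍ} {c c' : ℂ}
    (hc : ∀ z, h (θ z) = c * h z) (hc' : ∀ z, h (θ z) = c' * h z) : c = c' := by
  obtain ⟨z, hz⟩ := gw_exists_ne_zero hh0
  have := (hc z).symm.trans (hc' z)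
  exact mul_right_cancel₀ hz this

/-- a nonzero holomorphic `h` with `hⁿ` invariant under `g : SL(2,ℤ)` has a multiplier -/
theorem gw_exists_mult {h : ℍ → ℂ} (hh : MDiff h) (hh0 : h ≠ 0) {n : ℕ} (hn : n ≠ 0)
    (g : SL(2, ℤ)) (hinv : ∀ z, h (g • z) ^ n = h z ^ n) :
    ∃ c : ℂ, c ^ n = 1 ∧ ∀ z, h (g • z) = c * h z := by
  have hg : MDiff (fun z => h (g • z)) := gm_mdiff_comp_smul (g : SL(2, ℝ)) hh
  exact gw_exists_rootOfUnity hg hh hn hinv hh0

/-- **the multiplier character** of a nonzero holomorphic function whose `n`-th power is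
`Γ`-invariant -/
theorem gw_exists_char (Γ : Subgroup SL(2, ℤ)) {h : ℍ → ℂ} (hh : MDiff h) (hh0 : h ≠ 0) {n : ℕ}
    (hn : n ≠ 0) (hinv : ∀ γ ∈ Γ, ∀ z, h (γ • z) ^ n = h z ^ n) :
    ∃ χ : ↥Γ →* ℂˣ, (∀ (γ : ↥Γ) (z : ℍ), h ((γ : SL(2, ℤ)) • z) = (χ γ : ℂ) * h z) ∧
      ∀ γ : ↥Γ, χ γ ^ n = 1 := by
  have hex : ∀ γ : ↥Γ, ∃ c : ℂ, c ^ n = 1 ∧ ∀ z, h ((γ : SL(2, ℤ)) • z) = c * h z :=
    fun γ => gw_exists_mult hh hh0 hn γ (hinv γ γ.2)
  choose c hc1 hc2 using hex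
  have hc0 : ∀ γ, c γ ≠ 0 := fun γ h0 => by
    have := hc1 γ
    rw [h0, zero_pow hn] at this
    exact zero_ne_one this
  have hmul : ∀ γ δ : ↥Γ, c (γ * δ) = c γ * c δ := by
    intro γ δ
    refine gw_mult_unique hh0 (θ := fun z => ((γ * δ : ↥Γ) : SL(2, ℤ)) • z) (hc2 (γ * δ)) ?_
    intro z
    show h (((γ : SL(2, ℤ)) * (δ : SL(2, ℤ))) • z) = _
    rw [mul_smul, hc2 γ, hc2 δ, mul_assoc]
  have hone : c 1 = 1 := by
    refine gw_mult_unique hh0 (θ := fun z => ((1 : ↥Γ) : SL(2, ℤ)) • z) (hc2 1) ?_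
    intro z
    show h ((1 : SL(2, ℤ)) • z) = _
    rw [one_smul, one_mul]
  refine ⟨{ toFun := fun γ => Units.mk0 (c γ) (hc0 γ)
            map_one' := Units.ext hone
            map_mul' := fun γ δ => Units.ext (hmul γ δ) }, fun γ z => hc2 γ z, fun γ => ?_⟩
  apply Units.ext
  show (c γ) ^ n = 1
  exact hc1 γ

/-- uniqueness of the multiplier character -/
theorem gw_char_unique (Γ : Subgroup SL(2, ℤ)) {h : ℍ → ℂ} (hh0 : h ≠ 0) {χ χ' : ↥Γ →* ℂˣ}
    (hχ : ∀ (γ : ↥Γ) (z : ℍ), h ((γ : SL(2, ℤ)) • z) = (χ γ : ℂ) * h z)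
    (hχ' : ∀ (γ : ↥Γ) (z : ℍ), h ((γ : SL(2, ℤ)) • z) = (χ' γ : ℂ) * h z) : χ = χ' := by
  ext γ
  exact gw_mult_unique hh0 (θ := fun z => (γ : SL(2, ℤ)) • z) (hχ γ) (hχ' γ)

end Fermat.Agent.JT3
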