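import Mathlib
import Fermat.Agent.JT3.Gateway.Defs
import Fermat.Agent.JT3.Gateway.HolFun

/-!
# JT3 / T1 gateway: the character of an `n`-divisible function (formal properties)

For an analytic context `C` and `n ≠ 0`:

* `gw_hasChar_pow_eq_one`: the character takes values in the `n`-th roots of unity;
* `gw_hasChar_unique`: the character is determined by `f ≠ 0`;
* `gw_hasChar_mul`, `gw_hasChar_inv`: multiplicativity;
* `gw_hasChar_pow_n`, `gw_hasChar_const`: `n`-th powers and nonzero constants have trivial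
  character.
-/

set_option autoImplicit false

open UpperHalfPlane CongruenceSubgroup
open scoped MatrixGroups Manifold

namespace Fermat.Agent.JT3

open Fermat.Agent.S24 AlgebraicCurve

variable {N : ℕ} [NeZero N] {K F A : Type} [Field K] [Algebra K ℂ] [Field F] [Algebra K F]
  [CommRing A] [IsDomain A] [Algebra K A] [Algebra A F] [IsScalarTower K A F]
  [IsFractionRing A F] (C : gw_Ctx N K F A)

omit [IsDomain A] in
theorem gw_algebraMap_injective : Function.Injective (algebraMap A F) :=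
  IsFractionRing.injective A F

omit [IsDomain A] in
theorem gw_algebraMap_ne_zero {b : A} (hb : b ≠ 0) : algebraMap A F b ≠ 0 := by
  intro h
  exact hb (gw_algebraMap_injective (F := F) (h.trans (map_zero _).symm))

/-- the analytic realisation of an element of `A` is invariant under `Γ₀(N)` -/
theorem gw_an_smul (a : A) (γ : ↥(Gamma0 N)) (z : ℍ) :
    C.an a ((γ : SL(2, ℤ)) • z) = C.an a z := C.an_inv a γ γ.2 z

variable {C}

omit [IsDomain A] in
/-- in a witness of `gw_HasChar` for `f ≠ 0` the numerator is nonzero -/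
theorem gw_witness_ne_zero {n : ℕ} {f : F} (hf : f ≠ 0) {a b : A} (hb : b ≠ 0)
    (hab : algebraMap A F a = f * algebraMap A F b ^ n) : a ≠ 0 := by
  rintro rfl
  rw [map_zero] at hab
  exact mul_ne_zero hf (pow_ne_zero n (gw_algebraMap_ne_zero hb)) hab.symm

/-- a function with a character is nonzero -/
theorem gw_hasChar_ne_zero {n : ℕ} {f : F} {χ : ↥(Gamma0 N) →* ℂˣ}
    (h : gw_HasChar C n f χ) : f ≠ 0 := by
  rintro rfl
  obtain ⟨a, b, h, -, hab, -, hh0, hpow, -⟩ := h
  rw [zero_mul] at hab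
  have ha : a = 0 := gw_algebraMap_injective (F := F) (hab.trans (map_zero _).symm)
  obtain ⟨z, hz⟩ := gw_exists_ne_zero hh0
  have := hpow z
  rw [ha, map_zero] at this
  exact pow_ne_zero n hz this

/-- the values of the character are `n`-th roots of unity -/
theorem gw_hasChar_pow_eq_one {n : ℕ} {f : F} {χ : ↥(Gamma0 N) →* ℂˣ}
    (h : gw_HasChar C n f χ) (γ : ↥(Gamma0 N)) : χ γ ^ n = 1 := by
  obtain ⟨a, b, h, -, -, -, hh0, hpow, hχ⟩ := h
  obtain ⟨z, hz⟩ := gw_exists_ne_zero hh0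
  have h1 : h ((γ : SL(2, ℤ)) • z) ^ n = h z ^ n := by
    rw [hpow, hpow, gw_an_smul C a γ z]
  rw [hχ γ z, mul_pow] at h1
  have h2 : ((χ γ : ℂ)) ^ n = 1 := by
    have h3 : h z ^ n ≠ 0 := pow_ne_zero n hz
    exact mul_right_cancel₀ h3 (h1.trans (one_mul _).symm)
  apply Units.ext
  rw [Units.val_pow_eq_pow_val, h2]
  rfl

/-- **the character is determined by the function** -/
theorem gw_hasChar_unique {n : ℕ} (hn : n ≠ 0) {f : F} {χ χ' : ↥(Gamma0 N) →* ℂˣ}
    (h : gw_HasChar C n f χ) (h' : gw_HasChar C n f χ') : χ = χ' := by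
  obtain ⟨a, b, h, hb, hab, hh, hh0, hpow, hχ⟩ := h
  obtain ⟨a', b', h', hb', hab', hh', hh0', hpow', hχ'⟩ := h'
  -- `a b'ⁿ = a' bⁿ`
  have hrel : a * b' ^ n = a' * b ^ n := by
    apply gw_algebraMap_injective (F := F)
    rw [map_mul, map_mul, map_pow, map_pow, hab, hab']
    ring
  have hanb : MDiff (C.an b) := C.an_mdiff b
  have hanb' : MDiff (C.an b') := C.an_mdiff b'
  -- the two roots `H = h · an b'`, `H' = h' · an b`
  have hH : MDiff (h * C.an b') := hh.mul hanb'
  have hH' : MDiff (h' * C.an b) := hh'.mul hanb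
  have hH'0 : h' * C.an b ≠ 0 := by
    intro h0
    rcases gw_eq_zero_or_eq_zero hh' hanb (fun z => congrFun h0 z) with h1 | h1
    · exact hh0' h1
    · exact C.an_ne_zero hb h1
  have hHpow : ∀ z, (h * C.an b') z ^ n = (h' * C.an b) z ^ n := by
    intro z
    simp only [Pi.mul_apply, mul_pow, hpow, hpow']
    have := congrFun (congrArg C.an hrel) z
    simpa [map_mul, map_pow] using this
  obtain ⟨ζ, hζ, hζH⟩ := gw_exists_rootOfUnity hH hH' hn hHpow hH'0
  have hζ0 : ζ ≠ 0 := by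
    rintro rfl
    rw [zero_pow hn] at hζ
    exact zero_ne_one hζ
  ext γ
  refine gw_mult_unique hH'0 (θ := fun z => (γ : SL(2, ℤ)) • z) (c := (χ γ : ℂ)) (c' := (χ' γ : ℂ))
    ?_ ?_
  · intro z
    have h1 := hζH ((γ : SL(2, ℤ)) • z)
    simp only [Pi.mul_apply] at h1 hζH ⊢
    have h2 : ζ * (h' ((γ : SL(2, ℤ)) • z) * C.an b ((γ : SL(2, ℤ)) • z)) =
        ζ * ((χ γ : ℂ) * (h' z * C.an b z)) := by
      rw [← h1, hχ γ z, gw_an_smul C b' γ z, mul_assoc, hζH z]
      ring
    exact mul_left_cancel₀ hζ0 h2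
  · intro z
    simp only [Pi.mul_apply]
    rw [hχ' γ z, gw_an_smul C b γ z, mul_assoc]

/-- **multiplicativity** -/
theorem gw_hasChar_mul {n : ℕ} {f f' : F} {χ χ' : ↥(Gamma0 N) →* ℂˣ}
    (h : gw_HasChar C n f χ) (h' : gw_HasChar C n f' χ') : gw_HasChar C n (f * f') (χ * χ') := by
  obtain ⟨a, b, h, hb, hab, hh, hh0, hpow, hχ⟩ := h
  obtain ⟨a', b', h', hb', hab', hh', hh0', hpow', hχ'⟩ := h'
  refine ⟨a * a', b * b', h * h', mul_ne_zero hb hb', ?_, hh.mul hh', ?_, ?_, ?_⟩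
  · rw [map_mul, map_mul, hab, hab']
    ring
  · intro h0
    rcases gw_eq_zero_or_eq_zero hh hh' (fun z => congrFun h0 z) with h1 | h1
    · exact hh0 h1
    · exact hh0' h1
  · intro z
    simp only [Pi.mul_apply, mul_pow, hpow, hpow', map_mul]
  · intro γ z
    simp only [Pi.mul_apply, MonoidHom.mul_apply, Units.val_mul]
    rw [hχ γ z, hχ' γ z]
    ring

/-- `n`-th powers have trivial character -/
theorem gw_hasChar_pow_n (C : gw_Ctx N K F A) (n : ℕ) {u : F} (hu : u ≠ 0) :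
    gw_HasChar C n (u ^ n) 1 := by
  obtain ⟨r, s, hs, hrs⟩ := IsFractionRing.div_surjective (A := A) u
  have hs0 : s ≠ 0 := nonZeroDivisors.ne_zero hs
  have hs0' : algebraMap A F s ≠ 0 := gw_algebraMap_ne_zero hs0
  have hr0 : r ≠ 0 := by
    rintro rfl
    rw [map_zero, zero_div] at hrs
    exact hu hrs.symm
  refine ⟨r ^ n, s, C.an r, hs0, ?_, C.an_mdiff r, C.an_ne_zero hr0, ?_, ?_⟩
  · rw [map_pow, ← hrs, div_pow, div_mul_cancel₀ _ (pow_ne_zero n hs0')]
  · intro z
    rw [map_pow]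
    rfl
  · intro γ z
    rw [gw_an_smul C r γ z]
    simp

/-- nonzero constants have trivial character -/
theorem gw_hasChar_const (C : gw_Ctx N K F A) {n : ℕ} (hn : n ≠ 0) {c : K} (hc : c ≠ 0) :
    gw_HasChar C n (algebraMap K F c) 1 := by
  obtain ⟨w, hw⟩ := IsAlgClosed.exists_pow_nat_eq (algebraMap K ℂ c) (Nat.pos_of_ne_zero hn)
  have hc' : algebraMap K ℂ c ≠ 0 := by
    intro h
    exact hc ((algebraMap K ℂ).injective (h.trans (map_zero _).symm))
  have hw0 : w ≠ 0 := by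
    rintro rfl
    rw [zero_pow hn] at hw
    exact hc' hw.symm
  refine ⟨algebraMap K A c, 1, fun _ => w, one_ne_zero, ?_, mdifferentiable_const, ?_, ?_, ?_⟩
  · rw [map_one, one_pow, mul_one, ← IsScalarTower.algebraMap_apply]
  · intro h
    exact hw0 (congrFun h UpperHalfPlane.I)
  · intro z
    rw [C.an_const c, hw]
  · intro γ z
    simp

/-- **inverses** -/
theorem gw_hasChar_inv {n : ℕ} (hn : n ≠ 0) {f : F} (hf : f ≠ 0) {χ : ↥(Gamma0 N) →* ℂˣ}
    (h : gw_HasChar C n f χ) : gw_HasChar C n f⁻¹ χ⁻¹ := by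
  have hχn := gw_hasChar_pow_eq_one h
  obtain ⟨a, b, h, hb, hab, hh, hh0, hpow, hχ⟩ := h
  have ha : a ≠ 0 := gw_witness_ne_zero hf hb hab
  obtain ⟨m, rfl⟩ : ∃ m, n = m + 1 := Nat.exists_eq_succ_of_ne_zero hn
  refine ⟨b ^ (m + 1) * a ^ m, a, C.an b * h ^ m, ha, ?_, (C.an_mdiff b).mul (hh.pow m), ?_, ?_, ?_⟩
  · rw [map_mul, map_pow, map_pow, pow_succ (algebraMap A F a) m, hab]
    field_simp
  · intro h0
    rcases gw_eq_zero_or_eq_zero (C.an_mdiff b) (hh.pow m) (fun z => congrFun h0 z) with h1 | h1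
    · exact C.an_ne_zero hb h1
    · obtain ⟨z, hz⟩ := gw_exists_ne_zero hh0
      have := congrFun h1 z
      simp only [Pi.pow_apply, Pi.zero_apply] at this
      exact pow_ne_zero m hz this
  · intro z
    simp only [Pi.mul_apply, Pi.pow_apply, map_mul, map_pow, mul_pow]
    rw [← pow_mul, mul_comm m (m + 1), pow_mul, hpow]
  · intro γ z
    simp only [Pi.mul_apply, Pi.pow_apply, MonoidHom.inv_apply]
    rw [gw_an_smul C b γ z, hχ γ z, mul_pow]
    have h1 : ((χ γ)⁻¹ : ℂˣ) = χ γ ^ m := by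
      rw [inv_eq_iff_eq_inv, eq_inv_iff_mul_eq_one, ← pow_succ']
      exact hχn γ
    rw [h1, Units.val_pow_eq_pow_val]
    ring

end Fermat.Agent.JT3
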