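import Mathlib
import Fermat.Agent.JT3.Gateway.Character
import Fermat.Agent.JT3.Gateway.BarComplete

/-!
# JT3 / T1 gateway: injectivity of the character map

* `gw_Complete C`: every `Γ₀(N)`-invariant holomorphic `n`-th root of an element of `A` is, up to a
  constant, a quotient of elements of `A` (= `gb_complete` for the context over `Q̄`);
* `gw_Rational C`: a constant of proportionality between two elements of `A` lies in `K`;
* **`gw_hasChar_trivial`**: in a complete rational context, a function with trivial character is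
  `c · uⁿ`; `gw_hasChar_eq`: two functions with the same character differ by `c · uⁿ`;
* `gw_ctxBar_complete`, `gw_ctxBar_rational`: the context over `Q̄` is complete and rational.
-/

set_option autoImplicit false

open UpperHalfPlane CongruenceSubgroup
open scoped MatrixGroups Manifold

namespace Fermat.Agent.JT3

open Fermat.Agent.S24 AlgebraicCurve

variable {N : ℕ} [NeZero N] {K F A : Type} [Field K] [Algebra K ℂ] [Field F] [Algebra K F]
  [CommRing A] [IsDomain A] [Algebra K A] [Algebra A F] [IsScalarTower K A F]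
  [IsFractionRing A F]

/-- **completeness**: an invariant holomorphic `n`-th root of an element of `A` is a constant times
a quotient of elements of `A` -/
def gw_Complete (C : gw_Ctx N K F A) : Prop :=
  ∀ (n : ℕ), 0 < n → ∀ (a : A), a ≠ 0 → ∀ (h : ℍ → ℂ), MDiff h →
    (∀ γ ∈ Gamma0 N, ∀ z : ℍ, h (γ • z) = h z) → (∀ z, h z ^ n = C.an a z) →
    ∃ (c : ℂ) (u v : A), c ≠ 0 ∧ v ≠ 0 ∧ ∀ z, h z * C.an v z = c * C.an u z

/-- **rationality**: a constant of proportionality between two elements of `A` lies in `K` -/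
def gw_Rational (C : gw_Ctx N K F A) : Prop :=
  ∀ (w w' : A) (d : ℂ), w' ≠ 0 → (∀ z, C.an w z = d * C.an w' z) → ∃ κ : K, algebraMap K ℂ κ = d

variable {C : gw_Ctx N K F A}

/-- **a function with trivial character is `c · uⁿ`** -/
theorem gw_hasChar_trivial (hC : gw_Complete C) (hR : gw_Rational C) {n : ℕ} (hn : n ≠ 0) {f : F}
    (hf : gw_HasChar C n f 1) :
    ∃ (c : K) (u : F), c ≠ 0 ∧ u ≠ 0 ∧ f = algebraMap K F c * u ^ n := by
  have hf0 := gw_hasChar_ne_zero hf
  obtain ⟨a, b, h, hb, hab, hh, hh0, hpow, hmul⟩ := hf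
  have ha : a ≠ 0 := gw_witness_ne_zero hf0 hb hab
  have hinv : ∀ γ ∈ Gamma0 N, ∀ z : ℍ, h (γ • z) = h z := by
    intro γ hγ z
    have := hmul ⟨γ, hγ⟩ z
    simpa using this
  obtain ⟨c, u, v, hc, hv, huv⟩ := hC n (Nat.pos_of_ne_zero hn) a ha h hh hinv hpow
  -- `u ≠ 0`
  have hu : u ≠ 0 := by
    rintro rfl
    have h1 : ∀ z, h z * C.an v z = 0 := by
      intro z
      rw [huv z, map_zero, Pi.zero_apply, mul_zero]
    rcases gw_eq_zero_or_eq_zero hh (C.an_mdiff v) h1 with h2 | h2
    · exact hh0 h2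
    · exact C.an_ne_zero hv h2
  -- `an (a vⁿ) = cⁿ an (uⁿ)`
  have hrel : ∀ z, C.an (a * v ^ n) z = c ^ n * C.an (u ^ n) z := by
    intro z
    rw [map_mul, map_pow, map_pow, Pi.mul_apply, Pi.pow_apply, Pi.pow_apply, ← hpow z, ← mul_pow,
      huv z, mul_pow]
  obtain ⟨κ, hκ⟩ := hR (a * v ^ n) (u ^ n) (c ^ n) (pow_ne_zero n hu) hrel
  have hκ0 : κ ≠ 0 := by
    rintro rfl
    rw [map_zero] at hκ
    exact pow_ne_zero n hc hκ.symm
  -- `a vⁿ = κ uⁿ` in `A`
  have heq : a * v ^ n = algebraMap K A κ * u ^ n := by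
    apply C.an_injective
    ext z
    rw [hrel z, map_mul, Pi.mul_apply, C.an_const, hκ]
  have hb' : algebraMap A F b ≠ 0 := gw_algebraMap_ne_zero hb
  have hv' : algebraMap A F v ≠ 0 := gw_algebraMap_ne_zero hv
  have hu' : algebraMap A F u ≠ 0 := gw_algebraMap_ne_zero hu
  refine ⟨κ, algebraMap A F u / (algebraMap A F b * algebraMap A F v), hκ0,
    div_ne_zero hu' (mul_ne_zero hb' hv'), ?_⟩
  have h1 := congrArg (algebraMap A F) heq
  rw [map_mul, map_mul, map_pow, map_pow, hab, ← IsScalarTower.algebraMap_apply] at h1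
  rw [div_pow, mul_pow]
  field_simp
  linear_combination h1

/-- **two functions with the same character differ by `c · uⁿ`** -/
theorem gw_hasChar_eq (hC : gw_Complete C) (hR : gw_Rational C) {n : ℕ} (hn : n ≠ 0) {f f' : F}
    {χ : ↥(Gamma0 N) →* ℂˣ} (hf : gw_HasChar C n f χ) (hf' : gw_HasChar C n f' χ) :
    ∃ (c : K) (u : F), c ≠ 0 ∧ u ≠ 0 ∧ f' = algebraMap K F c * u ^ n * f := by
  have hf0 := gw_hasChar_ne_zero hf
  have h1 := gw_hasChar_mul hf' (gw_hasChar_inv hn hf0 hf)
  rw [mul_inv_cancel χ] at h1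
  obtain ⟨c, u, hc, hu, h2⟩ := gw_hasChar_trivial hC hR hn h1
  refine ⟨c, u, hc, hu, ?_⟩
  rw [← h2]
  field_simp

/-! ### The context over `Q̄` -/

section bar

open Fermat.Agent.S24.Br

theorem gw_ctxBar_complete (N : ℕ) [NeZero N] : gw_Complete (gw_ctxBar N) := by
  intro n hn a ha h hh hinv hpow
  exact gb_complete N n hn a ha h hh hinv hpow

theorem gw_ctxBar_rational (N : ℕ) [NeZero N] : gw_Rational (gw_ctxBar N) := by
  intro w w' d hw' hrel
  have h1 := br_an_spec N w
  have h2 := (br_HasLaurentQ.const d).mul (br_an_spec N w')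
  have h3 : ((br_an N w : jdAlgebra N) : ℍ → ℂ)
      = (fun _ => d) * ((br_an N w' : jdAlgebra N) : ℍ → ℂ) := by
    ext z
    exact hrel z
  rw [h3] at h1
  have h4 := h1.unique_right h2
  -- compare the coefficients at the order of `w'`
  have hw'0 : (w' : LaurentSeries (AlgebraicClosure ℚ)) ≠ 0 := fun h0 => hw' (Subtype.ext h0)
  set i := (w' : LaurentSeries (AlgebraicClosure ℚ)).order with hi
  have hci : (w' : LaurentSeries (AlgebraicClosure ℚ)).coeff i ≠ 0 :=
    HahnSeries.coeff_order_eq_zero.not.mpr hw'0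
  have h5 := congrArg (fun x : LaurentSeries ℂ => x.coeff i) h4
  simp only [ModularCurve.coeffMap_coeff, HahnSeries.C_mul_eq_smul, HahnSeries.coeff_smul,
    smul_eq_mul] at h5
  refine ⟨(w : LaurentSeries (AlgebraicClosure ℚ)).coeff i /
    (w' : LaurentSeries (AlgebraicClosure ℚ)).coeff i, ?_⟩
  have h5' : br_iota ((w : LaurentSeries (AlgebraicClosure ℚ)).coeff i)
      = d * br_iota ((w' : LaurentSeries (AlgebraicClosure ℚ)).coeff i) := h5
  rw [br_algebraMap_QbarC, map_div₀, h5']
  have : br_iota ((w' : LaurentSeries (AlgebraicClosure ℚ)).coeff i) ≠ 0 := by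
    rw [ne_eq, map_eq_zero]
    exact hci
  field_simp

end bar

end Fermat.Agent.JT3
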