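import Mathlib
import Fermat.Prelude.Def_AlgebraicCurve_DivisorClassGroup

/-!
# JT3 / T1 gateway (G1): integer-valued valuations of a function field are multiples of places

`F/K` any field extension, `v : F → ℤ` an additive valuation on the nonzero elements, trivial on
the constants (`gw_IsVal K v`; the value of `v 0` is irrelevant).  If `v` is not trivial, its
valuation ring is a place `P` of `F/K` (in the prelude's sense: a valuation subring containing
`K`, proper, principal) and `v = e · ord_P` for some `e > 0` (`gw_val_eq_ord`).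

Consequence used for the gateway (`gw_val_dvd`): if the divisor of `f` is divisible by `n`
(`ord_P f = n · D P` for all places `P`) then `v f = n · v u` for some `u ≠ 0`; in particular the
order of the analytic function attached to `f` at any point of the upper half plane (or at a
cusp) is `n` times an element of the value group of the corresponding valuation.
-/

set_option autoImplicit false

namespace Fermat.Agent.JT3

open AlgebraicCurve

variable (K : Type*) {F : Type*} [Field K] [Field F] [Algebra K F]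

/-- an additive valuation `F ∖ {0} → ℤ`, trivial on the constants -/
structure gw_IsVal (v : F → ℤ) : Prop where
  map_mul : ∀ f g : F, f ≠ 0 → g ≠ 0 → v (f * g) = v f + v g
  map_add : ∀ f g : F, f ≠ 0 → g ≠ 0 → f + g ≠ 0 → min (v f) (v g) ≤ v (f + g)
  map_const : ∀ c : K, c ≠ 0 → v (algebraMap K F c) = 0

namespace gw_IsVal

variable {K} {v : F → ℤ} (hv : gw_IsVal K v)

include hv

theorem map_one : v 1 = 0 := by
  have h := hv.map_mul 1 1 one_ne_zero one_ne_zero
  rw [one_mul] at h
  linarith

theorem map_inv {f : F} (hf : f ≠ 0) : v f⁻¹ = -v f := by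
  have h := hv.map_mul f f⁻¹ hf (inv_ne_zero hf)
  rw [mul_inv_cancel₀ hf, hv.map_one] at h
  linarith

theorem map_neg_one : v (-1) = 0 := by
  have h := hv.map_mul (-1) (-1) (neg_ne_zero.2 one_ne_zero) (neg_ne_zero.2 one_ne_zero)
  rw [neg_one_mul, neg_neg, hv.map_one] at h
  linarith

theorem map_neg {f : F} (hf : f ≠ 0) : v (-f) = v f := by
  have h := hv.map_mul (-1) f (neg_ne_zero.2 one_ne_zero) hf
  rw [neg_one_mul, hv.map_neg_one, zero_add] at h
  exact h

theorem map_zpow {f : F} (hf : f ≠ 0) (m : ℤ) : v (f ^ m) = m * v f := by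
  have hnat : ∀ k : ℕ, v (f ^ k) = k * v f := by
    intro k
    induction k with
    | zero => simp [hv.map_one]
    | succ k ih =>
      rw [pow_succ, hv.map_mul _ _ (pow_ne_zero k hf) hf, ih]
      push_cast
      ring
  cases m with
  | ofNat k => simpa using hnat k
  | negSucc k =>
    rw [zpow_negSucc, hv.map_inv (pow_ne_zero _ hf), hnat, Int.negSucc_eq]
    push_cast
    ring

/-- the valuation ring of `v` -/
def valSubring : ValuationSubring F where
  carrier := {f | f = 0 ∨ 0 ≤ v f}
  mul_mem' := by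
    rintro a b (rfl | ha) (rfl | hb)
    · left; simp
    · left; simp
    · left; simp
    · by_cases ha0 : a = 0
      · left; simp [ha0]
      · by_cases hb0 : b = 0
        · left; simp [hb0]
        · right
          rw [hv.map_mul a b ha0 hb0]
          omega
  one_mem' := by right; rw [hv.map_one]
  add_mem' := by
    rintro a b (rfl | ha) (rfl | hb)
    · left; simp
    · right; simpa using hb
    · right; simpa using ha
    · by_cases ha0 : a = 0
      · right; simpa [ha0] using hb
      · by_cases hb0 : b = 0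
        · right; simpa [hb0] using ha
        · by_cases hab : a + b = 0
          · left; exact hab
          · right
            have := hv.map_add a b ha0 hb0 hab
            exact le_trans (le_min ha hb) this
  zero_mem' := by left; rfl
  neg_mem' := by
    rintro a (rfl | ha)
    · left; simp
    · by_cases ha0 : a = 0
      · left; simp [ha0]
      · right
        rw [hv.map_neg ha0]
        exact ha
  mem_or_inv_mem' := by
    intro a
    by_cases ha0 : a = 0
    · left; left; exact ha0
    · by_cases h : 0 ≤ v a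
      · left; right; exact h
      · right; right
        rw [hv.map_inv ha0]
        omega

theorem mem_valSubring {f : F} : f ∈ hv.valSubring ↔ f = 0 ∨ 0 ≤ v f := Iff.rfl

theorem mem_valSubring_of_ne {f : F} (hf : f ≠ 0) : f ∈ hv.valSubring ↔ 0 ≤ v f := by
  rw [hv.mem_valSubring]
  exact ⟨fun h => h.resolve_left hf, Or.inr⟩

/-- units of the valuation ring have valuation `0` -/
theorem val_unit (u : (hv.valSubring)ˣ) : v ((u : hv.valSubring) : F) = 0 := by
  have hu0 : ((u : hv.valSubring) : F) ≠ 0 := by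
    intro h
    have : (u : hv.valSubring) = 0 := Subtype.ext h
    exact u.ne_zero this
  have h1 : 0 ≤ v ((u : hv.valSubring) : F) :=
    (hv.mem_valSubring_of_ne hu0).1 (u : hv.valSubring).2
  have hinv : (((u⁻¹ : (hv.valSubring)ˣ) : hv.valSubring) : F) = ((u : hv.valSubring) : F)⁻¹ := by
    have h := congrArg (fun x : hv.valSubring => (x : F)) u.mul_inv
    simp only [MulMemClass.coe_mul, OneMemClass.coe_one] at h
    exact (eq_inv_of_mul_eq_one_right h)
  have h2 : 0 ≤ v (((u⁻¹ : (hv.valSubring)ˣ) : hv.valSubring) : F) := by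
    refine (hv.mem_valSubring_of_ne ?_).1 ((u⁻¹ : (hv.valSubring)ˣ) : hv.valSubring).2
    rw [hinv]
    exact inv_ne_zero hu0
  rw [hinv, hv.map_inv hu0] at h2
  omega

theorem algebraMap_mem_valSubring (a : K) : algebraMap K F a ∈ hv.valSubring := by
  by_cases ha : a = 0
  · left; simp [ha]
  · right; rw [hv.map_const a ha]

theorem valSubring_ne_top (hnt : ∃ f : F, f ≠ 0 ∧ v f ≠ 0) : hv.valSubring ≠ ⊤ := by
  obtain ⟨f, hf0, hf⟩ := hnt
  intro htop
  have h1 : f ∈ hv.valSubring := by rw [htop]; exact ValuationSubring.mem_top f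
  have h2 : f⁻¹ ∈ hv.valSubring := by rw [htop]; exact ValuationSubring.mem_top _
  have h1' := (hv.mem_valSubring_of_ne hf0).1 h1
  have h2' := (hv.mem_valSubring_of_ne (inv_ne_zero hf0)).1 h2
  rw [hv.map_inv hf0] at h2'
  omega

theorem valSubring_isPrincipalIdealRing : IsPrincipalIdealRing hv.valSubring := by
  refine ⟨fun I => ?_⟩
  by_cases hI : I = ⊥
  · rw [hI]; exact ⟨⟨0, by simp⟩⟩
  · obtain ⟨x, hxI, hx0⟩ := Submodule.exists_mem_ne_zero_of_ne_bot hI
    have hex : ∃ k : ℕ, ∃ y : hv.valSubring, y ∈ I ∧ y ≠ 0 ∧ (v (y : F)).toNat = k :=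
      ⟨_, x, hxI, hx0, rfl⟩
    classical
    obtain ⟨x₀, hx₀I, hx₀0, hx₀⟩ := Nat.find_spec hex
    have hmin : ∀ y : hv.valSubring, y ∈ I → y ≠ 0 → v (x₀ : F) ≤ v (y : F) := by
      intro y hyI hy0
      have h := Nat.find_min' hex ⟨y, hyI, hy0, rfl⟩
      rw [← hx₀] at h
      have hy0' : (y : F) ≠ 0 := fun h => hy0 (Subtype.ext h)
      have hx0' : (x₀ : F) ≠ 0 := fun h => hx₀0 (Subtype.ext h)
      have h1 := (hv.mem_valSubring_of_ne hy0').1 y.2
      have h2 := (hv.mem_valSubring_of_ne hx0').1 x₀.2
      omega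
    refine ⟨⟨x₀, ?_⟩⟩
    apply le_antisymm
    · intro y hyI
      rw [Submodule.mem_span_singleton]
      by_cases hy0 : y = 0
      · exact ⟨0, by simp [hy0]⟩
      · have hy0' : (y : F) ≠ 0 := fun h => hy0 (Subtype.ext h)
        have hx0' : (x₀ : F) ≠ 0 := fun h => hx₀0 (Subtype.ext h)
        have hq : (y : F) / (x₀ : F) ∈ hv.valSubring := by
          rw [hv.mem_valSubring_of_ne (div_ne_zero hy0' hx0'), div_eq_mul_inv,
            hv.map_mul _ _ hy0' (inv_ne_zero hx0'), hv.map_inv hx0']
          have := hmin y hyI hy0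
          omega
        refine ⟨⟨_, hq⟩, ?_⟩
        apply Subtype.ext
        simp only [smul_eq_mul, MulMemClass.coe_mul]
        field_simp
    · rw [Submodule.span_le]
      intro y hy
      rw [Set.mem_singleton_iff] at hy
      rw [hy]
      exact hx₀I

/-- the place of `F/K` attached to a nontrivial valuation -/
noncomputable def place (hnt : ∃ f : F, f ≠ 0 ∧ v f ≠ 0) : Place K F where
  toValuationSubring := hv.valSubring
  algebraMap_mem' := hv.algebraMap_mem_valSubring
  ne_top' := hv.valSubring_ne_top hnt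
  isPrincipalIdealRing' := hv.valSubring_isPrincipalIdealRing

theorem place_toValuationSubring (hnt : ∃ f : F, f ≠ 0 ∧ v f ≠ 0) :
    (hv.place hnt).toValuationSubring = hv.valSubring := rfl

end gw_IsVal

/-- a nontrivial integer valued valuation of `F/K` is a positive multiple of the order function
of a place -/
theorem gw_val_eq_ord {v : F → ℤ} (hv : gw_IsVal K v) (hnt : ∃ f : F, f ≠ 0 ∧ v f ≠ 0) :
    ∃ (P : Place K F) (e : ℤ), 0 < e ∧ ∀ f : F, f ≠ 0 → v f = e * P.ord f := by
  refine ⟨hv.place hnt, ?_⟩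
  obtain ⟨π, hπ⟩ := IsDiscreteValuationRing.exists_irreducible (hv.place hnt).toValuationSubring
  have hπ0 : (π : F) ≠ 0 := fun h => hπ.ne_zero (Subtype.ext h)
  refine ⟨v (π : F), ?_, ?_⟩
  · have h1 : 0 ≤ v (π : F) := (hv.mem_valSubring_of_ne hπ0).1 π.2
    rcases h1.lt_or_eq with h | h
    · exact h
    · exfalso
      apply hπ.not_isUnit
      have hinv : (π : F)⁻¹ ∈ hv.valSubring := by
        rw [hv.mem_valSubring_of_ne (inv_ne_zero hπ0), hv.map_inv hπ0, ← h, neg_zero]
      refine IsUnit.of_mul_eq_one (⟨_, hinv⟩ : hv.valSubring) ?_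
      apply Subtype.ext
      show (π : F) * (π : F)⁻¹ = 1
      exact mul_inv_cancel₀ hπ0
  · intro f hf
    obtain ⟨u, hu⟩ := (hv.place hnt).exists_unit_mul_zpow hf hπ
    have hu0 : ((u : (hv.place hnt).toValuationSubring) : F) ≠ 0 := by
      intro h
      exact u.ne_zero (Subtype.ext h)
    conv_lhs => rw [hu]
    rw [hv.map_mul _ _ hu0 (zpow_ne_zero _ hπ0), hv.map_zpow hπ0]
    have := hv.val_unit u
    rw [this]
    ring

/-- if the divisor of `f` is divisible by `n`, then every integer valued valuation of `F/K` takes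
on `f` a value in `n · v(Fˣ)` -/
theorem gw_val_dvd {v : F → ℤ} (hv : gw_IsVal K v) {f : F} (hf : f ≠ 0) (n : ℤ)
    (D : Place K F → ℤ) (hD : ∀ P : Place K F, P.ord f = n * D P) :
    ∃ u : F, u ≠ 0 ∧ v f = n * v u := by
  by_cases hnt : ∃ f : F, f ≠ 0 ∧ v f ≠ 0
  · obtain ⟨P, e, _, hP⟩ := gw_val_eq_ord K hv hnt
    obtain ⟨π, hπ⟩ := IsDiscreteValuationRing.exists_irreducible P.toValuationSubring
    have hπ0 : (π : F) ≠ 0 := fun h => hπ.ne_zero (Subtype.ext h)
    refine ⟨(π : F) ^ (D P), zpow_ne_zero _ hπ0, ?_⟩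
    rw [hP f hf, hD P, hP _ (zpow_ne_zero _ hπ0), P.ord_zpow, P.ord_coe_irreducible hπ]
    ring
  · have hnt' : ∀ g : F, g ≠ 0 → v g = 0 := by
      intro g hg
      by_contra h
      exact hnt ⟨g, hg, h⟩
    exact ⟨1, one_ne_zero, by rw [hnt' f hf, hnt' 1 one_ne_zero, mul_zero]⟩

end Fermat.Agent.JT3
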