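import Mathlib
import Fermat.Agent.JT3.Gateway.Defs
import Fermat.Agent.JT3.Gateway.ValPlace
import Fermat.Agent.JT3.Gateway.Character
import Fermat.Agent.S24.PlacesOrbits.PlaceOfEmb

/-!
# JT3 / T1 gateway: the valuations at the points of `ℍ` and existence of the character

* `gw_phiPt C z : F →ₐ[K] ℂ((w))`, the Taylor-germ embedding at `z ∈ ℍ` (disc coordinate), and
  `gw_valPt C z`, its order function, an integer valued valuation of `F/K` (`gw_valPt_isVal`);
* `gw_valPt_algebraMap`: for `a ∈ A`, `a ≠ 0`, the value `gw_valPt C z a` is the analytic order at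
  `z` of the holomorphic function `C.an a`;
* **`gw_hasChar_exists`**: an `n`-divisible function has a character.
-/

set_option autoImplicit false

open UpperHalfPlane CongruenceSubgroup
open scoped MatrixGroups Manifold

namespace Fermat.Agent.JT3

open Fermat.Agent.S24 Fermat.Agent.JT AlgebraicCurve

variable {N : ℕ} [NeZero N] {K F A : Type} [Field K] [Algebra K ℂ] [Field F] [Algebra K F]
  [CommRing A] [IsDomain A] [Algebra K A] [Algebra A F] [IsScalarTower K A F]
  [IsFractionRing A F] (C : gw_Ctx N K F A)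

/-- the Taylor-germ embedding at `z` -/
noncomputable def gw_phiPt (z : ℍ) : F →ₐ[K] LaurentSeries ℂ :=
  fam_phi (F := F) (ff_isGerm z) C.fin (((1 : SL(2, ℤ)) : Comb.Q N))

theorem gw_phiPt_algebraMap (z : ℍ) (a : A) :
    gw_phiPt C z (algebraMap A F a) = ff_germ z (C.an a) := by
  rw [gw_phiPt, fam_phi_mk_algebraMap]
  congr 1
  ext w
  rw [inv_one, one_smul]

/-- the order at `z` -/
noncomputable def gw_valPt (z : ℍ) (f : F) : ℤ := po_ord (gw_phiPt C z) f

theorem gw_valPt_isVal (z : ℍ) : gw_IsVal K (gw_valPt C z) where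
  map_mul _ _ hf hg := po_ord_mul _ hf hg
  map_add _ _ _ _ hfg := po_ord_add _ hfg
  map_const c _ := po_ord_algebraMap _ c

/-- on `A` the valuation at `z` is the analytic order of the realisation -/
theorem gw_valPt_algebraMap (z : ℍ) {a : A} (ha : a ≠ 0) :
    ∃ k : ℕ, gw_valPt C z (algebraMap A F a) = k ∧
      analyticOrderAt (C.an a ∘ ofComplex) (z : ℂ) = k := by
  have hmd := C.an_mdiff a
  have hne : gm_taylor z (C.an a) ≠ 0 := by
    intro h
    exact C.an_ne_zero ha ((gm_taylor_eq_zero_iff z hmd).mp h)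
  obtain ⟨k, hk⟩ : ∃ k : ℕ, (gm_taylor z (C.an a)).order = k := by
    have h1 : (gm_taylor z (C.an a)).order ≠ ⊤ := by
      rwa [ne_eq, PowerSeries.order_eq_top]
    exact ⟨(gm_taylor z (C.an a)).order.toNat, (ENat.natCast_toNat h1).symm⟩
  refine ⟨k, ?_, ?_⟩
  · rw [gw_valPt, po_ord_def, gw_phiPt_algebraMap, ff_germ]
    exact ff_ofPowerSeries_order _ hk
  · rw [← gm_taylor_order z hmd, hk]

variable {C}

/-- **existence of the character** of an `n`-divisible function -/
theorem gw_hasChar_exists {n : ℕ} (hn : n ≠ 0) {f : F} (hf : gw_IsDiv K n f) :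
    ∃ χ : ↥(Gamma0 N) →* ℂˣ, gw_HasChar C n f χ := by
  obtain ⟨hf0, hdiv⟩ := hf
  obtain ⟨r, s, hs, hrs⟩ := IsFractionRing.div_surjective (A := A) f
  have hs0 : s ≠ 0 := nonZeroDivisors.ne_zero hs
  have hs0' : algebraMap A F s ≠ 0 := gw_algebraMap_ne_zero hs0
  have hr0 : r ≠ 0 := by
    rintro rfl
    rw [map_zero, zero_div] at hrs
    exact hf0 hrs.symm
  obtain ⟨m, rfl⟩ : ∃ m, n = m + 1 := Nat.exists_eq_succ_of_ne_zero hn
  -- `a = r s^m` satisfies `a = f s^(m+1)`
  set a : A := r * s ^ m with ha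
  have ha0 : a ≠ 0 := mul_ne_zero hr0 (pow_ne_zero m hs0)
  have hab : algebraMap A F a = f * algebraMap A F s ^ (m + 1) := by
    rw [ha, map_mul, map_pow, ← hrs, pow_succ]
    field_simp
  have ha0' : algebraMap A F a ≠ 0 := gw_algebraMap_ne_zero ha0
  -- the divisor of `a` is divisible by `n`
  have hdiva : ∀ P : Place K F, P.ord (algebraMap A F a) =
      ((m + 1 : ℕ) : ℤ) * ((P.ord f) / ((m + 1 : ℕ) : ℤ) + P.ord (algebraMap A F s)) := by
    intro P
    rw [hab, P.ord_mul hf0 (pow_ne_zero _ hs0'), ← zpow_natCast, P.ord_zpow, mul_add,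
      Int.mul_ediv_cancel' (hdiv P)]
  -- all analytic orders of `an a` are divisible by `n`
  have hord : ∀ z : ℍ, nr_OrdDvd (m + 1) (C.an a ∘ ofComplex) (z : ℂ) := by
    intro z
    obtain ⟨k, hk1, hk2⟩ := gw_valPt_algebraMap C z ha0
    obtain ⟨u, hu0, hu⟩ := gw_val_dvd K (gw_valPt_isVal C z) ha0' ((m + 1 : ℕ) : ℤ) _ hdiva
    have hA : AnalyticAt ℂ (C.an a ∘ ofComplex) (z : ℂ) :=
      gw_analyticOnNhd (C.an_mdiff a) _ z.im_pos
    rw [nr_ordDvd_iff hA]
    rw [hk1] at hu
    have hu1 : 0 ≤ gw_valPt C z u := by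
      by_contra hneg
      push Not at hneg
      have : ((m + 1 : ℕ) : ℤ) * gw_valPt C z u < 0 :=
        mul_neg_of_pos_of_neg (by positivity) hneg
      omega
    refine ⟨(gw_valPt C z u).toNat, ?_⟩
    rw [hk2]
    congr 1
    have h2 : ((gw_valPt C z u).toNat : ℤ) = gw_valPt C z u := Int.toNat_of_nonneg hu1
    have h3 : (k : ℤ) = (((m + 1) * (gw_valPt C z u).toNat : ℕ) : ℤ) := by
      push_cast
      rw [h2, hu]
      push_cast
      ring
    exact_mod_cast h3
  obtain ⟨z₁, hz₁⟩ := gw_exists_ne_zero (C.an_ne_zero ha0)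
  obtain ⟨h, hh, hpow⟩ := nr_exists_root_uhp (Nat.succ_ne_zero m) (C.an_mdiff a) hz₁ hord
  have hh0 : h ≠ 0 := by
    rintro rfl
    have := hpow z₁
    simp only [Pi.zero_apply, zero_pow (Nat.succ_ne_zero m)] at this
    exact hz₁ this.symm
  obtain ⟨χ, hχ, -⟩ := gw_exists_char (Gamma0 N) hh hh0 (Nat.succ_ne_zero m) (fun γ hγ z => by
    rw [hpow, hpow, C.an_inv a γ hγ z])
  exact ⟨χ, a, s, h, hs0, hab, hh, hh0, hpow, hχ⟩

end Fermat.Agent.JT3
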