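import Mathlib
import Fermat.Agent.JT3.Gateway.Injective
import Fermat.Agent.JT3.Gateway.PointVal
import Fermat.Agent.JT3.Gateway.Homology

/-!
# JT3 / T1 gateway: finiteness of the `n`-divisible functions modulo `K^× · (F^×)ⁿ`

* `gw_finite_char`: `Γ₀(N)` has finitely many characters of exponent `n` (it is finitely generated);
* **`gw_fin`**: in a complete rational context there is a finite set `T` of `n`-divisible functions
  such that every `n`-divisible function is `c · uⁿ · t` with `t ∈ T` (the input (FIN) of the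
  descent `ℂ → Q̄`).
-/

set_option autoImplicit false

open UpperHalfPlane CongruenceSubgroup
open scoped MatrixGroups Manifold

namespace Fermat.Agent.JT3

open Fermat.Agent.S24 AlgebraicCurve

variable {N : ℕ} [NeZero N]

/-- `Γ₀(N)` has finitely many characters of exponent `n` -/
theorem gw_finite_char (N : ℕ) [NeZero N] {n : ℕ} (hn : n ≠ 0) :
    Finite {χ : ↥(Gamma0 N) →* ℂˣ // χ ^ n = 1} := by
  have : NeZero n := ⟨hn⟩
  obtain ⟨S, hS⟩ := (gh_fg_Gamma0 N).out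
  let Φ : {χ : ↥(Gamma0 N) →* ℂˣ // χ ^ n = 1} → (S → rootsOfUnity n ℂ) := fun χ s =>
    ⟨χ.1 s.1, by
      rw [mem_rootsOfUnity]
      have := congrArg (fun ψ : ↥(Gamma0 N) →* ℂˣ => ψ s.1) χ.2
      simpa using this⟩
  refine Finite.of_injective Φ ?_
  intro χ χ' h
  apply Subtype.ext
  refine MonoidHom.eq_of_eqOn_dense hS ?_
  intro s hs
  have h1 := congrFun h ⟨s, hs⟩
  exact congrArg (fun x : rootsOfUnity n ℂ => (x : ℂˣ)) h1

variable {K F A : Type} [Field K] [Algebra K ℂ] [Field F] [Algebra K F]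
  [CommRing A] [IsDomain A] [Algebra K A] [Algebra A F] [IsScalarTower K A F]
  [IsFractionRing A F] {C : gw_Ctx N K F A}

omit [NeZero N] [Algebra K ℂ] in
theorem gw_isDiv_one (n : ℕ) : gw_IsDiv K n (1 : F) :=
  ⟨one_ne_zero, fun P => by rw [P.ord_one]; exact dvd_zero _⟩

/-- **(FIN)**: finitely many classes of `n`-divisible functions modulo `K^× · (F^×)ⁿ` -/
theorem gw_fin (hC : gw_Complete C) (hR : gw_Rational C) {n : ℕ} (hn : n ≠ 0) :
    ∃ T : Finset F, (∀ t ∈ T, gw_IsDiv K n t) ∧ ∀ f, gw_IsDiv K n f →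
      ∃ t ∈ T, ∃ (c : K) (u : F), c ≠ 0 ∧ u ≠ 0 ∧ f = algebraMap K F c * u ^ n * t := by
  classical
  have := gw_finite_char N hn
  have : Fintype {χ : ↥(Gamma0 N) →* ℂˣ // χ ^ n = 1} := Fintype.ofFinite _
  let g : {χ : ↥(Gamma0 N) →* ℂˣ // χ ^ n = 1} → F := fun χ =>
    if h : ∃ f : F, gw_IsDiv K n f ∧ gw_HasChar C n f χ.1 then h.choose else 1
  refine ⟨Finset.univ.image g, ?_, ?_⟩
  · intro t ht
    rw [Finset.mem_image] at ht
    obtain ⟨χ, -, rfl⟩ := ht
    by_cases h : ∃ f : F, gw_IsDiv K n f ∧ gw_HasChar C n f χ.1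
    · simp only [g, dif_pos h]
      exact h.choose_spec.1
    · simp only [g, dif_neg h]
      exact gw_isDiv_one n
  · intro f hf
    obtain ⟨χ, hχ⟩ := gw_hasChar_exists (C := C) hn hf
    have hχn : χ ^ n = 1 := by
      refine MonoidHom.ext fun γ => ?_
      rw [MonoidHom.pow_apply, MonoidHom.one_apply]
      exact gw_hasChar_pow_eq_one hχ γ
    have h : ∃ f : F, gw_IsDiv K n f ∧
        gw_HasChar C n f (⟨χ, hχn⟩ : {χ : ↥(Gamma0 N) →* ℂˣ // χ ^ n = 1}).1 := ⟨f, hf, hχ⟩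
    refine ⟨g ⟨χ, hχn⟩, Finset.mem_image_of_mem g (Finset.mem_univ _), ?_⟩
    have hg : g ⟨χ, hχn⟩ = h.choose := by simp only [g, dif_pos h]
    rw [hg]
    exact gw_hasChar_eq hC hR hn h.choose_spec.2 hχ

open Fermat.Agent.S24.Br in
/-- (FIN) for the context over `Q̄` -/
theorem gw_fin_bar (N : ℕ) [NeZero N] {n : ℕ} (hn : n ≠ 0) :
    ∃ T : Finset (ModularCurve.modularFunctionFieldBar N),
      (∀ t ∈ T, gw_IsDiv (AlgebraicClosure ℚ) n t) ∧ ∀ f, gw_IsDiv (AlgebraicClosure ℚ) n f →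
      ∃ t ∈ T, ∃ (c : AlgebraicClosure ℚ) (u : ModularCurve.modularFunctionFieldBar N),
        c ≠ 0 ∧ u ≠ 0 ∧ f = algebraMap _ _ c * u ^ n * t :=
  gw_fin (gw_ctxBar_complete N) (gw_ctxBar_rational N) hn

end Fermat.Agent.JT3
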