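import Mathlib
import Fermat.Agent.S24.Germ.Disc
import Fermat.Agent.S24.Germ.LaurentQ

/-!
# JT3 / T1 gateway: local analysis at elliptic points and cusps

Pure analysis (no function field):

* `gw_fix_mult`: if `γ` fixes `z0 ∈ ℍ` and `h (γ z) = l · h z`, then `l = rot ^ ord_{z0} h`;
* `gw_par_aux`, `gw_par_mu`, `gw_par_merQ`, `gw_par_twist`: the analogue at `i∞`: if
  `k (τ + 1) = μ · k τ`, `kⁿ` is meromorphic at `i∞` of order divisible by `n`, then `μ = 1`, `k` is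
  meromorphic at `i∞`, and `k (τ + a) = l · k τ` forces `l = exp (2πia) ^ ord k`.
-/

set_option autoImplicit false

open UpperHalfPlane Complex Filter Topology Function
open scoped Manifold Real ComplexConjugate MatrixGroups
open Fermat.Agent.S23.QF (IsQFun)

namespace Fermat.Agent.JT3

open Fermat.Agent.S24

/-! ### Fixed points in `ℍ` -/

/-- the order of a nonzero Taylor germ is finite -/
theorem gw_taylor_order_nat (z0 : ℍ) {h : ℍ → ℂ} (hh : MDiff h) (hh0 : h ≠ 0) :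
    ∃ k : ℕ, (gm_taylor z0 h).order = k ∧ (gm_taylor z0 h).coeff k ≠ 0 := by
  have hne : gm_taylor z0 h ≠ 0 := fun h0 => hh0 ((gm_taylor_eq_zero_iff z0 hh).mp h0)
  have h1 : (gm_taylor z0 h).order ≠ ⊤ := by rwa [ne_eq, PowerSeries.order_eq_top]
  refine ⟨(gm_taylor z0 h).order.toNat, (ENat.natCast_toNat h1).symm, ?_⟩
  exact PowerSeries.coeff_order hne

/-- **multiplier at a fixed point**: if `γ` fixes `z0` and `h (γ z) = l · h z` then
`l = rot ^ ord_{z0} h` -/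
theorem gw_fix_mult {γ : SL(2, ℤ)} {z0 : ℍ} (hγ : γ • z0 = z0) {h : ℍ → ℂ} (hh : MDiff h)
    (hh0 : h ≠ 0) {l : ℂ} (hl : ∀ z, h (γ • z) = l * h z) :
    ∃ k : ℕ, (gm_taylor z0 h).order = k ∧ l = gm_rot γ z0 ^ k := by
  obtain ⟨k, hk, hck⟩ := gw_taylor_order_nat z0 hh hh0
  refine ⟨k, hk, ?_⟩
  have h1 := gm_taylor_coeff_smul γ hγ hh k
  have h2 : (fun z => h (γ • z)) = l • h := by
    ext z
    rw [hl z, Pi.smul_apply, smul_eq_mul]
  rw [h2, gm_taylor_smul z0 l hh, PowerSeries.coeff_smul, smul_eq_mul] at h1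
  exact mul_right_cancel₀ hck h1

/-! ### The exponentials `τ ↦ exp (2πi t τ)` -/

/-- `τ ↦ exp (2πi t τ)` -/
noncomputable def gw_E (t : ℂ) (τ : ℍ) : ℂ := cexp (2 * π * Complex.I * t * τ)

theorem gw_E_ne_zero (t : ℂ) (τ : ℍ) : gw_E t τ ≠ 0 := Complex.exp_ne_zero _

theorem gw_E_mdiff (t : ℂ) : MDiff (gw_E t) := by
  rw [UpperHalfPlane.mdifferentiable_iff]
  have h1 : Differentiable ℂ (fun w : ℂ => cexp (2 * π * Complex.I * t * w)) := by fun_prop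
  refine h1.differentiableOn.congr fun w hw => ?_
  simp [gw_E, ofComplex_apply_of_im_pos hw]

theorem gw_E_vadd (t : ℂ) (a : ℝ) (τ : ℍ) :
    gw_E t (a +ᵥ τ) = cexp (2 * π * Complex.I * t * a) * gw_E t τ := by
  rw [gw_E, gw_E, ← Complex.exp_add, coe_vadd]
  congr 1
  ring

theorem gw_E_add (s t : ℂ) (τ : ℍ) : gw_E (s + t) τ = gw_E s τ * gw_E t τ := by
  rw [gw_E, gw_E, gw_E, ← Complex.exp_add]
  congr 1
  ring

theorem gw_E_zero (τ : ℍ) : gw_E 0 τ = 1 := by simp [gw_E]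

theorem gw_E_pow (t : ℂ) (n : ℕ) (τ : ℍ) : gw_E t τ ^ n = gw_E (n * t) τ := by
  rw [gw_E, gw_E, ← Complex.exp_nat_mul]
  congr 1
  ring

theorem gw_E_one (τ : ℍ) : gw_E 1 τ = qH τ := by
  simp [gw_E, qH, Periodic.qParam]

theorem gw_E_nat (s : ℕ) (τ : ℍ) : gw_E s τ = qH τ ^ s := by
  rw [← gw_E_one, gw_E_pow, mul_one]

/-! ### Boundedness of roots -/

theorem gw_bdd_of_pow {G : ℍ → ℂ} {n : ℕ} (hn : n ≠ 0) (h : IsBoundedAtImInfty (G ^ n)) :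
    IsBoundedAtImInfty G := by
  rw [UpperHalfPlane.isBoundedAtImInfty_iff] at h ⊢
  obtain ⟨M, A, hMA⟩ := h
  refine ⟨max 1 M, A, fun z hz => ?_⟩
  have h1 := hMA z hz
  rw [Pi.pow_apply, norm_pow] at h1
  rcases le_or_gt ‖G z‖ 1 with h2 | h2
  · exact le_trans h2 (le_max_left _ _)
  · exact le_trans (le_trans (le_self_pow₀ h2.le hn) h1) (le_max_right _ _)

/-! ### Roots of functions meromorphic at `i∞` -/

/-- **the fractional `q`-expansion of an `n`-th root**: if `K (τ + 1) = exp (2πi s/n) K τ` and `Kⁿ`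
is meromorphic at `i∞`, then `ψ = K · exp (-2πi (s/n) τ)` is meromorphic at `i∞` and
`ψⁿ qˢ = Kⁿ`. -/
theorem gw_par_aux {K : ℍ → ℂ} (hK : MDiff K) {n : ℕ} (hn : n ≠ 0) (s : ℕ)
    (hper : ∀ τ : ℍ, K ((1 : ℝ) +ᵥ τ) = cexp (2 * π * Complex.I * ((s : ℂ) / n)) * K τ)
    (hG : gm_IsMerQ (K ^ n)) :
    gm_IsMerQ (K * gw_E (-((s : ℂ) / n))) ∧
      (K * gw_E (-((s : ℂ) / n))) ^ n * qH ^ s = K ^ n := by
  have hn' : (n : ℂ) ≠ 0 := by exact_mod_cast hn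
  set ψ : ℍ → ℂ := K * gw_E (-((s : ℂ) / n)) with hψ
  -- `ψⁿ qˢ = Kⁿ`
  have hkey : ∀ τ : ℍ, gw_E (-((s : ℂ) / n)) τ ^ n * qH τ ^ s = 1 := by
    intro τ
    rw [gw_E_pow, ← gw_E_nat, ← gw_E_add]
    have : (n : ℂ) * -((s : ℂ) / n) + s = 0 := by field_simp; ring
    rw [this, gw_E_zero]
  have hpow : ψ ^ n * qH ^ s = K ^ n := by
    ext τ
    simp only [hψ, Pi.mul_apply, Pi.pow_apply, mul_pow]
    rw [mul_assoc, hkey τ, mul_one]
  refine ⟨?_, hpow⟩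
  obtain ⟨M, hM⟩ := hG
  refine ⟨M + s, ?_, ?_, ?_⟩
  · exact (qH_mdiff.pow (M + s)).mul (hK.mul (gw_E_mdiff _))
  · apply gm_periodic_of_vadd
    intro τ
    simp only [hψ, Pi.mul_apply, Pi.pow_apply]
    rw [gm_vadd_of_periodic qH_periodic, hper τ, gw_E_vadd]
    have h1 : cexp (2 * π * Complex.I * ((s : ℂ) / n)) *
        cexp (2 * π * Complex.I * -((s : ℂ) / n) * ((1 : ℝ) : ℂ)) = 1 := by
      rw [← Complex.exp_add]
      have : 2 * π * Complex.I * ((s : ℂ) / n) +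
          2 * π * Complex.I * -((s : ℂ) / n) * ((1 : ℝ) : ℂ) = 0 := by
        push_cast
        ring
      rw [this, Complex.exp_zero]
    linear_combination (qH τ ^ (M + s) * K τ * gw_E (-((s : ℂ) / n)) τ) * h1
  · apply gw_bdd_of_pow hn
    obtain ⟨m, rfl⟩ : ∃ m, n = m + 1 := Nat.exists_eq_succ_of_ne_zero hn
    have h2 : (qH ^ (M + s) * ψ) ^ (m + 1) = qH ^ ((M + s) * m) * (qH ^ M * K ^ (m + 1)) := by
      rw [← hpow]
      ext τ
      simp only [Pi.mul_apply, Pi.pow_apply]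
      ring
    rw [h2]
    exact ((isQFun_qH.pow _).mul hM).bdd

theorem gw_lq_qH_order : (gm_lq qH).order = 1 := by
  rw [gm_lq_of_isQFun isQFun_qH, gm_qExpansion_qH, HahnSeries.ofPowerSeries_X]
  exact HahnSeries.order_single one_ne_zero

theorem gw_lq_qH_ne_zero : gm_lq qH ≠ 0 := by
  rw [gm_lq_of_isQFun isQFun_qH, gm_qExpansion_qH, HahnSeries.ofPowerSeries_X]
  exact gm_single_ne_zero 1

/-- **`μ = 1`**: if `K (τ + 1) = μ K τ`, `μⁿ = 1`, and `Kⁿ` is meromorphic at `i∞` of order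
divisible by `n`, then `μ = 1`. -/
theorem gw_par_mu {K : ℍ → ℂ} (hK : MDiff K) (hK0 : K ≠ 0) {n : ℕ} (hn : n ≠ 0) {μ : ℂ}
    (hμ : μ ^ n = 1) (hper : ∀ τ : ℍ, K ((1 : ℝ) +ᵥ τ) = μ * K τ) (hG : gm_IsMerQ (K ^ n))
    (hdvd : (n : ℤ) ∣ (gm_lq (K ^ n)).order) : μ = 1 := by
  have : NeZero n := ⟨hn⟩
  have hμ0 : μ ≠ 0 := by
    rintro rfl
    rw [zero_pow hn] at hμ
    exact zero_ne_one hμ
  obtain ⟨s, hsn, hs⟩ : ∃ s < n, cexp (2 * π * Complex.I * ((s : ℂ) / n)) = μ := by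
    have h1 : (Units.mk0 μ hμ0) ∈ rootsOfUnity n ℂ := by
      rw [_root_.mem_rootsOfUnity]
      apply Units.ext
      rw [Units.val_pow_eq_pow_val, Units.val_mk0, hμ, Units.val_one]
    rw [Complex.mem_rootsOfUnity] at h1
    obtain ⟨i, hi, h2⟩ := h1
    exact ⟨i, hi, by simpa using h2⟩
  obtain ⟨hψ, hpow⟩ := gw_par_aux hK hn s (fun τ => by rw [hs, hper τ]) hG
  set ψ : ℍ → ℂ := K * gw_E (-((s : ℂ) / n)) with hψdef
  have hψ0 : gm_lq ψ ≠ 0 := by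
    rw [ne_eq, gm_lq_eq_zero_iff hψ]
    intro h0
    apply hK0
    ext τ
    have h1 := congrFun h0 τ
    simp only [hψdef, Pi.mul_apply, Pi.zero_apply] at h1
    exact (mul_eq_zero.mp h1).resolve_right (gw_E_ne_zero _ _)
  have h3 : gm_lq (K ^ n) = gm_lq ψ ^ n * gm_lq qH ^ s := by
    rw [← hpow, gm_lq_mul (hψ.pow n) (gm_isMerQ_qH.pow s), gm_lq_pow hψ, gm_lq_pow gm_isMerQ_qH]
  rw [h3, HahnSeries.order_mul (pow_ne_zero n hψ0) (pow_ne_zero s gw_lq_qH_ne_zero),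
    HahnSeries.order_pow, HahnSeries.order_pow, gw_lq_qH_order, nsmul_eq_mul, nsmul_eq_mul,
    mul_one] at hdvd
  have h4 : (n : ℤ) ∣ (s : ℤ) := (Int.dvd_add_right (Dvd.intro _ rfl)).mp hdvd
  have h5 : s = 0 := Nat.eq_zero_of_dvd_of_lt (Int.natCast_dvd_natCast.mp h4) hsn
  rw [← hs, h5]
  simp

/-- an `n`-th root of a function meromorphic at `i∞`, if `1`-periodic, is meromorphic at `i∞` -/
theorem gw_par_merQ {K : ℍ → ℂ} (hK : MDiff K) {n : ℕ} (hn : n ≠ 0)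
    (hper : ∀ τ : ℍ, K ((1 : ℝ) +ᵥ τ) = K τ) (hG : gm_IsMerQ (K ^ n)) : gm_IsMerQ K := by
  obtain ⟨h1, -⟩ := gw_par_aux hK hn 0 (fun τ => by rw [hper τ]; simp) hG
  have h2 : K * gw_E (-(((0 : ℕ) : ℂ) / n)) = K := by
    ext τ
    simp [gw_E_zero]
  rwa [h2] at h1

/-- **multiplier at `i∞`**: if `K (τ + a) = l · K τ` then `l = exp (2πia) ^ ord_∞ K` -/
theorem gw_par_twist {K : ℍ → ℂ} (hKm : gm_IsMerQ K) (hK0 : K ≠ 0) (a : ℝ) {l : ℂ}
    (hl : ∀ τ : ℍ, K (a +ᵥ τ) = l * K τ) :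
    l = cexp (2 * π * Complex.I * a) ^ (gm_lq K).order := by
  have h0 : gm_lq K ≠ 0 := by rwa [ne_eq, gm_lq_eq_zero_iff hKm]
  have hc : (gm_lq K).coeff (gm_lq K).order ≠ 0 := HahnSeries.coeff_order_eq_zero.not.mpr h0
  have h1 := gm_lq_coeff_vadd hKm a (gm_lq K).order
  have h2 : (fun τ => K (a +ᵥ τ)) = l • K := by
    ext τ
    rw [hl τ, Pi.smul_apply, smul_eq_mul]
  rw [h2, gm_lq_smul l hKm, HahnSeries.C_mul_eq_smul, HahnSeries.coeff_smul, smul_eq_mul] at h1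
  exact mul_right_cancel₀ hc h1

end Fermat.Agent.JT3
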