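import Mathlib

/-!
# JT3 / T1 gateway: elliptic and parabolic elements of `SL(2,ℤ)`

* `gw_exists_fix`: `tr(γ)² < 4` ⟹ `γ` has a fixed point in `ℍ`;
* `gw_exists_conj_T`: `tr(γ)² = 4` ⟹ `γ g = ± g Tᵐ` for some `g ∈ SL(2,ℤ)`, `m ∈ ℤ`, stated on the
  action: `γ • g • z = g • (m + z)`.
-/

set_option autoImplicit false

open UpperHalfPlane
open scoped MatrixGroups

namespace Fermat.Agent.JT3

/-! ### Elliptic elements -/

theorem gw_quad_root (a b c d : ℤ) (hdet : a * d - b * c = 1) (htr : (a + d) ^ 2 < 4) :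
    ∃ w : ℂ, 0 < w.im ∧ (c : ℂ) * w ^ 2 + ((d : ℂ) - a) * w - b = 0 := by
  have hc : c ≠ 0 := by
    rintro rfl
    have h1 : a * d = 1 := by linarith
    rcases Int.eq_one_or_neg_one_of_mul_eq_one' h1 with ⟨rfl, rfl⟩ | ⟨rfl, rfl⟩ <;> norm_num at htr
  have hcR : (c : ℝ) ≠ 0 := by exact_mod_cast hc
  have hD : (0 : ℝ) < 4 - ((a : ℝ) + d) ^ 2 := by
    have : (((a + d) ^ 2 : ℤ) : ℝ) < ((4 : ℤ) : ℝ) := by exact_mod_cast htr
    push_cast at this
    linarith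
  set s : ℝ := Real.sqrt (4 - ((a : ℝ) + d) ^ 2) with hs
  have hs2 : s ^ 2 = 4 - ((a : ℝ) + d) ^ 2 := Real.sq_sqrt hD.le
  have hs0 : 0 < s := Real.sqrt_pos.mpr hD
  have hdetR : (a : ℝ) * d - b * c = 1 := by exact_mod_cast hdet
  refine ⟨⟨((a : ℝ) - d) / (2 * c), s / (2 * |(c : ℝ)|)⟩, ?_, ?_⟩
  · exact div_pos hs0 (by positivity)
  · have habs : |(c : ℝ)| ^ 2 = (c : ℝ) ^ 2 := sq_abs _
    have habs0 : |(c : ℝ)| ≠ 0 := abs_ne_zero.mpr hcR
    apply Complex.ext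
    · simp only [pow_two, Complex.add_re, Complex.sub_re, Complex.mul_re, Complex.intCast_re,
        Complex.intCast_im, Complex.sub_im, Complex.zero_re, zero_mul, sub_zero]
      have h2 : (s / (2 * |(c : ℝ)|)) * (s / (2 * |(c : ℝ)|)) = (4 - ((a : ℝ) + d) ^ 2) / (4 * c ^ 2) := by
        rw [← hs2, ← habs]
        field_simp
        ring
      rw [h2]
      field_simp
      linear_combination (16 : ℝ) * hdetR
    · simp only [pow_two, Complex.add_im, Complex.sub_im, Complex.mul_im, Complex.mul_re,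
        Complex.intCast_re, Complex.intCast_im, Complex.sub_re, Complex.zero_im, zero_mul,
        add_zero, sub_zero]
      field_simp
      ring

/-- **an elliptic element has a fixed point in `ℍ`** -/
theorem gw_exists_fix (γ : SL(2, ℤ))
    (h : (γ : Matrix (Fin 2) (Fin 2) ℤ).trace ^ 2 < 4) : ∃ z0 : ℍ, γ • z0 = z0 := by
  have hdet : γ 0 0 * γ 1 1 - γ 0 1 * γ 1 0 = 1 := by
    have := γ.det_coe
    rwa [Matrix.det_fin_two] at this
  rw [Matrix.trace_fin_two] at h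
  obtain ⟨w, hw, hq⟩ := gw_quad_root (γ 0 0) (γ 0 1) (γ 1 0) (γ 1 1) hdet h
  refine ⟨⟨w, hw⟩, ?_⟩
  apply UpperHalfPlane.ext
  rw [coe_specialLinearGroup_apply]
  have hden : ((algebraMap ℤ ℝ (γ 1 0) : ℝ) : ℂ) * w + ((algebraMap ℤ ℝ (γ 1 1) : ℝ) : ℂ) ≠ 0 := by
    have := UpperHalfPlane.denom_ne_zero (Matrix.SpecialLinearGroup.mapGL ℝ γ) ⟨w, hw⟩
    simpa [UpperHalfPlane.denom] using this
  show (((algebraMap ℤ ℝ (γ 0 0) : ℝ) : ℂ) * w + ((algebraMap ℤ ℝ (γ 0 1) : ℝ) : ℂ)) /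
      (((algebraMap ℤ ℝ (γ 1 0) : ℝ) : ℂ) * w + ((algebraMap ℤ ℝ (γ 1 1) : ℝ) : ℂ)) = w
  rw [div_eq_iff hden]
  simp only [algebraMap_int_eq, eq_intCast, Complex.ofReal_intCast]
  linear_combination -hq

/-! ### Parabolic elements -/

/-- an upper triangular element of `SL(2,ℤ)` acts on `ℍ` by an integral translation -/
theorem gw_upper_smul (M : SL(2, ℤ)) (h : M 1 0 = 0) (z : ℍ) :
    M • z = (((M 0 0 * M 0 1 : ℤ) : ℝ)) +ᵥ z := by
  have hdet : M 0 0 * M 1 1 - M 0 1 * M 1 0 = 1 := by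
    have := M.det_coe
    rwa [Matrix.det_fin_two] at this
  rw [h, mul_zero, sub_zero] at hdet
  apply UpperHalfPlane.ext
  rw [coe_specialLinearGroup_apply, coe_vadd, h]
  simp only [algebraMap_int_eq, eq_intCast, Int.cast_zero, Complex.ofReal_zero, zero_mul, zero_add,
    Complex.ofReal_intCast]
  rcases Int.eq_one_or_neg_one_of_mul_eq_one' hdet with ⟨h1, h2⟩ | ⟨h1, h2⟩
  · rw [h1, h2]
    push_cast
    ring
  · rw [h1, h2]
    push_cast
    ring

/-- a parabolic element (or `±1`) of `SL(2,ℤ)` is conjugate to an upper triangular one -/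
theorem gw_exists_conj_upper (γ : SL(2, ℤ))
    (h : (γ : Matrix (Fin 2) (Fin 2) ℤ).trace ^ 2 = 4) :
    ∃ g : SL(2, ℤ), (g⁻¹ * γ * g) 1 0 = 0 := by
  have hdet : γ 0 0 * γ 1 1 - γ 0 1 * γ 1 0 = 1 := by
    have := γ.det_coe
    rwa [Matrix.det_fin_two] at this
  rw [Matrix.trace_fin_two] at h
  by_cases hc : γ 1 0 = 0
  · exact ⟨1, by simpa using hc⟩
  -- `e = ±1` with `a + d = 2 e`
  obtain ⟨e, he2, hee⟩ : ∃ e : ℤ, γ 0 0 + γ 1 1 = 2 * e ∧ e * e = 1 := by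
    have h1 : (γ 0 0 + γ 1 1 - 2) * (γ 0 0 + γ 1 1 + 2) = 0 := by linear_combination h
    rcases mul_eq_zero.mp h1 with h2 | h2
    · exact ⟨1, by linarith, by norm_num⟩
    · exact ⟨-1, by linarith, by norm_num⟩
  set a := γ 0 0 with ha
  set b := γ 0 1 with hb
  set c := γ 1 0 with hcdef
  set d := γ 1 1 with hd
  have ht0 : 0 < Int.gcd (a - e) c := Int.gcd_pos_of_ne_zero_right _ hc
  set t : ℤ := (Int.gcd (a - e) c : ℤ) with ht
  have ht0' : t ≠ 0 := by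
    have : (0 : ℤ) < t := by rw [ht]; exact_mod_cast ht0
    exact this.ne'
  obtain ⟨p, hp⟩ : t ∣ a - e := Int.gcd_dvd_left _ _
  obtain ⟨r, hr⟩ : t ∣ c := Int.gcd_dvd_right _ _
  have hcop : IsCoprime p r := by
    rw [Int.isCoprime_iff_gcd_eq_one]
    have h1 := Int.gcd_div_gcd_div_gcd (i := a - e) (j := c) ht0
    have h2 : (a - e) / t = p := by rw [hp]; exact Int.mul_ediv_cancel_left _ ht0'
    have h3 : c / t = r := by rw [hr]; exact Int.mul_ediv_cancel_left _ ht0'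
    rwa [← ht, h2, h3] at h1
  obtain ⟨x, y, hxy⟩ := hcop
  refine ⟨⟨!![p, -y; r, x], by rw [Matrix.det_fin_two_of]; linarith⟩, ?_⟩
  have hentry : ∀ g : SL(2, ℤ), (g⁻¹ * γ * g) 1 0 =
      c * (g 0 0) ^ 2 + (d - a) * (g 0 0) * (g 1 0) - b * (g 1 0) ^ 2 := by
    intro g
    rw [Matrix.SpecialLinearGroup.coe_mul, Matrix.SpecialLinearGroup.coe_mul,
      Matrix.SpecialLinearGroup.coe_inv, Matrix.adjugate_fin_two]
    simp only [Matrix.mul_apply, Fin.sum_univ_two, Matrix.of_apply, Matrix.cons_val', Matrix.cons_val_zero,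
      Matrix.cons_val_one, Matrix.cons_val_fin_one]
    ring
  rw [hentry]
  show c * p ^ 2 + (d - a) * p * r - b * r ^ 2 = 0
  have h5 : t ^ 2 * (c * p ^ 2 + (d - a) * p * r - b * r ^ 2) = 0 := by
    have h6 : t ^ 2 * (c * p ^ 2 + (d - a) * p * r - b * r ^ 2) =
        c * (t * p) ^ 2 + (d - a) * (t * p) * (t * r) - b * (t * r) ^ 2 := by ring
    rw [h6, ← hp, ← hr]
    have hd' : d = 2 * e - a := by linarith
    rw [hd'] at hdet ⊢
    linear_combination c * hdet - c * hee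
  exact (mul_eq_zero.mp h5).resolve_left (pow_ne_zero 2 ht0')

/-- **a parabolic element (or `±1`) acts as a conjugate of an integral translation** -/
theorem gw_exists_conj_T (γ : SL(2, ℤ))
    (h : (γ : Matrix (Fin 2) (Fin 2) ℤ).trace ^ 2 = 4) :
    ∃ (g : SL(2, ℤ)) (m : ℤ), ∀ z : ℍ, γ • (g • z) = g • ((m : ℝ) +ᵥ z) := by
  obtain ⟨g, hg⟩ := gw_exists_conj_upper γ h
  refine ⟨g, (g⁻¹ * γ * g) 0 0 * (g⁻¹ * γ * g) 0 1, fun z => ?_⟩
  rw [← gw_upper_smul _ hg z, ← mul_smul, ← mul_smul]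
  congr 1
  group

end Fermat.Agent.JT3
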