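import Mathlib
import Fermat.Agent.JT3.Riemann.Main
import Fermat.Agent.JT3.Gateway.Defs
import Fermat.Prelude.Def_AlgebraicCurve_BaseChangeGalois

/-!
# JT3 / T1 gateway, leaf (PIC): `Pic⁰[n] ≃ 𝒮 / 𝒫`  (prefix `gp_`)

`F / K` a function field with a separating generator over an algebraically closed field `K`.

* `gp_S K F n`: the units `f` of `F` whose divisor is divisible by `n` (`n ∣ ord_P f` for all `P`);
* `gp_P K F n`: the units of the form `c · uⁿ`, `c ∈ Kˣ`;
* `gp_divN hx n f`: the divisor `(1/n) · div f` of `f ∈ gp_S K F n`;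
* `gp_equiv hx hn : Pic0.torsion K F n ≃+ Additive (gp_S K F n ⧸ (gp_P K F n).subgroupOf _)`,
  characterised by `gp_equiv_mk`: the class of `D` with `n · D = div f` goes to the class of `f`.
-/

set_option autoImplicit false
set_option linter.unusedSectionVars false
set_option linter.style.haveILetI false

namespace Fermat.Agent.JT3

open AlgebraicCurve Fermat.Agent.S24

universe u v
variable (K : Type u) (F : Type v) [Field K] [Field F] [Algebra K F]

/-- The units of `F` whose divisor is divisible by `n`. -/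
def gp_S (n : ℕ) : Subgroup Fˣ where
  carrier := {f | ∀ P : Place K F, (n : ℤ) ∣ P.ord (f : F)}
  one_mem' := fun P => by rw [Units.val_one, Place.ord_one]; exact dvd_zero _
  mul_mem' := by
    intro f g hf hg P
    rw [Units.val_mul, P.ord_mul f.ne_zero g.ne_zero]
    exact dvd_add (hf P) (hg P)
  inv_mem' := by
    intro f hf P
    rw [Units.val_inv_eq_inv_val, P.ord_inv]
    exact (dvd_neg).2 (hf P)

/-- The units of `F` of the form `c · uⁿ` with `c` a nonzero constant. -/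
def gp_P (n : ℕ) : Subgroup Fˣ where
  carrier := {f | ∃ (c : Kˣ) (u : Fˣ), f = Units.map (algebraMap K F : K →* F) c * u ^ n}
  one_mem' := ⟨1, 1, by rw [map_one, one_pow, one_mul]⟩
  mul_mem' := by
    rintro _ _ ⟨c, u, rfl⟩ ⟨c', u', rfl⟩
    exact ⟨c * c', u * u', by rw [map_mul, mul_pow]; exact mul_mul_mul_comm _ _ _ _⟩
  inv_mem' := by
    rintro _ ⟨c, u, rfl⟩
    exact ⟨c⁻¹, u⁻¹, by rw [mul_inv, map_inv, inv_pow]⟩

variable {K F}

theorem gp_mem_S {n : ℕ} {f : Fˣ} :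
    f ∈ gp_S K F n ↔ ∀ P : Place K F, (n : ℤ) ∣ P.ord (f : F) := Iff.rfl

theorem gp_mem_P {n : ℕ} {f : Fˣ} :
    f ∈ gp_P K F n ↔ ∃ (c : Kˣ) (u : Fˣ), f = Units.map (algebraMap K F : K →* F) c * u ^ n :=
  Iff.rfl

theorem gp_P_le_S [IsAlgClosed K] (n : ℕ) : gp_P K F n ≤ gp_S K F n := by
  rintro _ ⟨c, u, rfl⟩ P
  rw [Units.val_mul, P.ord_mul (Units.ne_zero _) (Units.ne_zero _), Units.coe_map, Units.val_pow_eq_pow_val,
    rt_ord_pow]
  have h0 : P.ord (algebraMap K F (c : K)) = 0 := hw_ord_algebraMap P (c : K)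
  show (n : ℤ) ∣ P.ord ((algebraMap K F : K →* F) (c : K)) + n * P.ord (u : F)
  rw [show ((algebraMap K F : K →* F) (c : K)) = algebraMap K F (c : K) from rfl, h0, zero_add]
  exact dvd_mul_right _ _

/-! ### The divisor `(1/n) · div f` -/

section divN

variable [IsAlgClosed K] {x : F} (hx : rt_IsSepGen K x)

/-- The divisor `(1/n) · div f` (meaningful for `f ∈ gp_S K F n`). -/
noncomputable def gp_divN (n : ℕ) (f : Fˣ) : Divisor K F :=
  Finsupp.ofSupportFinite (fun P => P.ord (f : F) / (n : ℤ))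
    ((rt_finite_support hx (f : F)).subset fun P hP h0 => hP (by
      show P.ord (f : F) / (n : ℤ) = 0
      rw [h0, Int.zero_ediv]))

@[simp] theorem gp_divN_apply (n : ℕ) (f : Fˣ) (P : Place K F) :
    gp_divN hx n f P = P.ord (f : F) / (n : ℤ) := rfl

theorem gp_mul_divN_apply {n : ℕ} {f : Fˣ} (hf : f ∈ gp_S K F n) (P : Place K F) :
    (n : ℤ) * gp_divN hx n f P = P.ord (f : F) := by
  rw [gp_divN_apply]
  exact Int.mul_ediv_cancel' (hf P)

theorem gp_zsmul_divN {n : ℕ} {f : Fˣ} (hf : f ∈ gp_S K F n) :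
    (n : ℤ) • gp_divN hx n f = rt_div hx (f : F) := by
  ext P
  rw [Finsupp.smul_apply, smul_eq_mul, gp_mul_divN_apply hx hf, rt_div_apply]

/-- `(1/n) · div f` is the unique divisor `D` with `n · D = div f`. -/
theorem gp_divN_eq_of {n : ℕ} (hn : n ≠ 0) {f : Fˣ} {D : Divisor K F}
    (h : ∀ P : Place K F, (n : ℤ) * D P = P.ord (f : F)) : gp_divN hx n f = D := by
  ext P
  rw [gp_divN_apply, ← h P]
  exact Int.mul_ediv_cancel_left _ (Int.natCast_ne_zero.2 hn)

theorem gp_degree_divN {n : ℕ} (hn : n ≠ 0) {f : Fˣ} (hf : f ∈ gp_S K F n) :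
    Divisor.degree (gp_divN hx n f) = 0 := by
  have h1 : Divisor.degree ((n : ℤ) • gp_divN hx n f) = 0 := by
    rw [gp_zsmul_divN hx hf, rt_degree_div]
  rw [map_zsmul, smul_eq_mul] at h1
  exact (mul_eq_zero.1 h1).resolve_left (Int.natCast_ne_zero.2 hn)

theorem gp_divN_one (n : ℕ) : gp_divN hx n (1 : Fˣ) = 0 := by
  ext P
  rw [gp_divN_apply, Units.val_one, Place.ord_one, Int.zero_ediv, Finsupp.zero_apply]

theorem gp_divN_mul {n : ℕ} {f g : Fˣ} (hf : f ∈ gp_S K F n) :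
    gp_divN hx n (f * g) = gp_divN hx n f + gp_divN hx n g := by
  ext P
  rw [Finsupp.add_apply, gp_divN_apply, gp_divN_apply, gp_divN_apply, Units.val_mul,
    P.ord_mul f.ne_zero g.ne_zero]
  exact Int.add_ediv_of_dvd_left (hf P)

end divN

/-! ### The map `𝒮 → Pic⁰[n]` -/

section toPic

variable [IsAlgClosed K] {x : F} (hx : rt_IsSepGen K x) {n : ℕ} (hn : n ≠ 0)

/-- The degree-zero divisor `(1/n) · div f` of `f ∈ gp_S K F n`. -/
noncomputable def gp_div0 (f : gp_S K F n) : Divisor.degZero (K := K) (F := F) :=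
  ⟨gp_divN hx n (f : Fˣ), gp_degree_divN hx hn f.2⟩

@[simp] theorem gp_div0_coe (f : gp_S K F n) :
    ((gp_div0 hx hn f : Divisor.degZero (K := K) (F := F)) : Divisor K F) =
      gp_divN hx n (f : Fˣ) := rfl

theorem gp_div0_mul (f g : gp_S K F n) :
    gp_div0 hx hn (f * g) = gp_div0 hx hn f + gp_div0 hx hn g :=
  Subtype.ext (gp_divN_mul hx f.2)

theorem gp_div0_one : gp_div0 hx hn (1 : gp_S K F n) = 0 :=
  Subtype.ext (gp_divN_one hx n)

theorem gp_mk_eq_zero_iff (D : Divisor.degZero (K := K) (F := F)) :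
    Pic0.mk D = 0 ↔ Divisor.IsPrincipal (D : Divisor K F) := by
  rw [Pic0.mk, QuotientAddGroup.eq_zero_iff, AddSubgroup.mem_addSubgroupOf, Divisor.mem_principal]

theorem gp_mk_div0_mem_torsion (f : gp_S K F n) :
    Pic0.mk (gp_div0 hx hn f) ∈ Pic0.torsion K F n := by
  rw [Pic0.mem_torsion]
  have h1 : (n : ℤ) • Pic0.mk (gp_div0 hx hn f) = Pic0.mk ((n : ℤ) • gp_div0 hx hn f) := rfl
  rw [h1, gp_mk_eq_zero_iff]
  have h2 : (((n : ℤ) • gp_div0 hx hn f : Divisor.degZero (K := K) (F := F)) : Divisor K F) =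
      rt_div hx ((f : Fˣ) : F) := by
    rw [AddSubgroup.coe_zsmul, gp_div0_coe, gp_zsmul_divN hx f.2]
  rw [h2]
  exact rt_div_isPrincipal hx (Units.ne_zero _)

/-- The homomorphism `𝒮 → Pic⁰[n]`, `f ↦ [(1/n) · div f]`. -/
noncomputable def gp_toPic : gp_S K F n →* Multiplicative (Pic0.torsion K F n) where
  toFun f := Multiplicative.ofAdd ⟨Pic0.mk (gp_div0 hx hn f), gp_mk_div0_mem_torsion hx hn f⟩
  map_one' := by
    rw [← ofAdd_zero]
    congr 1
    apply Subtype.ext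
    show Pic0.mk (gp_div0 hx hn 1) = 0
    rw [gp_div0_one]; rfl
  map_mul' f g := by
    rw [← ofAdd_add]
    congr 1
    apply Subtype.ext
    show Pic0.mk (gp_div0 hx hn (f * g)) = Pic0.mk (gp_div0 hx hn f) + Pic0.mk (gp_div0 hx hn g)
    rw [gp_div0_mul]; rfl

theorem gp_toPic_apply (f : gp_S K F n) :
    ((Multiplicative.toAdd (gp_toPic hx hn f) : Pic0.torsion K F n) : Pic0 K F) =
      Pic0.mk (gp_div0 hx hn f) := rfl

theorem gp_toPic_eq_one_iff (f : gp_S K F n) :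
    gp_toPic hx hn f = 1 ↔ (f : Fˣ) ∈ gp_P K F n := by
  have h0 : gp_toPic hx hn f = 1 ↔ Pic0.mk (gp_div0 hx hn f) = 0 := by
    constructor
    · intro h
      have h1 := congrArg (fun y => ((Multiplicative.toAdd y : Pic0.torsion K F n) : Pic0 K F)) h
      exact h1
    · intro h
      apply Multiplicative.toAdd.injective
      apply Subtype.ext
      exact h
  rw [h0, gp_mk_eq_zero_iff, gp_div0_coe]
  constructor
  · rintro ⟨u, hu, hD⟩
    -- `g := f / uⁿ` has trivial divisor, hence is constant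
    set g : F := ((f : Fˣ) : F) * (u ^ n)⁻¹ with hg
    have hun : u ^ n ≠ 0 := pow_ne_zero n hu
    have hg0 : g ≠ 0 := mul_ne_zero (Units.ne_zero _) (inv_ne_zero hun)
    have hord : ∀ P : Place K F, P.ord g = 0 := by
      intro P
      rw [hg, P.ord_mul (Units.ne_zero _) (inv_ne_zero hun), P.ord_inv, rt_ord_pow, ← hD P,
        gp_mul_divN_apply hx f.2]
      ring
    obtain ⟨c, hc⟩ := rt_const_of_forall_mem hx g
      (fun P => (hw_mem_iff_ord_nonneg P hg0).2 (hord P).ge)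
    have hc0 : c ≠ 0 := by
      rintro rfl
      rw [map_zero] at hc
      exact hg0 hc
    refine ⟨Units.mk0 c hc0, Units.mk0 u hu, Units.ext ?_⟩
    rw [Units.val_mul, Units.coe_map, Units.val_pow_eq_pow_val, Units.val_mk0, Units.val_mk0]
    show ((f : Fˣ) : F) = algebraMap K F c * u ^ n
    rw [← hc, hg, inv_mul_cancel_right₀ hun]
  · rintro ⟨c, u, hcu⟩
    refine ⟨(u : F), Units.ne_zero u, fun P => ?_⟩
    have h1 : gp_divN hx n (f : Fˣ) = rt_div hx (u : F) := by
      refine gp_divN_eq_of hx hn fun P => ?_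
      rw [rt_div_apply, hcu, Units.val_mul, Units.coe_map, Units.val_pow_eq_pow_val]
      show (n : ℤ) * P.ord (u : F) = P.ord (algebraMap K F (c : K) * (u : F) ^ n)
      have hc0 : algebraMap K F (c : K) ≠ 0 := by
        rw [Ne, map_eq_zero]; exact c.ne_zero
      rw [P.ord_mul hc0 (pow_ne_zero n (Units.ne_zero u)), rt_ord_pow, hw_ord_algebraMap,
        zero_add]
    rw [h1, rt_div_apply]

theorem gp_toPic_surjective : Function.Surjective (gp_toPic hx hn) := by
  intro y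
  obtain ⟨D, hD⟩ := Pic0.mk_surjective (Multiplicative.toAdd y : Pic0.torsion K F n).1
  have htors : (n : ℤ) • Pic0.mk D = 0 := by
    rw [hD]
    exact Pic0.mem_torsion.1 (Multiplicative.toAdd y : Pic0.torsion K F n).2
  have h1 : (n : ℤ) • Pic0.mk D = Pic0.mk ((n : ℤ) • D) := rfl
  rw [h1, gp_mk_eq_zero_iff] at htors
  obtain ⟨f, hf0, hf⟩ := htors
  have hf' : ∀ P : Place K F, (n : ℤ) * (D : Divisor K F) P = P.ord f := by
    intro P
    rw [← hf P, AddSubgroup.coe_zsmul, Finsupp.smul_apply, smul_eq_mul]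
  have hfS : Units.mk0 f hf0 ∈ gp_S K F n := fun P => ⟨(D : Divisor K F) P, (hf' P).symm⟩
  refine ⟨⟨Units.mk0 f hf0, hfS⟩, ?_⟩
  apply Multiplicative.toAdd.injective
  apply Subtype.ext
  rw [gp_toPic_apply, ← hD]
  congr 1
  apply Subtype.ext
  exact gp_divN_eq_of hx hn hf'

theorem gp_ker_toPic :
    (gp_toPic hx hn).ker = (gp_P K F n).subgroupOf (gp_S K F n) := by
  ext f
  rw [MonoidHom.mem_ker, gp_toPic_eq_one_iff, Subgroup.mem_subgroupOf]

/-- `𝒮 / 𝒫 ≃* Pic⁰[n]` (multiplicative form). -/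
noncomputable def gp_mulEquiv :
    gp_S K F n ⧸ (gp_P K F n).subgroupOf (gp_S K F n) ≃* Multiplicative (Pic0.torsion K F n) :=
  (QuotientGroup.quotientMulEquivOfEq (gp_ker_toPic hx hn).symm).trans
    (QuotientGroup.quotientKerEquivOfSurjective (gp_toPic hx hn) (gp_toPic_surjective hx hn))

theorem gp_mulEquiv_mk (f : gp_S K F n) :
    gp_mulEquiv hx hn (QuotientGroup.mk f) = gp_toPic hx hn f := rfl

/-- **`Pic⁰[n] ≃ 𝒮 / 𝒫`**: the class of a degree-zero divisor `D` with `n · D = div f` corresponds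
to the class of `f`. -/
noncomputable def gp_equiv :
    Pic0.torsion K F n ≃+ Additive (gp_S K F n ⧸ (gp_P K F n).subgroupOf (gp_S K F n)) :=
  MulEquiv.toAdditiveRight (gp_mulEquiv hx hn).symm

theorem gp_equiv_symm_mk (f : gp_S K F n) :
    (((gp_equiv hx hn).symm (Additive.ofMul (QuotientGroup.mk f)) : Pic0.torsion K F n) :
      Pic0 K F) = Pic0.mk (gp_div0 hx hn f) := rfl

/-- The characterising property of `gp_equiv`. -/
theorem gp_equiv_mk (D : Divisor.degZero (K := K) (F := F)) (f : gp_S K F n)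
    (h : ∀ P : Place K F, (n : ℤ) * (D : Divisor K F) P = P.ord ((f : Fˣ) : F))
    (hD : Pic0.mk D ∈ Pic0.torsion K F n) :
    gp_equiv hx hn ⟨Pic0.mk D, hD⟩ = Additive.ofMul (QuotientGroup.mk f) := by
  rw [← AddEquiv.eq_symm_apply]
  apply Subtype.ext
  rw [gp_equiv_symm_mk]
  show Pic0.mk D = Pic0.mk (gp_div0 hx hn f)
  congr 1
  apply Subtype.ext
  exact (gp_divN_eq_of hx hn h).symm

/-- Conversely every `f ∈ 𝒮` has a degree-zero divisor `D` with `n · D = div f`, whose class is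
`n`-torsion and corresponds to the class of `f`. -/
theorem gp_exists_divisor (f : gp_S K F n) :
    ∃ (D : Divisor.degZero (K := K) (F := F)) (hD : Pic0.mk D ∈ Pic0.torsion K F n),
      (∀ P : Place K F, (n : ℤ) * (D : Divisor K F) P = P.ord ((f : Fˣ) : F)) ∧
      gp_equiv hx hn ⟨Pic0.mk D, hD⟩ = Additive.ofMul (QuotientGroup.mk f) :=
  ⟨gp_div0 hx hn f, gp_mk_div0_mem_torsion hx hn f, fun P => gp_mul_divN_apply hx f.2 P,
    gp_equiv_mk hx hn _ f (fun P => gp_mul_divN_apply hx f.2 P) _⟩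

/-- Membership in the torsion subgroup in terms of divisors. -/
theorem gp_mk_mem_torsion_iff (D : Divisor.degZero (K := K) (F := F)) :
    Pic0.mk D ∈ Pic0.torsion K F n ↔
      ∃ f : F, f ≠ 0 ∧ ∀ P : Place K F, (n : ℤ) * (D : Divisor K F) P = P.ord f := by
  rw [Pic0.mem_torsion]
  have h1 : (n : ℤ) • Pic0.mk D = Pic0.mk ((n : ℤ) • D) := rfl
  rw [h1, gp_mk_eq_zero_iff]
  constructor
  · rintro ⟨f, hf0, hf⟩
    refine ⟨f, hf0, fun P => ?_⟩
    rw [← hf P, AddSubgroup.coe_zsmul, Finsupp.smul_apply, smul_eq_mul]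
  · rintro ⟨f, hf0, hf⟩
    refine ⟨f, hf0, fun P => ?_⟩
    rw [← hf P, AddSubgroup.coe_zsmul, Finsupp.smul_apply, smul_eq_mul]

end toPic

/-! ### Equivariance for semilinear automorphisms -/

section equivariance

variable (g : SemilinearAut K F)

/-- The action of a semilinear automorphism on the units of `F`. -/
def gp_unitsAut : Fˣ ≃* Fˣ := Units.mapEquiv (SemilinearAut.toRingAut g).toMulEquiv

@[simp] theorem gp_unitsAut_coe (f : Fˣ) : ((gp_unitsAut g f : Fˣ) : F) = g • (f : F) := rfl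

theorem gp_ord_smul (P : Place K F) (f : F) : P.ord (g • f) = (g⁻¹ • P).ord f := by
  have h := SemilinearAut.ord_smul g (g⁻¹ • P) f
  rwa [smul_inv_smul] at h

theorem gp_unitsAut_mem_S {n : ℕ} {f : Fˣ} (hf : f ∈ gp_S K F n) :
    gp_unitsAut g f ∈ gp_S K F n := fun P => by
  rw [gp_unitsAut_coe, gp_ord_smul]
  exact hf _

theorem gp_unitsAut_mem_P {n : ℕ} {f : Fˣ} (hf : f ∈ gp_P K F n) :
    gp_unitsAut g f ∈ gp_P K F n := by
  obtain ⟨c, u, rfl⟩ := hf
  refine ⟨Units.map ((SemilinearAut.baseAut g : K ≃+* K) : K →* K) c, gp_unitsAut g u, ?_⟩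
  rw [map_mul, map_pow]
  congr 1
  apply Units.ext
  rw [gp_unitsAut_coe]
  exact SemilinearAut.smul_algebraMap g (c : K)

/-- The action on `𝒮`. -/
def gp_SAut (n : ℕ) : gp_S K F n →* gp_S K F n where
  toFun f := ⟨gp_unitsAut g (f : Fˣ), gp_unitsAut_mem_S g f.2⟩
  map_one' := Subtype.ext (map_one (gp_unitsAut g))
  map_mul' f f' := Subtype.ext (map_mul (gp_unitsAut g) (f : Fˣ) (f' : Fˣ))

@[simp] theorem gp_SAut_coe (n : ℕ) (f : gp_S K F n) :
    ((gp_SAut g n f : gp_S K F n) : Fˣ) = gp_unitsAut g (f : Fˣ) := rfl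

/-- The action on `𝒮 / 𝒫`. -/
def gp_quotAut (n : ℕ) :
    gp_S K F n ⧸ (gp_P K F n).subgroupOf (gp_S K F n) →*
      gp_S K F n ⧸ (gp_P K F n).subgroupOf (gp_S K F n) :=
  QuotientGroup.map _ _ (gp_SAut g n) (fun f hf => by
    rw [Subgroup.mem_comap, Subgroup.mem_subgroupOf]
    exact gp_unitsAut_mem_P g (Subgroup.mem_subgroupOf.1 hf))

@[simp] theorem gp_quotAut_mk (n : ℕ) (f : gp_S K F n) :
    gp_quotAut g n (QuotientGroup.mk f) = QuotientGroup.mk (gp_SAut g n f) := rfl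

variable [IsAlgClosed K] {x : F} (hx : rt_IsSepGen K x) {n : ℕ} (hn : n ≠ 0)

/-- **Equivariance of `gp_equiv`** for the semilinear automorphisms of `F / K`. -/
theorem gp_equiv_smul (y : Pic0.torsion K F n) :
    gp_equiv hx hn (g • y) = MonoidHom.toAdditive (gp_quotAut g n) (gp_equiv hx hn y) := by
  obtain ⟨q, rfl⟩ := (gp_equiv hx hn).symm.surjective y
  obtain ⟨f, hf⟩ := QuotientGroup.mk_surjective (Additive.toMul q)
  have hq : q = Additive.ofMul (QuotientGroup.mk f) := by rw [hf]; rfl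
  subst hq
  rw [AddEquiv.apply_symm_apply]
  have hD : Pic0.mk (SemilinearAut.degZeroSMulHom g (gp_div0 hx hn f)) ∈ Pic0.torsion K F n := by
    rw [← SemilinearAut.pic0_smul_mk]
    exact SemilinearAut.smul_mem_torsion g (gp_mk_div0_mem_torsion hx hn f)
  have h1 : g • (gp_equiv hx hn).symm (Additive.ofMul (QuotientGroup.mk f)) =
      (⟨Pic0.mk (SemilinearAut.degZeroSMulHom g (gp_div0 hx hn f)), hD⟩ :
        Pic0.torsion K F n) := by
    apply Subtype.ext
    rw [SemilinearAut.coe_torsion_smul, gp_equiv_symm_mk, SemilinearAut.pic0_smul_mk]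
  rw [h1]
  refine gp_equiv_mk hx hn _ (gp_SAut g n f) (fun P => ?_) hD
  rw [SemilinearAut.coe_degZeroSMulHom, SemilinearAut.divisor_smul_apply, gp_div0_coe,
    gp_mul_divN_apply hx f.2, gp_SAut_coe, gp_unitsAut_coe, gp_ord_smul]

end equivariance

/-! ### Bridge to `gw_IsDiv` -/

theorem gp_mem_S_iff_isDiv {K F : Type} [Field K] [Field F] [Algebra K F] {n : ℕ} (f : Fˣ) :
    f ∈ gp_S K F n ↔ gw_IsDiv K n (f : F) :=
  ⟨fun h => ⟨Units.ne_zero f, h⟩, fun h => h.2⟩

end Fermat.Agent.JT3
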