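import Mathlib
import Fermat.Agent.JT3.Gateway.Finite
import Fermat.Agent.JT3.Gateway.Local
import Fermat.Agent.JT3.Gateway.PicTorsion

/-!
# JT3 / T1 gateway: the character map `Pic⁰[n] → Hom(H₁(X₀(N)), μ_n)`

* `gw_X N n`: the group of characters `χ : Γ₀(N) →* ℂˣ` with `χⁿ = 1`, trivial on the elliptic and
  the parabolic elements (`= Hom(gh_H N, μ_n)`, see `gh_charEquiv`);
* `gw_charOf C hn f`: the character of an `n`-divisible unit `f`; `gw_charHom C hn : 𝒮 →* X`;
* `gw_charHom_ker`: in a complete rational context its kernel is `𝒫 = K^× · (F^×)ⁿ`;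
* **`gw_charMap C hn hC hR : 𝒮 ⧸ 𝒫 →* gw_X N n`, injective** (`gw_charMap_injective`);
* `gw_picMap`: the induced injective homomorphism `Pic⁰(F)[n] →+ Additive (gw_X N n)`
  (`gw_picMap_injective`), characterised by `gw_picMap_mk`.
-/

set_option autoImplicit false

open UpperHalfPlane CongruenceSubgroup
open scoped MatrixGroups Manifold

namespace Fermat.Agent.JT3

open Fermat.Agent.S24 AlgebraicCurve

/-- the unramified characters of `Γ₀(N)` of exponent `n` -/
def gw_X (N n : ℕ) : Subgroup (↥(Gamma0 N) →* ℂˣ) where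
  carrier := {χ | χ ^ n = 1 ∧ ∀ γ : ↥(Gamma0 N), gh_IsParEll N γ → χ γ = 1}
  one_mem' := ⟨one_pow n, fun _ _ => rfl⟩
  mul_mem' := by
    rintro χ χ' ⟨h1, h2⟩ ⟨h1', h2'⟩
    refine ⟨by rw [mul_pow, h1, h1']; exact MonoidHom.ext fun _ => one_mul 1, fun γ hγ => ?_⟩
    rw [MonoidHom.mul_apply, h2 γ hγ, h2' γ hγ]
    exact one_mul 1
  inv_mem' := by
    rintro χ ⟨h1, h2⟩
    refine ⟨by rw [inv_pow, h1]; exact MonoidHom.ext fun _ => inv_one, fun γ hγ => ?_⟩
    rw [MonoidHom.inv_apply, h2 γ hγ]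
    exact inv_one

theorem gw_mem_X {N n : ℕ} {χ : ↥(Gamma0 N) →* ℂˣ} :
    χ ∈ gw_X N n ↔ χ ^ n = 1 ∧ ∀ γ : ↥(Gamma0 N), gh_IsParEll N γ → χ γ = 1 := Iff.rfl

variable {N : ℕ} [NeZero N] {K F A : Type} [Field K] [Algebra K ℂ] [Field F] [Algebra K F]
  [CommRing A] [IsDomain A] [Algebra K A] [Algebra A F] [IsScalarTower K A F]
  [IsFractionRing A F] (C : gw_Ctx N K F A) {n : ℕ} (hn : n ≠ 0)

/-- the character of an `n`-divisible unit -/
noncomputable def gw_charOf (f : gp_S K F n) : ↥(Gamma0 N) →* ℂˣ :=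
  (gw_hasChar_exists (C := C) hn ((gp_mem_S_iff_isDiv (f : Fˣ)).1 f.2)).choose

theorem gw_charOf_spec (f : gp_S K F n) :
    gw_HasChar C n (((f : Fˣ) : F)) (gw_charOf C hn f) :=
  (gw_hasChar_exists (C := C) hn ((gp_mem_S_iff_isDiv (f : Fˣ)).1 f.2)).choose_spec

theorem gw_charOf_eq {f : gp_S K F n} {χ : ↥(Gamma0 N) →* ℂˣ}
    (h : gw_HasChar C n (((f : Fˣ) : F)) χ) : gw_charOf C hn f = χ :=
  gw_hasChar_unique hn (gw_charOf_spec C hn f) h

include hn in
theorem gw_hasChar_mem_X {f : F} (hf : gw_IsDiv K n f) {χ : ↥(Gamma0 N) →* ℂˣ}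
    (h : gw_HasChar C n f χ) : χ ∈ gw_X N n := by
  refine ⟨MonoidHom.ext fun γ => ?_, fun γ hγ => gw_hasChar_parEll hn hf h γ hγ⟩
  rw [MonoidHom.pow_apply, MonoidHom.one_apply]
  exact gw_hasChar_pow_eq_one h γ

theorem gw_charOf_mem_X (f : gp_S K F n) : gw_charOf C hn f ∈ gw_X N n :=
  gw_hasChar_mem_X C hn ((gp_mem_S_iff_isDiv (f : Fˣ)).1 f.2) (gw_charOf_spec C hn f)

/-- the character map on the `n`-divisible units -/
noncomputable def gw_charHom : gp_S K F n →* gw_X N n where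
  toFun f := ⟨gw_charOf C hn f, gw_charOf_mem_X C hn f⟩
  map_one' := by
    apply Subtype.ext
    refine gw_charOf_eq C hn ?_
    have h := gw_hasChar_pow_n C n (one_ne_zero (α := F))
    rwa [one_pow] at h
  map_mul' f f' := by
    apply Subtype.ext
    refine gw_charOf_eq C hn ?_
    exact gw_hasChar_mul (gw_charOf_spec C hn f) (gw_charOf_spec C hn f')

theorem gw_charHom_coe (f : gp_S K F n) :
    ((gw_charHom C hn f : gw_X N n) : ↥(Gamma0 N) →* ℂˣ) = gw_charOf C hn f := rfl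

theorem gw_charHom_eq {f : gp_S K F n} {χ : ↥(Gamma0 N) →* ℂˣ}
    (h : gw_HasChar C n (((f : Fˣ) : F)) χ) :
    ((gw_charHom C hn f : gw_X N n) : ↥(Gamma0 N) →* ℂˣ) = χ :=
  gw_charOf_eq C hn h

variable {C}

/-- **the kernel of the character map is `K^× · (F^×)ⁿ`** -/
theorem gw_charHom_ker (hC : gw_Complete C) (hR : gw_Rational C) :
    (gw_charHom C hn).ker = (gp_P K F n).subgroupOf (gp_S K F n) := by
  ext f
  rw [MonoidHom.mem_ker, Subgroup.mem_subgroupOf, gp_mem_P]
  constructor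
  · intro h
    have h1 : gw_HasChar C n (((f : Fˣ) : F)) 1 := by
      have h2 := gw_charOf_spec C hn f
      have h3 : gw_charOf C hn f = 1 := congrArg Subtype.val h
      rwa [h3] at h2
    obtain ⟨c, u, hc, hu, hcu⟩ := gw_hasChar_trivial hC hR hn h1
    refine ⟨Units.mk0 c hc, Units.mk0 u hu, Units.ext ?_⟩
    rw [hcu]
    simp
  · rintro ⟨c, u, hcu⟩
    apply Subtype.ext
    refine gw_charOf_eq C hn ?_
    have h1 := gw_hasChar_mul (gw_hasChar_const C hn (Units.ne_zero c))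
      (gw_hasChar_pow_n C n (Units.ne_zero u))
    rw [show (1 * 1 : ↥(Gamma0 N) →* ℂˣ) = 1 from MonoidHom.ext fun _ => one_mul 1] at h1
    have h2 : ((f : Fˣ) : F) = algebraMap K F (c : K) * (u : F) ^ n := by
      rw [hcu]
      simp
    rw [h2]
    exact h1

/-- **the character map `𝒮 ⧸ 𝒫 →* X`** -/
noncomputable def gw_charMap (hC : gw_Complete C) (hR : gw_Rational C) :
    gp_S K F n ⧸ (gp_P K F n).subgroupOf (gp_S K F n) →* gw_X N n :=
  QuotientGroup.lift _ (gw_charHom C hn) (fun f hf => by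
    rw [← gw_charHom_ker hn hC hR] at hf
    exact hf)

theorem gw_charMap_mk (hC : gw_Complete C) (hR : gw_Rational C) (f : gp_S K F n) :
    gw_charMap hn hC hR (QuotientGroup.mk f) = gw_charHom C hn f := rfl

/-- **injectivity of the character map** -/
theorem gw_charMap_injective (hC : gw_Complete C) (hR : gw_Rational C) :
    Function.Injective (gw_charMap hn hC hR) := by
  rw [injective_iff_map_eq_one]
  intro q hq
  obtain ⟨f, rfl⟩ := QuotientGroup.mk_surjective q
  rw [gw_charMap_mk] at hq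
  rw [QuotientGroup.eq_one_iff, ← gw_charHom_ker hn hC hR]
  exact hq

/-- surjectivity of the character map from surjectivity on functions -/
theorem gw_charMap_surjective (hC : gw_Complete C) (hR : gw_Rational C)
    (hsurj : ∀ χ ∈ gw_X N n, ∃ f : F, gw_IsDiv K n f ∧ gw_HasChar C n f χ) :
    Function.Surjective (gw_charMap hn hC hR) := by
  rintro ⟨χ, hχ⟩
  obtain ⟨f, hf, hfχ⟩ := hsurj χ hχ
  refine ⟨QuotientGroup.mk ⟨Units.mk0 f hf.1, (gp_mem_S_iff_isDiv _).2 hf⟩, ?_⟩
  rw [gw_charMap_mk]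
  apply Subtype.ext
  exact gw_charHom_eq C hn hfχ

/-! ### The map on `Pic⁰[n]` -/

section pic

variable [IsAlgClosed K] {x : F} (hx : rt_IsSepGen K x)

/-- **the character map `Pic⁰(F)[n] →+ Additive X`** -/
noncomputable def gw_picMap (hC : gw_Complete C) (hR : gw_Rational C) :
    Pic0.torsion K F n →+ Additive (gw_X N n) :=
  (MonoidHom.toAdditive (gw_charMap hn hC hR)).comp (gp_equiv hx hn).toAddMonoidHom

theorem gw_picMap_injective (hC : gw_Complete C) (hR : gw_Rational C) :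
    Function.Injective (gw_picMap hn hx hC hR) := by
  intro y y' h
  apply (gp_equiv hx hn).injective
  exact gw_charMap_injective hn hC hR h

theorem gw_picMap_surjective (hC : gw_Complete C) (hR : gw_Rational C)
    (hsurj : ∀ χ ∈ gw_X N n, ∃ f : F, gw_IsDiv K n f ∧ gw_HasChar C n f χ) :
    Function.Surjective (gw_picMap hn hx hC hR) := by
  intro χ
  obtain ⟨q, hq⟩ := gw_charMap_surjective hn hC hR hsurj (Additive.toMul χ)
  exact ⟨(gp_equiv hx hn).symm (Additive.ofMul q), by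
    show Additive.ofMul (gw_charMap hn hC hR (Additive.toMul
      (gp_equiv hx hn ((gp_equiv hx hn).symm (Additive.ofMul q))))) = χ
    rw [AddEquiv.apply_symm_apply]
    exact congrArg Additive.ofMul hq⟩

/-- the characterising property: if `n · D = div f` and `f` has the character `χ`, the class of
`D` is sent to `χ` -/
theorem gw_picMap_mk (hC : gw_Complete C) (hR : gw_Rational C)
    (D : Divisor.degZero (K := K) (F := F)) (f : gp_S K F n)
    (h : ∀ P : Place K F, (n : ℤ) * (D : Divisor K F) P = P.ord ((f : Fˣ) : F))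
    (hD : Pic0.mk D ∈ Pic0.torsion K F n) {χ : ↥(Gamma0 N) →* ℂˣ}
    (hχ : gw_HasChar C n (((f : Fˣ) : F)) χ) :
    ((Additive.toMul (gw_picMap hn hx hC hR ⟨Pic0.mk D, hD⟩) : gw_X N n) :
      ↥(Gamma0 N) →* ℂˣ) = χ := by
  show ((gw_charMap hn hC hR (Additive.toMul (gp_equiv hx hn ⟨Pic0.mk D, hD⟩)) : gw_X N n) :
      ↥(Gamma0 N) →* ℂˣ) = χ
  rw [gp_equiv_mk hx hn D f h hD]
  exact gw_charHom_eq C hn hχ

end pic

end Fermat.Agent.JT3
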