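/-
JT3 / T1 gateway, node G3a: weighted ("twisted") Eisenstein series.

For a bounded weight `w : (Fin 2 → ℤ) → ℂ` and `3 ≤ k` the series
`twe_E w k z = ∑' v, w v * (v 0 * z + v 1) ^ (-k)` is holomorphic on the upper half plane,
every `SL(2, ℤ)`-slash of it is again such a series, and it is bounded at `i∞`.
For a unitary character `χ` of `Γ₀(N)` which is trivial on the matrices with lower left entry `0`
the weight `twe_wt N χ` gives a form with character `χ`.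
-/
import Mathlib

set_option autoImplicit false

namespace Fermat.Agent.JT3

open UpperHalfPlane ModularForm EisensteinSeries Matrix CongruenceSubgroup Filter Topology
open scoped MatrixGroups Manifold

noncomputable section

/-! ### (a) weighted Eisenstein series -/

/-- The weighted Eisenstein series `∑' v, w v * (v 0 * z + v 1) ^ (-k)`. -/
def twe_E (w : (Fin 2 → ℤ) → ℂ) (k : ℤ) (z : ℍ) : ℂ :=
  ∑' v : Fin 2 → ℤ, w v * eisSummand k v z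

/-- Right multiplication by `A : SL(2, ℤ)` as a permutation of `ℤ²`. -/
def twe_vecMulEquiv (A : SL(2, ℤ)) : (Fin 2 → ℤ) ≃ (Fin 2 → ℤ) where
  toFun v := v ᵥ* A
  invFun v := v ᵥ* ↑(A⁻¹)
  left_inv v := by
    show (v ᵥ* (A : Matrix (Fin 2) (Fin 2) ℤ)) ᵥ* ((A⁻¹ : SL(2, ℤ)) : Matrix (Fin 2) (Fin 2) ℤ) = v
    rw [vecMul_vecMul, ← Matrix.SpecialLinearGroup.coe_mul, mul_inv_cancel,
      Matrix.SpecialLinearGroup.coe_one, vecMul_one]
  right_inv v := by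
    show (v ᵥ* ((A⁻¹ : SL(2, ℤ)) : Matrix (Fin 2) (Fin 2) ℤ)) ᵥ* (A : Matrix (Fin 2) (Fin 2) ℤ) = v
    rw [vecMul_vecMul, ← Matrix.SpecialLinearGroup.coe_mul, inv_mul_cancel,
      Matrix.SpecialLinearGroup.coe_one, vecMul_one]

@[simp] lemma twe_vecMulEquiv_apply (A : SL(2, ℤ)) (v : Fin 2 → ℤ) :
    twe_vecMulEquiv A v = v ᵥ* A := rfl

@[simp] lemma twe_vecMulEquiv_symm_apply (A : SL(2, ℤ)) (v : Fin 2 → ℤ) :
    (twe_vecMulEquiv A).symm v = v ᵥ* ↑(A⁻¹) := rfl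

lemma twe_norm_summand_le {w : (Fin 2 → ℤ) → ℂ} (hw : ∀ v, ‖w v‖ ≤ 1) (k : ℤ) (v : Fin 2 → ℤ)
    (z : ℍ) : ‖w v * eisSummand k v z‖ ≤ ‖eisSummand k v z‖ := by
  rw [norm_mul]
  exact mul_le_of_le_one_left (norm_nonneg _) (hw v)

/-- Absolute summability of the weighted series. -/
lemma twe_summable_norm {w : (Fin 2 → ℤ) → ℂ} (hw : ∀ v, ‖w v‖ ≤ 1) {k : ℤ} (hk : 3 ≤ k) (z : ℍ) :
    Summable fun v : Fin 2 → ℤ => ‖w v * eisSummand k v z‖ :=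
  (summable_norm_eisSummand hk z).of_nonneg_of_le (fun _ => norm_nonneg _)
    (fun v => twe_norm_summand_le hw k v z)

lemma twe_summable {w : (Fin 2 → ℤ) → ℂ} (hw : ∀ v, ‖w v‖ ≤ 1) {k : ℤ} (hk : 3 ≤ k) (z : ℍ) :
    Summable fun v : Fin 2 → ℤ => w v * eisSummand k v z :=
  (twe_summable_norm hw hk z).of_norm

lemma twe_hasSum {w : (Fin 2 → ℤ) → ℂ} (hw : ∀ v, ‖w v‖ ≤ 1) {k : ℤ} (hk : 3 ≤ k) (z : ℍ) :
    HasSum (fun v : Fin 2 → ℤ => w v * eisSummand k v z) (twe_E w k z) :=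
  (twe_summable hw hk z).hasSum

/-- The majorant `∑' v, ‖(v 0 * z + v 1) ^ (-k)‖`. -/
def twe_maj (k : ℤ) (z : ℍ) : ℝ := ∑' v : Fin 2 → ℤ, ‖eisSummand k v z‖

lemma twe_norm_le_maj {w : (Fin 2 → ℤ) → ℂ} (hw : ∀ v, ‖w v‖ ≤ 1) {k : ℤ} (hk : 3 ≤ k) (z : ℍ) :
    ‖twe_E w k z‖ ≤ twe_maj k z := by
  refine (norm_tsum_le_tsum_norm (twe_summable_norm hw hk z)).trans ?_
  exact (twe_summable_norm hw hk z).tsum_le_tsum (fun v => twe_norm_summand_le hw k v z)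
    (summable_norm_eisSummand hk z)

/-- The majorant is invariant under every element of `SL(2, ℤ)` with `denom = 1`
(in particular under the translations `T ^ n`). -/
lemma twe_maj_smul (k : ℤ) (A : SL(2, ℤ)) (z : ℍ) :
    twe_maj k (A • z) = ‖denom A z‖ ^ k * twe_maj k z := by
  unfold twe_maj
  simp_rw [eisSummand_SL2_apply, norm_mul, norm_zpow, tsum_mul_left]
  congr 1
  exact (twe_vecMulEquiv A).tsum_eq (fun v => ‖eisSummand k v z‖)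

lemma twe_maj_T_zpow (k : ℤ) (n : ℤ) (z : ℍ) :
    twe_maj k (ModularGroup.T ^ n • z) = twe_maj k z := by
  rw [twe_maj_smul]
  have : denom (ModularGroup.T ^ n : SL(2, ℤ)) z = 1 := by
    rw [ModularGroup.denom_apply, ModularGroup.coe_T_zpow]
    simp
  rw [this]
  simp

/-- Uniform bound of the majorant on `{z | 2 ≤ im z}`. -/
lemma twe_maj_le {k : ℤ} (hk : 3 ≤ k) (z : ℍ) (hz : 2 ≤ z.im) :
    twe_maj k z ≤ ∑' x : Fin 2 → ℤ, r ⟨⟨1, 2⟩, Nat.ofNat_pos⟩ ^ (-k) * ‖x‖ ^ (-k) := by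
  obtain ⟨n, hn⟩ := ModularGroup_T_zpow_mem_verticalStrip z (N := 1) one_pos
  rw [← twe_maj_T_zpow k (1 * n) z]
  have hk' : (2 : ℝ) < k := by norm_cast
  unfold twe_maj
  apply (summable_norm_eisSummand hk _).tsum_le_tsum _
  · exact_mod_cast (summable_one_div_norm_rpow hk').mul_left <| r ⟨⟨1, 2⟩, Nat.ofNat_pos⟩ ^ (-k)
  · intro x
    simp_rw [eisSummand, norm_zpow]
    have := summand_bound_of_mem_verticalStrip (lt_trans two_pos hk').le x two_pos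
      (verticalStrip_anti_right 1 hz (by exact_mod_cast hn))
    exact_mod_cast this

/-- A bounded-weight Eisenstein series is bounded at `i∞`. -/
theorem twe_isBoundedAtImInfty {w : (Fin 2 → ℤ) → ℂ} (hw : ∀ v, ‖w v‖ ≤ 1) {k : ℤ}
    (hk : 3 ≤ k) : IsBoundedAtImInfty (twe_E w k) := by
  rw [UpperHalfPlane.isBoundedAtImInfty_iff]
  exact ⟨_, 2, fun z hz => (twe_norm_le_maj hw hk z).trans (twe_maj_le hk z hz)⟩

/-- Slash formula: slashing by `A : SL(2, ℤ)` transports the weight along `v ↦ v ᵥ* A⁻¹`. -/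
theorem twe_slash (w : (Fin 2 → ℤ) → ℂ) (k : ℤ) (A : SL(2, ℤ)) :
    twe_E w k ∣[k] A = twe_E (fun v => w ((twe_vecMulEquiv A).symm v)) k := by
  ext1 z
  simp_rw [SL_slash_apply, _root_.zpow_neg,
    mul_inv_eq_iff_eq_mul₀ (zpow_ne_zero _ <| denom_ne_zero _ z),
    twe_E, eisSummand_SL2_apply, mul_left_comm (w _), tsum_mul_left, mul_comm (_ ^ k)]
  congr 1
  refine Eq.trans ?_ ((twe_vecMulEquiv A).tsum_eq
    (fun v => w ((twe_vecMulEquiv A).symm v) * eisSummand k v z))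
  refine tsum_congr fun v => ?_
  rw [Equiv.symm_apply_apply, twe_vecMulEquiv_apply]

/-- Transporting a bounded weight keeps it bounded. -/
lemma twe_bdd_comp {w : (Fin 2 → ℤ) → ℂ} (hw : ∀ v, ‖w v‖ ≤ 1) (e : (Fin 2 → ℤ) → (Fin 2 → ℤ)) :
    ∀ v, ‖w (e v)‖ ≤ 1 := fun v => hw (e v)

/-- Every `SL(2, ℤ)`-slash of a bounded-weight Eisenstein series is bounded at `i∞`. -/
theorem twe_slash_isBoundedAtImInfty {w : (Fin 2 → ℤ) → ℂ} (hw : ∀ v, ‖w v‖ ≤ 1) {k : ℤ}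
    (hk : 3 ≤ k) (A : SL(2, ℤ)) : IsBoundedAtImInfty (twe_E w k ∣[k] A) := by
  rw [twe_slash]
  exact twe_isBoundedAtImInfty (twe_bdd_comp hw _) hk

/-- Locally uniform convergence of the partial sums. -/
theorem twe_tendstoLocallyUniformly {w : (Fin 2 → ℤ) → ℂ} (hw : ∀ v, ‖w v‖ ≤ 1) {k : ℤ}
    (hk : 3 ≤ k) :
    TendstoLocallyUniformly (fun (s : Finset (Fin 2 → ℤ)) ↦ (∑ x ∈ s, w x * eisSummand k x ·))
      (twe_E w k ·) Filter.atTop := by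
  have hk' : (2 : ℝ) < k := by norm_cast
  have p_sum : Summable fun x : Fin 2 → ℤ ↦ ‖x‖ ^ (-k) :=
    mod_cast (summable_one_div_norm_rpow hk')
  simp only [tendstoLocallyUniformly_iff_forall_isCompact, twe_E]
  intro K hK
  obtain ⟨A, B, hB, HABK⟩ := subset_verticalStrip_of_isCompact hK
  refine (tendstoUniformlyOn_tsum (hu := p_sum.mul_left <| r ⟨⟨A, B⟩, hB⟩ ^ (-k : ℝ))
    (fun p z hz ↦ ?_)).mono HABK
  refine (twe_norm_summand_le hw k p z).trans ?_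
  simpa only [eisSummand, one_div, ← _root_.zpow_neg, norm_zpow, ← Real.rpow_intCast,
    Int.cast_neg] using summand_bound_of_mem_verticalStrip (by positivity) p hB hz

lemma twe_tendstoLocallyUniformlyOn {w : (Fin 2 → ℤ) → ℂ} (hw : ∀ v, ‖w v‖ ≤ 1) {k : ℤ}
    (hk : 3 ≤ k) :
    TendstoLocallyUniformlyOn (fun (s : Finset (Fin 2 → ℤ)) ↦
      ↑ₕ(fun (z : ℍ) ↦ ∑ x ∈ s, w x * eisSummand k x z)) (↑ₕ(twe_E w k))
          Filter.atTop {z : ℂ | 0 < z.im} := by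
  rw [← upperHalfPlaneSet, ← range_coe, ← Set.image_univ]
  apply TendstoLocallyUniformlyOn.comp (s := ⊤) _ _ _ (OpenPartialHomeomorph.continuousOn_symm _)
  · simp only [Set.top_eq_univ, tendstoLocallyUniformlyOn_univ]
    apply twe_tendstoLocallyUniformly hw hk
  · simp only [IsOpenEmbedding.toOpenPartialHomeomorph_target, Set.top_eq_univ,
      Set.mapsTo_range_iff, Set.mem_univ, forall_const]

/-- A bounded-weight Eisenstein series is holomorphic on `ℍ`. -/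
theorem twe_mdifferentiable {w : (Fin 2 → ℤ) → ℂ} (hw : ∀ v, ‖w v‖ ≤ 1) {k : ℤ} (hk : 3 ≤ k) :
    MDiff (twe_E w k) := by
  intro τ
  suffices DifferentiableAt ℂ (↑ₕ(twe_E w k)) τ.1 by
    convert!
      MDifferentiableAt.comp τ (DifferentiableAt.mdifferentiableAt this) τ.mdifferentiable_coe
    exact funext fun z ↦ (comp_ofComplex (twe_E w k) z).symm
  refine DifferentiableOn.differentiableAt ?_ (isOpen_upperHalfPlaneSet.mem_nhds τ.2)
  refine (twe_tendstoLocallyUniformlyOn hw hk).differentiableOn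
    (Eventually.of_forall fun s ↦ ?_) isOpen_upperHalfPlaneSet
  have : (↑ₕ(fun (z : ℍ) ↦ ∑ x ∈ s, w x * eisSummand k x z)) =
      fun z : ℂ => ∑ x ∈ s, w x * (↑ₕ(eisSummand k x)) z := by
    ext z
    simp
  rw [this]
  exact DifferentiableOn.fun_sum
    fun x _ ↦ (eisSummand_extension_differentiableOn k x).const_mul (w x)

/-! ### The constant term -/

/-- The constant term `∑_{d} w (0, d) d ^ (-k)` of the weighted series. -/
def twe_const (w : (Fin 2 → ℤ) → ℂ) (k : ℤ) : ℂ :=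
  ∑' v : Fin 2 → ℤ, if v 0 = 0 then w v * ((v 1 : ℤ) : ℂ) ^ (-k) else 0

lemma twe_eisSummand_of_zero (k : ℤ) {v : Fin 2 → ℤ} (hv : v 0 = 0) (z : ℍ) :
    eisSummand k v z = ((v 1 : ℤ) : ℂ) ^ (-k) := by
  simp [eisSummand, hv]

lemma twe_tendsto_eisSummand_zero {k : ℤ} (hk : 0 < k) {v : Fin 2 → ℤ} (hv : v 0 ≠ 0) :
    Tendsto (fun z : ℍ => eisSummand k v z) atImInfty (𝓝 0) := by
  rw [tendsto_zero_iff_norm_tendsto_zero]
  have h1 : Tendsto (fun z : ℍ => ‖((v 0 : ℤ) : ℂ) * (z : ℂ) + ((v 1 : ℤ) : ℂ)‖) atImInfty atTop := by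
    refine tendsto_atTop_mono (fun z => ?_)
      (show Tendsto UpperHalfPlane.im atImInfty atTop from tendsto_comap)
    have h2 : |(((v 0 : ℤ) : ℂ) * (z : ℂ) + ((v 1 : ℤ) : ℂ)).im| ≤
        ‖((v 0 : ℤ) : ℂ) * (z : ℂ) + ((v 1 : ℤ) : ℂ)‖ := Complex.abs_im_le_norm _
    have h3 : (((v 0 : ℤ) : ℂ) * (z : ℂ) + ((v 1 : ℤ) : ℂ)).im = (v 0 : ℝ) * z.im := by
      simp
    rw [h3, abs_mul, abs_of_pos z.im_pos] at h2
    refine le_trans ?_ h2
    have h4 : (1 : ℝ) ≤ |(v 0 : ℝ)| := by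
      have : (1 : ℤ) ≤ |v 0| := Int.one_le_abs hv
      exact_mod_cast this
    exact le_mul_of_one_le_left z.im_pos.le h4
  have h5 : Tendsto (fun x : ℝ => x ^ (-k)) atTop (𝓝 0) :=
    tendsto_zpow_atTop_zero (by omega)
  have := h5.comp h1
  simpa [eisSummand, norm_zpow, Function.comp_def] using this

/-- In every vertical strip, a bounded-weight Eisenstein series tends to its constant term. -/
theorem twe_tendsto_strip {w : (Fin 2 → ℤ) → ℂ} (hw : ∀ v, ‖w v‖ ≤ 1) {k : ℤ} (hk : 3 ≤ k)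
    (A : ℝ) :
    Tendsto (twe_E w k) (atImInfty ⊓ 𝓟 {z : ℍ | |z.re| ≤ A}) (𝓝 (twe_const w k)) := by
  have hk' : (2 : ℝ) < k := by norm_cast
  have p_sum : Summable fun x : Fin 2 → ℤ ↦ r ⟨⟨A, 1⟩, one_pos⟩ ^ (-k) * ‖x‖ ^ (-k) :=
    mod_cast (summable_one_div_norm_rpow hk').mul_left <| r ⟨⟨A, 1⟩, one_pos⟩ ^ (-k : ℝ)
  unfold twe_E twe_const
  refine tendsto_tsum_of_dominated_convergence p_sum (fun v => ?_) ?_
  · by_cases hv : v 0 = 0
    · simp only [hv, if_true, twe_eisSummand_of_zero k hv]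
      exact tendsto_const_nhds
    · simp only [hv, if_false]
      have := ((twe_tendsto_eisSummand_zero (by omega : 0 < k) hv).mono_left
        (inf_le_left : atImInfty ⊓ 𝓟 {z : ℍ | |z.re| ≤ A} ≤ atImInfty)).const_mul (w v)
      simpa using this
  · have h1 : ∀ᶠ z : ℍ in atImInfty ⊓ 𝓟 {z : ℍ | |z.re| ≤ A}, 1 ≤ z.im :=
      Filter.Eventually.filter_mono inf_le_left
        ((atImInfty_mem _).mpr ⟨1, fun z hz => hz⟩)
    have h2 : ∀ᶠ z : ℍ in atImInfty ⊓ 𝓟 {z : ℍ | |z.re| ≤ A}, |z.re| ≤ A :=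
      Filter.Eventually.filter_mono inf_le_right (Filter.mem_principal_self _)
    filter_upwards [h1, h2] with z hz1 hz2 v
    refine (twe_norm_summand_le hw k v z).trans ?_
    have := summand_bound_of_mem_verticalStrip (k := k) (by positivity) v one_pos
      (z := z) (A := A) ⟨hz2, hz1⟩
    simp only [eisSummand, norm_zpow]
    exact_mod_cast this

/-! ### (b) the weight attached to a character of `Γ₀(N)` -/

/-- The bottom row of an element of `SL(2, ℤ)`. -/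
def twe_row (γ : SL(2, ℤ)) : Fin 2 → ℤ := (γ : Matrix (Fin 2) (Fin 2) ℤ) 1

@[simp] lemma twe_row_zero (γ : SL(2, ℤ)) : twe_row γ 0 = γ 1 0 := rfl

@[simp] lemma twe_row_one' (γ : SL(2, ℤ)) : twe_row γ 1 = γ 1 1 := rfl

lemma twe_row_mul (γ δ : SL(2, ℤ)) : twe_row (γ * δ) = twe_row γ ᵥ* δ := by
  unfold twe_row
  rw [Matrix.SpecialLinearGroup.coe_mul, Matrix.mul_apply_eq_vecMul]

lemma twe_row_one : twe_row 1 = ![0, 1] := by
  ext i
  fin_cases i <;> simp [twe_row]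

lemma twe_row_mul_inv_of_eq {γ δ : SL(2, ℤ)} (h : twe_row γ = twe_row δ) :
    twe_row (γ * δ⁻¹) = ![0, 1] := by
  rw [twe_row_mul, h, ← twe_row_mul, mul_inv_cancel, twe_row_one]

variable (N : ℕ) (χ : ↥(Gamma0 N) →* ℂˣ)

open Classical in
/-- The weight on `ℤ²` attached to a character `χ` of `Γ₀(N)`: `χ(γ)⁻¹` on the bottom row of
`γ ∈ Γ₀(N)`, zero elsewhere. -/
def twe_wt (v : Fin 2 → ℤ) : ℂ :=
  if h : ∃ γ : ↥(Gamma0 N), twe_row (γ : SL(2, ℤ)) = v then (((χ h.choose)⁻¹ : ℂˣ) : ℂ) else 0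

/-- The hypothesis that `χ` is trivial on the stabiliser of `∞` (the matrices `± T ^ m`). -/
def twe_TrivAtInfty : Prop := ∀ γ : ↥(Gamma0 N), (γ : SL(2, ℤ)) 1 0 = 0 → χ γ = 1

variable {N χ}

lemma twe_chi_eq_of_row_eq (hχ : twe_TrivAtInfty N χ) {γ δ : ↥(Gamma0 N)}
    (h : twe_row (γ : SL(2, ℤ)) = twe_row (δ : SL(2, ℤ))) : χ γ = χ δ := by
  have h1 : χ (γ * δ⁻¹) = 1 := by
    apply hχ
    have := twe_row_mul_inv_of_eq h
    have h2 := congr_fun this 0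
    simpa using h2
  rwa [map_mul, map_inv, mul_inv_eq_one] at h1

lemma twe_wt_row (hχ : twe_TrivAtInfty N χ) (γ : ↥(Gamma0 N)) :
    twe_wt N χ (twe_row (γ : SL(2, ℤ))) = (((χ γ)⁻¹ : ℂˣ) : ℂ) := by
  have h : ∃ δ : ↥(Gamma0 N), twe_row (δ : SL(2, ℤ)) = twe_row (γ : SL(2, ℤ)) := ⟨γ, rfl⟩
  unfold twe_wt
  rw [dif_pos h, twe_chi_eq_of_row_eq hχ h.choose_spec]

lemma twe_wt_of_not {v : Fin 2 → ℤ} (h : ¬ ∃ γ : ↥(Gamma0 N), twe_row (γ : SL(2, ℤ)) = v) :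
    twe_wt N χ v = 0 := dif_neg h

lemma twe_wt_vecMul (hχ : twe_TrivAtInfty N χ) (γ : ↥(Gamma0 N)) (v : Fin 2 → ℤ) :
    twe_wt N χ (v ᵥ* (γ : SL(2, ℤ))) = twe_wt N χ v * (((χ γ)⁻¹ : ℂˣ) : ℂ) := by
  by_cases h : ∃ δ : ↥(Gamma0 N), twe_row (δ : SL(2, ℤ)) = v
  · obtain ⟨δ, rfl⟩ := h
    rw [← twe_row_mul]
    have : (δ : SL(2, ℤ)) * γ = ((δ * γ : ↥(Gamma0 N)) : SL(2, ℤ)) := rfl
    rw [this, twe_wt_row hχ, twe_wt_row hχ, map_mul, mul_inv, Units.val_mul]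
  · have h' : ¬ ∃ δ : ↥(Gamma0 N), twe_row (δ : SL(2, ℤ)) = v ᵥ* (γ : SL(2, ℤ)) := by
      rintro ⟨δ, hδ⟩
      apply h
      refine ⟨δ * γ⁻¹, ?_⟩
      have : ((δ * γ⁻¹ : ↥(Gamma0 N)) : SL(2, ℤ)) = (δ : SL(2, ℤ)) * (γ : SL(2, ℤ))⁻¹ := rfl
      rw [this, twe_row_mul, hδ, vecMul_vecMul, ← Matrix.SpecialLinearGroup.coe_mul,
        mul_inv_cancel, Matrix.SpecialLinearGroup.coe_one, vecMul_one]
    rw [twe_wt_of_not h, twe_wt_of_not h', zero_mul]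

lemma twe_wt_norm_le (hu : ∀ γ : ↥(Gamma0 N), ‖((χ γ : ℂˣ) : ℂ)‖ = 1) (v : Fin 2 → ℤ) :
    ‖twe_wt N χ v‖ ≤ 1 := by
  unfold twe_wt
  split_ifs with h
  · rw [Units.val_inv_eq_inv_val, norm_inv, hu, inv_one]
  · simp

/-- A character with values of finite order is unitary. -/
lemma twe_unitary_of_pow_eq_one {n : ℕ} (hn : n ≠ 0) (hχn : χ ^ n = 1) (γ : ↥(Gamma0 N)) :
    ‖((χ γ : ℂˣ) : ℂ)‖ = 1 := by
  have h1 : (χ γ) ^ n = 1 := by
    have := congr_arg (fun ψ : ↥(Gamma0 N) →* ℂˣ => ψ γ) hχn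
    simpa using this
  have h2 : ((χ γ : ℂˣ) : ℂ) ^ n = 1 := by
    rw [← Units.val_pow_eq_pow_val, h1, Units.val_one]
  exact Complex.norm_eq_one_of_pow_eq_one h2 hn

variable (N χ)

/-- The Eisenstein series with character `χ`. -/
def twe_Echi (k : ℤ) : ℍ → ℂ := twe_E (twe_wt N χ) k

variable {N χ}

/-- `E_χ ∣[k] γ = χ(γ) • E_χ` for `γ ∈ Γ₀(N)`. -/
theorem twe_Echi_slash (hχ : twe_TrivAtInfty N χ) (k : ℤ) (γ : ↥(Gamma0 N)) :
    twe_Echi N χ k ∣[k] (γ : SL(2, ℤ)) = ((χ γ : ℂˣ) : ℂ) • twe_Echi N χ k := by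
  rw [twe_Echi, twe_slash]
  ext z
  simp only [twe_E, Pi.smul_apply, smul_eq_mul]
  rw [← tsum_mul_left]
  refine tsum_congr fun v => ?_
  have h1 : (twe_vecMulEquiv (γ : SL(2, ℤ))).symm v = v ᵥ* ((γ⁻¹ : ↥(Gamma0 N)) : SL(2, ℤ)) := rfl
  rw [h1, twe_wt_vecMul hχ, map_inv, inv_inv]
  ring

/-- `E_χ (γ z) = χ(γ) (c z + d) ^ k E_χ z` for `γ ∈ Γ₀(N)`. -/
theorem twe_Echi_smul (hχ : twe_TrivAtInfty N χ) (k : ℤ) (γ : ↥(Gamma0 N)) (z : ℍ) :
    twe_Echi N χ k ((γ : SL(2, ℤ)) • z) =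
      ((χ γ : ℂˣ) : ℂ) * denom (γ : SL(2, ℤ)) z ^ k * twe_Echi N χ k z := by
  have h := congr_fun (twe_Echi_slash hχ k γ) z
  rw [SL_slash_apply, Pi.smul_apply, smul_eq_mul, _root_.zpow_neg,
    mul_inv_eq_iff_eq_mul₀ (zpow_ne_zero _ <| denom_ne_zero _ z)] at h
  rw [h]
  ring

/-- At the cusp `A ∞`: `E_χ ∣[k] A` transforms by `χ` under the conjugate group `A⁻¹ Γ₀(N) A`. -/
theorem twe_Echi_slash_conj (hχ : twe_TrivAtInfty N χ) (k : ℤ) (A : SL(2, ℤ)) (γ : ↥(Gamma0 N)) :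
    (twe_Echi N χ k ∣[k] A) ∣[k] (A⁻¹ * (γ : SL(2, ℤ)) * A) =
      ((χ γ : ℂˣ) : ℂ) • (twe_Echi N χ k ∣[k] A) := by
  rw [← SlashAction.slash_mul, mul_assoc, mul_inv_cancel_left, SlashAction.slash_mul,
    twe_Echi_slash hχ, SL_smul_slash]

theorem twe_Echi_mdifferentiable (hu : ∀ γ : ↥(Gamma0 N), ‖((χ γ : ℂˣ) : ℂ)‖ = 1) {k : ℤ}
    (hk : 3 ≤ k) : MDiff (twe_Echi N χ k) :=
  twe_mdifferentiable (twe_wt_norm_le hu) hk

/-- `E_χ` is bounded at every cusp: every `SL(2, ℤ)`-slash is bounded at `i∞`. -/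
theorem twe_Echi_slash_isBoundedAtImInfty (hu : ∀ γ : ↥(Gamma0 N), ‖((χ γ : ℂˣ) : ℂ)‖ = 1) {k : ℤ}
    (hk : 3 ≤ k) (A : SL(2, ℤ)) : IsBoundedAtImInfty (twe_Echi N χ k ∣[k] A) :=
  twe_slash_isBoundedAtImInfty (twe_wt_norm_le hu) hk A

lemma twe_T_zpow_mem_Gamma0 (N : ℕ) (n : ℤ) : ModularGroup.T ^ n ∈ Gamma0 N := by
  rw [Gamma0_mem, ModularGroup.coe_T_zpow]
  simp

/-- `E_χ` is invariant under `z ↦ z + n`. -/
lemma twe_Echi_T_zpow (hχ : twe_TrivAtInfty N χ) (k : ℤ) (n : ℤ) (z : ℍ) :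
    twe_Echi N χ k (ModularGroup.T ^ n • z) = twe_Echi N χ k z := by
  have h := twe_Echi_smul hχ k ⟨ModularGroup.T ^ n, twe_T_zpow_mem_Gamma0 N n⟩ z
  have h1 : χ ⟨ModularGroup.T ^ n, twe_T_zpow_mem_Gamma0 N n⟩ = 1 := by
    apply hχ
    show (ModularGroup.T ^ n : SL(2, ℤ)) 1 0 = 0
    rw [ModularGroup.coe_T_zpow]
    simp
  have h2 : denom (ModularGroup.T ^ n : SL(2, ℤ)) z = 1 := by
    rw [ModularGroup.denom_apply, ModularGroup.coe_T_zpow]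
    simp
  rw [h1] at h
  simp only [h2] at h
  simpa using h

/-- For a `1`-periodic function, a limit in the strip `|re z| ≤ 1` is a limit at `i∞`. -/
lemma twe_tendsto_of_periodic {f : ℍ → ℂ} {L : ℂ}
    (hper : ∀ (n : ℤ) (z : ℍ), f (ModularGroup.T ^ n • z) = f z)
    (h : Tendsto f (atImInfty ⊓ 𝓟 {z : ℍ | |z.re| ≤ 1}) (𝓝 L)) : Tendsto f atImInfty (𝓝 L) := by
  intro U hU
  have h1 := h hU
  rw [Filter.mem_map, Filter.mem_inf_principal, atImInfty_mem] at h1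
  obtain ⟨B, hB⟩ := h1
  rw [Filter.mem_map, atImInfty_mem]
  refine ⟨B, fun z hz => ?_⟩
  obtain ⟨n, hn⟩ := ModularGroup_T_zpow_mem_verticalStrip z (N := 1) one_pos
  have h2 : (ModularGroup.T ^ (((1 : ℕ) : ℤ) * n) • z) ∈ f ⁻¹' U := by
    apply hB
    · rw [ModularGroup.im_T_zpow_smul]
      exact hz
    · have := hn.1
      show |(ModularGroup.T ^ (((1 : ℕ) : ℤ) * n) • z).re| ≤ 1
      exact_mod_cast this
  have h3 : f (ModularGroup.T ^ (((1 : ℕ) : ℤ) * n) • z) ∈ U := h2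
  rw [hper] at h3
  exact h3

lemma twe_one_mem_row (N : ℕ) : twe_row ((1 : ↥(Gamma0 N)) : SL(2, ℤ)) = ![0, 1] := by
  rw [Subgroup.coe_one, twe_row_one]

lemma twe_neg_one_mem_Gamma0 (N : ℕ) : (-1 : SL(2, ℤ)) ∈ Gamma0 N := by
  rw [Gamma0_mem]
  simp

lemma twe_row_neg_one : twe_row (-1 : SL(2, ℤ)) = ![0, -1] := by
  ext i
  fin_cases i <;> simp [twe_row]

lemma twe_wt_zero_one (hχ : twe_TrivAtInfty N χ) : twe_wt N χ ![0, 1] = 1 := by
  rw [← twe_one_mem_row N, twe_wt_row hχ, map_one, inv_one, Units.val_one]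

lemma twe_wt_zero_neg_one (hχ : twe_TrivAtInfty N χ) : twe_wt N χ ![0, -1] = 1 := by
  have h1 : twe_row ((⟨-1, twe_neg_one_mem_Gamma0 N⟩ : ↥(Gamma0 N)) : SL(2, ℤ)) = ![0, -1] :=
    twe_row_neg_one
  have h2 : χ ⟨-1, twe_neg_one_mem_Gamma0 N⟩ = 1 := by
    apply hχ
    show (-1 : SL(2, ℤ)) 1 0 = 0
    simp
  rw [← h1, twe_wt_row hχ, h2, inv_one, Units.val_one]

/-- The rows of `Γ₀(N)` with first entry `0` are `(0, 1)` and `(0, -1)`. -/
lemma twe_row_eq_of_zero {γ : SL(2, ℤ)} (h : γ 1 0 = 0) :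
    twe_row γ = ![0, 1] ∨ twe_row γ = ![0, -1] := by
  have hdet : (γ : Matrix (Fin 2) (Fin 2) ℤ).det = 1 := γ.2
  rw [Matrix.det_fin_two, h, mul_zero, sub_zero] at hdet
  have hu : IsUnit (γ 1 1) := IsUnit.of_mul_eq_one (γ 0 0) (by rw [mul_comm]; exact hdet)
  rcases Int.isUnit_iff.mp hu with h1 | h1
  · left
    ext i
    fin_cases i
    · simpa using h
    · simpa using h1
  · right
    ext i
    fin_cases i
    · simpa using h
    · simpa using h1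

/-- The constant term of `E_χ` is `2` (for even weight). -/
theorem twe_const_wt (hχ : twe_TrivAtInfty N χ) {k : ℤ} (hk : Even k) :
    twe_const (twe_wt N χ) k = 2 := by
  classical
  have hne : (![0, 1] : Fin 2 → ℤ) ≠ ![0, -1] := by
    intro h
    have := congr_fun h 1
    simp at this
  have key : ∀ v : Fin 2 → ℤ,
      (if v 0 = 0 then twe_wt N χ v * ((v 1 : ℤ) : ℂ) ^ (-k) else 0) =
      (if v = ![0, 1] then (1 : ℂ) else 0) + (if v = ![0, -1] then (1 : ℂ) else 0) := by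
    intro v
    by_cases h1 : v = ![0, 1]
    · subst h1
      rw [if_pos rfl, if_neg hne]
      simp [twe_wt_zero_one hχ]
    by_cases h2 : v = ![0, -1]
    · subst h2
      rw [if_neg hne.symm, if_pos rfl]
      have : ((-1 : ℂ)) ^ (-k) = 1 := hk.neg.neg_one_zpow
      simp [twe_wt_zero_neg_one hχ, this]
    rw [if_neg h1, if_neg h2, add_zero]
    by_cases h0 : v 0 = 0
    · rw [if_pos h0]
      have : twe_wt N χ v = 0 := by
        apply twe_wt_of_not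
        rintro ⟨γ, rfl⟩
        rcases twe_row_eq_of_zero (γ := (γ : SL(2, ℤ))) h0 with h | h
        · exact h1 h
        · exact h2 h
      rw [this, zero_mul]
    · rw [if_neg h0]
  unfold twe_const
  simp_rw [key]
  rw [Summable.tsum_add (hasSum_ite_eq _ _).summable (hasSum_ite_eq _ _).summable,
    tsum_ite_eq, tsum_ite_eq]
  norm_num

/-- `E_χ → 2` at `i∞` (even weight). -/
theorem twe_Echi_tendsto (hχ : twe_TrivAtInfty N χ)
    (hu : ∀ γ : ↥(Gamma0 N), ‖((χ γ : ℂˣ) : ℂ)‖ = 1) {k : ℤ} (hk : 3 ≤ k) (hk2 : Even k) :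
    Tendsto (twe_Echi N χ k) atImInfty (𝓝 2) := by
  apply twe_tendsto_of_periodic (twe_Echi_T_zpow hχ k)
  rw [← twe_const_wt hχ hk2]
  exact twe_tendsto_strip (twe_wt_norm_le hu) hk 1

/-- `E_χ` is not identically zero (even weight): it is nonzero at every point high enough. -/
theorem twe_Echi_eventually_ne_zero (hχ : twe_TrivAtInfty N χ)
    (hu : ∀ γ : ↥(Gamma0 N), ‖((χ γ : ℂˣ) : ℂ)‖ = 1) {k : ℤ} (hk : 3 ≤ k) (hk2 : Even k) :
    ∀ᶠ z in atImInfty, twe_Echi N χ k z ≠ 0 :=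
  (twe_Echi_tendsto hχ hu hk hk2).eventually_ne (by norm_num)

theorem twe_Echi_ne_zero (hχ : twe_TrivAtInfty N χ)
    (hu : ∀ γ : ↥(Gamma0 N), ‖((χ γ : ℂˣ) : ℂ)‖ = 1) {k : ℤ} (hk : 3 ≤ k) (hk2 : Even k) :
    twe_Echi N χ k ≠ 0 := by
  intro h
  have h1 := twe_Echi_eventually_ne_zero hχ hu hk hk2
  obtain ⟨z, hz⟩ := h1.exists
  exact hz (by rw [h]; rfl)

/-! ### (c) the modular form `E_χ ^ n` on `Γ₀(N)` and the quotient `E_χ / E_1` -/

lemma twe_pow_slash (f : ℍ → ℂ) (k : ℤ) (A : SL(2, ℤ)) (n : ℕ) :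
    (f ^ n) ∣[(n : ℤ) * k] A = (f ∣[k] A) ^ n := by
  induction n with
  | zero =>
    rw [Nat.cast_zero, zero_mul, pow_zero, pow_zero]
    exact is_invariant_one A
  | succ n ih =>
    have : ((n + 1 : ℕ) : ℤ) * k = (n : ℤ) * k + k := by push_cast; ring
    rw [this, pow_succ, mul_slash_SL2, ih, pow_succ]

lemma twe_isBoundedAtImInfty_pow {f : ℍ → ℂ} (hf : IsBoundedAtImInfty f) (n : ℕ) :
    IsBoundedAtImInfty (f ^ n) := by
  induction n with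
  | zero =>
    rw [pow_zero]
    exact Filter.const_boundedAtFilter _ (1 : ℂ)
  | succ n ih =>
    rw [pow_succ]
    exact Filter.BoundedAtFilter.mul ih hf

lemma twe_chi_pow_eq_one {n : ℕ} (hχn : χ ^ n = 1) (γ : ↥(Gamma0 N)) :
    (((χ γ : ℂˣ) : ℂ)) ^ n = 1 := by
  have h1 : (χ γ) ^ n = 1 := by
    have := congr_arg (fun ψ : ↥(Gamma0 N) →* ℂˣ => ψ γ) hχn
    simpa using this
  rw [← Units.val_pow_eq_pow_val, h1, Units.val_one]

/-- If `χ ^ n = 1` then `E_χ ^ n` is a modular form of weight `n k` on `Γ₀(N)`. -/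
def twe_powMF [NeZero N] (hχ : twe_TrivAtInfty N χ) {k : ℤ} (hk : 3 ≤ k) {n : ℕ} (hn : n ≠ 0)
    (hχn : χ ^ n = 1) : ModularForm (Gamma0 N) ((n : ℤ) * k) where
  toFun := twe_Echi N χ k ^ n
  slash_action_eq' A hA := by
    obtain ⟨A, (hA : A ∈ Gamma0 N), rfl⟩ := hA
    have h1 := twe_pow_slash (twe_Echi N χ k) k A n
    rw [twe_Echi_slash hχ k ⟨A, hA⟩, smul_pow, twe_chi_pow_eq_one hχn, one_smul] at h1
    exact h1
  holo' := (twe_Echi_mdifferentiable (twe_unitary_of_pow_eq_one hn hχn) hk).pow n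
  bdd_at_cusps' {c} hc := by
    rw [Subgroup.IsArithmetic.isCusp_iff_isCusp_SL2Z] at hc
    rw [OnePoint.isBoundedAt_iff_forall_SL2Z hc]
    intro γ _
    rw [twe_pow_slash]
    exact twe_isBoundedAtImInfty_pow
      (twe_Echi_slash_isBoundedAtImInfty (twe_unitary_of_pow_eq_one hn hχn) hk γ) n

@[simp] lemma twe_powMF_apply [NeZero N] (hχ : twe_TrivAtInfty N χ) {k : ℤ} (hk : 3 ≤ k) {n : ℕ}
    (hn : n ≠ 0) (hχn : χ ^ n = 1) (z : ℍ) :
    twe_powMF hχ hk hn hχn z = twe_Echi N χ k z ^ n := rfl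

lemma twe_powMF_ne_zero [NeZero N] (hχ : twe_TrivAtInfty N χ) {k : ℤ} (hk : 3 ≤ k)
    (hk2 : Even k) {n : ℕ} (hn : n ≠ 0) (hχn : χ ^ n = 1) : twe_powMF hχ hk hn hχn ≠ 0 := by
  intro h
  obtain ⟨z, hz⟩ :=
    (twe_Echi_eventually_ne_zero hχ (twe_unitary_of_pow_eq_one hn hχn) hk hk2).exists
  have h1 : twe_powMF hχ hk hn hχn z = 0 := by rw [h]; rfl
  rw [twe_powMF_apply] at h1
  exact hz (pow_eq_zero_iff hn |>.mp h1)

/-- The trivial character satisfies all hypotheses. -/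
lemma twe_trivAtInfty_one (N : ℕ) : twe_TrivAtInfty N (1 : ↥(Gamma0 N) →* ℂˣ) := fun _ _ => rfl

lemma twe_unitary_one (N : ℕ) (γ : ↥(Gamma0 N)) :
    ‖(((1 : ↥(Gamma0 N) →* ℂˣ) γ : ℂˣ) : ℂ)‖ = 1 := by simp

lemma twe_one_pow (N n : ℕ) : (1 : ↥(Gamma0 N) →* ℂˣ) ^ n = 1 := by
  ext γ
  simp

variable (N χ)

/-- The quotient `h_χ = E_χ / E_1`. -/
def twe_h (k : ℤ) (z : ℍ) : ℂ := twe_Echi N χ k z / twe_Echi N 1 k z

variable {N χ}

/-- `h_χ (γ z) = χ(γ) h_χ z` for `γ ∈ Γ₀(N)`. -/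
theorem twe_h_smul (hχ : twe_TrivAtInfty N χ) (k : ℤ) (γ : ↥(Gamma0 N)) (z : ℍ) :
    twe_h N χ k ((γ : SL(2, ℤ)) • z) = ((χ γ : ℂˣ) : ℂ) * twe_h N χ k z := by
  unfold twe_h
  rw [twe_Echi_smul hχ, twe_Echi_smul (twe_trivAtInfty_one N)]
  have hd : denom (γ : SL(2, ℤ)) z ^ k ≠ 0 := zpow_ne_zero _ (denom_ne_zero _ z)
  simp only [MonoidHom.one_apply, Units.val_one, one_mul]
  rw [mul_assoc, mul_div_assoc, mul_div_mul_left _ _ hd]

/-- `h_χ ^ n` is the quotient of the two modular forms `E_χ ^ n`, `E_1 ^ n` of weight `n k`. -/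
theorem twe_h_pow [NeZero N] (hχ : twe_TrivAtInfty N χ) {k : ℤ} (hk : 3 ≤ k) {n : ℕ} (hn : n ≠ 0)
    (hχn : χ ^ n = 1) (z : ℍ) :
    twe_h N χ k z ^ n =
      twe_powMF hχ hk hn hχn z / twe_powMF (twe_trivAtInfty_one N) hk hn (twe_one_pow N n) z := by
  rw [twe_powMF_apply, twe_powMF_apply, twe_h, div_pow]

/-- `h_χ → 1` at `i∞` (even weight). -/
theorem twe_h_tendsto (hχ : twe_TrivAtInfty N χ)
    (hu : ∀ γ : ↥(Gamma0 N), ‖((χ γ : ℂˣ) : ℂ)‖ = 1) {k : ℤ} (hk : 3 ≤ k) (hk2 : Even k) :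
    Tendsto (twe_h N χ k) atImInfty (𝓝 1) := by
  have h1 := twe_Echi_tendsto hχ hu hk hk2
  have h2 := twe_Echi_tendsto (twe_trivAtInfty_one N) (twe_unitary_one N) hk hk2
  have h3 := h1.div h2 (by norm_num)
  rw [div_self (by norm_num : (2 : ℂ) ≠ 0)] at h3
  exact h3

end

end Fermat.Agent.JT3
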