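import Mathlib
import Fermat.Prelude.Def_ModularCurve_LaurentCoeff

/-!
# JT3 / T1 gateway, node G4 (descent `ℂ → Q̄`), part (A3): linear disjointness (prefix `gd_`)

`K₀ ⊆ K` fields of characteristic zero, `F_ℚ ⊆ ℚ((q))` a field.  Inside `K((q))`:
`coeffMap ι (K₀((q))) ∩ laurentBaseChange K F_ℚ = coeffMap ι (laurentBaseChange K₀ F_ℚ)`.

* `gd_coeffMap_mem`: `coeffMap ι` maps `laurentBaseChange K₀ F_ℚ` into `laurentBaseChange K F_ℚ`;
* `gd_mem_of_coeffMap_mem`: the converse (a Laurent series over `K₀` which becomes an element of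
  the function field over `K` is an element of the function field over `K₀`).

Proof of the converse: every element of `laurentBaseChange K F_ℚ` is a quotient `a / b` of
`K`-linear combinations of series coming from `laurentBaseChange K₀ F_ℚ`; a `K₀`-linear functional
`λ : K → K₀`, applied coefficientwise, is linear over `K₀((q))` and maps such combinations into
`laurentBaseChange K₀ F_ℚ`; choose `λ` not killing a coefficient of `b`.
-/

set_option autoImplicit false

namespace Fermat.Agent.JT3

open ModularCurve HahnSeries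

variable {K₀ K : Type*} [Field K₀] [Field K] [Algebra K₀ K]

/-- a `K₀`-linear functional applied coefficientwise -/
noncomputable def gd_funcMap (l : K →ₗ[K₀] K₀) (y : LaurentSeries K) : LaurentSeries K₀ :=
  y.map l

@[simp] theorem gd_funcMap_coeff (l : K →ₗ[K₀] K₀) (y : LaurentSeries K) (k : ℤ) :
    (gd_funcMap l y).coeff k = l (y.coeff k) := rfl

theorem gd_funcMap_zero (l : K →ₗ[K₀] K₀) : gd_funcMap l 0 = 0 := by
  ext k
  simp

theorem gd_funcMap_add (l : K →ₗ[K₀] K₀) (y z : LaurentSeries K) :
    gd_funcMap l (y + z) = gd_funcMap l y + gd_funcMap l z := by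
  ext k
  simp

theorem gd_funcMap_smul (l : K →ₗ[K₀] K₀) (c : K) (y : LaurentSeries K) :
    gd_funcMap l (c • y) = gd_funcMap (l ∘ₗ LinearMap.mulLeft K₀ c) y := by
  ext k
  simp

/-- **`λ_*` is linear over `K₀((q))`.** -/
theorem gd_funcMap_mul (l : K →ₗ[K₀] K₀) (y₀ : LaurentSeries K₀) (y : LaurentSeries K) :
    gd_funcMap l (coeffMap (algebraMap K₀ K) y₀ * y) = y₀ * gd_funcMap l y := by
  ext k
  have hs : (coeffMap (algebraMap K₀ K) y₀).support ⊆ y₀.support := by
    intro i hi h0
    apply hi
    change (coeffMap (algebraMap K₀ K) y₀).coeff i = 0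
    rw [coeffMap_coeff]
    have h0' : y₀.coeff i = 0 := h0
    rw [h0', map_zero]
  have ht : (gd_funcMap l y).support ⊆ y.support := by
    intro i hi h0
    apply hi
    rw [gd_funcMap_coeff]
    have h0' : y.coeff i = 0 := h0
    rw [h0', map_zero]
  rw [gd_funcMap_coeff, coeff_mul_left' y₀.isPWO_support hs,
    coeff_mul_right' y.isPWO_support ht, map_sum]
  refine Finset.sum_congr rfl fun ij _ => ?_
  rw [coeffMap_coeff, gd_funcMap_coeff, ← Algebra.smul_def, map_smul, smul_eq_mul]

theorem gd_coeffMap_algebraMap (c : K₀) :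
    coeffMap (algebraMap K₀ K) (algebraMap K₀ (LaurentSeries K₀) c) =
      algebraMap K (LaurentSeries K) (algebraMap K₀ K c) := by
  rw [algebraMap_laurentSeries_eq_single, algebraMap_laurentSeries_eq_single, coeffMap_single]

section main

variable [Algebra ℚ K₀] [Algebra ℚ K] (F_ℚ : IntermediateField ℚ (LaurentSeries ℚ))

theorem gd_coeffMap_coeffEmb (z : LaurentSeries ℚ) :
    coeffMap (algebraMap K₀ K) (coeffEmb K₀ z) = coeffEmb K z := by
  rw [coeffEmb, coeffEmb, coeffMap_coeffMap]
  exact coeffMap_congr (RingHom.ext fun c => by simp) z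

/-- `coeffMap ι` maps the function field over `K₀` into the function field over `K`. -/
theorem gd_coeffMap_mem {x₀ : LaurentSeries K₀} (h : x₀ ∈ laurentBaseChange K₀ F_ℚ) :
    coeffMap (algebraMap K₀ K) x₀ ∈ laurentBaseChange K F_ℚ := by
  rw [mem_laurentBaseChange_iff] at h
  induction h using Subfield.closure_induction with
  | mem y hy =>
      rcases hy with ⟨a, rfl⟩ | ⟨z, hz, rfl⟩
      · rw [gd_coeffMap_algebraMap]
        exact (laurentBaseChange K F_ℚ).algebraMap_mem _
      · rw [gd_coeffMap_coeffEmb]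
        exact coeffEmb_mem_laurentBaseChange K hz
  | one => simp
  | add x y _ _ hx hy => simpa using add_mem hx hy
  | neg x _ hx => simpa using neg_mem hx
  | inv x _ hx => simpa using inv_mem hx
  | mul x y _ _ hx hy => simpa using mul_mem hx hy

/-- the `K`-span of the series coming from the function field over `K₀` -/
noncomputable def gd_span : Submodule K (LaurentSeries K) :=
  Submodule.span K (⇑(coeffMap (algebraMap K₀ K)) '' (laurentBaseChange K₀ F_ℚ : Set _))

omit [Algebra ℚ K] in
theorem gd_coeffMap_mem_span {x₀ : LaurentSeries K₀} (h : x₀ ∈ laurentBaseChange K₀ F_ℚ) :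
    coeffMap (algebraMap K₀ K) x₀ ∈ gd_span (K₀ := K₀) (K := K) F_ℚ :=
  Submodule.subset_span ⟨x₀, h, rfl⟩

omit [Algebra ℚ K] in
theorem gd_span_mul {a b : LaurentSeries K} (ha : a ∈ gd_span (K₀ := K₀) F_ℚ)
    (hb : b ∈ gd_span (K₀ := K₀) F_ℚ) : a * b ∈ gd_span (K₀ := K₀) F_ℚ := by
  unfold gd_span at ha hb ⊢
  induction ha using Submodule.span_induction with
  | mem x hx =>
      obtain ⟨x₀, hx₀, rfl⟩ := hx
      induction hb using Submodule.span_induction with
      | mem y hy =>
          obtain ⟨y₀, hy₀, rfl⟩ := hy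
          exact Submodule.subset_span ⟨x₀ * y₀, mul_mem hx₀ hy₀, map_mul _ _ _⟩
      | zero => rw [mul_zero]; exact zero_mem _
      | add y z _ _ hy hz => rw [mul_add]; exact add_mem hy hz
      | smul c y _ hy =>
          rw [← HahnSeries.C_mul_eq_smul, mul_left_comm, HahnSeries.C_mul_eq_smul]
          exact Submodule.smul_mem _ _ hy
  | zero => rw [zero_mul]; exact zero_mem _
  | add x y _ _ hx hy => rw [add_mul]; exact add_mem hx hy
  | smul c x _ hx =>
      rw [← HahnSeries.C_mul_eq_smul, mul_assoc, HahnSeries.C_mul_eq_smul]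
      exact Submodule.smul_mem _ _ hx

omit [Algebra ℚ K] in
/-- functionals map the span into the function field over `K₀` -/
theorem gd_funcMap_mem {a : LaurentSeries K} (ha : a ∈ gd_span (K₀ := K₀) F_ℚ) :
    ∀ l : K →ₗ[K₀] K₀, gd_funcMap l a ∈ laurentBaseChange K₀ F_ℚ := by
  unfold gd_span at ha
  induction ha using Submodule.span_induction with
  | mem x hx =>
      obtain ⟨y, hy, rfl⟩ := hx
      intro l
      have h1 : gd_funcMap l (coeffMap (algebraMap K₀ K) y) =
          algebraMap K₀ (LaurentSeries K₀) (l 1) * y := by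
        have h2 := gd_funcMap_mul l y (1 : LaurentSeries K)
        rw [mul_one] at h2
        rw [h2, mul_comm]
        congr 1
        ext k
        rw [gd_funcMap_coeff, algebraMap_laurentSeries_eq_single]
        by_cases hk : k = 0
        · subst hk
          rw [HahnSeries.coeff_one, if_pos rfl, HahnSeries.coeff_single_same]
        · rw [HahnSeries.coeff_one, if_neg hk, map_zero, HahnSeries.coeff_single_of_ne hk]
      rw [h1]
      exact mul_mem ((laurentBaseChange K₀ F_ℚ).algebraMap_mem _) hy
  | zero =>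
      intro l
      rw [gd_funcMap_zero]
      exact zero_mem _
  | add x y _ _ hx hy =>
      intro l
      rw [gd_funcMap_add]
      exact add_mem (hx l) (hy l)
  | smul c x _ hx =>
      intro l
      rw [gd_funcMap_smul]
      exact hx _

/-- every element of the function field over `K` is a quotient of elements of the span -/
theorem gd_exists_quot {x : LaurentSeries K} (h : x ∈ laurentBaseChange K F_ℚ) :
    ∃ a ∈ gd_span (K₀ := K₀) F_ℚ, ∃ b ∈ gd_span (K₀ := K₀) F_ℚ, b ≠ 0 ∧ x * b = a := by
  have hone : (1 : LaurentSeries K) ∈ gd_span (K₀ := K₀) F_ℚ := by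
    have := gd_coeffMap_mem_span (K := K) F_ℚ (one_mem (laurentBaseChange K₀ F_ℚ))
    rwa [map_one] at this
  rw [mem_laurentBaseChange_iff] at h
  induction h using Subfield.closure_induction with
  | mem y hy =>
      rcases hy with ⟨c, rfl⟩ | ⟨z, hz, rfl⟩
      · refine ⟨algebraMap K (LaurentSeries K) c, ?_, 1, hone, one_ne_zero, mul_one _⟩
        have hc : algebraMap K (LaurentSeries K) c = c • (1 : LaurentSeries K) := by
          rw [algebraMap_laurentSeries_eq_single]
          ext k
          by_cases hk : k = 0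
          · subst hk
            simp
          · rw [HahnSeries.coeff_single_of_ne hk, HahnSeries.coeff_smul, HahnSeries.coeff_one,
              if_neg hk, smul_zero]
        rw [hc]
        exact Submodule.smul_mem _ _ hone
      · refine ⟨coeffEmb K z, ?_, 1, hone, one_ne_zero, mul_one _⟩
        rw [← gd_coeffMap_coeffEmb (K₀ := K₀)]
        exact gd_coeffMap_mem_span F_ℚ (coeffEmb_mem_laurentBaseChange K₀ hz)
  | one => exact ⟨1, hone, 1, hone, one_ne_zero, mul_one _⟩
  | add x y _ _ hx hy =>
      obtain ⟨a, ha, b, hb, hb0, hab⟩ := hx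
      obtain ⟨a', ha', b', hb', hb0', hab'⟩ := hy
      refine ⟨a * b' + a' * b, add_mem (gd_span_mul F_ℚ ha hb') (gd_span_mul F_ℚ ha' hb),
        b * b', gd_span_mul F_ℚ hb hb', mul_ne_zero hb0 hb0', ?_⟩
      rw [← hab, ← hab']
      ring
  | neg x _ hx =>
      obtain ⟨a, ha, b, hb, hb0, hab⟩ := hx
      exact ⟨-a, neg_mem ha, b, hb, hb0, by rw [neg_mul, hab]⟩
  | inv x _ hx =>
      obtain ⟨a, ha, b, hb, hb0, hab⟩ := hx
      by_cases hx0 : x = 0
      · subst hx0
        exact ⟨0, zero_mem _, 1, hone, one_ne_zero, by rw [inv_zero, zero_mul]⟩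
      · refine ⟨b, hb, a, ha, ?_, ?_⟩
        · rw [← hab]
          exact mul_ne_zero hx0 hb0
        · rw [← hab, ← mul_assoc, inv_mul_cancel₀ hx0, one_mul]
  | mul x y _ _ hx hy =>
      obtain ⟨a, ha, b, hb, hb0, hab⟩ := hx
      obtain ⟨a', ha', b', hb', hb0', hab'⟩ := hy
      refine ⟨a * a', gd_span_mul F_ℚ ha ha', b * b', gd_span_mul F_ℚ hb hb',
        mul_ne_zero hb0 hb0', ?_⟩
      rw [← hab, ← hab']
      ring

/-- **(A3)** a Laurent series over `K₀` which lies in the function field over `K` lies in the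
function field over `K₀`. -/
theorem gd_mem_of_coeffMap_mem {x₀ : LaurentSeries K₀}
    (h : coeffMap (algebraMap K₀ K) x₀ ∈ laurentBaseChange K F_ℚ) :
    x₀ ∈ laurentBaseChange K₀ F_ℚ := by
  obtain ⟨a, ha, b, hb, hb0, hab⟩ := gd_exists_quot (K₀ := K₀) F_ℚ h
  -- a coefficient of `b` which does not vanish, and a functional not killing it
  have hex : ∃ k : ℤ, b.coeff k ≠ 0 := by
    by_contra hall
    push Not at hall
    exact hb0 (HahnSeries.ext (funext hall))
  obtain ⟨k, hk⟩ := hex
  obtain ⟨l, hl⟩ := Module.Projective.exists_dual_ne_zero K₀ hk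
  have h1 : x₀ * gd_funcMap l b = gd_funcMap l a := by
    rw [← gd_funcMap_mul, hab]
  have hlb : gd_funcMap l b ≠ 0 := by
    intro h0
    apply hl
    have := congrArg (fun y : LaurentSeries K₀ => y.coeff k) h0
    simpa using this
  have h2 : x₀ = gd_funcMap l a * (gd_funcMap l b)⁻¹ := by
    rw [← h1, mul_assoc, mul_inv_cancel₀ hlb, mul_one]
  rw [h2]
  exact mul_mem (gd_funcMap_mem F_ℚ ha l) (inv_mem (gd_funcMap_mem F_ℚ hb l))

end main

end Fermat.Agent.JT3
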