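/-
JT3 / T1 gateway, node G3a (second half): weight-zero holomorphic functions with character.

`twe_g N χ = E_χ / Δ` (weight `12`) is holomorphic on `ℍ`, transforms under `Γ₀(N)` by `χ`, and all
its `SL(2, ℤ)`-translates have at most a simple pole at `i∞`.  If `χ ^ n = 1` then
`(twe_g N χ) ^ n` is a weakly holomorphic modular function of level `Γ₀(N)` (`S24.IsWeakModFun`).
-/
import Mathlib
import Fermat.Agent.JT3.Gateway.TwistedEisenstein
import Fermat.Agent.S24.WeakModFun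

set_option autoImplicit false

namespace Fermat.Agent.JT3

open UpperHalfPlane ModularForm EisensteinSeries Matrix CongruenceSubgroup Filter Topology
open scoped MatrixGroups Manifold
open Fermat.Agent.S24 (qH IsWeakModFun etaProdH)

local notation "Δ" => ModularForm.discriminant

noncomputable section

/-! ### weakly holomorphic functions with character -/

/-- `h` is holomorphic on `ℍ`, transforms under `Γ₀(N)` by the character `χ`, and all its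
`SL(2, ℤ)`-translates have at most a pole at `i∞`. -/
structure twe_IsCharFun (N : ℕ) (χ : ↥(Gamma0 N) →* ℂˣ) (h : ℍ → ℂ) : Prop where
  mdiff : MDiff h
  smul : ∀ (γ : ↥(Gamma0 N)) (z : ℍ), h ((γ : SL(2, ℤ)) • z) = ((χ γ : ℂˣ) : ℂ) * h z
  growth : ∀ A : SL(2, ℤ), ∃ m : ℕ, IsBoundedAtImInfty (qH ^ m * fun z => h (A • z))

namespace twe_IsCharFun

variable {N : ℕ} {χ ψ : ↥(Gamma0 N) →* ℂˣ} {f g : ℍ → ℂ}

theorem mul (hf : twe_IsCharFun N χ f) (hg : twe_IsCharFun N ψ g) :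
    twe_IsCharFun N (χ * ψ) (f * g) := by
  refine ⟨hf.mdiff.mul hg.mdiff, fun γ z => ?_, fun A => ?_⟩
  · show f _ * g _ = _ * (f z * g z)
    rw [hf.smul, hg.smul, MonoidHom.mul_apply, Units.val_mul]
    ring
  · obtain ⟨m₁, h₁⟩ := hf.growth A
    obtain ⟨m₂, h₂⟩ := hg.growth A
    refine ⟨m₁ + m₂, ?_⟩
    have e : (qH ^ (m₁ + m₂) * fun z => (f * g) (A • z)) =
        (qH ^ m₁ * fun z => f (A • z)) * (qH ^ m₂ * fun z => g (A • z)) := by
      ext z; simp [pow_add]; ring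
    rw [e]
    exact h₁.mul h₂

theorem one (N : ℕ) : twe_IsCharFun N (1 : ↥(Gamma0 N) →* ℂˣ) (1 : ℍ → ℂ) := by
  refine ⟨mdifferentiable_const, fun γ z => by simp, fun A => ⟨0, ?_⟩⟩
  have h : (qH ^ 0 * fun z : ℍ => (1 : ℍ → ℂ) (A • z)) = Function.const ℍ (1 : ℂ) := by
    ext z; simp
  rw [h]
  exact Filter.const_boundedAtFilter atImInfty (1 : ℂ)

theorem pow (hf : twe_IsCharFun N χ f) (n : ℕ) : twe_IsCharFun N (χ ^ n) (f ^ n) := by
  induction n with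
  | zero =>
    have h0 : χ ^ 0 = 1 := by ext γ; simp
    rw [h0, pow_zero]
    exact one N
  | succ n ih =>
    have h1 : χ ^ (n + 1) = χ ^ n * χ := by ext γ; simp [pow_succ]
    rw [h1, pow_succ]
    exact ih.mul hf

/-- A function with trivial character is a weakly holomorphic modular function. -/
theorem isWeakModFun (hf : twe_IsCharFun N (1 : ↥(Gamma0 N) →* ℂˣ) f) : IsWeakModFun N f :=
  ⟨hf.mdiff, fun γ hγ z => by simpa using hf.smul ⟨γ, hγ⟩ z, hf.growth⟩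

theorem of_isWeakModFun (hf : IsWeakModFun N f) : twe_IsCharFun N (1 : ↥(Gamma0 N) →* ℂˣ) f :=
  ⟨hf.mdiff, fun γ z => by simpa using hf.inv γ γ.2 z, hf.growth⟩

theorem isWeakModFun_pow (hf : twe_IsCharFun N χ f) {n : ℕ} (hχn : χ ^ n = 1) :
    IsWeakModFun N (f ^ n) := by
  have := hf.pow n
  rw [hχn] at this
  exact this.isWeakModFun

end twe_IsCharFun

/-! ### `E_χ / Δ` -/

lemma twe_discriminant_smul (A : SL(2, ℤ)) (z : ℍ) :
    (Δ : ℍ → ℂ) (A • z) = denom A z ^ (12 : ℤ) * (Δ : ℍ → ℂ) z := by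
  have h := congr_fun (Fermat.Agent.S24.discriminant_slash_SL A) z
  rw [SL_slash_apply, _root_.zpow_neg,
    mul_inv_eq_iff_eq_mul₀ (zpow_ne_zero _ <| denom_ne_zero _ z)] at h
  rw [h, mul_comm]

/-- `qH / Δ` is bounded at `i∞`. -/
lemma twe_isBoundedAtImInfty_qH_div_discriminant :
    IsBoundedAtImInfty (fun z : ℍ => qH z / (Δ : ℍ → ℂ) z) := by
  have h1 : Tendsto (fun z : ℍ => (etaProdH z)⁻¹) atImInfty (𝓝 (1 : ℂ)⁻¹) :=
    Fermat.Agent.S24.tendsto_etaProdH.inv₀ one_ne_zero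
  have h2 : (fun z : ℍ => qH z / (Δ : ℍ → ℂ) z) = fun z : ℍ => (etaProdH z)⁻¹ := by
    ext z
    simp [etaProdH]
  rw [h2]
  exact h1.isBigO_one ℝ

variable (N : ℕ) (χ : ↥(Gamma0 N) →* ℂˣ)

/-- The holomorphic weight-zero function `E_χ / Δ` (`E_χ` of weight `12`). -/
def twe_g (z : ℍ) : ℂ := twe_Echi N χ 12 z / (Δ : ℍ → ℂ) z

variable {N χ}

lemma twe_g_eq : twe_g N χ = twe_Echi N χ 12 / (Δ : ℍ → ℂ) := rfl

theorem twe_g_mdifferentiable (hu : ∀ γ : ↥(Gamma0 N), ‖((χ γ : ℂˣ) : ℂ)‖ = 1) :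
    MDiff (twe_g N χ) := by
  rw [twe_g_eq]
  exact MDifferentiable.div (twe_Echi_mdifferentiable hu (by norm_num))
    Fermat.Agent.S24.mdiff_discriminant discriminant_ne_zero

/-- Translates: `(E_χ / Δ)(A z) = (E_χ ∣[12] A)(z) / Δ(z)`. -/
lemma twe_g_smul_SL (A : SL(2, ℤ)) (z : ℍ) :
    twe_g N χ (A • z) = (twe_Echi N χ 12 ∣[(12 : ℤ)] A) z / (Δ : ℍ → ℂ) z := by
  have hd : denom A z ^ (12 : ℤ) ≠ 0 := zpow_ne_zero _ (denom_ne_zero _ z)
  rw [twe_g, twe_discriminant_smul, SL_slash_apply, _root_.zpow_neg]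
  field_simp

theorem twe_g_smul (hχ : twe_TrivAtInfty N χ) (γ : ↥(Gamma0 N)) (z : ℍ) :
    twe_g N χ ((γ : SL(2, ℤ)) • z) = ((χ γ : ℂˣ) : ℂ) * twe_g N χ z := by
  rw [twe_g_smul_SL, twe_Echi_slash hχ, Pi.smul_apply, smul_eq_mul, twe_g, mul_div_assoc]

theorem twe_g_growth (hu : ∀ γ : ↥(Gamma0 N), ‖((χ γ : ℂˣ) : ℂ)‖ = 1) (A : SL(2, ℤ)) :
    IsBoundedAtImInfty (qH ^ 1 * fun z => twe_g N χ (A • z)) := by
  have h1 : (qH ^ 1 * fun z => twe_g N χ (A • z)) =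
      (twe_Echi N χ 12 ∣[(12 : ℤ)] A) * (fun z : ℍ => qH z / (Δ : ℍ → ℂ) z) := by
    ext z
    simp only [Pi.mul_apply, pow_one, twe_g_smul_SL]
    ring
  rw [h1]
  exact (twe_Echi_slash_isBoundedAtImInfty hu (by norm_num) A).mul
    twe_isBoundedAtImInfty_qH_div_discriminant

/-- `E_χ / Δ` is a weakly holomorphic function with character `χ`. -/
theorem twe_g_isCharFun (hχ : twe_TrivAtInfty N χ)
    (hu : ∀ γ : ↥(Gamma0 N), ‖((χ γ : ℂˣ) : ℂ)‖ = 1) : twe_IsCharFun N χ (twe_g N χ) :=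
  ⟨twe_g_mdifferentiable hu, twe_g_smul hχ, fun A => ⟨1, twe_g_growth hu A⟩⟩

theorem twe_g_eventually_ne_zero (hχ : twe_TrivAtInfty N χ)
    (hu : ∀ γ : ↥(Gamma0 N), ‖((χ γ : ℂˣ) : ℂ)‖ = 1) :
    ∀ᶠ z in atImInfty, twe_g N χ z ≠ 0 := by
  filter_upwards [twe_Echi_eventually_ne_zero hχ hu (k := 12) (by norm_num) ⟨6, by norm_num⟩]
    with z hz
  exact div_ne_zero hz (discriminant_ne_zero z)

theorem twe_g_ne_zero (hχ : twe_TrivAtInfty N χ)
    (hu : ∀ γ : ↥(Gamma0 N), ‖((χ γ : ℂˣ) : ℂ)‖ = 1) : twe_g N χ ≠ 0 := by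
  intro h
  obtain ⟨z, hz⟩ := (twe_g_eventually_ne_zero hχ hu).exists
  exact hz (by rw [h]; rfl)

/-- `qH * E_χ / Δ → 2` at `i∞`: the pole of `E_χ / Δ` at `i∞` is simple with residue `2`. -/
theorem twe_g_tendsto (hχ : twe_TrivAtInfty N χ)
    (hu : ∀ γ : ↥(Gamma0 N), ‖((χ γ : ℂˣ) : ℂ)‖ = 1) :
    Tendsto (qH * twe_g N χ) atImInfty (𝓝 2) := by
  have h1 := twe_Echi_tendsto hχ hu (k := 12) (by norm_num) ⟨6, by norm_num⟩
  have h2 := h1.div Fermat.Agent.S24.tendsto_etaProdH one_ne_zero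
  rw [div_one] at h2
  refine h2.congr fun z => ?_
  simp only [Pi.div_apply, Pi.mul_apply, twe_g, etaProdH]
  field_simp [Fermat.Agent.S24.qH_ne_zero z, discriminant_ne_zero z]

/-! ### the data for `gw_HasChar` -/

/-- If `χ ^ n = 1` then `(E_χ / Δ) ^ n` is a weakly holomorphic modular function of level
`Γ₀(N)`. -/
theorem twe_g_pow_isWeakModFun (hχ : twe_TrivAtInfty N χ) {n : ℕ} (hn : n ≠ 0) (hχn : χ ^ n = 1) :
    IsWeakModFun N (twe_g N χ ^ n) :=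
  (twe_g_isCharFun hχ (twe_unitary_of_pow_eq_one hn hχn)).isWeakModFun_pow hχn

variable (N χ)

/-- The holomorphic `n`-th root `u = (E_χ / Δ) (E_1 / Δ) ^ (n - 1)` of
`(E_χ / Δ) ^ n * ((E_1 / Δ) ^ n) ^ (n - 1)`; it has character `χ`. -/
def twe_u (n : ℕ) : ℍ → ℂ := twe_g N χ * twe_g N 1 ^ (n - 1)

variable {N χ}

theorem twe_u_isCharFun (hχ : twe_TrivAtInfty N χ)
    (hu : ∀ γ : ↥(Gamma0 N), ‖((χ γ : ℂˣ) : ℂ)‖ = 1) (n : ℕ) :
    twe_IsCharFun N χ (twe_u N χ n) := by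
  have h1 := (twe_g_isCharFun hχ hu).mul
    ((twe_g_isCharFun (twe_trivAtInfty_one N) (twe_unitary_one N)).pow (n - 1))
  have h2 : χ * (1 : ↥(Gamma0 N) →* ℂˣ) ^ (n - 1) = χ := by
    ext γ
    simp
  rw [h2] at h1
  exact h1

theorem twe_u_pow_isWeakModFun (hχ : twe_TrivAtInfty N χ) {n : ℕ} (hn : n ≠ 0)
    (hχn : χ ^ n = 1) : IsWeakModFun N (twe_u N χ n ^ n) :=
  (twe_u_isCharFun hχ (twe_unitary_of_pow_eq_one hn hχn) n).isWeakModFun_pow hχn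

theorem twe_u_pow (n : ℕ) :
    twe_u N χ n ^ n = twe_g N χ ^ n * (twe_g N 1 ^ n) ^ (n - 1) := by
  rw [twe_u, mul_pow, ← pow_mul, ← pow_mul, mul_comm (n - 1) n]

/-- `a_χ = b * u ^ n / b ^ n`: the relation `a_χ * b ^ (n - 1) = u ^ n` in the form used by
`gw_HasChar` (`a = f * b ^ n` with `f = a_χ / b`, `a = u ^ n`). -/
theorem twe_u_pow' {n : ℕ} (hn : n ≠ 0) :
    twe_u N χ n ^ n * twe_g N 1 ^ n = twe_g N χ ^ n * (twe_g N 1 ^ n) ^ n := by
  rw [twe_u_pow, mul_assoc, ← pow_succ, Nat.sub_add_cancel (Nat.one_le_iff_ne_zero.mpr hn)]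

theorem twe_u_ne_zero (hχ : twe_TrivAtInfty N χ)
    (hu : ∀ γ : ↥(Gamma0 N), ‖((χ γ : ℂˣ) : ℂ)‖ = 1) (n : ℕ) : twe_u N χ n ≠ 0 := by
  intro h
  obtain ⟨z, hz1, hz2⟩ := ((twe_g_eventually_ne_zero hχ hu).and
    (twe_g_eventually_ne_zero (twe_trivAtInfty_one N) (twe_unitary_one N))).exists
  have : twe_u N χ n z = 0 := by rw [h]; rfl
  simp only [twe_u, Pi.mul_apply, Pi.pow_apply, mul_eq_zero] at this
  rcases this with h1 | h1
  · exact hz1 h1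
  · exact hz2 (pow_eq_zero_iff' .. |>.mp h1).1

end

end Fermat.Agent.JT3
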