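/-
JT3 / T1 gateway, node (5) C-CTX, part (C1): the complex context.

`gc_F N := laurentBaseChange ℂ (modularFunctionFieldFull N) ⊆ ℂ((q))` (the prelude's base change at
`L = ℂ`, so `Aut(ℂ/ℚ)` acts on it through `arithmeticGalois`), the `ℂ`-algebra
`gc_A0 N = ℂ[j(q^d) : d ∣ N]` with fraction field `gc_F N`, and its analytic realisation
`gc_an N : gc_A0 N →+* (ℍ → ℂ)` (inverse of the `q`-expansion), with the two realisation
statements consumed by `S24/Family.lean` (`gc_isRealisation_fin`, `gc_isRealisation_inf`).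
Mirror of `S24/Bridge/{Field,Lift}.lean` with `Q̄` replaced by `ℂ` and `br_iota` by the identity.
-/
import Mathlib
import Fermat.Agent.S24.Bridge.Degree
import Fermat.Agent.S24.FamilyInfty
import Fermat.Agent.JT3.Gateway.Defs

set_option autoImplicit false

open UpperHalfPlane ModularForm Filter Topology Function Complex
open scoped MatrixGroups Manifold Real
open Fermat.Agent.S23.QF (IsQFun)
open Fermat.Agent.S23 (alphaN)
open Fermat.Agent.S24

namespace Fermat.Agent.JT3

/-! ### the field and its generators -/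

/-- the generator `j(q^d)` with complex coefficients -/
noncomputable def gc_gen (d : ℕ) [NeZero d] : LaurentSeries ℂ :=
  ModularCurve.coeffEmb ℂ (ModularCurve.qExpand ℚ d ModularCurve.jq)

theorem gc_gen_eq (d : ℕ) [NeZero d] : gc_gen d = ModularCurve.qExpand ℂ d br_jqC := by
  rw [gc_gen, ModularCurve.coeffEmb, ModularCurve.coeffMap_qExpand, br_jqC]

/-- the set of generators -/
def gc_gens (N : ℕ) : Set (LaurentSeries ℂ) :=
  {x | ∃ (d : ℕ) (_ : NeZero d), d ∣ N ∧ x = gc_gen d}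

theorem gc_gen_mem_gens {N d : ℕ} [NeZero d] (hd : d ∣ N) : gc_gen d ∈ gc_gens N :=
  ⟨d, inferInstance, hd, rfl⟩

/-- the function field of `X₀(N)` over `ℂ`: the prelude's Laurent base change at `L = ℂ` -/
noncomputable abbrev gc_F (N : ℕ) : IntermediateField ℂ (LaurentSeries ℂ) :=
  ModularCurve.laurentBaseChange ℂ (ModularCurve.modularFunctionFieldFull N)

theorem gc_coeffEmb_algebraMap (r : ℚ) :
    ModularCurve.coeffEmb ℂ (algebraMap ℚ (LaurentSeries ℚ) r)
      = algebraMap ℂ (LaurentSeries ℂ) (algebraMap ℚ ℂ r) := by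
  rw [ModularCurve.algebraMap_laurentSeries_eq_single,
    ModularCurve.algebraMap_laurentSeries_eq_single, ModularCurve.coeffEmb,
    ModularCurve.coeffMap_single]

theorem gc_F_eq (N : ℕ) [NeZero N] : gc_F N = IntermediateField.adjoin ℂ (gc_gens N) := by
  apply le_antisymm
  · rw [gc_F, ModularCurve.laurentBaseChange, IntermediateField.adjoin_le_iff]
    rintro _ ⟨x, hx, rfl⟩
    rw [SetLike.mem_coe, ModularCurve.modularFunctionFieldFull] at hx
    show ModularCurve.coeffEmb ℂ x ∈ _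
    induction hx using IntermediateField.adjoin_induction with
    | mem y hy =>
      obtain ⟨d, hd, hdN, rfl⟩ := hy
      exact IntermediateField.subset_adjoin _ _ ⟨d, hd, hdN, rfl⟩
    | algebraMap r =>
      rw [gc_coeffEmb_algebraMap]
      exact IntermediateField.algebraMap_mem _ _
    | add x y _ _ hx hy => rw [map_add]; exact add_mem hx hy
    | inv x _ hx => rw [map_inv₀]; exact inv_mem hx
    | mul x y _ _ hx hy => rw [map_mul]; exact mul_mem hx hy
  · rw [IntermediateField.adjoin_le_iff]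
    rintro _ ⟨d, hd, hdN, rfl⟩
    exact ModularCurve.coeffEmb_mem_laurentBaseChange _ (ModularCurve.jqd_mem_full N hdN)

/-- the `ℂ`-algebra generated by the `j(q^d)`, `d ∣ N` -/
noncomputable def gc_A0 (N : ℕ) : Subalgebra ℂ (LaurentSeries ℂ) :=
  Algebra.adjoin ℂ (gc_gens N)

theorem gc_A0_le (N : ℕ) [NeZero N] : gc_A0 N ≤ (gc_F N).toSubalgebra := by
  rw [gc_F_eq]
  exact IntermediateField.algebra_adjoin_le_adjoin _ _

/-- every element of `gc_F N` is a quotient of two elements of `gc_A0 N` -/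
theorem gc_exists_div (N : ℕ) [NeZero N] {x : LaurentSeries ℂ} (hx : x ∈ gc_F N) :
    ∃ r ∈ gc_A0 N, ∃ s ∈ gc_A0 N, s ≠ 0 ∧ x = r / s := by
  rw [gc_F_eq, IntermediateField.mem_adjoin_iff_div] at hx
  obtain ⟨r, hr, s, hs, rfl⟩ := hx
  by_cases h0 : s = 0
  · subst h0
    exact ⟨0, zero_mem _, 1, one_mem _, one_ne_zero, by simp⟩
  · exact ⟨r, hr, s, hs, h0, rfl⟩

/-! ### the analytic realisation -/

theorem gc_exists_an (N : ℕ) [NeZero N] {x : LaurentSeries ℂ} (hx : x ∈ gc_A0 N) :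
    ∃ g : ℍ → ℂ, br_HasLaurentQ g x ∧ g ∈ jdAlgebra N := by
  induction hx using Algebra.adjoin_induction with
  | mem y hy =>
    obtain ⟨d, hd, hdN, rfl⟩ := hy
    exact ⟨jd d, by rw [gc_gen_eq]; exact br_HasLaurentQ_jd d, jd_mem_jdAlgebra hdN⟩
  | algebraMap r =>
    refine ⟨fun _ => r, ?_, (jdAlgebra N).algebraMap_mem r⟩
    rw [ModularCurve.algebraMap_laurentSeries_eq_single]
    exact br_HasLaurentQ.const r
  | add x y _ _ hx hy =>
    obtain ⟨g₁, h₁, m₁⟩ := hx
    obtain ⟨g₂, h₂, m₂⟩ := hy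
    exact ⟨g₁ + g₂, h₁.add h₂, add_mem m₁ m₂⟩
  | mul x y _ _ hx hy =>
    obtain ⟨g₁, h₁, m₁⟩ := hx
    obtain ⟨g₂, h₂, m₂⟩ := hy
    exact ⟨g₁ * g₂, h₁.mul h₂, mul_mem m₁ m₂⟩

/-- the analytic function attached to an element of `gc_A0 N` -/
noncomputable def gc_anFun (N : ℕ) [NeZero N] (x : gc_A0 N) : ℍ → ℂ := (gc_exists_an N x.2).choose

theorem gc_anFun_spec (N : ℕ) [NeZero N] (x : gc_A0 N) :
    br_HasLaurentQ (gc_anFun N x) (x : LaurentSeries ℂ) :=
  (gc_exists_an N x.2).choose_spec.1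

theorem gc_anFun_mem (N : ℕ) [NeZero N] (x : gc_A0 N) : gc_anFun N x ∈ jdAlgebra N :=
  (gc_exists_an N x.2).choose_spec.2

theorem gc_anFun_eq (N : ℕ) [NeZero N] (x : gc_A0 N) {g : ℍ → ℂ}
    (hg : br_HasLaurentQ g (x : LaurentSeries ℂ)) : gc_anFun N x = g :=
  (gc_anFun_spec N x).unique_left hg

/-- the analytic realisation `gc_A0 N → jdAlgebra N`, a ring homomorphism -/
noncomputable def gc_anJ (N : ℕ) [NeZero N] : gc_A0 N →+* jdAlgebra N where
  toFun x := ⟨gc_anFun N x, gc_anFun_mem N x⟩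
  map_one' := Subtype.ext <| gc_anFun_eq N 1 <| by
    have h := br_HasLaurentQ.const 1
    rw [map_one] at h
    exact h
  map_mul' x y := Subtype.ext <| gc_anFun_eq N (x * y) <|
    (gc_anFun_spec N x).mul (gc_anFun_spec N y)
  map_zero' := Subtype.ext <| gc_anFun_eq N 0 <| by
    have h := br_HasLaurentQ.const 0
    rw [map_zero] at h
    exact h
  map_add' x y := Subtype.ext <| gc_anFun_eq N (x + y) <|
    (gc_anFun_spec N x).add (gc_anFun_spec N y)

/-- **the analytic realisation** `gc_A0 N →+* (ℍ → ℂ)` -/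
noncomputable def gc_an (N : ℕ) [NeZero N] : gc_A0 N →+* (ℍ → ℂ) :=
  ((jdAlgebra N).val : jdAlgebra N →+* (ℍ → ℂ)).comp (gc_anJ N)

theorem gc_an_apply (N : ℕ) [NeZero N] (x : gc_A0 N) : gc_an N x = gc_anFun N x := rfl

theorem gc_an_spec (N : ℕ) [NeZero N] (x : gc_A0 N) :
    br_HasLaurentQ (gc_an N x) (x : LaurentSeries ℂ) := gc_anFun_spec N x

theorem gc_an_eq (N : ℕ) [NeZero N] (x : gc_A0 N) {g : ℍ → ℂ}
    (hg : br_HasLaurentQ g (x : LaurentSeries ℂ)) : gc_an N x = g := gc_anFun_eq N x hg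

theorem gc_an_mem (N : ℕ) [NeZero N] (x : gc_A0 N) : gc_an N x ∈ jdAlgebra N := gc_anFun_mem N x

theorem gc_an_isWeakModFun (N : ℕ) [NeZero N] (x : gc_A0 N) : IsWeakModFun N (gc_an N x) :=
  jdAlgebra_le N (gc_an_mem N x)

theorem gc_an_injective (N : ℕ) [NeZero N] : Function.Injective (gc_an N) := by
  rw [injective_iff_map_eq_zero]
  intro x hx
  exact Subtype.ext ((gc_an_spec N x).eq_zero_iff.mp hx)

/-- the generator `j(q^d)` as an element of `gc_A0 N` -/
noncomputable def gc_genA (N : ℕ) (d : ℕ) [NeZero d] (hd : d ∣ N) : gc_A0 N :=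
  ⟨gc_gen d, Algebra.subset_adjoin (gc_gen_mem_gens hd)⟩

theorem gc_an_gen (N : ℕ) [NeZero N] (d : ℕ) [NeZero d] (hd : d ∣ N) :
    gc_an N (gc_genA N d hd) = jd d :=
  gc_an_eq N _ (by
    show br_HasLaurentQ (jd d) (gc_gen d)
    rw [gc_gen_eq]; exact br_HasLaurentQ_jd d)

theorem gc_an_algebraMap (N : ℕ) [NeZero N] (c : ℂ) :
    gc_an N (algebraMap ℂ (gc_A0 N) c) = fun _ => c :=
  gc_an_eq N _ (by
    rw [show ((algebraMap ℂ (gc_A0 N) c : gc_A0 N) : LaurentSeries ℂ)
      = algebraMap ℂ (LaurentSeries ℂ) c from rfl,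
      ModularCurve.algebraMap_laurentSeries_eq_single]
    exact br_HasLaurentQ.const c)

/-! ### instances: `gc_F N` is the fraction field of `gc_A0 N` -/

variable (N : ℕ) [NeZero N]

noncomputable instance gc_algebraA0F : Algebra (gc_A0 N) (gc_F N) :=
  (Subalgebra.inclusion (gc_A0_le N)).toAlgebra

theorem gc_algebraMap_A0F (x : gc_A0 N) :
    ((algebraMap (gc_A0 N) (gc_F N) x : gc_F N) : LaurentSeries ℂ) = x := rfl

instance gc_scalarTowerA0F : IsScalarTower ℂ (gc_A0 N) (gc_F N) :=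
  IsScalarTower.of_algebraMap_eq fun _ => rfl

instance gc_faithfulA0F : FaithfulSMul (gc_A0 N) (gc_F N) := by
  rw [faithfulSMul_iff_algebraMap_injective]
  intro x y h
  have := congrArg (fun z : gc_F N => (z : LaurentSeries ℂ)) h
  exact Subtype.ext this

theorem gc_surj_div (z : gc_F N) :
    ∃ x y : gc_A0 N, z = algebraMap (gc_A0 N) (gc_F N) x / algebraMap (gc_A0 N) (gc_F N) y := by
  obtain ⟨x, hx⟩ := z
  obtain ⟨r, hr, s, hs, hs0, rfl⟩ := gc_exists_div N hx
  refine ⟨⟨r, hr⟩, ⟨s, hs⟩, Subtype.ext ?_⟩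
  rw [IntermediateField.coe_div]
  rfl

instance gc_isFractionRingA0F : IsFractionRing (gc_A0 N) (gc_F N) :=
  IsFractionRing.of_field (gc_A0 N) (gc_F N) (gc_surj_div N)

/-! ### the two realisation statements -/

theorem gc_isRealisation_fin :
    fam_IsRealisation (K := ℂ) N (fun h => MDiff h) (gc_an N) (gc_genA N N (dvd_refl N)) where
  const c := gc_an_algebraMap N c
  inj := gc_an_injective N
  inv a := (gc_an_isWeakModFun N a).inv
  adm a g := gm_mdiff_comp_smul g (gc_an_isWeakModFun N a).mdiff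
  jN := gc_an_gen N N (dvd_refl N)

theorem gc_isRealisation_inf :
    fam_IsRealisation (K := ℂ) N (fi_P N) (gc_an N) (gc_genA N N (dvd_refl N)) where
  const c := gc_an_algebraMap N c
  inj := gc_an_injective N
  inv a := (gc_an_isWeakModFun N a).inv
  adm a g := fi_adm N (gc_an_isWeakModFun N a) g
  jN := gc_an_gen N N (dvd_refl N)

/-- **the complex context** `K = ℂ`, `F = gc_F N`, `A = gc_A0 N` -/
noncomputable def gc_ctx : gw_Ctx N ℂ (gc_F N) (gc_A0 N) where
  an := gc_an N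
  jN := gc_genA N N (dvd_refl N)
  fin := gc_isRealisation_fin N
  inf := gc_isRealisation_inf N

theorem gc_ctx_an (a : gc_A0 N) : (gc_ctx N).an a = gc_an N a := rfl

/-! ### (C2) base change from `Q̄` -/

theorem gc_HahnC_eq_algebraMap (c : ℂ) :
    (HahnSeries.C c : LaurentSeries ℂ) = algebraMap ℂ (LaurentSeries ℂ) c := by
  rw [ModularCurve.algebraMap_laurentSeries_eq_single]
  rfl

theorem gc_coeffMap_barGen (d : ℕ) [NeZero d] :
    ModularCurve.coeffMap (br_iota : Kbar →+* ℂ) (barGen d) = gc_gen d := by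
  rw [br_coeffMap_barGen, gc_gen_eq]

theorem gc_coeffMap_mem_A0 {x : LaurentSeries Kbar} (hx : x ∈ A0 N) :
    ModularCurve.coeffMap (br_iota : Kbar →+* ℂ) x ∈ gc_A0 N := by
  induction hx using Algebra.adjoin_induction with
  | mem y hy =>
    obtain ⟨d, hd, hdN, rfl⟩ := hy
    rw [gc_coeffMap_barGen]
    exact Algebra.subset_adjoin (gc_gen_mem_gens hdN)
  | algebraMap r =>
    rw [br_coeffMap_algebraMap, gc_HahnC_eq_algebraMap]
    exact (gc_A0 N).algebraMap_mem _
  | add x y _ _ hx hy => rw [map_add]; exact add_mem hx hy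
  | mul x y _ _ hx hy => rw [map_mul]; exact mul_mem hx hy

theorem gc_coeffMap_mem_F {x : LaurentSeries Kbar}
    (hx : x ∈ ModularCurve.modularFunctionFieldBar N) :
    ModularCurve.coeffMap (br_iota : Kbar →+* ℂ) x ∈ gc_F N := by
  rw [br_modularFunctionFieldBar_eq] at hx
  induction hx using IntermediateField.adjoin_induction with
  | mem y hy =>
    obtain ⟨d, hd, hdN, rfl⟩ := hy
    rw [gc_coeffMap_barGen, gc_F_eq]
    exact IntermediateField.subset_adjoin _ _ (gc_gen_mem_gens hdN)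
  | algebraMap r =>
    rw [br_coeffMap_algebraMap, gc_HahnC_eq_algebraMap]
    exact (gc_F N).algebraMap_mem _
  | add x y _ _ hx hy => rw [map_add]; exact add_mem hx hy
  | inv x _ hx => rw [map_inv₀]; exact inv_mem hx
  | mul x y _ _ hx hy => rw [map_mul]; exact mul_mem hx hy

/-- base change of functions `Fbar N → gc_F N` (coefficientwise `br_iota`) -/
noncomputable def gc_bc : Fbar N →+* gc_F N where
  toFun x := ⟨ModularCurve.coeffMap (br_iota : Kbar →+* ℂ) (x : LaurentSeries Kbar),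
    gc_coeffMap_mem_F N x.2⟩
  map_one' := Subtype.ext (map_one _)
  map_mul' x y := Subtype.ext (map_mul _ _ _)
  map_zero' := Subtype.ext (map_zero _)
  map_add' x y := Subtype.ext (map_add _ _ _)

theorem gc_bc_coe (x : Fbar N) :
    ((gc_bc N x : gc_F N) : LaurentSeries ℂ)
      = ModularCurve.coeffMap (br_iota : Kbar →+* ℂ) (x : LaurentSeries Kbar) := rfl

theorem gc_bc_injective : Function.Injective (gc_bc N) := (gc_bc N).injective

/-- base change on the algebras `A0 N → gc_A0 N` -/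
noncomputable def gc_bcA : A0 N →+* gc_A0 N where
  toFun x := ⟨ModularCurve.coeffMap (br_iota : Kbar →+* ℂ) (x : LaurentSeries Kbar),
    gc_coeffMap_mem_A0 N x.2⟩
  map_one' := Subtype.ext (map_one _)
  map_mul' x y := Subtype.ext (map_mul _ _ _)
  map_zero' := Subtype.ext (map_zero _)
  map_add' x y := Subtype.ext (map_add _ _ _)

theorem gc_bcA_coe (x : A0 N) :
    ((gc_bcA N x : gc_A0 N) : LaurentSeries ℂ)
      = ModularCurve.coeffMap (br_iota : Kbar →+* ℂ) (x : LaurentSeries Kbar) := rfl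

theorem gc_bc_algebraMap (a : A0 N) :
    gc_bc N (algebraMap (A0 N) (Fbar N) a) = algebraMap (gc_A0 N) (gc_F N) (gc_bcA N a) :=
  Subtype.ext rfl

theorem gc_bc_const (c : Kbar) :
    gc_bc N (algebraMap Kbar (Fbar N) c) = algebraMap ℂ (gc_F N) (br_iota c) := by
  apply Subtype.ext
  rw [gc_bc_coe]
  show ModularCurve.coeffMap (br_iota : Kbar →+* ℂ) (algebraMap Kbar (LaurentSeries Kbar) c) = _
  rw [br_coeffMap_algebraMap, gc_HahnC_eq_algebraMap]
  rfl

theorem gc_bcA_const (c : Kbar) :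
    gc_bcA N (algebraMap Kbar (A0 N) c) = algebraMap ℂ (gc_A0 N) (br_iota c) := by
  apply Subtype.ext
  rw [gc_bcA_coe]
  show ModularCurve.coeffMap (br_iota : Kbar →+* ℂ) (algebraMap Kbar (LaurentSeries Kbar) c) = _
  rw [br_coeffMap_algebraMap, gc_HahnC_eq_algebraMap]
  rfl

/-- the analytic realisations agree under base change -/
theorem gc_an_bcA (a : A0 N) : gc_an N (gc_bcA N a) = ff_an N a :=
  gc_an_eq N _ (br_an_spec N a)

theorem gc_bcA_gen (d : ℕ) [NeZero d] (hd : d ∣ N) :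
    gc_bcA N (fi_gen N d hd) = gc_genA N d hd :=
  Subtype.ext (gc_coeffMap_barGen d)

end Fermat.Agent.JT3
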