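/-
JT3 / T1 gateway, node (5) C-CTX, part (C3): completeness over `ℂ`.

`gc_W N ⊆ ℂ((q))` is the `ℂ`-algebra of `q`-expansions of ALL weakly holomorphic modular functions
of level `Γ₀(N)` (`IsWeakModFun N`).  Main result `gc_W_le_F`: `gc_W N ⊆ gc_F N`, i.e. every
weakly holomorphic modular function of level `N` is (the analytic realisation of) a quotient of two
elements of `gc_A0 N = ℂ[j(q^d) : d ∣ N]` (`gc_complete`).  Consequently there is a second complex
context `gc_ctxW N : gw_Ctx N ℂ (gc_F N) (gc_W N)` whose algebra consists of all weakly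
holomorphic modular functions.

Proof: every element of `gc_W N` satisfies a monic relation of degree `ψ(N)` over `ℂ[j]`
(`exists_monic_relation`), so `E := Frac (gc_W N)` has degree `≤ ψ(N)` over `ℂ(j)`, while
`gc_F N ⊆ E` has degree `≥ ψ(N)` (the `ψ(N)` germ embeddings at a point agree on `j`).
-/
import Mathlib
import Fermat.Agent.JT3.Gateway.CField
import Fermat.Agent.S28.QExpPrinciple

set_option autoImplicit false
set_option maxHeartbeats 400000

open UpperHalfPlane ModularForm Filter Topology Function Complex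
open scoped MatrixGroups Manifold Real IntermediateField
open Fermat.Agent.S23.QF (IsQFun)
open Fermat.Agent.S23 (alphaN)
open Fermat.Agent.S24

namespace Fermat.Agent.JT3

/-! ### weakly holomorphic modular functions have Laurent expansions -/

theorem gc_T_mem_Gamma0 (N : ℕ) : ModularGroup.T ∈ CongruenceSubgroup.Gamma0 N := by
  rw [CongruenceSubgroup.Gamma0_mem]
  simp [ModularGroup.T]

theorem gc_isMerQ_of_weak {N : ℕ} {h : ℍ → ℂ} (hh : IsWeakModFun N h) : gm_IsMerQ h := by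
  obtain ⟨m, hm⟩ := hh.growth 1
  refine ⟨m, ⟨(qH_mdiff.pow m).mul hh.mdiff, ?_, ?_⟩⟩
  · apply gm_periodic_of_vadd
    intro τ
    have h1 : h ((1 : ℝ) +ᵥ τ) = h τ := by
      rw [← UpperHalfPlane.modular_T_smul]
      exact hh.inv _ (gc_T_mem_Gamma0 N) τ
    have h2 : qH ((1 : ℝ) +ᵥ τ) = qH τ := gm_vadd_of_periodic qH_periodic τ
    simp only [Pi.mul_apply, Pi.pow_apply, h1, h2]
  · simpa using hm

theorem gc_hasLaurentQ_of_weak {N : ℕ} {h : ℍ → ℂ} (hh : IsWeakModFun N h) :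
    br_HasLaurentQ h (gm_lq h) := by
  obtain ⟨m, hm⟩ := gc_isMerQ_of_weak hh
  refine ⟨m, hm, ?_⟩
  rw [gm_lq_eq hm, ← mul_assoc, HahnSeries.single_mul_single, add_neg_cancel, mul_one]
  rw [show (HahnSeries.single (0 : ℤ) (1 : ℂ) : LaurentSeries ℂ) = 1 from rfl, one_mul]

/-! ### the algebra of all `q`-expansions -/

/-- the `ℂ`-algebra of `q`-expansions of weakly holomorphic modular functions of level `N` -/
def gc_W (N : ℕ) : Subalgebra ℂ (LaurentSeries ℂ) where
  carrier := {x | ∃ h : ℍ → ℂ, IsWeakModFun N h ∧ br_HasLaurentQ h x}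
  mul_mem' := by
    rintro x y ⟨h₁, w₁, l₁⟩ ⟨h₂, w₂, l₂⟩
    exact ⟨h₁ * h₂, w₁.mul w₂, l₁.mul l₂⟩
  add_mem' := by
    rintro x y ⟨h₁, w₁, l₁⟩ ⟨h₂, w₂, l₂⟩
    exact ⟨h₁ + h₂, w₁.add w₂, l₁.add l₂⟩
  algebraMap_mem' c := by
    refine ⟨fun _ => c, IsWeakModFun.const N c, ?_⟩
    rw [ModularCurve.algebraMap_laurentSeries_eq_single]
    exact br_HasLaurentQ.const c

theorem gc_mem_W {N : ℕ} {x : LaurentSeries ℂ} :
    x ∈ gc_W N ↔ ∃ h : ℍ → ℂ, IsWeakModFun N h ∧ br_HasLaurentQ h x := Iff.rfl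

theorem gc_lq_mem_W {N : ℕ} {h : ℍ → ℂ} (hh : IsWeakModFun N h) : gm_lq h ∈ gc_W N :=
  ⟨h, hh, gc_hasLaurentQ_of_weak hh⟩

theorem gc_A0_le_W (N : ℕ) [NeZero N] : gc_A0 N ≤ gc_W N := fun x hx =>
  ⟨gc_an N ⟨x, hx⟩, gc_an_isWeakModFun N ⟨x, hx⟩, gc_an_spec N ⟨x, hx⟩⟩

/-! ### `j` and polynomials in `j` -/

theorem gc_gen_one : gc_gen 1 = br_jqC := by
  rw [gc_gen_eq, ModularCurve.qExpand_one_apply]

theorem gc_jq_mem_A0 (N : ℕ) [NeZero N] : br_jqC ∈ gc_A0 N := by
  rw [← gc_gen_one]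
  exact Algebra.subset_adjoin (gc_gen_mem_gens (one_dvd N))

theorem gc_aeval_jq_mem_A0 (N : ℕ) [NeZero N] (p : Polynomial ℂ) :
    Polynomial.aeval br_jqC p ∈ gc_A0 N := by
  have := Polynomial.aeval_subalgebra_coe p (gc_A0 N) ⟨br_jqC, gc_jq_mem_A0 N⟩
  rw [← this]
  exact Subtype.property _

theorem gc_coeff_jq_pow_self (n : ℕ) : (br_jqC ^ n).coeff (-(n : ℤ)) = 1 := by
  rw [br_jqC, ← map_pow, ModularCurve.coeffMap_coeff, ModularCurve.coeff_jq_pow_self, map_one]

theorem gc_coeff_jq_pow_of_lt {n : ℕ} {m : ℤ} (hm : m < -(n : ℤ)) : (br_jqC ^ n).coeff m = 0 := by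
  rw [br_jqC, ← map_pow, ModularCurve.coeffMap_coeff, ModularCurve.coeff_jq_pow_of_lt hm,
    map_zero]

theorem gc_coeff_algebraMap_mul (c : ℂ) (x : LaurentSeries ℂ) (k : ℤ) :
    (algebraMap ℂ (LaurentSeries ℂ) c * x).coeff k = c * x.coeff k := by
  rw [ModularCurve.algebraMap_laurentSeries_eq_single, HahnSeries.coeff_single_mul, sub_zero]

theorem gc_coeff_aeval_jq (p : Polynomial ℂ) :
    (Polynomial.aeval br_jqC p).coeff (-(p.natDegree : ℤ)) = p.leadingCoeff := by
  rw [Polynomial.aeval_def, Polynomial.eval₂_eq_sum_range, HahnSeries.coeff_sum,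
    Finset.sum_range_succ, Finset.sum_eq_zero, zero_add]
  · rw [gc_coeff_algebraMap_mul, gc_coeff_jq_pow_self, mul_one]
    rfl
  · intro i hi
    have hlt := Finset.mem_range.mp hi
    rw [gc_coeff_algebraMap_mul, gc_coeff_jq_pow_of_lt (by omega), mul_zero]

theorem gc_jq_transcendental : Transcendental ℂ br_jqC := by
  intro h
  obtain ⟨p, hp0, hp⟩ := h
  have := gc_coeff_aeval_jq p
  rw [hp] at this
  simp only [HahnSeries.coeff_zero] at this
  exact hp0 (Polynomial.leadingCoeff_eq_zero.mp this.symm)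

theorem gc_aeval_jq_ne_zero {p : Polynomial ℂ} (hp : p ≠ 0) :
    Polynomial.aeval br_jqC p ≠ 0 := fun h => gc_jq_transcendental ⟨p, hp, h⟩

/-! ### the monic relation of degree `ψ(N)` -/

/-- every element of `gc_W N` is a root of a monic polynomial of degree `ψ(N)` over `ℂ[j]` -/
theorem gc_relation_W (N : ℕ) [NeZero N] {x : LaurentSeries ℂ} (hx : x ∈ gc_W N) :
    ∃ c : ℕ → Polynomial ℂ, c 0 = 1 ∧
      ∑ r ∈ Finset.range (br_psi N + 1),
        Polynomial.aeval br_jqC (c r) * x ^ (br_psi N - r) = 0 := by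
  obtain ⟨h, hh, hl⟩ := hx
  obtain ⟨P, hP0, hP⟩ := exists_monic_relation hh
  change ∀ z : ℍ, ∑ r ∈ Finset.range (br_psi N + 1), (-1) ^ r * Polynomial.eval (kleinJ z) (P r) *
    h z ^ (br_psi N - r) = 0 at hP
  refine ⟨fun r => Polynomial.C ((-1 : ℂ) ^ r) * P r, by simp [hP0], ?_⟩
  have hL : br_HasLaurentQ
      (∑ r ∈ Finset.range (br_psi N + 1),
        (fun z => (Polynomial.C ((-1 : ℂ) ^ r) * P r).eval (kleinJ z)) * h ^ (br_psi N - r))
      (∑ r ∈ Finset.range (br_psi N + 1),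
        Polynomial.aeval br_jqC (Polynomial.C ((-1 : ℂ) ^ r) * P r) * x ^ (br_psi N - r)) :=
    br_HasLaurentQ.sum _ fun r _ =>
      (Fermat.Agent.S28.qp_hasLaurentQ_eval _).mul (hl.pow _)
  refine hL.eq_zero_iff.mp ?_
  ext z
  rw [Finset.sum_apply, Pi.zero_apply, ← hP z]
  refine Finset.sum_congr rfl fun r _ => ?_
  simp only [Pi.mul_apply, Pi.pow_apply, Polynomial.eval_mul, Polynomial.eval_C]

/-! ### clearing denominators -/

/-- the field generated by `gc_W N` -/
noncomputable def gc_E (N : ℕ) : IntermediateField ℂ (LaurentSeries ℂ) :=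
  IntermediateField.adjoin ℂ (gc_W N : Set (LaurentSeries ℂ))

theorem gc_W_le_E (N : ℕ) : gc_W N ≤ (gc_E N).toSubalgebra := fun _ hx =>
  IntermediateField.subset_adjoin ℂ _ hx

theorem gc_F_le_E (N : ℕ) [NeZero N] : gc_F N ≤ gc_E N := by
  rw [gc_F_eq, IntermediateField.adjoin_le_iff]
  intro x hx
  exact gc_W_le_E N (gc_A0_le_W N (Algebra.subset_adjoin hx))

/-- every element of `gc_E N` is `a / d` with `a ∈ gc_W N` and `0 ≠ d ∈ ℂ[j]` -/
theorem gc_exists_div_poly (N : ℕ) [NeZero N] {x : LaurentSeries ℂ} (hx : x ∈ gc_E N) :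
    ∃ a ∈ gc_W N, ∃ d : Polynomial ℂ, d ≠ 0 ∧ x * Polynomial.aeval br_jqC d = a := by
  rw [gc_E, IntermediateField.mem_adjoin_iff_div, Algebra.adjoin_eq] at hx
  obtain ⟨r, hr, s, hs, rfl⟩ := hx
  by_cases hs0 : s = 0
  · subst hs0
    exact ⟨0, zero_mem _, 1, one_ne_zero, by simp⟩
  obtain ⟨c, hc0, hc⟩ := gc_relation_W N hs
  have hc0' : c 0 ≠ 0 := by rw [hc0]; exact one_ne_zero
  obtain ⟨b, hb, r₀, hr₀, hsb⟩ := br_exists_mul_eq_coeff (gc_W N) hs hs0 (br_psi N)
    (fun r => Polynomial.aeval br_jqC (c r))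
    (fun r => gc_A0_le_W N (gc_aeval_jq_mem_A0 N (c r)))
    ⟨0, Nat.zero_le _, gc_aeval_jq_ne_zero hc0'⟩ hc
  refine ⟨r * b, mul_mem hr hb, c r₀, ?_, ?_⟩
  · rintro h0
    rw [h0, map_zero] at hr₀
    exact hr₀ rfl
  · rw [← hsb]
    field_simp

/-! ### the tower `ℂ(j) ⊆ gc_F N ⊆ gc_E N` -/

/-- `ℂ(j) ⊆ ℂ((q))` -/
noncomputable abbrev gc_J : IntermediateField ℂ (LaurentSeries ℂ) := ℂ⟮br_jqC⟯

theorem gc_J_le_F (N : ℕ) [NeZero N] : gc_J ≤ gc_F N := by
  rw [IntermediateField.adjoin_simple_le_iff]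
  exact gc_A0_le N (gc_jq_mem_A0 N)

theorem gc_J_le_E (N : ℕ) [NeZero N] : gc_J ≤ gc_E N := (gc_J_le_F N).trans (gc_F_le_E N)

theorem gc_aeval_jq_mem_J (p : Polynomial ℂ) : Polynomial.aeval br_jqC p ∈ gc_J :=
  (IntermediateField.mem_adjoin_simple_iff ℂ _).mpr ⟨p, 1, by simp⟩

variable (N : ℕ) [NeZero N]

noncomputable instance (priority := 10000) gc_algebraJF : Algebra gc_J (gc_F N) :=
  (IntermediateField.inclusion (gc_J_le_F N)).toRingHom.toAlgebra

noncomputable instance (priority := 10000) gc_algebraJE : Algebra gc_J (gc_E N) :=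
  (IntermediateField.inclusion (gc_J_le_E N)).toRingHom.toAlgebra

noncomputable instance (priority := 10000) gc_algebraFE : Algebra (gc_F N) (gc_E N) :=
  (IntermediateField.inclusion (gc_F_le_E N)).toRingHom.toAlgebra

noncomputable instance (priority := 10000) gc_moduleJF : Module gc_J (gc_F N) :=
  (gc_algebraJF N).toModule

noncomputable instance (priority := 10000) gc_moduleJE : Module gc_J (gc_E N) :=
  (gc_algebraJE N).toModule

noncomputable instance (priority := 10000) gc_moduleFE : Module (gc_F N) (gc_E N) :=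
  (gc_algebraFE N).toModule

theorem gc_algebraMap_JE (e : gc_J) :
    ((algebraMap gc_J (gc_E N) e : gc_E N) : LaurentSeries ℂ) = e :=
  IntermediateField.coe_inclusion (gc_J_le_E N) e

theorem gc_algebraMap_FE (f : gc_F N) :
    ((algebraMap (gc_F N) (gc_E N) f : gc_E N) : LaurentSeries ℂ) = f :=
  IntermediateField.coe_inclusion (gc_F_le_E N) f

theorem gc_algebraMap_JF (e : gc_J) :
    ((algebraMap gc_J (gc_F N) e : gc_F N) : LaurentSeries ℂ) = e :=
  IntermediateField.coe_inclusion (gc_J_le_F N) e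

instance gc_towerJFE : IsScalarTower gc_J (gc_F N) (gc_E N) :=
  IsScalarTower.of_algebraMap_eq fun x => Subtype.ext (by
    rw [gc_algebraMap_JE, gc_algebraMap_FE, gc_algebraMap_JF])

instance gc_towerJEL : IsScalarTower gc_J (gc_E N) (LaurentSeries ℂ) :=
  IsScalarTower.of_algebraMap_eq (R := gc_J) (S := gc_E N) (A := LaurentSeries ℂ)
    fun x => (gc_algebraMap_JE N x).symm

/-! ### the upper bound `[gc_E N : ℂ(j)] ≤ ψ(N)` -/

theorem gc_exists_poly (x : gc_E N) :
    ∃ p : Polynomial gc_J, p ≠ 0 ∧ p.natDegree ≤ br_psi N ∧ Polynomial.aeval x p = 0 := by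
  obtain ⟨a, ha, d, hd0, hxd⟩ := gc_exists_div_poly N x.2
  obtain ⟨c, hc0, hc⟩ := gc_relation_W N ha
  have hc0' : c 0 ≠ 0 := by rw [hc0]; exact one_ne_zero
  set n := br_psi N with hn
  let e : ℕ → gc_J := fun r =>
    ⟨Polynomial.aeval br_jqC (c r * d ^ (n - r)), gc_aeval_jq_mem_J _⟩
  have he : ∀ r, algebraMap gc_J (LaurentSeries ℂ) (e r)
      = Polynomial.aeval br_jqC (c r * d ^ (n - r)) := fun r => rfl
  refine ⟨∑ r ∈ Finset.range (n + 1), Polynomial.C (e r) * Polynomial.X ^ (n - r), ?_, ?_, ?_⟩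
  · intro h0
    have h1 := congrArg (fun p => Polynomial.coeff p n) h0
    simp only [Polynomial.finsetSum_coeff, Polynomial.coeff_C_mul_X_pow,
      Polynomial.coeff_zero] at h1
    rw [Finset.sum_eq_single 0] at h1
    · rw [if_pos (by simp)] at h1
      have h2 := he 0
      rw [h1, map_zero] at h2
      exact gc_aeval_jq_ne_zero (mul_ne_zero hc0' (pow_ne_zero _ hd0)) h2.symm
    · intro r hr hr0
      have := Finset.mem_range.mp hr
      rw [if_neg (by omega)]
    · intro h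
      exact absurd (Finset.mem_range.mpr (Nat.succ_pos n)) h
  · refine Polynomial.natDegree_sum_le_of_forall_le _ _ fun r _ => ?_
    exact (Polynomial.natDegree_C_mul_X_pow_le _ _).trans (Nat.sub_le _ _)
  · have hinj : Function.Injective (algebraMap (gc_E N) (LaurentSeries ℂ)) :=
      (algebraMap (gc_E N) (LaurentSeries ℂ)).injective
    apply hinj
    rw [← Polynomial.aeval_algebraMap_apply, map_zero, map_sum, ← hc]
    refine Finset.sum_congr rfl fun r _ => ?_
    rw [map_mul, map_pow, Polynomial.aeval_C, Polynomial.aeval_X, he r]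
    have hx' : algebraMap (gc_E N) (LaurentSeries ℂ) x = (x : LaurentSeries ℂ) := rfl
    rw [hx', map_mul, map_pow, ← hxd, mul_pow]
    ring

theorem gc_finrank_E_le :
    FiniteDimensional gc_J (gc_E N) ∧ Module.finrank gc_J (gc_E N) ≤ br_psi N := by
  refine finrank_le_of_forall_natDegree_minpoly_le (br_psi N) (fun x => ?_) (fun x => ?_)
  · obtain ⟨p, hp0, -, hp⟩ := gc_exists_poly N x
    exact IsAlgebraic.isIntegral (⟨p, hp0, hp⟩ : IsAlgebraic gc_J x)
  · obtain ⟨p, hp0, hpn, hp⟩ := gc_exists_poly N x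
    exact (Polynomial.natDegree_le_natDegree (minpoly.degree_le_of_ne_zero _ x hp0 hp)).trans hpn

/-! ### the lower bound `ψ(N) ≤ [gc_F N : ℂ(j)]` -/

/-- `r` distinct ring homomorphisms out of `F` agreeing on the subfield `J` force
`r ≤ [F : J]` (Dedekind) -/
theorem gc_card_le_finrank_of_ringHoms {J F M ι : Type*} [Field J] [Field F] [Field M]
    [Algebra J F] [FiniteDimensional J F] [Finite ι] (φ : ι → F →+* M)
    (hφ : Function.Injective φ)
    (hag : ∀ (i i' : ι) (e : J), φ i (algebraMap J F e) = φ i' (algebraMap J F e)) :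
    Nat.card ι ≤ Module.finrank J F := by
  classical
  rcases isEmpty_or_nonempty ι with hι | ⟨⟨i₀⟩⟩
  · simp
  have := Fintype.ofFinite ι
  let _ : Algebra J M := ((φ i₀).comp (algebraMap J F)).toAlgebra
  let φ' : ι → F →ₐ[J] M := fun i =>
    { φ i with
      commutes' := fun e => hag i i₀ e }
  have hφ' : Function.Injective φ' := by
    intro i j hij
    apply hφ
    ext f
    exact congrArg (fun ψ : F →ₐ[J] M => ψ f) hij
  have hli := (linearIndependent_toLinearMap J F M).comp φ' hφ'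
  have h1 := hli.fintype_card_le_finrank
  rw [Module.finrank_linearMap_self] at h1
  rw [Nat.card_eq_fintype_card]
  exact h1

/-- `j` as an element of `gc_A0 N` -/
noncomputable def gc_jA : gc_A0 N := gc_genA N 1 (one_dvd N)

theorem gc_jA_coe : ((gc_jA N : gc_A0 N) : LaurentSeries ℂ) = br_jqC := gc_gen_one

theorem gc_an_jA : gc_an N (gc_jA N) = kleinJ := by
  rw [gc_jA, gc_an_gen, jd_one]

/-- `j` as an element of `gc_F N` -/
noncomputable def gc_jF : gc_F N := algebraMap (gc_A0 N) (gc_F N) (gc_jA N)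

theorem gc_jF_coe : ((gc_jF N : gc_F N) : LaurentSeries ℂ) = br_jqC := gc_gen_one

/-- every element of `ℂ(j) ⊆ ℂ((q))`, viewed in `gc_F N`, lies in the subfield `ℂ(j)` of
`gc_F N` -/
theorem gc_algebraMap_JF_mem (e : gc_J) : algebraMap gc_J (gc_F N) e ∈ ℂ⟮gc_jF N⟯ := by
  have h1 : (ℂ⟮gc_jF N⟯).map (gc_F N).val = gc_J := by
    rw [IntermediateField.adjoin_map, Set.image_singleton]
    have h0 : (gc_F N).val (gc_jF N) = br_jqC := gc_jF_coe N
    rw [h0]
  have h2 : (e : LaurentSeries ℂ) ∈ (ℂ⟮gc_jF N⟯).map (gc_F N).val := by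
    rw [h1]; exact e.2
  obtain ⟨y, hy, hye⟩ := h2
  have h3 : y = algebraMap gc_J (gc_F N) e := by
    apply Subtype.ext
    rw [gc_algebraMap_JF]
    exact hye
  rw [← h3]
  exact hy

theorem gc_finiteDimensional_JF : FiniteDimensional gc_J (gc_F N) := by
  have := (gc_finrank_E_le N).1
  exact FiniteDimensional.left gc_J (gc_F N) (gc_E N)

theorem gc_le_finrank_F : Nat.card (Comb.Q N) ≤ Module.finrank gc_J (gc_F N) := by
  have := gc_finiteDimensional_JF N
  let Φ : Comb.Q N → (gc_F N →ₐ[ℂ] LaurentSeries ℂ) :=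
    fam_phi (ff_isGerm UpperHalfPlane.I) (gc_isRealisation_fin N)
  have hΦ : Function.Injective Φ := fam_phi_injective (ff_isGerm UpperHalfPlane.I)
    (gc_isRealisation_fin N)
  have hj : ∀ x x' : Comb.Q N, Φ x (gc_jF N) = Φ x' (gc_jF N) := by
    intro x x'
    have hinv : ∀ (g : SL(2, ℤ)) (z : ℍ), gc_an N (gc_jA N) (g • z) = gc_an N (gc_jA N) z := by
      intro g z
      rw [gc_an_jA]
      exact kleinJ_smul g z
    rw [show Φ x (gc_jF N) = _ from fam_phi_of_invariant (ff_isGerm UpperHalfPlane.I)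
        (gc_isRealisation_fin N) (gc_jA N) hinv x,
      show Φ x' (gc_jF N) = _ from fam_phi_of_invariant (ff_isGerm UpperHalfPlane.I)
        (gc_isRealisation_fin N) (gc_jA N) hinv x']
  refine gc_card_le_finrank_of_ringHoms (fun x => (Φ x : gc_F N →+* LaurentSeries ℂ)) ?_ ?_
  · intro x x' h
    apply hΦ
    exact AlgHom.coe_ringHom_injective h
  · intro x x' e
    have hle : ℂ⟮gc_jF N⟯ ≤ br_eqLocus (Φ x) (Φ x') := by
      rw [IntermediateField.adjoin_simple_le_iff]
      exact hj x x'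
    exact hle (gc_algebraMap_JF_mem N e)

/-! ### completeness -/

theorem gc_finrank_FE : Module.finrank (gc_F N) (gc_E N) = 1 := by
  have hE := gc_finrank_E_le N
  have := hE.1
  have := gc_finiteDimensional_JF N
  have hmul := Module.finrank_mul_finrank gc_J (gc_F N) (gc_E N)
  have hlow := gc_le_finrank_F N
  rw [← br_psi_eq] at hlow
  have hpos : 0 < Module.finrank gc_J (gc_E N) := Module.finrank_pos
  have hF : 0 < Module.finrank gc_J (gc_F N) := Module.finrank_pos
  have h2 := hE.2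
  rw [← hmul] at h2 hpos
  have h3 : 0 < Module.finrank (gc_F N) (gc_E N) := by
    by_contra h0
    have : Module.finrank (gc_F N) (gc_E N) = 0 := by omega
    rw [this, mul_zero] at hpos
    exact lt_irrefl _ hpos
  nlinarith

/-- **completeness over `ℂ`, field form**: `gc_E N = gc_F N` -/
theorem gc_E_le_F : gc_E N ≤ gc_F N := by
  intro x hx
  have h1 := (finrank_eq_one_iff_of_nonzero' (1 : gc_E N) one_ne_zero).mp (gc_finrank_FE N)
  obtain ⟨c, hc⟩ := h1 ⟨x, hx⟩
  have h2 : ((c • (1 : gc_E N) : gc_E N) : LaurentSeries ℂ) = (c : LaurentSeries ℂ) := by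
    rw [Algebra.smul_def, mul_one, gc_algebraMap_FE]
  rw [hc] at h2
  rw [show x = (c : LaurentSeries ℂ) from h2]
  exact c.2

/-- **completeness over `ℂ`**: the `q`-expansion of every weakly holomorphic modular function of
level `Γ₀(N)` lies in `gc_F N` -/
theorem gc_W_le_F : gc_W N ≤ (gc_F N).toSubalgebra := fun _ hx =>
  gc_E_le_F N (gc_W_le_E N hx)

theorem gc_lq_mem_F {h : ℍ → ℂ} (hh : IsWeakModFun N h) : gm_lq h ∈ gc_F N :=
  gc_W_le_F N (gc_lq_mem_W hh)

/-- **(C3)**: every weakly holomorphic modular function of level `Γ₀(N)` is a quotient of two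
elements of `ℂ[j(dz) : d ∣ N]` -/
theorem gc_complete {h : ℍ → ℂ} (hh : IsWeakModFun N h) :
    ∃ u v : gc_A0 N, v ≠ 0 ∧ h * gc_an N v = gc_an N u := by
  obtain ⟨r, hr, s, hs, hs0, hrs⟩ := gc_exists_div N (gc_lq_mem_F N hh)
  refine ⟨⟨r, hr⟩, ⟨s, hs⟩, fun h0 => hs0 (congrArg Subtype.val h0), ?_⟩
  have h1 : br_HasLaurentQ (h * gc_an N ⟨s, hs⟩) (gm_lq h * s) :=
    (gc_hasLaurentQ_of_weak hh).mul (gc_an_spec N ⟨s, hs⟩)
  have h2 : gm_lq h * s = r := by
    rw [hrs]
    field_simp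
  rw [h2] at h1
  exact h1.unique_left (gc_an_spec N ⟨r, hr⟩)

/-! ### the context of all weakly holomorphic modular functions -/

/-- the analytic function attached to an element of `gc_W N` -/
noncomputable def gc_anWFun (x : gc_W N) : ℍ → ℂ := (gc_mem_W.mp x.2).choose

theorem gc_anWFun_weak (x : gc_W N) : IsWeakModFun N (gc_anWFun N x) :=
  (gc_mem_W.mp x.2).choose_spec.1

theorem gc_anWFun_spec (x : gc_W N) : br_HasLaurentQ (gc_anWFun N x) (x : LaurentSeries ℂ) :=
  (gc_mem_W.mp x.2).choose_spec.2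

theorem gc_anWFun_eq (x : gc_W N) {g : ℍ → ℂ} (hg : br_HasLaurentQ g (x : LaurentSeries ℂ)) :
    gc_anWFun N x = g :=
  (gc_anWFun_spec N x).unique_left hg

/-- **the analytic realisation of `gc_W N`** (inverse of the `q`-expansion) -/
noncomputable def gc_anW : gc_W N →+* (ℍ → ℂ) where
  toFun x := gc_anWFun N x
  map_one' := gc_anWFun_eq N 1 <| by
    have h := br_HasLaurentQ.const 1
    rw [map_one] at h
    exact h
  map_mul' x y := gc_anWFun_eq N (x * y) <| (gc_anWFun_spec N x).mul (gc_anWFun_spec N y)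
  map_zero' := gc_anWFun_eq N 0 <| by
    have h := br_HasLaurentQ.const 0
    rw [map_zero] at h
    exact h
  map_add' x y := gc_anWFun_eq N (x + y) <| (gc_anWFun_spec N x).add (gc_anWFun_spec N y)

theorem gc_anW_spec (x : gc_W N) : br_HasLaurentQ (gc_anW N x) (x : LaurentSeries ℂ) :=
  gc_anWFun_spec N x

theorem gc_anW_eq (x : gc_W N) {g : ℍ → ℂ} (hg : br_HasLaurentQ g (x : LaurentSeries ℂ)) :
    gc_anW N x = g := gc_anWFun_eq N x hg

theorem gc_anW_isWeakModFun (x : gc_W N) : IsWeakModFun N (gc_anW N x) := gc_anWFun_weak N x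

theorem gc_anW_injective : Function.Injective (gc_anW N) := by
  rw [injective_iff_map_eq_zero]
  intro x hx
  exact Subtype.ext ((gc_anW_spec N x).eq_zero_iff.mp hx)

/-- the element of `gc_W N` attached to a weakly holomorphic modular function -/
noncomputable def gc_ofWeak {h : ℍ → ℂ} (hh : IsWeakModFun N h) : gc_W N :=
  ⟨gm_lq h, gc_lq_mem_W hh⟩

theorem gc_ofWeak_coe {h : ℍ → ℂ} (hh : IsWeakModFun N h) :
    ((gc_ofWeak N hh : gc_W N) : LaurentSeries ℂ) = gm_lq h := rfl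

/-- every weakly holomorphic modular function of level `N` is realised by `gc_W N` -/
theorem gc_anW_ofWeak {h : ℍ → ℂ} (hh : IsWeakModFun N h) : gc_anW N (gc_ofWeak N hh) = h :=
  gc_anW_eq N _ (gc_hasLaurentQ_of_weak hh)

/-- the inclusion `gc_A0 N → gc_W N` -/
noncomputable def gc_A0toW : gc_A0 N →ₐ[ℂ] gc_W N := Subalgebra.inclusion (gc_A0_le_W N)

theorem gc_A0toW_coe (a : gc_A0 N) : ((gc_A0toW N a : gc_W N) : LaurentSeries ℂ) = a :=
  Subalgebra.coe_inclusion (gc_A0_le_W N) a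

theorem gc_anW_A0toW (a : gc_A0 N) : gc_anW N (gc_A0toW N a) = gc_an N a :=
  gc_anW_eq N _ (by rw [gc_A0toW_coe]; exact gc_an_spec N a)

theorem gc_anW_algebraMap (c : ℂ) : gc_anW N (algebraMap ℂ (gc_W N) c) = fun _ => c :=
  gc_anW_eq N _ (by
    rw [show ((algebraMap ℂ (gc_W N) c : gc_W N) : LaurentSeries ℂ)
      = algebraMap ℂ (LaurentSeries ℂ) c from rfl,
      ModularCurve.algebraMap_laurentSeries_eq_single]
    exact br_HasLaurentQ.const c)

noncomputable instance gc_algebraWF : Algebra (gc_W N) (gc_F N) :=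
  (Subalgebra.inclusion (gc_W_le_F N)).toAlgebra

theorem gc_algebraMap_WF (x : gc_W N) :
    ((algebraMap (gc_W N) (gc_F N) x : gc_F N) : LaurentSeries ℂ) = x :=
  Subalgebra.coe_inclusion (gc_W_le_F N) x

instance gc_scalarTowerWF : IsScalarTower ℂ (gc_W N) (gc_F N) :=
  IsScalarTower.of_algebraMap_eq fun _ => Subtype.ext (by rw [gc_algebraMap_WF]; rfl)

instance gc_faithfulWF : FaithfulSMul (gc_W N) (gc_F N) := by
  rw [faithfulSMul_iff_algebraMap_injective]
  intro x y h
  have := congrArg (fun z : gc_F N => (z : LaurentSeries ℂ)) h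
  simp only [gc_algebraMap_WF] at this
  exact Subtype.ext this

theorem gc_surj_divW (z : gc_F N) :
    ∃ x y : gc_W N, z = algebraMap (gc_W N) (gc_F N) x / algebraMap (gc_W N) (gc_F N) y := by
  obtain ⟨x, y, hxy⟩ := gc_surj_div N z
  refine ⟨gc_A0toW N x, gc_A0toW N y, ?_⟩
  rw [hxy]
  congr 1 <;>
  · apply Subtype.ext
    rw [gc_algebraMap_WF, gc_A0toW_coe, gc_algebraMap_A0F]

instance gc_isFractionRingWF : IsFractionRing (gc_W N) (gc_F N) :=
  IsFractionRing.of_field (gc_W N) (gc_F N) (gc_surj_divW N)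

/-- `j(q^N)` as an element of `gc_W N` -/
noncomputable def gc_jNW : gc_W N := gc_A0toW N (gc_genA N N (dvd_refl N))

theorem gc_isRealisationW_fin :
    fam_IsRealisation (K := ℂ) N (fun h => MDiff h) (gc_anW N) (gc_jNW N) where
  const c := gc_anW_algebraMap N c
  inj := gc_anW_injective N
  inv a := (gc_anW_isWeakModFun N a).inv
  adm a g := gm_mdiff_comp_smul g (gc_anW_isWeakModFun N a).mdiff
  jN := by rw [gc_jNW, gc_anW_A0toW, gc_an_gen]

theorem gc_isRealisationW_inf :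
    fam_IsRealisation (K := ℂ) N (fi_P N) (gc_anW N) (gc_jNW N) where
  const c := gc_anW_algebraMap N c
  inj := gc_anW_injective N
  inv a := (gc_anW_isWeakModFun N a).inv
  adm a g := fi_adm N (gc_anW_isWeakModFun N a) g
  jN := by rw [gc_jNW, gc_anW_A0toW, gc_an_gen]

/-- **the complex context of all weakly holomorphic modular functions**: `K = ℂ`,
`F = gc_F N`, `A = gc_W N` -/
noncomputable def gc_ctxW : gw_Ctx N ℂ (gc_F N) (gc_W N) where
  an := gc_anW N
  jN := gc_jNW N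
  fin := gc_isRealisationW_fin N
  inf := gc_isRealisationW_inf N

theorem gc_ctxW_an (a : gc_W N) : (gc_ctxW N).an a = gc_anW N a := rfl

/-- the two complex contexts are compatible -/
theorem gc_algebraMap_A0toW (a : gc_A0 N) :
    algebraMap (gc_W N) (gc_F N) (gc_A0toW N a) = algebraMap (gc_A0 N) (gc_F N) a := by
  apply Subtype.ext
  rw [gc_algebraMap_WF, gc_A0toW_coe, gc_algebraMap_A0F]

end Fermat.Agent.JT3
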