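import Mathlib
import Fermat.Agent.JT3.Gateway.Local
import Fermat.Agent.S24.PlacesOrbits
import Fermat.Agent.S24.Hurwitz.Degree

/-!
# JT3 / T1 gateway: the places of the function field of an analytic context (node (C4))

Generic in a context `C : gw_Ctx N K F A` over an algebraically closed field `K ⊆ ℂ`
(`K = ℂ`, `K = Q̄`), with an element `j1 : A` realised by the `j`-function and the degree
`[F : K(j)] = #(SL(2,ℤ)/Γ₀(N))` as hypotheses:

* abstract part (`po_Hyp` language of S24): `gcp_exists_plc` (every place above `π = 0` is the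
  place of an index; the surjectivity hidden in `po_card_places_eq_card_orbits`) and
  `gcp_dvd_ord_of_root` (an `n`-th root, in the Laurent series field, which is invariant under the
  twist of the stabiliser forces `n ∣ ord_P f`);
* the families of germ embeddings over the context: `gcp_phi C z0` (Taylor germs at `z0 ∈ ℍ`),
  `gcp_phiInf C` (Laurent germs at the cusps), the hypotheses `gcp_hyp_fin`, `gcp_hyp_inf`;
* **`gcp_classification`**: every place of `F/K` is the place of a germ embedding.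
-/

set_option autoImplicit false

open UpperHalfPlane CongruenceSubgroup ModularGroup ModularForm EisensteinSeries
open scoped MatrixGroups Manifold

namespace Fermat.Agent.JT3

open Fermat.Agent.S24 AlgebraicCurve IntermediateField

/-! ### Abstract part -/

section abstract

variable {K K' F : Type*} [Field K] [Field K'] [Algebra K K'] [Field F] [Algebra K F]
variable {π : F} {m : ℕ} {ζ₀ : K'} {X : Type*} {φ : X → F →ₐ[K] LaurentSeries K'}
  {p₀ : LaurentSeries K'} {ρ : Equiv.Perm X}

/-- **surjectivity**: every place above `π = 0` is the place of an index (the counting argument of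
`po_card_places_eq_card_orbits`) -/
theorem gcp_exists_plc [CharZero K'] [Finite X] (H : po_Hyp π m ζ₀ φ p₀ ρ)
    (hfin : {v : Place K F | 0 < v.ord π}.Finite)
    (hsum : ∑ v ∈ hfin.toFinset, v.ord π = (Nat.card X : ℤ)) (v : Place K F)
    (hv : 0 < v.ord π) : ∃ x, H.plc x = v := by
  classical
  have : Fintype X := Fintype.ofFinite X
  let Ω := MulAction.orbitRel.Quotient (Subgroup.zpowers ρ) X
  have : Fintype Ω := Fintype.ofFinite _
  have hclass : (Nat.card X : ℤ) = ∑ ω : Ω, (H.orbitPlace ω).1.ord π := by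
    have h1 : Nat.card X = ∑ ω : Ω, Nat.card ω.orbit := by
      rw [Nat.card_congr (MulAction.selfEquivSigmaOrbits' (Subgroup.zpowers ρ) X), Nat.card_sigma]
    rw [h1]
    push_cast
    exact Finset.sum_congr rfl fun ω _ => H.card_orbit_eq ω
  set I : Finset (Place K F) := Finset.univ.image (fun ω : Ω => (H.orbitPlace ω).1) with hI
  have hIsum : ∑ v ∈ I, v.ord π = ∑ ω : Ω, (H.orbitPlace ω).1.ord π := by
    rw [hI, Finset.sum_image]
    intro a _ b _ hab
    exact H.orbitPlace_injective (Subtype.ext hab)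
  have hIV : I ⊆ hfin.toFinset := by
    intro w hw
    rw [hI, Finset.mem_image] at hw
    obtain ⟨ω, _, rfl⟩ := hw
    rw [Set.Finite.mem_toFinset]
    exact (H.orbitPlace ω).2
  by_contra hno
  have hvI : v ∉ I := by
    intro hvI
    rw [hI, Finset.mem_image] at hvI
    obtain ⟨ω, _, hω⟩ := hvI
    induction ω using Quotient.inductionOn' with
    | h x =>
      rw [po_Hyp.orbitPlace_mk] at hω
      exact hno ⟨x, hω⟩
  have hvV : v ∈ hfin.toFinset := by
    rw [Set.Finite.mem_toFinset]; exact hv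
  have hlt : ∑ w ∈ I, w.ord π < ∑ w ∈ hfin.toFinset, w.ord π := by
    refine Finset.sum_lt_sum_of_subset hIV hvV hvI hv ?_
    intro w hw _
    rw [Set.Finite.mem_toFinset] at hw
    exact le_of_lt hw
  rw [hIsum, ← hclass, hsum] at hlt
  exact lt_irrefl _ hlt

/-- **the local divisibility lemma**: if `f` has an `n`-th root `s` in the Laurent series field at
the index `x`, and the exponents of `s` are killed by the twist `ζ₀ ^ e` of the stabiliser
(`e = ord_P π` the size of the orbit of `x`), then `n ∣ ord_P f`. -/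
theorem gcp_dvd_ord_of_root [CharZero K'] (H : po_Hyp π m ζ₀ φ p₀ ρ) (x : X) {n : ℕ} (f : F)
    (s : LaurentSeries K') (hs : s ^ n = φ x f) (e : ℕ) (he : (H.plc x).ord π = e)
    (htw : ∀ i : ℤ, s.coeff i ≠ 0 → (ζ₀ ^ e) ^ i = 1) : (n : ℤ) ∣ (H.plc x).ord f := by
  obtain ⟨ϖ, hϖ⟩ := H.exists_irreducible x
  obtain ⟨gN, e', hgN, he', hg, hee, hme, -⟩ := H.numerics x hϖ
  have hee' : e' = e := by
    have : (e' : ℤ) = e := by rw [← hee, he]
    exact_mod_cast this
  subst hee'
  have hprim : IsPrimitiveRoot (ζ₀ ^ e') gN := H.hζ₀.pow H.hm (by rw [hme]; ring)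
  -- `gN` divides the order of `s`
  have hdvd : (gN : ℤ) ∣ s.order := by
    rcases eq_or_ne s 0 with rfl | hs0
    · rw [HahnSeries.order_zero]; exact dvd_zero _
    · have hc : s.coeff s.order ≠ 0 := HahnSeries.coeff_order_eq_zero.not.mpr hs0
      exact (hprim.zpow_eq_one_iff_dvd _).mp (htw _ hc)
  obtain ⟨k, hk⟩ := hdvd
  have h1 : po_ord (φ x) f = (n : ℤ) * s.order := by
    rw [po_ord_def, ← hs, HahnSeries.order_pow, nsmul_eq_mul]
  have h2 := H.ord_eq x hϖ f
  rw [h1, hg, hk] at h2
  have hgN' : (gN : ℤ) ≠ 0 := by exact_mod_cast hgN.ne'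
  refine ⟨k, ?_⟩
  have h3 : (gN : ℤ) * (H.plc x).ord f = (gN : ℤ) * ((n : ℤ) * k) := by
    rw [← h2]; ring
  exact mul_left_cancel₀ hgN' h3

end abstract

/-! ### The families of germ embeddings of a context -/

section families

variable {N : ℕ} [NeZero N] {K F A : Type} [Field K] [Algebra K ℂ] [Field F] [Algebra K F]
  [CommRing A] [IsDomain A] [Algebra K A] [Algebra A F] [IsScalarTower K A F]
  [IsFractionRing A F] (C : gw_Ctx N K F A)

/-- the family of Taylor-germ embeddings at `z0` -/
noncomputable def gcp_phi (z0 : ℍ) : Comb.Q N → (F →ₐ[K] LaurentSeries ℂ) :=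
  fam_phi (F := F) (ff_isGerm z0) C.fin

/-- the family of Laurent-germ embeddings at the cusps (in `e^{2πiz/N}`) -/
noncomputable def gcp_phiInf : Comb.Q N → (F →ₐ[K] LaurentSeries ℂ) :=
  fam_phi (F := F) (fi_isGerm N) C.inf

theorem gcp_phi_mk_algebraMap (z0 : ℍ) (g : SL(2, ℤ)) (a : A) :
    gcp_phi C z0 (g : Comb.Q N) (algebraMap A F a) = ff_germ z0 (fun z => C.an a (g⁻¹ • z)) :=
  fam_phi_mk_algebraMap (ff_isGerm z0) C.fin g a

theorem gcp_phiInf_mk_algebraMap (g : SL(2, ℤ)) (a : A) :
    gcp_phiInf C (g : Comb.Q N) (algebraMap A F a) = fi_germ N (fun z => C.an a (g⁻¹ • z)) :=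
  fam_phi_mk_algebraMap (fi_isGerm N) C.inf g a

theorem gcp_phi_injective (z0 : ℍ) : Function.Injective (gcp_phi C z0) :=
  fam_phi_injective (ff_isGerm z0) C.fin

theorem gcp_phiInf_injective : Function.Injective (gcp_phiInf C) :=
  fam_phi_injective (fi_isGerm N) C.inf

variable {C} {j1 : A} (hj1 : C.an j1 = kleinJ)

include hj1

/-- all the Taylor embeddings send `j - c` to the germ of `j - j(z0)` when `c = j(z0)` -/
theorem gcp_phi_sub (z0 : ℍ) (c : K) (hc : algebraMap K ℂ c = kleinJ z0) (x : Comb.Q N) :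
    gcp_phi C z0 x (algebraMap A F j1 - algebraMap K F c) =
      ff_germ z0 (fun z => kleinJ z - kleinJ z0) := by
  have h1 : algebraMap A F j1 - algebraMap K F c =
      algebraMap A F (j1 - algebraMap K A c) := by
    rw [map_sub, ← IsScalarTower.algebraMap_apply]
  have h2 : C.an (j1 - algebraMap K A c) = fun z => kleinJ z - kleinJ z0 := by
    rw [map_sub, hj1, C.an_const c]
    ext z
    simp only [Pi.sub_apply, hc]
  rw [h1, gcp_phi, fam_phi_of_invariant (ff_isGerm z0) C.fin _ _ x, h2]
  intro g z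
  rw [h2]
  simp only [kleinJ_smul]

/-- all the cusp embeddings send `j` to the Laurent germ of `j` -/
theorem gcp_phiInf_j (x : Comb.Q N) :
    gcp_phiInf C x (algebraMap A F j1) = fi_germ N kleinJ := by
  rw [gcp_phiInf, fam_phi_of_invariant (fi_isGerm N) C.inf _ _ x, hj1]
  intro g z
  rw [hj1, kleinJ_smul]

omit hj1

theorem gcp_phi_twist (z0 : ℍ) (σ : SL(2, ℤ)) (hσ : σ • z0 = z0) (x : Comb.Q N) (f : F) (i : ℤ) :
    (gcp_phi C z0 (σ⁻¹ • x) f).coeff i = gm_rot σ z0 ^ i * (gcp_phi C z0 x f).coeff i := by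
  have hl : gm_rot σ z0 ≠ 0 := by
    intro h0
    have := gm_norm_rot σ hσ
    rw [h0, norm_zero] at this
    exact zero_ne_one this
  exact fam_phi_twist (ff_isGerm z0) C.fin σ (gm_rot σ z0) hl
    (fun h hh i => ff_germ_twist σ hσ h hh i) x f i

theorem gcp_phiInf_twist (x : Comb.Q N) (f : F) (i : ℤ) :
    (gcp_phiInf C (ModularGroup.T⁻¹ • x) f).coeff i = fi_zeta N ^ i * (gcp_phiInf C x f).coeff i :=
  fam_phi_twist (fi_isGerm N) C.inf ModularGroup.T (fi_zeta N) (fi_zeta_ne_zero N)
    (fun h hh i => fi_twist N h hh i) x f i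

end families

/-! ### The hypotheses of Lemma A over a context, and the classification of the places -/

section classification

variable {N : ℕ} [NeZero N] {K F A : Type} [Field K] [Algebra K ℂ] [Field F] [Algebra K F]
  [CommRing A] [IsDomain A] [Algebra K A] [Algebra A F] [IsScalarTower K A F]
  [IsFractionRing A F] [IsAlgClosed K] {C : gw_Ctx N K F A} {j1 : A} (hj1 : C.an j1 = kleinJ)

include hj1

/-- the hypotheses of Lemma A at a point `z0` with `j(z0) = c`, for a "rotation" `σ` fixing `z0`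
whose rotation number is a primitive `m`-th root of unity, `m = ord_{z0} (j - c)` -/
theorem gcp_hyp_fin [Algebra.IsAlgebraic K⟮algebraMap A F j1⟯ F] (z0 : ℍ) (c : K)
    (hc : algebraMap K ℂ c = kleinJ z0) (σ : SL(2, ℤ)) (hσ : σ • z0 = z0) (m : ℕ) (hm0 : 0 < m)
    (hm : jl_ordJ z0 = m) (hprim : IsPrimitiveRoot (gm_rot σ z0) m) :
    po_Hyp (K := K) (algebraMap A F j1 - algebraMap K F c) m (gm_rot σ z0) (gcp_phi C z0)
      (ff_germ z0 (fun z => kleinJ z - kleinJ z0)) (MulAction.toPerm σ⁻¹) where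
  hm := hm0
  hζ₀ := hprim
  inj := gcp_phi_injective C z0
  hp₀ := ff_order_germ z0 hm
  hφπ := gcp_phi_sub hj1 z0 c hc
  hρ := fun x f i => gcp_phi_twist z0 σ hσ x f i
  hres := fun v _ => hw_algebraMap_residueField_surjective (algebraMap A F j1) v

/-- the hypotheses of Lemma A at the cusps -/
theorem gcp_hyp_inf [Algebra.IsAlgebraic K⟮algebraMap A F j1⟯ F] :
    po_Hyp (K := K) (algebraMap A F j1)⁻¹ N (fi_zeta N) (gcp_phiInf C) (fi_germ N kleinJ)⁻¹
      (MulAction.toPerm (ModularGroup.T⁻¹ : SL(2, ℤ))) where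
  hm := Nat.pos_of_ne_zero (NeZero.ne N)
  hζ₀ := fi_zeta_isPrimitiveRoot N
  inj := gcp_phiInf_injective C
  hp₀ := fi_order_inv N
  hφπ := fun x => by rw [map_inv₀, gcp_phiInf_j hj1]
  hρ := fun x f i => gcp_phiInf_twist x f i
  hres := fun v _ => hw_algebraMap_residueField_surjective (algebraMap A F j1) v

/-- `j` is transcendental: it is not constant -/
theorem gcp_transcendental : Transcendental K (algebraMap A F j1) := by
  rcases hw_const_or_transcendental (K := K) (algebraMap A F j1) with ⟨c, hc⟩ | h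
  · exfalso
    rw [IsScalarTower.algebraMap_apply K A F] at hc
    have h1 : j1 = algebraMap K A c := IsFractionRing.injective A F hc
    have h2 : kleinJ = fun _ => algebraMap K ℂ c := by rw [← hj1, h1, C.an_const]
    have h3 := congrFun h2 ρ
    have h4 := congrFun h2 UpperHalfPlane.I
    rw [jl_kleinJ_rho] at h3
    rw [jl_kleinJ_I, ← h3] at h4
    norm_num at h4
  · exact h

end classification

/-! ### Base points -/

/-- the data of a base point `z0` of `ℍ`: a "rotation" `σ` fixing `z0` whose rotation number is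
a primitive `m`-th root of unity, `m = ord_{z0}(j - j(z0)) ∈ {1, 2, 3}` -/
structure gcp_FinData (z0 : ℍ) (σ : SL(2, ℤ)) (m : ℕ) : Prop where
  fix : σ • z0 = z0
  pos : 0 < m
  ord : jl_ordJ z0 = m
  prim : IsPrimitiveRoot (gm_rot σ z0) m
  prime : m = 1 ∨ m.Prime
  tr : (σ : Matrix (Fin 2) (Fin 2) ℤ).trace ^ 2 ≤ 4

theorem gcp_finData_generic {z0 : ℍ} (h4 : E₄ z0 ≠ 0) (h6 : E₆ z0 ≠ 0) :
    gcp_FinData z0 1 1 where
  fix := one_smul _ _
  pos := one_pos
  ord := by rw [jl_order_generic h4 h6]; rfl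
  prim := by
    have h : gm_rot (1 : SL(2, ℤ)) z0 = 1 := by
      rw [gm_rot_eq_one_iff (1 : SL(2, ℤ)) (one_smul _ z0)]
      simp
    rw [h]
    exact IsPrimitiveRoot.one
  prime := Or.inl rfl
  tr := by simp

theorem gcp_finData_rho : gcp_FinData ρ (S * T) 3 where
  fix := jl_ST_smul_rho
  pos := by norm_num
  ord := by rw [jl_ordJ_rho]; rfl
  prim := ff_rot_ST_rho
  prime := Or.inr Nat.prime_three
  tr := by
    have h : (ModularGroup.S * ModularGroup.T).1 = !![0, -1; 1, 1] := by
      rw [Matrix.SpecialLinearGroup.coe_mul, ModularGroup.coe_S, ModularGroup.coe_T]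
      ext i j
      fin_cases i <;> fin_cases j <;> simp [Matrix.mul_apply, Fin.sum_univ_two]
    show ((ModularGroup.S * ModularGroup.T).1).trace ^ 2 ≤ 4
    rw [h, Matrix.trace_fin_two]
    norm_num

theorem gcp_finData_I : gcp_FinData UpperHalfPlane.I S 2 where
  fix := jl_S_smul_I
  pos := by norm_num
  ord := by rw [jl_ordJ_I]; rfl
  prim := by
    rw [gm_rot_S_I]
    exact IsPrimitiveRoot.neg_one 0 (by norm_num)
  prime := Or.inr Nat.prime_two
  tr := by simp [Matrix.trace_fin_two, ModularGroup.S]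

/-- every value of `j` has a base point -/
theorem gcp_exists_base (c : ℂ) :
    ∃ (z0 : ℍ) (σ : SL(2, ℤ)) (m : ℕ), kleinJ z0 = c ∧ gcp_FinData z0 σ m := by
  by_cases h0 : c = 0
  · exact ⟨ρ, S * T, 3, by rw [jl_kleinJ_rho, h0], gcp_finData_rho⟩
  by_cases h1 : c = 1728
  · exact ⟨UpperHalfPlane.I, S, 2, by rw [jl_kleinJ_I, h1], gcp_finData_I⟩
  obtain ⟨z0, hz0⟩ := jl_exists_kleinJ_eq c
  have h4 : E₄ z0 ≠ 0 := fun h => h0 (by rw [← hz0]; exact (jl_kleinJ_eq_zero_iff z0).mpr h)
  have h6 : E₆ z0 ≠ 0 := fun h => h1 (by rw [← hz0]; exact (jl_kleinJ_eq_1728_iff z0).mpr h)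
  exact ⟨z0, 1, 1, hz0, gcp_finData_generic h4 h6⟩

/-! ### The classification -/

section main

variable {N : ℕ} [NeZero N] {K F A : Type} [Field K] [Algebra K ℂ] [Field F] [Algebra K F]
  [CommRing A] [IsDomain A] [Algebra K A] [Algebra A F] [IsScalarTower K A F]
  [IsFractionRing A F] [IsAlgClosed K] {C : gw_Ctx N K F A} {j1 : A} (hj1 : C.an j1 = kleinJ)

include hj1

/-- **every place of `F/K` comes from a germ embedding**, in the form consumed by the local
divisibility lemma: either a base point `z0 ∈ ℍ` with its Lemma-A package and an index, or the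
cusp package and an index. -/
theorem gcp_cases [FiniteDimensional K⟮algebraMap A F j1⟯ F]
    (hdeg : Module.finrank K⟮algebraMap A F j1⟯ F = Nat.card (Comb.Q N)) (v : Place K F) :
    (∃ (z0 : ℍ) (c : K) (σ : SL(2, ℤ)) (m : ℕ) (_ : gcp_FinData z0 σ m)
        (H : po_Hyp (K := K) (algebraMap A F j1 - algebraMap K F c) m (gm_rot σ z0) (gcp_phi C z0)
          (ff_germ z0 (fun z => kleinJ z - kleinJ z0)) (MulAction.toPerm σ⁻¹))
        (x : Comb.Q N), H.plc x = v) ∨
      (∃ (H : po_Hyp (K := K) (algebraMap A F j1)⁻¹ N (fi_zeta N) (gcp_phiInf C)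
          (fi_germ N kleinJ)⁻¹ (MulAction.toPerm (ModularGroup.T⁻¹ : SL(2, ℤ))))
        (x : Comb.Q N), H.plc x = v) := by
  classical
  have : CharZero K := (algebraMap K ℂ).charZero
  have hx : Transcendental K (algebraMap A F j1) := gcp_transcendental hj1
  have hj0 : algebraMap A F j1 ≠ 0 := by
    intro h0
    apply hx
    rw [h0]
    exact isAlgebraic_zero
  by_cases hv : 0 ≤ v.ord (algebraMap A F j1)
  · left
    have hmem : algebraMap A F j1 ∈ v.toValuationSubring := (hw_mem_iff_ord_nonneg v hj0).mpr hv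
    obtain ⟨c, hc⟩ := hw_exists_const (algebraMap A F j1) v hmem
    rcases hc with hc | hc
    · exfalso
      apply hx
      rw [hc]
      exact isAlgebraic_algebraMap c
    obtain ⟨z0, σ, m, hz0, hD⟩ := gcp_exists_base (algebraMap K ℂ c)
    have H := gcp_hyp_fin hj1 z0 c hz0.symm σ hD.fix m hD.pos hD.ord hD.prim
    obtain ⟨x, hx'⟩ := gcp_exists_plc H (hw_finite_fiber hx c)
      (by rw [← hdeg]; exact hw_sum_fiber_toFinset hx c) v hc
    exact ⟨z0, c, σ, m, hD, H, x, hx'⟩
  · right
    have hv' : v.ord (algebraMap A F j1) < 0 := not_le.mp hv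
    have H := gcp_hyp_inf (C := C) hj1
    have hset : {w : Place K F | 0 < w.ord (algebraMap A F j1)⁻¹}
        = {w : Place K F | w.ord (algebraMap A F j1) < 0} := by
      ext w
      simp only [Set.mem_ofPred_eq, Place.ord_inv]
      omega
    have hfin : {w : Place K F | 0 < w.ord (algebraMap A F j1)⁻¹}.Finite := by
      rw [hset]; exact hw_finite_poles hx
    have hsum : ∑ w ∈ hfin.toFinset, w.ord (algebraMap A F j1)⁻¹ = (Nat.card (Comb.Q N) : ℤ) := by
      have h1 := hw_sum_poles_toFinset hx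
      have h2 : hfin.toFinset = (hw_finite_poles hx).toFinset := by
        ext w
        simp only [Set.Finite.mem_toFinset]
        rw [hset]
      rw [h2, ← hdeg]
      have h3 : ∑ w ∈ (hw_finite_poles hx).toFinset, w.ord (algebraMap A F j1)⁻¹
          = - ∑ w ∈ (hw_finite_poles hx).toFinset, w.ord (algebraMap A F j1) := by
        rw [← Finset.sum_neg_distrib]
        exact Finset.sum_congr rfl (fun w _ => Place.ord_inv w _)
      rw [h3, h1, neg_neg]
    obtain ⟨x, hx'⟩ := gcp_exists_plc H hfin hsum v (by rw [Place.ord_inv]; omega)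
    exact ⟨H, x, hx'⟩

/-- **classification of the places** (statement form): the valuation ring of every place of `F/K`
is the valuation ring of a Taylor-germ embedding at a point of `ℍ` or of a Laurent-germ embedding
at a cusp -/
theorem gcp_classification [FiniteDimensional K⟮algebraMap A F j1⟯ F]
    (hdeg : Module.finrank K⟮algebraMap A F j1⟯ F = Nat.card (Comb.Q N)) (v : Place K F) :
    (∃ (z0 : ℍ) (x : Comb.Q N), v.toValuationSubring = po_valSubring (gcp_phi C z0 x)) ∨
      (∃ x : Comb.Q N, v.toValuationSubring = po_valSubring (gcp_phiInf C x)) := by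
  rcases gcp_cases hj1 hdeg v with ⟨z0, c, σ, m, -, H, x, hx⟩ | ⟨H, x, hx⟩
  · exact Or.inl ⟨z0, x, by rw [← hx]; rfl⟩
  · exact Or.inr ⟨x, by rw [← hx]; rfl⟩

end main

end Fermat.Agent.JT3
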