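import Mathlib
import Fermat.Agent.JT3.Gateway.Defs
import Fermat.Agent.JT3.NL.Norm
import Fermat.Agent.JT3.NL.Degree
import Fermat.Agent.JT3.NL.Swap
import Fermat.Agent.JT3.T2.Period
import Fermat.Agent.S24.Germ.LaurentQ

/-!
# JT3 / T2-lite part 2a: the analytic norm formula (prefix `gwh_`)

For `a ∈ A0 N` (a holomorphic modular function of level `N` with algebraic `q`-expansion) the norm
`nl_normBeta N ℓ a = N_{F̄_{Nℓ}/F̄_N}(a(q^ℓ))` is realised analytically by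
`z ↦ ∏_{x ∈ ℙ¹(𝔽_ℓ)} a(α_x z)`, `α_x = heckeRep ℓ x` the Hecke representatives:

`gwh_norm_an`: if `nl_normBeta N ℓ a * c₁ = a₁` with `c₁ a₁ ∈ A0 N` then
`an a₁ z = an c₁ z * ∏ x, an a (heckeRep ℓ x • z)`.

Proof: helper28's `nln_norm` (an identity of Laurent series) read through the dictionary
`br_HasLaurentQ` (scaling `comp_alphaN`, the new translation lemma `gwh_hasLaurentQ_vadd`,
uniqueness `unique_left`).
-/

set_option autoImplicit false
set_option linter.unusedSectionVars false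

noncomputable section

open UpperHalfPlane hiding I
open Complex CongruenceSubgroup ModularCurve
open scoped Real Manifold MatrixGroups
open Fermat.Agent.S23.QF (IsQFun)
open Fermat.Agent.S23 (alphaN)
open P2MW.S_ModularForm_heckeT_slash_eq_self_of_mem_Gamma0.ModularForm.HeckeSlashInvariance

namespace Fermat.Agent.JT3

open Fermat.Agent.S24 AlgebraicCurve

/-! ### translation of a function = twist of its Laurent expansion -/

theorem gwh_isMerQ {g : ℍ → ℂ} {f : LaurentSeries ℂ} (h : br_HasLaurentQ g f) : gm_IsMerQ g := by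
  obtain ⟨m, hm, -⟩ := h
  exact ⟨m, hm⟩

theorem gwh_hasLaurentQ_lq {g : ℍ → ℂ} (hg : gm_IsMerQ g) : br_HasLaurentQ g (gm_lq g) := by
  obtain ⟨m, hm⟩ := hg
  refine ⟨m, hm, ?_⟩
  rw [gm_lq_eq hm, ← mul_assoc, HahnSeries.single_mul_single, add_neg_cancel, mul_one]
  rw [show (HahnSeries.single (0 : ℤ) (1 : ℂ) : LaurentSeries ℂ) = 1 from rfl, one_mul]

theorem gwh_lq_eq {g : ℍ → ℂ} {f : LaurentSeries ℂ} (h : br_HasLaurentQ g f) : gm_lq g = f :=
  (gwh_hasLaurentQ_lq (gwh_isMerQ h)).unique_right h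

/-- the unit `exp (2 π i a)` -/
def gwh_e (a : ℝ) : ℂˣ := Units.mk0 (cexp (2 * π * Complex.I * a)) (Complex.exp_ne_zero _)

theorem gwh_e_coe (a : ℝ) : ((gwh_e a : ℂˣ) : ℂ) = cexp (2 * π * Complex.I * a) := rfl

/-- **translation = twist** in relation form -/
theorem gwh_hasLaurentQ_vadd {g : ℍ → ℂ} {f : LaurentSeries ℂ} (h : br_HasLaurentQ g f) (a : ℝ) :
    br_HasLaurentQ (fun τ => g (a +ᵥ τ)) (S28.fs_twist (gwh_e a) f) := by
  have hg := gwh_isMerQ h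
  have h1 := gwh_hasLaurentQ_lq (hg.vadd a)
  have e : gm_lq (fun τ => g (a +ᵥ τ)) = S28.fs_twist (gwh_e a) f := by
    ext n
    rw [gm_lq_coeff_vadd hg a n, S28.fs_twist_coeff, gwh_lq_eq h, Units.val_zpow_eq_zpow_val,
      gwh_e_coe]
  rwa [e] at h1

theorem gwh_hasLaurentQ_prod {I : Type*} (s : Finset I) {g : I → ℍ → ℂ} {f : I → LaurentSeries ℂ}
    (h : ∀ i ∈ s, br_HasLaurentQ (g i) (f i)) :
    br_HasLaurentQ (∏ i ∈ s, g i) (∏ i ∈ s, f i) := by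
  classical
  induction s using Finset.induction_on with
  | empty =>
    simp only [Finset.prod_empty]
    have := br_HasLaurentQ.const 1
    rwa [map_one] at this
  | insert i s hi ih =>
    rw [Finset.prod_insert hi, Finset.prod_insert hi]
    exact (h i (Finset.mem_insert_self i s)).mul
      (ih fun j hj => h j (Finset.mem_insert_of_mem hj))

/-! ### the analytic norm formula -/

section norm

variable (N ℓ : ℕ) [NeZero N] [NeZero ℓ]

/-- a primitive `ℓ`-th root of unity of `Q̄` mapping to `exp (2 π i / ℓ)` -/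
theorem gwh_exists_zeta : ∃ ζ : Kbarˣ, IsPrimitiveRoot ζ ℓ ∧
    Units.map ((br_iota : Kbar →+* ℂ) : Kbar →* ℂ) ζ = gwh_e ((ℓ : ℝ)⁻¹) := by
  have hℓ0 : ℓ ≠ 0 := NeZero.ne ℓ
  haveI : NeZero ((ℓ : ℕ) : Kbar) := NeZero.charZero
  obtain ⟨ζ₀, hζ₀⟩ := HasEnoughRootsOfUnity.exists_primitiveRoot Kbar ℓ
  have h1 : IsPrimitiveRoot ((br_iota : Kbar →+* ℂ) ζ₀) ℓ :=
    hζ₀.map_of_injective br_iota_injective
  have hC : IsPrimitiveRoot (cexp (2 * π * Complex.I / ℓ)) ℓ := Complex.isPrimitiveRoot_exp ℓ hℓ0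
  obtain ⟨i, -, hi⟩ := h1.eq_pow_of_pow_eq_one hC.pow_eq_one
  have h2 : IsPrimitiveRoot (ζ₀ ^ i) ℓ := by
    apply IsPrimitiveRoot.of_map_of_injective (f := (br_iota : Kbar →+* ℂ)) _ br_iota_injective
    rw [map_pow, hi]
    exact hC
  have h20 : ζ₀ ^ i ≠ 0 := h2.ne_zero hℓ0
  refine ⟨Units.mk0 _ h20, ?_, ?_⟩
  · rw [← IsPrimitiveRoot.coe_units_iff]
    exact h2
  · ext
    show (br_iota : Kbar →+* ℂ) (ζ₀ ^ i) = cexp (2 * π * Complex.I * (((ℓ : ℝ)⁻¹ : ℝ) : ℂ))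
    rw [map_pow, hi]
    congr 1
    push_cast
    ring

theorem gwh_e_pow (a : ℝ) (b : ℕ) : gwh_e a ^ b = gwh_e (b * a) := by
  ext
  rw [Units.val_pow_eq_pow_val, gwh_e_coe, gwh_e_coe, ← Complex.exp_nat_mul]
  congr 1
  push_cast
  ring

/-- the norm formula at the points `ℓ z` -/
theorem gwh_norm_an_aux (hℓ : ℓ.Prime) (hℓN : ¬ ℓ ∣ N) (a c₁ a₁ : A0 N)
    (h : nl_normBeta N ℓ (algebraMap (A0 N) (Fbar N) a) * algebraMap (A0 N) (Fbar N) c₁ =
      algebraMap (A0 N) (Fbar N) a₁) (z : ℍ) :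
    ff_an N a₁ (alphaN ℓ • z) = ff_an N c₁ (alphaN ℓ • z) *
      (ff_an N a (alphaN (ℓ ^ 2) • z) *
        ∏ b ∈ Finset.range ℓ, ff_an N a ((((b : ℝ) * (ℓ : ℝ)⁻¹ : ℝ)) +ᵥ z)) := by
  obtain ⟨ζ, hζ, hζC⟩ := gwh_exists_zeta ℓ
  have hnorm := nln_norm N ℓ hℓ hℓN (nld_finrankAlong N ℓ hℓ hℓN) (nls_exists_swap N ℓ hℓ hℓN)
    ζ hζ (algebraMap (A0 N) (Fbar N) a)
  rw [br_algebraMap_A0F] at hnorm
  have h' : ((nl_normBeta N ℓ (algebraMap (A0 N) (Fbar N) a) : Fbar N) : LaurentSeries Kbar) *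
      (c₁ : LaurentSeries Kbar) = (a₁ : LaurentSeries Kbar) := by
    have := congrArg (fun y : Fbar N => (y : LaurentSeries Kbar)) h
    simp only [MulMemClass.coe_mul] at this
    exact this
  set ι : Kbar →+* ℂ := (br_iota : Kbar →+* ℂ) with hι
  -- the identity of series over `ℂ`
  have hS : qExpand ℂ ℓ (coeffMap ι (a₁ : LaurentSeries Kbar)) =
      qExpand ℂ ℓ (coeffMap ι (c₁ : LaurentSeries Kbar)) *
        (qExpand ℂ (ℓ ^ 2) (coeffMap ι (a : LaurentSeries Kbar)) *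
          ∏ b ∈ Finset.range ℓ, S28.fs_twist (gwh_e ((b : ℝ) * (ℓ : ℝ)⁻¹))
            (coeffMap ι (a : LaurentSeries Kbar))) := by
    have e1 : coeffMap ι (qExpand Kbar ℓ (a₁ : LaurentSeries Kbar)) =
        coeffMap ι (qExpand Kbar ℓ (c₁ : LaurentSeries Kbar)) *
          (coeffMap ι (qExpand Kbar (ℓ ^ 2) (a : LaurentSeries Kbar)) *
            ∏ b ∈ Finset.range ℓ, coeffMap ι (S28.fs_twist (ζ ^ b) (a : LaurentSeries Kbar))) := by
      rw [← h', map_mul, hnorm, map_mul, map_mul, map_prod, mul_comm]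
    rw [S28.fs_coeffMap_qExpand, S28.fs_coeffMap_qExpand, S28.fs_coeffMap_qExpand] at e1
    rw [e1]
    congr 2
    refine Finset.prod_congr rfl fun b _ => ?_
    rw [S28.fs_coeffMap_twist, map_pow, hζC, gwh_e_pow]
  -- the two functions
  have hL : br_HasLaurentQ (fun z => ff_an N a₁ (alphaN ℓ • z))
      (qExpand ℂ ℓ (coeffMap ι (a₁ : LaurentSeries Kbar))) :=
    (br_an_spec N a₁).comp_alphaN ℓ
  have hR : br_HasLaurentQ ((fun z => ff_an N c₁ (alphaN ℓ • z)) *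
      ((fun z => ff_an N a (alphaN (ℓ ^ 2) • z)) *
        ∏ b ∈ Finset.range ℓ, fun z => ff_an N a ((((b : ℝ) * (ℓ : ℝ)⁻¹ : ℝ)) +ᵥ z)))
      (qExpand ℂ ℓ (coeffMap ι (a₁ : LaurentSeries Kbar))) := by
    rw [hS]
    exact ((br_an_spec N c₁).comp_alphaN ℓ).mul
      (((br_an_spec N a).comp_alphaN (ℓ ^ 2)).mul
        (gwh_hasLaurentQ_prod _ fun b _ => gwh_hasLaurentQ_vadd (br_an_spec N a) _))
  have := congrFun (hL.unique_left hR) z
  simpa [Finset.prod_apply] using this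

variable {N ℓ} in
theorem gwh_prod_range_eq_prod_zmod {M : Type*} [CommMonoid M] (G : ℕ → M) :
    ∏ b ∈ Finset.range ℓ, G b = ∏ j : ZMod ℓ, G j.val := by
  symm
  refine Finset.prod_nbij' (fun j => j.val) (fun b => (b : ZMod ℓ)) ?_ ?_ ?_ ?_ ?_
  · intro j _
    exact Finset.mem_range.mpr (ZMod.val_lt j)
  · intro b _
    exact Finset.mem_univ _
  · intro j _
    exact ZMod.natCast_zmod_val j
  · intro b hb
    exact ZMod.val_cast_of_lt (Finset.mem_range.mp hb)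
  · intro j _
    rfl

/-- **the analytic norm formula**: the norm from level `Nℓ` to level `N` of `a(ℓ z)` is
`∏_x a(α_x z)` -/
theorem gwh_norm_an [Fact ℓ.Prime] (hℓN : ¬ ℓ ∣ N) (a c₁ a₁ : A0 N)
    (h : nl_normBeta N ℓ (algebraMap (A0 N) (Fbar N) a) * algebraMap (A0 N) (Fbar N) c₁ =
      algebraMap (A0 N) (Fbar N) a₁) (z : ℍ) :
    ff_an N a₁ z = ff_an N c₁ z * ∏ x : OnePoint (ZMod ℓ), ff_an N a (heckeRep ℓ x • z) := by
  have hℓ : ℓ.Prime := Fact.out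
  have hℓ0 : (ℓ : ℂ) ≠ 0 := by exact_mod_cast hℓ.ne_zero
  set w : ℍ := heckeRep ℓ (((0 : ZMod ℓ) : OnePoint (ZMod ℓ))) • z with hw
  have hwc : (w : ℂ) = (ℓ : ℂ)⁻¹ * z := by
    rw [hw, t2p_coe_smul]
    simp [t2p_a, t2p_b]
  have h1 : alphaN ℓ • w = z := by
    apply UpperHalfPlane.ext
    rw [Fermat.Agent.S23.coe_alphaN_smul, hwc, ← mul_assoc, mul_inv_cancel₀ hℓ0, one_mul]
  have h2 : alphaN (ℓ ^ 2) • w = heckeRep ℓ (OnePoint.infty : OnePoint (ZMod ℓ)) • z := by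
    apply UpperHalfPlane.ext
    rw [Fermat.Agent.S23.coe_alphaN_smul, hwc, t2p_coe_smul]
    simp only [t2p_a, t2p_b, OnePoint.elim_infty]
    push_cast
    field_simp
    ring
  have h3 : ∀ j : ZMod ℓ, ((((j.val : ℕ) : ℝ) * (ℓ : ℝ)⁻¹ : ℝ)) +ᵥ w =
      heckeRep ℓ ((j : OnePoint (ZMod ℓ))) • z := by
    intro j
    apply UpperHalfPlane.ext
    rw [UpperHalfPlane.coe_vadd, hwc, t2p_coe_smul]
    simp only [t2p_a, t2p_b, OnePoint.elim_some]
    push_cast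
    ring
  have key := gwh_norm_an_aux N ℓ hℓ hℓN a c₁ a₁ h w
  rw [h1, h2, gwh_prod_range_eq_prod_zmod
    (fun b => ff_an N a ((((b : ℝ) * (ℓ : ℝ)⁻¹ : ℝ)) +ᵥ w))] at key
  rw [key]
  congr 1
  have e : ∀ F : OnePoint (ZMod ℓ) → ℂ, ∏ x : OnePoint (ZMod ℓ), F x =
      F OnePoint.infty * ∏ j : ZMod ℓ, F (j : OnePoint (ZMod ℓ)) := fun F => Fintype.prod_option F
  rw [e]
  congr 1
  refine Finset.prod_congr rfl fun j _ => ?_
  rw [h3]

end norm

end Fermat.Agent.JT3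

end
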