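import Mathlib
import Fermat.Agent.JT3.Gateway.Classify

/-!
# JT3 / T1 gateway: surjectivity of the character map (local part)

**`gw_isDiv_of_root`**: in a classified context (`gw_Classified C`, the seam (C4)), if `a ∈ A` has a
holomorphic `n`-th root `h` on `ℍ` with multiplier `χ`, and `χ` is trivial on the elliptic and the
parabolic elements, then the divisor of `a` is divisible by `n`; hence (`gw_hasChar_of_root`) `a` is
an `n`-divisible function with character `χ`.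
-/

set_option autoImplicit false

open UpperHalfPlane CongruenceSubgroup Complex
open scoped MatrixGroups Manifold Real

namespace Fermat.Agent.JT3

open Fermat.Agent.S24 Fermat.Agent.JT AlgebraicCurve
open Fermat.Agent.S23 (alphaN)

/-! ### Traces -/

/-- an element of `SL(2,ℤ)` with a fixed point in `ℍ` has `tr² ≤ 4` -/
theorem gw_trace_sq_le_of_fix (σ : SL(2, ℤ)) (z : ℍ) (h : σ • z = z) :
    (σ : Matrix (Fin 2) (Fin 2) ℤ).trace ^ 2 ≤ 4 := by
  have hdet : σ 0 0 * σ 1 1 - σ 0 1 * σ 1 0 = 1 := by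
    have := σ.det_coe
    rwa [Matrix.det_fin_two] at this
  rw [Matrix.trace_fin_two]
  have hden : ((algebraMap ℤ ℝ (σ 1 0) : ℝ) : ℂ) * z + ((algebraMap ℤ ℝ (σ 1 1) : ℝ) : ℂ) ≠ 0 := by
    have := UpperHalfPlane.denom_ne_zero (Matrix.SpecialLinearGroup.mapGL ℝ σ) z
    simpa [UpperHalfPlane.denom] using this
  have h1 := congrArg (fun w : ℍ => (w : ℂ)) h
  simp only [coe_specialLinearGroup_apply] at h1
  rw [div_eq_iff hden] at h1
  simp only [algebraMap_int_eq, eq_intCast, Complex.ofReal_intCast] at h1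
  set a := σ 0 0
  set b := σ 0 1
  set c := σ 1 0
  set d := σ 1 1
  have hq : 0 < z.im := z.im_pos
  have hre := congrArg Complex.re h1
  have him := congrArg Complex.im h1
  simp only [Complex.add_re, Complex.mul_re, Complex.intCast_re, Complex.intCast_im, zero_mul,
    sub_zero, Complex.add_im, Complex.mul_im, add_zero, coe_re, coe_im] at hre him
  have hdetR : (a : ℝ) * d - b * c = 1 := by exact_mod_cast hdet
  -- `a - d = 2 c p`
  have h2 : (a : ℝ) - d = 2 * c * z.re := by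
    have : ((a : ℝ) - d - 2 * c * z.re) * z.im = 0 := by linear_combination him
    rcases mul_eq_zero.mp this with h3 | h3
    · linarith
    · exact absurd h3 hq.ne'
  have h3 : (b : ℝ) = -c * z.re ^ 2 - c * z.im ^ 2 := by
    linear_combination hre - z.re * h2
  have h4 : (((a + d) ^ 2 : ℤ) : ℝ) ≤ ((4 : ℤ) : ℝ) := by
    push_cast
    have h5 : ((a : ℝ) + d) ^ 2 = 4 - 4 * (c : ℝ) ^ 2 * z.im ^ 2 := by
      have : ((a : ℝ) + d) ^ 2 = ((a : ℝ) - d) ^ 2 + 4 * (a * d) := by ring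
      rw [this, h2]
      have : (a : ℝ) * d = 1 + b * c := by linarith
      rw [this, h3]
      ring
    rw [h5]
    nlinarith [sq_nonneg ((c : ℝ) * z.im)]
  exact_mod_cast h4

theorem gw_trace_conj (g σ : SL(2, ℤ)) :
    ((g⁻¹ * σ * g : SL(2, ℤ)) : Matrix (Fin 2) (Fin 2) ℤ).trace
      = (σ : Matrix (Fin 2) (Fin 2) ℤ).trace := by
  rw [Matrix.SpecialLinearGroup.coe_mul, Matrix.SpecialLinearGroup.coe_mul, Matrix.trace_mul_cycle,
    ← Matrix.SpecialLinearGroup.coe_mul, mul_inv_cancel, Matrix.SpecialLinearGroup.coe_one,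
    one_mul]

theorem gw_trace_T_zpow (m : ℤ) :
    ((ModularGroup.T ^ m : SL(2, ℤ)) : Matrix (Fin 2) (Fin 2) ℤ).trace = 2 := by
  rw [ModularGroup.coe_T_zpow, Matrix.trace_fin_two]
  simp

/-! ### Divisibility of the divisor -/

variable {N : ℕ} [NeZero N] {K F A : Type} [Field K] [Algebra K ℂ] [Field F] [Algebra K F]
  [CommRing A] [IsDomain A] [Algebra K A] [Algebra A F] [IsScalarTower K A F]
  [IsFractionRing A F] {C : gw_Ctx N K F A}

/-- **if `a ∈ A` has a holomorphic `n`-th root whose multiplier is trivial on the elliptic and the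
parabolic elements, its divisor is divisible by `n`** -/
theorem gw_isDiv_of_root (hcl : gw_Classified C) {n : ℕ} (hn : n ≠ 0) {a : A} (ha : a ≠ 0)
    {h : ℍ → ℂ} (hh : MDiff h) (hpow : ∀ z, h z ^ n = C.an a z) {χ : ↥(Gamma0 N) →* ℂˣ}
    (hmul : ∀ (γ : ↥(Gamma0 N)) (z : ℍ), h ((γ : SL(2, ℤ)) • z) = ((χ γ : ℂˣ) : ℂ) * h z)
    (hχ : ∀ γ : ↥(Gamma0 N), gh_IsParEll N γ → χ γ = 1) :
    gw_IsDiv K n (algebraMap A F a) := by
  have ha' : algebraMap A F a ≠ 0 := gw_algebraMap_ne_zero ha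
  have hn' : (n : ℤ) ≠ 0 := by exact_mod_cast hn
  have hh0 : h ≠ 0 := by
    rintro rfl
    obtain ⟨z, hz⟩ := gw_exists_ne_zero (C.an_ne_zero ha)
    have := hpow z
    rw [Pi.zero_apply, zero_pow hn] at this
    exact hz this.symm
  refine ⟨ha', fun P => ?_⟩
  rcases hcl P with ⟨z, g, σ, e, he, hfix, hmem, hprim, hval⟩ | ⟨g, m, e, he, hmem, hprim, hval⟩
  · -- a point of `ℍ`
    have he' : (e : ℤ) ≠ 0 := by exact_mod_cast he.ne'
    set h' : ℍ → ℂ := fun w => h (g⁻¹ • w) with hh'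
    have hh'md : MDiff h' := gm_mdiff_comp_smul g⁻¹ hh
    have hh'0 : h' ≠ 0 := by
      obtain ⟨w, hw⟩ := gw_exists_ne_zero hh0
      intro h0
      have h1 := congrFun h0 (g • w)
      simp only [hh', Pi.zero_apply, inv_smul_smul] at h1
      exact hw h1
    have hγ : χ ⟨g⁻¹ * σ * g, hmem⟩ = 1 := by
      apply hχ
      unfold gh_IsParEll
      show ((g⁻¹ * σ * g : SL(2, ℤ)) : Matrix (Fin 2) (Fin 2) ℤ).trace ^ 2 ≤ 4
      rw [gw_trace_conj]
      exact gw_trace_sq_le_of_fix σ z hfix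
    have hinv : ∀ w : ℍ, h' (σ • w) = 1 * h' w := by
      intro w
      simp only [hh']
      have h1 : g⁻¹ • σ • w = (g⁻¹ * σ * g) • (g⁻¹ • w) := by
        rw [← mul_smul, ← mul_smul, mul_inv_cancel_right]
      rw [h1, hmul ⟨g⁻¹ * σ * g, hmem⟩, hγ, Units.val_one]
    obtain ⟨k, hk, hl⟩ := gw_fix_mult hfix hh'md hh'0 hinv
    have hek : e ∣ k := (hprim.pow_eq_one_iff_dvd k).mp hl.symm
    obtain ⟨k', rfl⟩ := hek
    have h1 : gm_taylor z (fun w => C.an a (g⁻¹ • w)) = gm_taylor z h' ^ n := by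
      rw [← gm_taylor_pow z hh'md n]
      congr 1
      ext w
      simp only [hh', Pi.pow_apply, hpow]
    have h2 : (gm_taylor z (fun w => C.an a (g⁻¹ • w))).order = ((n * (e * k') : ℕ) : ℕ∞) := by
      rw [h1, PowerSeries.order_pow, hk]
      push_cast
      rfl
    have h3 := gw_valPtAt_eq_of_taylor_order C z g a h2
    rw [hval _ ha'] at h3
    refine ⟨k', ?_⟩
    apply mul_left_cancel₀ he'
    rw [h3]
    push_cast
    ring
  · -- a cusp
    have he' : (e : ℤ) ≠ 0 := by exact_mod_cast he.ne'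
    have hNR : (N : ℝ) ≠ 0 := by exact_mod_cast NeZero.ne N
    set Kf : ℍ → ℂ := fun τ => h (g⁻¹ • alphaN N • τ) with hKf
    have hKmd : MDiff Kf :=
      (gm_mdiff_comp_smul g⁻¹ hh).comp
        (UpperHalfPlane.mdifferentiable_smul (Fermat.Agent.S23.det_alphaN_pos N))
    have hK0 : Kf ≠ 0 := by
      obtain ⟨w, hw⟩ := gw_exists_ne_zero hh0
      intro h0
      have h1 := congrFun h0 ((alphaN N)⁻¹ • (g • w))
      simp only [hKf, Pi.zero_apply, smul_inv_smul, inv_smul_smul] at h1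
      exact hw h1
    have hKpow : Kf ^ n = fun τ => C.an a (g⁻¹ • alphaN N • τ) := by
      ext τ
      simp only [hKf, Pi.pow_apply, hpow]
    have hG : gm_IsMerQ (Kf ^ n) := by
      rw [hKpow]
      exact C.an_merCusp a g⁻¹
    -- translations by `k`: multiplier `χ (g⁻¹ Tᵏ g)`
    have htr : ∀ (k : ℤ) (hk : g⁻¹ * ModularGroup.T ^ k * g ∈ Gamma0 N) (τ : ℍ),
        Kf ((((k : ℝ) / N : ℝ)) +ᵥ τ) = Kf τ := by
      intro k hk τ
      have hγ : χ ⟨g⁻¹ * ModularGroup.T ^ k * g, hk⟩ = 1 := by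
        apply hχ
        unfold gh_IsParEll
        show ((g⁻¹ * ModularGroup.T ^ k * g : SL(2, ℤ)) : Matrix (Fin 2) (Fin 2) ℤ).trace ^ 2 ≤ 4
        rw [gw_trace_conj, gw_trace_T_zpow]
        norm_num
      simp only [hKf]
      rw [fi_alphaN_vadd, mul_div_cancel₀ _ hNR]
      have h1 : g⁻¹ • ((k : ℝ) +ᵥ (alphaN N • τ)) =
          (g⁻¹ * ModularGroup.T ^ k * g) • (g⁻¹ • alphaN N • τ) := by
        rw [← mul_smul, mul_inv_cancel_right, mul_smul, UpperHalfPlane.modular_T_zpow_smul]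
      rw [h1, hmul ⟨g⁻¹ * ModularGroup.T ^ k * g, hk⟩, hγ, Units.val_one, one_mul]
    have hper1 : ∀ τ : ℍ, Kf ((1 : ℝ) +ᵥ τ) = Kf τ := by
      intro τ
      have hmemN : g⁻¹ * ModularGroup.T ^ (N : ℤ) * g ∈ Gamma0 N := by
        have := gw_conj_T_pow_mem (N := N) g⁻¹
        rwa [inv_inv] at this
      have := htr (N : ℤ) hmemN τ
      rwa [Int.cast_natCast, div_self hNR] at this
    have hKm : gm_IsMerQ Kf := gw_par_merQ hKmd hn hper1 hG
    have h1 := gw_par_twist hKm hK0 (((m : ℝ) / N : ℝ)) (l := 1)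
      (fun τ => by rw [htr m hmem τ, one_mul])
    have hek : (e : ℤ) ∣ (gm_lq Kf).order := (hprim.zpow_eq_one_iff_dvd _).mp h1.symm
    obtain ⟨k', hk'⟩ := hek
    have h2 : gw_valCuspAt C g (algebraMap A F a) = (n : ℤ) * (gm_lq Kf).order := by
      rw [gw_valCuspAt_algebraMap, ← hKpow, gm_lq_pow hKm, HahnSeries.order_pow, nsmul_eq_mul]
    rw [hval _ ha', hk'] at h2
    refine ⟨k', ?_⟩
    apply mul_left_cancel₀ he'
    rw [h2]
    ring

/-- **surjectivity, local part**: an element of `A` with a holomorphic `n`-th root whose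
multiplier `χ` is trivial on the elliptic and the parabolic elements is an `n`-divisible function
with character `χ` -/
theorem gw_hasChar_of_root (hcl : gw_Classified C) {n : ℕ} (hn : n ≠ 0) {a : A} (ha : a ≠ 0)
    {h : ℍ → ℂ} (hh : MDiff h) (hpow : ∀ z, h z ^ n = C.an a z) {χ : ↥(Gamma0 N) →* ℂˣ}
    (hmul : ∀ (γ : ↥(Gamma0 N)) (z : ℍ), h ((γ : SL(2, ℤ)) • z) = ((χ γ : ℂˣ) : ℂ) * h z)
    (hχ : ∀ γ : ↥(Gamma0 N), gh_IsParEll N γ → χ γ = 1) :
    gw_IsDiv K n (algebraMap A F a) ∧ gw_HasChar C n (algebraMap A F a) χ := by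
  refine ⟨gw_isDiv_of_root hcl hn ha hh hpow hmul hχ, a, 1, h, one_ne_zero, ?_, hh, ?_, hpow, hmul⟩
  · rw [map_one, one_pow, mul_one]
  · rintro rfl
    obtain ⟨z, hz⟩ := gw_exists_ne_zero (C.an_ne_zero ha)
    have := hpow z
    rw [Pi.zero_apply, zero_pow hn] at this
    exact hz this.symm

end Fermat.Agent.JT3
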