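import Mathlib
import Fermat.Prelude.Def_ModularCurve_LaurentCoeff

/-!
# JT3 / T1 gateway, node G4 (descent `ℂ → Q̄`), part (A1)+(A2): automorphisms of an algebraically
closed field over an algebraically closed subfield (prefix `gd_`)

`K₀ ⊆ K` fields, `K` algebraically closed.

* `gd_exists_algEquiv_add`: for `t : K` transcendental over `K₀` and every `c : K₀` there is a
  `K₀`-automorphism `σ` of `K` with `σ t = t + c` (transcendence basis through `t`, shift of the
  polynomial ring, extension to the algebraic closure);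
* `gd_mem_range_of_finite_orbit`: if `K₀` is algebraically closed of characteristic zero, an
  element of `K` with finite orbit under `K ≃ₐ[K₀] K` lies in `K₀`;
* `gd_coeff_mem_range_of_finite_orbit`: a Laurent series over `K` with finite orbit under the
  coefficientwise action has its coefficients in `K₀`; `gd_exists_coeffMap_eq_of_finite_orbit`: it
  is `coeffMap (algebraMap K₀ K)` of a Laurent series over `K₀`.
-/

set_option autoImplicit false

namespace Fermat.Agent.JT3

open MvPolynomial ModularCurve

section aut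

variable {K₀ K : Type*} [Field K₀] [Field K] [Algebra K₀ K]

/-- the shift `X i₀ ↦ X i₀ + c` of a polynomial ring, as an algebra automorphism -/
noncomputable def gd_shift {ι : Type*} [DecidableEq ι] (i₀ : ι) (c : K₀) :
    MvPolynomial ι K₀ ≃ₐ[K₀] MvPolynomial ι K₀ :=
  AlgEquiv.ofAlgHom
    (aeval fun i => if i = i₀ then X i + C c else X i)
    (aeval fun i => if i = i₀ then X i - C c else X i)
    (by
      ext i
      by_cases h : i = i₀
      · simp [h]
      · simp [h])
    (by
      ext i
      by_cases h : i = i₀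
      · simp [h]
      · simp [h])

theorem gd_shift_X {ι : Type*} [DecidableEq ι] (i₀ : ι) (c : K₀) :
    gd_shift i₀ c (X i₀) = X i₀ + C c := by
  simp [gd_shift]

variable [IsAlgClosed K]

/-- **(A1)** a transcendental element can be translated by a `K₀`-automorphism of `K`. -/
theorem gd_exists_algEquiv_add {t : K} (ht : Transcendental K₀ t) (c : K₀) :
    ∃ σ : K ≃ₐ[K₀] K, σ t = t + algebraMap K₀ K c := by
  classical
  have hind : AlgebraicIndepOn K₀ id ({t} : Set K) := by
    have h1 : AlgebraicIndependent K₀ (fun x : ({t} : Set K) => (x : K)) := by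
      rw [algebraicIndependent_singleton_iff (⟨t, rfl⟩ : ({t} : Set K))]
      exact ht
    exact h1
  obtain ⟨B, htB, hB⟩ := exists_isTranscendenceBasis_superset hind
  have htB' : t ∈ B := htB rfl
  set i₀ : B := ⟨t, htB'⟩ with hi₀
  let _ := IsAlgClosed.isAlgClosure_of_transcendence_basis ((↑) : B → K) hB
  set e : Algebra.adjoin K₀ (Set.range ((↑) : B → K)) ≃+*
      Algebra.adjoin K₀ (Set.range ((↑) : B → K)) :=
    (hB.1.aevalEquiv.symm.trans ((gd_shift i₀ c).trans hB.1.aevalEquiv)).toRingEquiv with he
  set σ₀ : K ≃+* K := IsAlgClosure.equivOfEquiv K K e with hσ₀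
  -- `σ₀` fixes the constants
  have hconst : ∀ a : K₀, σ₀ (algebraMap K₀ K a) = algebraMap K₀ K a := by
    intro a
    have h1 : algebraMap K₀ K a =
        algebraMap (Algebra.adjoin K₀ (Set.range ((↑) : B → K))) K (algebraMap K₀ _ a) := rfl
    rw [h1, hσ₀, IsAlgClosure.equivOfEquiv_algebraMap]
    congr 1
    rw [he]
    exact AlgEquiv.commutes _ a
  refine ⟨AlgEquiv.ofRingEquiv (f := σ₀) hconst, ?_⟩
  show σ₀ t = _
  -- `t` as an element of the adjoin
  have h2 : (t : K) =
      algebraMap (Algebra.adjoin K₀ (Set.range ((↑) : B → K))) K (hB.1.aevalEquiv (X i₀)) := by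
    rw [AlgebraicIndependent.algebraMap_aevalEquiv, aeval_X]
  conv_lhs => rw [h2]
  rw [hσ₀, IsAlgClosure.equivOfEquiv_algebraMap]
  have h3 : e (hB.1.aevalEquiv (X i₀)) = hB.1.aevalEquiv (X i₀ + C c) := by
    rw [he]
    show hB.1.aevalEquiv ((gd_shift i₀ c) (hB.1.aevalEquiv.symm (hB.1.aevalEquiv (X i₀)))) = _
    rw [AlgEquiv.symm_apply_apply, gd_shift_X]
  rw [h3, AlgebraicIndependent.algebraMap_aevalEquiv, map_add, aeval_X, aeval_C]

/-- **(A1')** an element of `K` with finite orbit under `Aut(K/K₀)` lies in `K₀` (`K₀`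
algebraically closed of characteristic zero). -/
theorem gd_mem_range_of_finite_orbit [IsAlgClosed K₀] [CharZero K₀] {t : K}
    (h : (Set.range fun σ : K ≃ₐ[K₀] K => σ t).Finite) : t ∈ (algebraMap K₀ K).range := by
  by_contra ht
  have htr : Transcendental K₀ t := by
    intro halg
    have hint : IsIntegral K₀ t := halg.isIntegral
    exact ht (minpoly.mem_range_of_degree_eq_one K₀ t
      (IsAlgClosed.degree_eq_one_of_irreducible K₀ (minpoly.irreducible hint)))
  apply Set.infinite_of_injective_forall_mem (f := fun k : ℕ => t + algebraMap K₀ K (k : K₀))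
    _ _ h
  · intro a b hab
    have h1 : algebraMap K₀ K (a : K₀) = algebraMap K₀ K (b : K₀) := add_left_cancel hab
    exact Nat.cast_injective ((algebraMap K₀ K).injective h1)
  · intro k
    obtain ⟨σ, hσ⟩ := gd_exists_algEquiv_add htr (k : K₀)
    exact ⟨σ, hσ⟩

end aut

section laurent

variable {K₀ K : Type*} [Field K₀] [Field K] [Algebra K₀ K] [IsAlgClosed K] [IsAlgClosed K₀]
  [CharZero K₀]

/-- **(A2)** coefficients of a Laurent series with finite orbit lie in `K₀`. -/
theorem gd_coeff_mem_range_of_finite_orbit {x : LaurentSeries K}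
    (h : (Set.range fun σ : K ≃ₐ[K₀] K => coeffMap (σ : K →+* K) x).Finite) (k : ℤ) :
    x.coeff k ∈ (algebraMap K₀ K).range := by
  apply gd_mem_range_of_finite_orbit
  have h1 : (Set.range fun σ : K ≃ₐ[K₀] K => σ (x.coeff k)) =
      (fun y : LaurentSeries K => y.coeff k) ''
        (Set.range fun σ : K ≃ₐ[K₀] K => coeffMap (σ : K →+* K) x) := by
    ext y
    constructor
    · rintro ⟨σ, rfl⟩
      exact ⟨_, ⟨σ, rfl⟩, rfl⟩
    · rintro ⟨_, ⟨σ, rfl⟩, rfl⟩
      exact ⟨σ, rfl⟩
  rw [h1]
  exact h.image _

/-- **(A2)** a Laurent series over `K` with finite orbit comes from `K₀`. -/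
theorem gd_exists_coeffMap_eq_of_finite_orbit {x : LaurentSeries K}
    (h : (Set.range fun σ : K ≃ₐ[K₀] K => coeffMap (σ : K →+* K) x).Finite) :
    ∃ x₀ : LaurentSeries K₀, coeffMap (algebraMap K₀ K) x₀ = x := by
  classical
  have hc := gd_coeff_mem_range_of_finite_orbit h
  choose c hc using hc
  have hsupp : (Function.support c) ⊆ Function.support x.coeff := by
    intro k hk hx
    apply hk
    have := hc k
    rw [hx] at this
    exact (map_eq_zero_iff _ (algebraMap K₀ K).injective).1 this
  refine ⟨⟨c, x.isPWO_support'.mono hsupp⟩, ?_⟩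
  ext k
  rw [coeffMap_coeff]
  exact hc k

end laurent

end Fermat.Agent.JT3
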