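import Mathlib
import Fermat.Agent.JT3.Riemann.Main
import Fermat.Prelude.Def_AlgebraicCurve_BaseChangeGalois

/-!
# JT3 / T1 gateway, node G4 (descent `ℂ → Q̄`), parts (A5)–(A7): the canonical representative of a
class of `n`-divisible functions (prefix `gd_`)

`F / K` a function field with a separating generator over an algebraically closed field, `P∞` a
place, `lead : F → K` a "leading coefficient" (`lead (c · h) = c · lead h`, `lead h ≠ 0` for
`h ≠ 0`), `n ≠ 0`.

* `gd_Rel K n f f'`: `f' = c · uⁿ · f` for some `c ∈ Kˣ`, `u ∈ Fˣ` (an equivalence relation);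
* `gd_IsNorm P∞ lead n h`: `h` is *normalised*: regular away from `P∞`, of maximal order at `P∞`
  among all `uⁿ · h` which are regular away from `P∞`, and `lead h = 1`;
* `gd_exists_norm`: every function with `n`-divisible divisor is equivalent to a normalised one
  (Riemann's inequality + degree of principal divisors);
* `gd_norm_unique`: two equivalent normalised functions are equal;
* `gd_norm_smul`: semilinear automorphisms fixing `P∞` and compatible with `lead` preserve
  normalised functions;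
* `gd_finite_orbit`: if the `n`-divisible functions fall into finitely many classes, then the
  orbit of a normalised `n`-divisible function under such automorphisms is finite.
-/

set_option autoImplicit false

namespace Fermat.Agent.JT3

open AlgebraicCurve Fermat.Agent.S24

universe u v
variable {K : Type u} {F : Type v} [Field K] [Field F] [Algebra K F]

/-! ### The relation -/

/-- `f' = c · uⁿ · f` with `c ∈ Kˣ`, `u ∈ Fˣ` -/
def gd_Rel (K : Type u) {F : Type v} [Field K] [Field F] [Algebra K F] (n : ℕ) (f f' : F) : Prop :=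
  ∃ (c : K) (u : F), c ≠ 0 ∧ u ≠ 0 ∧ f' = algebraMap K F c * u ^ n * f

theorem gd_Rel.refl (n : ℕ) (f : F) : gd_Rel K n f f :=
  ⟨1, 1, one_ne_zero, one_ne_zero, by simp⟩

theorem gd_Rel.symm {n : ℕ} {f f' : F} (h : gd_Rel K n f f') : gd_Rel K n f' f := by
  obtain ⟨c, u, hc, hu, rfl⟩ := h
  refine ⟨c⁻¹, u⁻¹, inv_ne_zero hc, inv_ne_zero hu, ?_⟩
  have hc' : algebraMap K F c ≠ 0 := by simpa using hc
  have hun : u ^ n ≠ 0 := pow_ne_zero n hu
  rw [map_inv₀, inv_pow]
  field_simp

theorem gd_Rel.trans {n : ℕ} {f f' f'' : F} (h : gd_Rel K n f f') (h' : gd_Rel K n f' f'') :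
    gd_Rel K n f f'' := by
  obtain ⟨c, u, hc, hu, rfl⟩ := h
  obtain ⟨c', u', hc', hu', rfl⟩ := h'
  refine ⟨c' * c, u' * u, mul_ne_zero hc' hc, mul_ne_zero hu' hu, ?_⟩
  rw [map_mul, mul_pow]
  ring

theorem gd_Rel.ne_zero {n : ℕ} {f f' : F} (h : gd_Rel K n f f') (hf : f ≠ 0) : f' ≠ 0 := by
  obtain ⟨c, u, hc, hu, rfl⟩ := h
  have hc' : algebraMap K F c ≠ 0 := by simpa using hc
  exact mul_ne_zero (mul_ne_zero hc' (pow_ne_zero n hu)) hf

/-- the order of `c · uⁿ · f` -/
theorem gd_ord_rel (P : Place K F) {n : ℕ} {c : K} {u f : F} (hc : c ≠ 0) (hu : u ≠ 0)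
    (hf : f ≠ 0) : P.ord (algebraMap K F c * u ^ n * f) = n * P.ord u + P.ord f := by
  have hc' : algebraMap K F c ≠ 0 := by simpa using hc
  have hun : u ^ n ≠ 0 := pow_ne_zero n hu
  rw [P.ord_mul (mul_ne_zero hc' hun) hf, P.ord_mul hc' hun, hw_ord_algebraMap, rt_ord_pow,
    zero_add]

theorem gd_ord_pow_mul (P : Place K F) {n : ℕ} {u f : F} (hu : u ≠ 0) (hf : f ≠ 0) :
    P.ord (u ^ n * f) = n * P.ord u + P.ord f := by
  rw [P.ord_mul (pow_ne_zero n hu) hf, rt_ord_pow]

/-- the relation preserves divisibility of the divisor -/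
theorem gd_Rel.dvd {n : ℕ} {f f' : F} (h : gd_Rel K n f f') (hf : f ≠ 0)
    (hdiv : ∀ P : Place K F, (n : ℤ) ∣ P.ord f) (P : Place K F) : (n : ℤ) ∣ P.ord f' := by
  obtain ⟨c, u, hc, hu, rfl⟩ := h
  rw [gd_ord_rel P hc hu hf]
  exact dvd_add (dvd_mul_right _ _) (hdiv P)

/-! ### Normalised functions -/

/-- regular away from `P∞` -/
def gd_Reg (Pinf : Place K F) (h : F) : Prop := ∀ P : Place K F, P ≠ Pinf → 0 ≤ P.ord h

/-- normalised functions -/
structure gd_IsNorm (Pinf : Place K F) (lead : F → K) (n : ℕ) (h : F) : Prop where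
  ne_zero : h ≠ 0
  reg : gd_Reg Pinf h
  max : ∀ u : F, u ≠ 0 → gd_Reg Pinf (u ^ n * h) → Pinf.ord (u ^ n * h) ≤ Pinf.ord h
  lead : lead h = 1

section main

variable [IsAlgClosed K] {x : F} (hx : rt_IsSepGen K x)

include hx

/-- a function which is regular away from `P∞` has a pole (or order `0`) at `P∞` -/
theorem gd_ord_le_zero_of_reg (Pinf : Place K F) {z : F} (hreg : gd_Reg Pinf z) :
    Pinf.ord z ≤ 0 := by
  by_contra hpos
  push Not at hpos
  have h0 : (0 : Divisor K F) ≤ rt_div hx z := by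
    rw [Finsupp.le_def]
    intro P
    rw [Finsupp.zero_apply, rt_div_apply]
    by_cases hP : P = Pinf
    · rw [hP]; exact hpos.le
    · exact hreg P hP
  have hne : (0 : Divisor K F) ≠ rt_div hx z := by
    intro h
    have := congrArg (fun D : Divisor K F => D Pinf) h
    simp only [Finsupp.zero_apply, rt_div_apply] at this
    omega
  have := rt_degree_lt_of_lt hx h0 hne
  rw [map_zero, rt_degree_div] at this
  exact lt_irrefl _ this

/-- **existence of a regular representative** (Riemann's inequality) -/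
theorem gd_exists_reg (Pinf : Place K F) {n : ℕ} (hn : n ≠ 0) {f : F} (hf : f ≠ 0)
    (hdiv : ∀ P : Place K F, (n : ℤ) ∣ P.ord f) : ∃ u : F, u ≠ 0 ∧ gd_Reg Pinf (u ^ n * f) := by
  classical
  have hn' : (n : ℤ) ≠ 0 := by exact_mod_cast hn
  -- the divisor `D_f = div f / n`
  set D : Divisor K F := (rt_div hx f).mapRange (fun k => k / (n : ℤ)) (by simp) with hD
  have hDP : ∀ P : Place K F, (n : ℤ) * D P = P.ord f := by
    intro P
    rw [hD, Finsupp.mapRange_apply, rt_div_apply]
    exact Int.mul_ediv_cancel' (hdiv P)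
  have hnD : (n : ℤ) • D = rt_div hx f := by
    ext P
    rw [Finsupp.smul_apply, smul_eq_mul, hDP, rt_div_apply]
  have hdegD : Divisor.degree D = 0 := by
    have h1 : Divisor.degree ((n : ℤ) • D) = 0 := by rw [hnD, rt_degree_div]
    rw [map_zsmul, smul_eq_mul] at h1
    rcases mul_eq_zero.mp h1 with h | h
    · exact absurd h hn'
    · exact h
  obtain ⟨g, hg⟩ := rt_riemann_ineq hx
  set E : Divisor K F := D + Finsupp.single Pinf (g : ℤ) with hE
  have hdegE : Divisor.degree E = g := by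
    rw [hE, map_add, hdegD, rt_degree_single hx, zero_add]
  have h1 := hg E
  rw [hdegE] at h1
  have hpos : 0 < Module.finrank K ↥(riemannRochSpace E) := by
    have : (0 : ℤ) < (Module.finrank K ↥(riemannRochSpace E) : ℤ) := by linarith
    exact_mod_cast this
  have hfinL := rt_L_finite hx E
  obtain ⟨⟨u, humem⟩, hu0'⟩ := Module.finrank_pos_iff_exists_ne_zero.mp hpos
  have hu0 : u ≠ 0 := fun h => hu0' (Subtype.ext h)
  refine ⟨u, hu0, fun P hP => ?_⟩
  have h2 := (rt_mem_L_iff hu0).mp humem P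
  rw [hE, Finsupp.add_apply, Finsupp.single_apply, if_neg (Ne.symm hP), add_zero] at h2
  rw [gd_ord_pow_mul P hu0 hf, ← hDP P]
  have h3 : 0 ≤ (n : ℤ) * (P.ord u + D P) := mul_nonneg (by positivity) (by linarith)
  linarith

/-- **existence of the normalised representative** -/
theorem gd_exists_norm (Pinf : Place K F) (lead : F → K)
    (hlead_smul : ∀ (c : K) (h : F), lead (algebraMap K F c * h) = c * lead h)
    (hlead_ne : ∀ h : F, h ≠ 0 → lead h ≠ 0) {n : ℕ} (hn : n ≠ 0) {f : F} (hf : f ≠ 0)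
    (hdiv : ∀ P : Place K F, (n : ℤ) ∣ P.ord f) :
    ∃ h : F, gd_Rel K n f h ∧ gd_IsNorm Pinf lead n h := by
  -- the orders at `P∞` of the regular representatives
  let S : ℤ → Prop := fun k => ∃ u : F, u ≠ 0 ∧ gd_Reg Pinf (u ^ n * f) ∧ Pinf.ord (u ^ n * f) = k
  have hbdd : ∃ b : ℤ, ∀ k, S k → k ≤ b := by
    refine ⟨0, ?_⟩
    rintro k ⟨u, hu, hreg, rfl⟩
    exact gd_ord_le_zero_of_reg hx Pinf hreg
  have hne : ∃ k, S k := by
    obtain ⟨u, hu, hreg⟩ := gd_exists_reg hx Pinf hn hf hdiv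
    exact ⟨_, u, hu, hreg, rfl⟩
  obtain ⟨k₁, ⟨u₁, hu₁, hreg₁, hk₁⟩, hmax⟩ := Int.exists_greatest_of_bdd hbdd hne
  set h₁ : F := u₁ ^ n * f with hh₁
  have hh₁0 : h₁ ≠ 0 := mul_ne_zero (pow_ne_zero n hu₁) hf
  have hl0 : lead h₁ ≠ 0 := hlead_ne h₁ hh₁0
  set c : K := (lead h₁)⁻¹ with hc
  have hc0 : c ≠ 0 := inv_ne_zero hl0
  have hc0' : algebraMap K F c ≠ 0 := by simpa using hc0
  have hord : ∀ (P : Place K F) (z : F), z ≠ 0 → P.ord (algebraMap K F c * z) = P.ord z := by
    intro P z hz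
    rw [P.ord_mul hc0' hz, hw_ord_algebraMap, zero_add]
  refine ⟨algebraMap K F c * h₁, ⟨c, u₁, hc0, hu₁, by rw [hh₁, mul_assoc]⟩, ?_⟩
  refine ⟨mul_ne_zero hc0' hh₁0, ?_, ?_, ?_⟩
  · intro P hP
    rw [hord P h₁ hh₁0]
    exact hreg₁ P hP
  · intro u hu hreg
    have hrw : u ^ n * (algebraMap K F c * h₁) = algebraMap K F c * ((u * u₁) ^ n * f) := by
      rw [hh₁, mul_pow]
      ring
    have huu : u * u₁ ≠ 0 := mul_ne_zero hu hu₁
    have hz0 : (u * u₁) ^ n * f ≠ 0 := mul_ne_zero (pow_ne_zero n huu) hf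
    rw [hrw, hord Pinf _ hz0, hord Pinf h₁ hh₁0, hk₁]
    apply hmax
    refine ⟨u * u₁, huu, ?_, rfl⟩
    intro P hP
    have := hreg P hP
    rwa [hrw, hord P _ hz0] at this
  · rw [hlead_smul, hc, inv_mul_cancel₀ hl0]

/-- **uniqueness of the normalised representative** -/
theorem gd_norm_unique (Pinf : Place K F) (lead : F → K)
    (hlead_smul : ∀ (c : K) (h : F), lead (algebraMap K F c * h) = c * lead h)
    {n : ℕ} (hn : n ≠ 0) {h h' : F} (hh : gd_IsNorm Pinf lead n h)
    (hh' : gd_IsNorm Pinf lead n h') (hrel : gd_Rel K n h h') : h' = h := by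
  have := hx.isAlgebraic
  have hn' : (0 : ℤ) < (n : ℤ) := by exact_mod_cast Nat.pos_of_ne_zero hn
  obtain ⟨c, u, hc, hu, hrel⟩ := hrel
  have hc' : algebraMap K F c ≠ 0 := by simpa using hc
  have hh0 := hh.ne_zero
  have hun0 : u ^ n * h ≠ 0 := mul_ne_zero (pow_ne_zero n hu) hh0
  -- orders of `uⁿ h` and `h'` agree
  have hord : ∀ P : Place K F, P.ord h' = P.ord (u ^ n * h) := by
    intro P
    rw [hrel, mul_assoc, P.ord_mul hc' hun0, hw_ord_algebraMap, zero_add]
  have hreg1 : gd_Reg Pinf (u ^ n * h) := fun P hP => by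
    rw [← hord P]; exact hh'.reg P hP
  have h1 : Pinf.ord h' ≤ Pinf.ord h := by
    rw [hord Pinf]; exact hh.max u hu hreg1
  -- the other direction
  have hrel' : h = algebraMap K F c⁻¹ * (u⁻¹ ^ n * h') := by
    rw [hrel, map_inv₀, inv_pow]
    have hun : u ^ n ≠ 0 := pow_ne_zero n hu
    field_simp
  have hu' : u⁻¹ ≠ 0 := inv_ne_zero hu
  have hc'' : algebraMap K F c⁻¹ ≠ 0 := by simpa using hc
  have hun0' : u⁻¹ ^ n * h' ≠ 0 := mul_ne_zero (pow_ne_zero n hu') hh'.ne_zero
  have hord' : ∀ P : Place K F, P.ord h = P.ord (u⁻¹ ^ n * h') := by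
    intro P
    conv_lhs => rw [hrel']
    rw [P.ord_mul hc'' hun0', hw_ord_algebraMap, zero_add]
  have hreg2 : gd_Reg Pinf (u⁻¹ ^ n * h') := fun P hP => by
    rw [← hord' P]; exact hh.reg P hP
  have h2 : Pinf.ord h ≤ Pinf.ord h' := by
    rw [hord' Pinf]; exact hh'.max _ hu' hreg2
  -- hence `ord_{P∞} u = 0`
  have hu0 : Pinf.ord u = 0 := by
    have h3 : Pinf.ord (u ^ n * h) = Pinf.ord h := by rw [← hord Pinf]; omega
    rw [gd_ord_pow_mul Pinf hu hh0] at h3
    have h4 : (n : ℤ) * Pinf.ord u = 0 := by omega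
    rcases mul_eq_zero.mp h4 with h | h
    · omega
    · exact h
  -- so `u` is congruent to a constant at `P∞`
  have humem : u ∈ Pinf.toValuationSubring := (hw_mem_iff_ord_nonneg Pinf hu).mpr hu0.ge
  obtain ⟨c', hc'u⟩ := hw_exists_const x Pinf humem
  rcases hc'u with hconst | hpos
  · -- `u` constant: compare leading coefficients
    have hc'0 : c' ≠ 0 := by
      rintro rfl
      rw [map_zero] at hconst
      exact hu hconst
    have h5 : h' = algebraMap K F (c * c' ^ n) * h := by
      rw [hrel, hconst, map_mul, map_pow]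
    have h6 := hh'.lead
    rw [h5, hlead_smul, hh.lead, mul_one] at h6
    rw [h5, h6, map_one, one_mul]
  · -- otherwise `v = u - c'` contradicts the maximality of `h`
    exfalso
    set w : F := u - algebraMap K F c' with hw
    have hw0 : w ≠ 0 := by
      intro h0
      rw [h0, Place.ord_zero] at hpos
      exact lt_irrefl _ hpos
    have hregw : gd_Reg Pinf (w ^ n * h) := by
      intro P hP
      rw [gd_ord_pow_mul P hw0 hh0]
      have hPu := hreg1 P hP
      rw [gd_ord_pow_mul P hu hh0] at hPu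
      have hPh := hh.reg P hP
      by_cases hc'0 : c' = 0
      · rw [hw, hc'0, map_zero, sub_zero]
        exact hPu
      · have hcF : -algebraMap K F c' ≠ 0 := by
          rw [neg_ne_zero]; simpa using hc'0
        have hsum : u + -algebraMap K F c' ≠ 0 := by rw [← sub_eq_add_neg]; exact hw0
        have h7 := hw_ord_add_ge P hu hcF hsum
        rw [hw_ord_neg, hw_ord_algebraMap, ← sub_eq_add_neg] at h7
        rcases min_le_iff.mp h7 with h8 | h8
        · have : (n : ℤ) * P.ord u ≤ (n : ℤ) * P.ord w := mul_le_mul_of_nonneg_left h8 hn'.le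
          linarith
        · have : 0 ≤ (n : ℤ) * P.ord w := mul_nonneg hn'.le h8
          linarith
    have h9 := hh.max w hw0 hregw
    rw [gd_ord_pow_mul Pinf hw0 hh0] at h9
    have : 0 < (n : ℤ) * Pinf.ord w := mul_pos hn' hpos
    linarith

omit [IsAlgClosed K] hx in
/-- **semilinear automorphisms preserve normalised functions** -/
theorem gd_norm_smul (Pinf : Place K F) (lead : F → K) {n : ℕ} (g : SemilinearAut K F)
    (hg : g • Pinf = Pinf)
    (hlead : ∀ h : F, lead (g • h) = SemilinearAut.baseAut g (lead h)) {h : F}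
    (hh : gd_IsNorm Pinf lead n h) : gd_IsNorm Pinf lead n (g • h) := by
  have hord : ∀ (P : Place K F) (z : F), (g • P).ord (g • z) = P.ord z :=
    fun P z => SemilinearAut.ord_smul g P z
  have hord' : ∀ (P : Place K F) (z : F), P.ord (g • z) = (g⁻¹ • P).ord z := by
    intro P z
    have := hord (g⁻¹ • P) z
    rwa [smul_inv_smul] at this
  have hginv : g⁻¹ • Pinf = Pinf := by
    rw [inv_smul_eq_iff, hg]
  have hne : ∀ P : Place K F, P ≠ Pinf → g⁻¹ • P ≠ Pinf := by
    intro P hP h0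
    apply hP
    rw [inv_smul_eq_iff, hg] at h0
    exact h0
  refine ⟨?_, ?_, ?_, ?_⟩
  · intro h0
    apply hh.ne_zero
    have := congrArg (fun z => g⁻¹ • z) h0
    simpa using this
  · intro P hP
    rw [hord']
    exact hh.reg _ (hne P hP)
  · intro u hu hreg
    set u' : F := g⁻¹ • u with hu'
    have hu'0 : u' ≠ 0 := by
      intro h0
      apply hu
      have := congrArg (fun z => g • z) h0
      simpa [hu'] using this
    have hrw : u ^ n * (g • h) = g • (u' ^ n * h) := by
      rw [smul_mul', smul_pow', hu', smul_inv_smul]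
    have hreg' : gd_Reg Pinf (u' ^ n * h) := by
      intro P hP
      have hgP : g • P ≠ Pinf := by
        intro h0
        apply hP
        rw [← hg] at h0
        exact MulAction.injective g h0
      have := hreg (g • P) hgP
      rwa [hrw, hord] at this
    have := hh.max u' hu'0 hreg'
    rw [hrw, hord', hord', hginv]
    exact this
  · rw [hlead, hh.lead, map_one]

/-- **finiteness of the orbit of a normalised `n`-divisible function**, if there are only finitely
many classes of `n`-divisible functions -/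
theorem gd_finite_orbit (Pinf : Place K F) (lead : F → K)
    (hlead_smul : ∀ (c : K) (h : F), lead (algebraMap K F c * h) = c * lead h)
    (hlead_ne : ∀ h : F, h ≠ 0 → lead h ≠ 0) {n : ℕ} (hn : n ≠ 0)
    {ι : Type*} (g : ι → SemilinearAut K F) (hg : ∀ i, g i • Pinf = Pinf)
    (hlead : ∀ (i : ι) (h : F), lead (g i • h) = SemilinearAut.baseAut (g i) (lead h))
    (T : Finset F) (hT : ∀ t ∈ T, t ≠ 0 ∧ ∀ P : Place K F, (n : ℤ) ∣ P.ord t)
    (hfin : ∀ f : F, f ≠ 0 → (∀ P : Place K F, (n : ℤ) ∣ P.ord f) → ∃ t ∈ T, gd_Rel K n t f)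
    {h : F} (hdiv : ∀ P : Place K F, (n : ℤ) ∣ P.ord h) (hh : gd_IsNorm Pinf lead n h) :
    (Set.range fun i : ι => g i • h).Finite := by
  classical
  -- the normalised representatives of the classes in `T`
  have hex : ∀ t : F, ∃ ht : F, t ∈ T → gd_Rel K n t ht ∧ gd_IsNorm Pinf lead n ht := by
    intro t
    by_cases htT : t ∈ T
    · obtain ⟨ht, h1, h2⟩ :=
        gd_exists_norm hx Pinf lead hlead_smul hlead_ne hn (hT t htT).1 (hT t htT).2
      exact ⟨ht, fun _ => ⟨h1, h2⟩⟩
    · exact ⟨0, fun h => absurd h htT⟩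
  choose can hcan using hex
  refine (T.image can).finite_toSet.subset ?_
  rintro _ ⟨i, rfl⟩
  have hnorm : gd_IsNorm Pinf lead n (g i • h) := gd_norm_smul Pinf lead (g i) (hg i) (hlead i) hh
  have hdiv' : ∀ P : Place K F, (n : ℤ) ∣ P.ord (g i • h) := by
    intro P
    have := SemilinearAut.ord_smul (g i) ((g i)⁻¹ • P) h
    rw [smul_inv_smul] at this
    rw [this]
    exact hdiv _
  obtain ⟨t, htT, hrel⟩ := hfin (g i • h) hnorm.ne_zero hdiv'
  obtain ⟨hrel', hnorm'⟩ := hcan t htT
  have : can t = g i • h :=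
    gd_norm_unique hx Pinf lead hlead_smul hn hnorm hnorm' (hrel.symm.trans hrel')
  rw [Finset.coe_image]
  exact ⟨t, htT, this⟩

end main

end Fermat.Agent.JT3
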