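import Mathlib
import Fermat.Prelude.Def_ModularCurve_ArithmeticGalois
import Fermat.Agent.JT3.Gateway.ValPlace
import Fermat.Agent.JT3.Gateway.DescentAut
import Fermat.Agent.JT3.Gateway.DescentLin
import Fermat.Agent.JT3.Gateway.DescentCan

/-!
# JT3 / T1 gateway, node G4 (descent `ℂ → Q̄`), part (A4) and the assembly of (A1)–(A7)
(prefix `gd_`)

`K₀ ⊆ K` algebraically closed fields of characteristic zero, `F_ℚ ⊆ ℚ((q))` a field,
`F = laurentBaseChange K F_ℚ ⊆ K((q))`, `F₀ = laurentBaseChange K₀ F_ℚ ⊆ K₀((q))`.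

* `gd_ordVal`: the `q`-order, an integer valued valuation of `F / K`; `gd_Pinf` its place; it is
  fixed by the coefficientwise action of `Aut(K / K₀)` (`gd_aut_smul_Pinf`);
* `gd_lead`: the leading coefficient;
* **`gd_descent_rel`**: if `F / K` has a separating generator and the `n`-divisible functions of
  `F / K` fall into finitely many classes modulo `Kˣ · (Fˣ)ⁿ`, then every `n`-divisible function
  `f` of `F / K` is equivalent to `coeffMap ι f₀` for some `f₀ ∈ F₀`.
-/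

set_option autoImplicit false

namespace Fermat.Agent.JT3

open ModularCurve HahnSeries AlgebraicCurve

/-! ### Order and leading coefficient under coefficientwise injective maps -/

section coeff

variable {R S : Type*} [CommRing R] [CommRing S]

theorem gd_coeffMap_eq_zero_iff {φ : R →+* S} (hφ : Function.Injective φ) (x : LaurentSeries R) :
    coeffMap φ x = 0 ↔ x = 0 := by
  constructor
  · intro h
    ext k
    have := congrArg (fun y : LaurentSeries S => y.coeff k) h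
    simp only [coeffMap_coeff, HahnSeries.coeff_zero] at this
    rw [HahnSeries.coeff_zero]
    exact hφ (this.trans (map_zero φ).symm)
  · rintro rfl
    exact map_zero _

theorem gd_order_coeffMap {φ : R →+* S} (hφ : Function.Injective φ) (x : LaurentSeries R) :
    (coeffMap φ x).order = x.order := by
  by_cases hx : x = 0
  · rw [hx, map_zero, HahnSeries.order_zero, HahnSeries.order_zero]
  have hx' : coeffMap φ x ≠ 0 := fun h => hx ((gd_coeffMap_eq_zero_iff hφ x).mp h)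
  apply le_antisymm
  · apply HahnSeries.order_le_of_coeff_ne_zero
    rw [coeffMap_coeff]
    intro h
    exact hx (HahnSeries.coeff_order_eq_zero.mp (hφ (h.trans (map_zero φ).symm)))
  · apply HahnSeries.order_le_of_coeff_ne_zero
    intro h
    apply hx'
    apply HahnSeries.coeff_order_eq_zero.mp
    rw [coeffMap_coeff, h, map_zero]

theorem gd_leadingCoeff_coeffMap {φ : R →+* S} (hφ : Function.Injective φ) (x : LaurentSeries R) :
    (coeffMap φ x).leadingCoeff = φ x.leadingCoeff := by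
  rw [HahnSeries.leadingCoeff_eq, HahnSeries.leadingCoeff_eq, gd_order_coeffMap hφ, coeffMap_coeff]

end coeff

section field

variable {K₀ K : Type*} [Field K₀] [Field K] [Algebra K₀ K] [Algebra ℚ K₀] [Algebra ℚ K]
  (F_ℚ : IntermediateField ℚ (LaurentSeries ℚ))

/-! ### The valuation at `∞` -/

/-- the `q`-order on the function field -/
noncomputable def gd_ordVal (f : laurentBaseChange K F_ℚ) : ℤ := (f : LaurentSeries K).order

/-- the leading coefficient on the function field -/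
noncomputable def gd_lead (f : laurentBaseChange K F_ℚ) : K := (f : LaurentSeries K).leadingCoeff

theorem gd_ordVal_isVal : gw_IsVal K (gd_ordVal (K := K) F_ℚ) where
  map_mul f g hf hg := by
    have hf' : (f : LaurentSeries K) ≠ 0 := fun h => hf (Subtype.ext h)
    have hg' : (g : LaurentSeries K) ≠ 0 := fun h => hg (Subtype.ext h)
    exact HahnSeries.order_mul hf' hg'
  map_add f g _ _ hfg := by
    have hfg' : (f : LaurentSeries K) + (g : LaurentSeries K) ≠ 0 := fun h => hfg (Subtype.ext h)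
    exact HahnSeries.min_order_le_order_add hfg'
  map_const c hc := by
    show (algebraMap K (LaurentSeries K) c).order = 0
    rw [algebraMap_laurentSeries_eq_single]
    exact HahnSeries.order_single hc

theorem gd_lead_smul (c : K) (h : laurentBaseChange K F_ℚ) :
    gd_lead F_ℚ (algebraMap K (laurentBaseChange K F_ℚ) c * h) = c * gd_lead F_ℚ h := by
  show (algebraMap K (LaurentSeries K) c * (h : LaurentSeries K)).leadingCoeff = _
  rw [HahnSeries.leadingCoeff_mul, algebraMap_laurentSeries_eq_single,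
    HahnSeries.leadingCoeff_of_single]
  rfl

theorem gd_lead_ne_zero (h : laurentBaseChange K F_ℚ) (hh : h ≠ 0) : gd_lead F_ℚ h ≠ 0 := by
  have hh' : (h : LaurentSeries K) ≠ 0 := fun h0 => hh (Subtype.ext h0)
  exact HahnSeries.leadingCoeff_ne_zero.mpr hh'

/-- the place at `∞` -/
noncomputable def gd_Pinf
    (hnt : ∃ f : laurentBaseChange K F_ℚ, f ≠ 0 ∧ gd_ordVal F_ℚ f ≠ 0) :
    Place K (laurentBaseChange K F_ℚ) :=
  (gd_ordVal_isVal (K := K) F_ℚ).place hnt

/-! ### The action of `Aut(K / K₀)` -/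

/-- a `K₀`-automorphism of `K` as a `ℚ`-automorphism -/
noncomputable def gd_toRat (σ : K ≃ₐ[K₀] K) : K ≃ₐ[ℚ] K :=
  AlgEquiv.ofRingEquiv (f := σ.toRingEquiv) (fun q => by
    rw [eq_ratCast]
    exact map_ratCast σ.toRingEquiv q)

omit [Algebra ℚ K₀] in
@[simp] theorem gd_toRat_apply (σ : K ≃ₐ[K₀] K) (a : K) : gd_toRat σ a = σ a := rfl

/-- the coefficientwise action of `Aut(K / K₀)` on the function field -/
noncomputable def gd_aut (σ : K ≃ₐ[K₀] K) : SemilinearAut K (laurentBaseChange K F_ℚ) :=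
  arithmeticGalois F_ℚ (gd_toRat σ)

omit [Algebra ℚ K₀] in
theorem gd_coe_aut_smul (σ : K ≃ₐ[K₀] K) (f : laurentBaseChange K F_ℚ) :
    ((gd_aut F_ℚ σ • f : laurentBaseChange K F_ℚ) : LaurentSeries K) =
      coeffMap (σ : K →+* K) (f : LaurentSeries K) := rfl

omit [Algebra ℚ K₀] in
theorem gd_ordVal_aut_smul (σ : K ≃ₐ[K₀] K) (f : laurentBaseChange K F_ℚ) :
    gd_ordVal F_ℚ (gd_aut F_ℚ σ • f) = gd_ordVal F_ℚ f := by
  rw [gd_ordVal, gd_coe_aut_smul]
  exact gd_order_coeffMap (φ := (σ : K →+* K)) σ.injective _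

omit [Algebra ℚ K₀] in
theorem gd_lead_aut_smul (σ : K ≃ₐ[K₀] K) (f : laurentBaseChange K F_ℚ) :
    gd_lead F_ℚ (gd_aut F_ℚ σ • f) = SemilinearAut.baseAut (gd_aut F_ℚ σ) (gd_lead F_ℚ f) := by
  rw [gd_lead, gd_coe_aut_smul]
  exact gd_leadingCoeff_coeffMap (φ := (σ : K →+* K)) σ.injective _

omit [Algebra ℚ K₀] in
/-- **(A4)** the place at `∞` is fixed by the coefficientwise automorphisms -/
theorem gd_aut_smul_Pinf
    (hnt : ∃ f : laurentBaseChange K F_ℚ, f ≠ 0 ∧ gd_ordVal F_ℚ f ≠ 0) (σ : K ≃ₐ[K₀] K) :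
    gd_aut F_ℚ σ • gd_Pinf F_ℚ hnt = gd_Pinf F_ℚ hnt := by
  apply Place.ext
  rw [SemilinearAut.smul_toValuationSubring]
  ext y
  rw [ValuationSubring.mem_pointwise_smul_iff_inv_smul_mem]
  have hmem : ∀ z : laurentBaseChange K F_ℚ,
      z ∈ (gd_Pinf F_ℚ hnt).toValuationSubring ↔ z = 0 ∨ 0 ≤ gd_ordVal F_ℚ z := fun z => Iff.rfl
  rw [hmem, hmem]
  have h1 : gd_ordVal F_ℚ ((gd_aut F_ℚ σ)⁻¹ • y) = gd_ordVal F_ℚ y := by
    have := gd_ordVal_aut_smul F_ℚ σ ((gd_aut F_ℚ σ)⁻¹ • y)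
    rw [smul_inv_smul] at this
    exact this.symm
  have h2 : (gd_aut F_ℚ σ)⁻¹ • y = 0 ↔ y = 0 := by
    constructor
    · intro h
      have := congrArg (fun z => gd_aut F_ℚ σ • z) h
      simpa using this
    · rintro rfl
      exact smul_zero _
  rw [h1, h2]

end field

/-! ### The assembly -/

section main

variable {K₀ K : Type*} [Field K₀] [Field K] [Algebra K₀ K] [Algebra ℚ K₀] [Algebra ℚ K]
  [IsAlgClosed K₀] [IsAlgClosed K] [CharZero K₀]
  (F_ℚ : IntermediateField ℚ (LaurentSeries ℚ))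

/-- **(A1)–(A7)**: descent of `n`-divisible functions up to equivalence. -/
theorem gd_descent_rel {x : laurentBaseChange K F_ℚ} (hx : rt_IsSepGen K x)
    (hnt : ∃ f : laurentBaseChange K F_ℚ, f ≠ 0 ∧ gd_ordVal F_ℚ f ≠ 0)
    {n : ℕ} (hn : n ≠ 0) (T : Finset (laurentBaseChange K F_ℚ))
    (hT : ∀ t ∈ T, t ≠ 0 ∧ ∀ P : Place K (laurentBaseChange K F_ℚ), (n : ℤ) ∣ P.ord t)
    (hfin : ∀ f : laurentBaseChange K F_ℚ, f ≠ 0 →
      (∀ P : Place K (laurentBaseChange K F_ℚ), (n : ℤ) ∣ P.ord f) → ∃ t ∈ T, gd_Rel K n t f)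
    {f : laurentBaseChange K F_ℚ} (hf : f ≠ 0)
    (hdiv : ∀ P : Place K (laurentBaseChange K F_ℚ), (n : ℤ) ∣ P.ord f) :
    ∃ (f₀ : laurentBaseChange K₀ F_ℚ) (h : laurentBaseChange K F_ℚ),
      (h : LaurentSeries K) = coeffMap (algebraMap K₀ K) (f₀ : LaurentSeries K₀) ∧
        gd_Rel K n f h := by
  obtain ⟨h, hrel, hnorm⟩ := gd_exists_norm hx (gd_Pinf F_ℚ hnt) (gd_lead F_ℚ)
    (gd_lead_smul F_ℚ) (gd_lead_ne_zero F_ℚ) hn hf hdiv
  have hdivh : ∀ P : Place K (laurentBaseChange K F_ℚ), (n : ℤ) ∣ P.ord h :=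
    hrel.dvd hf hdiv
  have horb := gd_finite_orbit hx (gd_Pinf F_ℚ hnt) (gd_lead F_ℚ)
    (gd_lead_smul F_ℚ) (gd_lead_ne_zero F_ℚ) hn (fun σ : K ≃ₐ[K₀] K => gd_aut F_ℚ σ)
    (fun σ => gd_aut_smul_Pinf F_ℚ hnt σ) (fun σ z => gd_lead_aut_smul F_ℚ σ z) T hT hfin
    hdivh hnorm
  have horb' : (Set.range fun σ : K ≃ₐ[K₀] K =>
      coeffMap (σ : K →+* K) (h : LaurentSeries K)).Finite := by
    have := horb.image (fun z : laurentBaseChange K F_ℚ => (z : LaurentSeries K))
    refine this.subset ?_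
    rintro _ ⟨σ, rfl⟩
    exact ⟨gd_aut F_ℚ σ • h, ⟨σ, rfl⟩, rfl⟩
  obtain ⟨x₀, hx₀⟩ := gd_exists_coeffMap_eq_of_finite_orbit horb'
  have hx₀mem : x₀ ∈ laurentBaseChange K₀ F_ℚ := by
    apply gd_mem_of_coeffMap_mem (K := K) F_ℚ
    rw [hx₀]
    exact h.2
  exact ⟨⟨x₀, hx₀mem⟩, h, hx₀.symm, hrel⟩

end main

end Fermat.Agent.JT3
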