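import Mathlib
import Fermat.Prelude.Def_ModularCurve_LaurentCoeff
import Fermat.Agent.JT3.Gateway.ValPlace
import Fermat.Agent.JT3.Gateway.DescentLin
import Fermat.Agent.S24.Hurwitz.Places

/-!
# JT3 / T1 gateway, node G4 (descent `ℂ → Q̄`), part (A8): the Gauss extension of a place along a
constant field extension (prefix `gd_`)

`K₀ ⊆ K` fields, `F_ℚ ⊆ ℚ((q))` a field, `F₀ = laurentBaseChange K₀ F_ℚ`,
`F = laurentBaseChange K F_ℚ`, `ι_* = coeffMap (algebraMap K₀ K)`, `P` a place of `F₀ / K₀` with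
residue field `K₀`.  Fix a `K₀`-basis `(b_i)` of `K`.  Every element of the `K`-span `R` of
`ι_* F₀` in `K((q))` is uniquely `Ψ g = ∑ C (b_i) · ι_* (g_i)` with `g : I →₀ F₀` (`gd_exists_Psi`,
`gd_Psi_injective`; the coordinates are `gd_funcMap (b.coord i)`), and the *Gauss value*
`min_i ord_P (g_i)` is multiplicative (`gd_GW_mul`, the Gauss lemma: reduce modulo `P`, the
reduction `∑ res(g_i) b_i ∈ K` is multiplicative and `K` is a field).  As `F = Frac R`
(`gd_exists_quot`) it extends to an integer valued valuation `gd_gaussVal` of `F / K`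
(`gd_gaussVal_isVal`) with `gd_gaussVal (ι_* y) = ord_P y` (`gd_gaussVal_coeffMap`).

Consequence (`gd_dvd_descend`): if the divisor of `ι_* f₀` on `F / K` is divisible by `n`, so is
the divisor of `f₀` on `F₀ / K₀`.
-/

set_option autoImplicit false
set_option linter.unusedSectionVars false

namespace Fermat.Agent.JT3

open ModularCurve HahnSeries AlgebraicCurve Fermat.Agent.S24

/-! ### The algebraic core of the Gauss lemma -/

section core

variable {K₀ K : Type*} [Field K₀] [Field K] [Algebra K₀ K] {I : Type*}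
  (b : Module.Basis I K₀ K)

theorem gd_repr_sum_smul (s : Finset I) (r : I → K₀) (i₀ : I) (hi₀ : i₀ ∈ s) :
    b.repr (∑ i ∈ s, r i • b i) i₀ = r i₀ := by
  classical
  rw [map_sum, Finsupp.finsetSum_apply]
  rw [Finset.sum_eq_single i₀]
  · rw [map_smul, Module.Basis.repr_self, Finsupp.smul_apply, Finsupp.single_eq_same, smul_eq_mul,
      mul_one]
  · intro i _ hi
    rw [map_smul, Module.Basis.repr_self, Finsupp.smul_apply, Finsupp.single_eq_of_ne hi.symm,
      smul_zero]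
  · intro h
    exact absurd hi₀ h

/-- **the algebraic core of the Gauss lemma**: the product of two nonzero elements of `K`, written
in a `K₀`-basis, has a nonzero coordinate. -/
theorem gd_gauss_core (s s' : Finset I) (r r' : I → K₀)
    (hr : ∃ i ∈ s, r i ≠ 0) (hr' : ∃ k ∈ s', r' k ≠ 0) :
    ∃ m : I, ∑ i ∈ s, ∑ k ∈ s', b.repr (b i * b k) m * (r i * r' k) ≠ 0 := by
  classical
  set ρ : K := ∑ i ∈ s, r i • b i with hρ
  set ρ' : K := ∑ k ∈ s', r' k • b k with hρ'
  have hρ0 : ρ ≠ 0 := by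
    obtain ⟨i, hi, hri⟩ := hr
    intro h0
    apply hri
    rw [← gd_repr_sum_smul b s r i hi, ← hρ, h0, map_zero, Finsupp.zero_apply]
  have hρ'0 : ρ' ≠ 0 := by
    obtain ⟨k, hk, hrk⟩ := hr'
    intro h0
    apply hrk
    rw [← gd_repr_sum_smul b s' r' k hk, ← hρ', h0, map_zero, Finsupp.zero_apply]
  have hprod : ρ * ρ' ≠ 0 := mul_ne_zero hρ0 hρ'0
  have hrepr : b.repr (ρ * ρ') ≠ 0 := by
    intro h0
    apply hprod
    exact b.repr.map_eq_zero_iff.mp h0
  obtain ⟨m, hm⟩ := Finsupp.ne_iff.mp hrepr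
  refine ⟨m, ?_⟩
  rw [Finsupp.zero_apply] at hm
  have hexp : ρ * ρ' = ∑ i ∈ s, ∑ k ∈ s', (r i * r' k) • (b i * b k) := by
    rw [hρ, hρ', Finset.sum_mul_sum]
    refine Finset.sum_congr rfl fun i _ => Finset.sum_congr rfl fun k _ => ?_
    rw [smul_mul_smul_comm]
  rw [hexp, map_sum, Finsupp.finsetSum_apply] at hm
  convert hm using 2 with i _
  rw [map_sum, Finsupp.finsetSum_apply]
  refine Finset.sum_congr rfl fun k _ => ?_
  rw [map_smul, Finsupp.smul_apply, smul_eq_mul, mul_comm]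

end core


/-! ### Coordinates on the span -/

section coord

variable {K₀ K : Type*} [Field K₀] [Field K] [Algebra K₀ K]

/-- functionals applied to `C c · ι_* y` -/
theorem gd_funcMap_C_mul (l : K →ₗ[K₀] K₀) (c : K) (y : LaurentSeries K₀) :
    gd_funcMap l (HahnSeries.C c * coeffMap (algebraMap K₀ K) y) = HahnSeries.C (l c) * y := by
  rw [HahnSeries.C_mul_eq_smul, HahnSeries.C_mul_eq_smul]
  ext k
  rw [gd_funcMap_coeff, HahnSeries.coeff_smul, HahnSeries.coeff_smul, coeffMap_coeff, smul_eq_mul,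
    smul_eq_mul, mul_comm, ← Algebra.smul_def, map_smul, smul_eq_mul, mul_comm]

/-- `gd_funcMap` as an additive map -/
noncomputable def gd_funcMapHom (l : K →ₗ[K₀] K₀) : LaurentSeries K →+ LaurentSeries K₀ where
  toFun := gd_funcMap l
  map_zero' := gd_funcMap_zero l
  map_add' := gd_funcMap_add l

@[simp] theorem gd_funcMapHom_apply (l : K →ₗ[K₀] K₀) (y : LaurentSeries K) :
    gd_funcMapHom l y = gd_funcMap l y := rfl

variable [Algebra ℚ K₀] [Algebra ℚ K] (F_ℚ : IntermediateField ℚ (LaurentSeries ℚ))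
  {I : Type*} (b : Module.Basis I K₀ K)

/-- the parametrisation of the span by finitely supported families of elements of the function
field over `K₀` -/
noncomputable def gd_Psi : (I →₀ laurentBaseChange K₀ F_ℚ) →+ LaurentSeries K :=
  Finsupp.liftAddHom fun i =>
    { toFun := fun y => HahnSeries.C (b i) * coeffMap (algebraMap K₀ K) (y : LaurentSeries K₀)
      map_zero' := by simp
      map_add' := fun y z => by simp [mul_add] }

theorem gd_Psi_apply (g : I →₀ laurentBaseChange K₀ F_ℚ) :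
    gd_Psi F_ℚ b g = g.sum fun i y =>
      HahnSeries.C (b i) * coeffMap (algebraMap K₀ K) (y : LaurentSeries K₀) := by
  rw [gd_Psi, Finsupp.liftAddHom_apply]
  rfl

theorem gd_Psi_single (i : I) (y : laurentBaseChange K₀ F_ℚ) :
    gd_Psi F_ℚ b (Finsupp.single i y) =
      HahnSeries.C (b i) * coeffMap (algebraMap K₀ K) (y : LaurentSeries K₀) := by
  rw [gd_Psi_apply, Finsupp.sum_single_index]
  simp

/-- the coordinates of `Ψ g` -/
theorem gd_funcMap_Psi (g : I →₀ laurentBaseChange K₀ F_ℚ) (m : I) :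
    gd_funcMap (b.coord m) (gd_Psi F_ℚ b g) = (g m : LaurentSeries K₀) := by
  classical
  induction g using Finsupp.induction_linear with
  | zero => simp [gd_funcMap_zero]
  | add g g' hg hg' =>
      rw [map_add, gd_funcMap_add, hg, hg', Finsupp.add_apply]
      rfl
  | single i y =>
      rw [gd_Psi_single, gd_funcMap_C_mul, Module.Basis.coord_apply, Module.Basis.repr_self]
      by_cases h : i = m
      · subst h
        rw [Finsupp.single_eq_same, Finsupp.single_eq_same, map_one, one_mul]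
      · rw [Finsupp.single_eq_of_ne (Ne.symm h), Finsupp.single_eq_of_ne (Ne.symm h), map_zero,
          zero_mul]
        rfl

theorem gd_Psi_injective : Function.Injective (gd_Psi F_ℚ b) := by
  intro g g' h
  ext m : 2
  rw [← gd_funcMap_Psi F_ℚ b g m, ← gd_funcMap_Psi F_ℚ b g' m, h]


/-- the family `(γ_i • y)_i` for `c = ∑ γ_i b_i` -/
noncomputable def gd_fam (c : K) (y : laurentBaseChange K₀ F_ℚ) : I →₀ laurentBaseChange K₀ F_ℚ :=
  (b.repr c).mapRange (fun γ => γ • y) (zero_smul _ _)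

theorem gd_fam_apply (c : K) (y : laurentBaseChange K₀ F_ℚ) (i : I) :
    gd_fam F_ℚ b c y i = b.repr c i • y := rfl

theorem gd_coe_smul (γ : K₀) (y : laurentBaseChange K₀ F_ℚ) :
    ((γ • y : laurentBaseChange K₀ F_ℚ) : LaurentSeries K₀) =
      HahnSeries.C γ * (y : LaurentSeries K₀) := by
  rw [Algebra.smul_def, MulMemClass.coe_mul, HahnSeries.C_apply]
  congr 1
  exact algebraMap_laurentSeries_eq_single (L := K₀) γ

theorem gd_coeffMap_C (γ : K₀) :
    coeffMap (algebraMap K₀ K) (HahnSeries.C γ) = HahnSeries.C (algebraMap K₀ K γ) := by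
  rw [HahnSeries.C_apply, HahnSeries.C_apply, coeffMap_single]

/-- **(L)** `C c · ι_* y = Ψ (γ_i • y)_i` -/
theorem gd_Psi_fam (c : K) (y : laurentBaseChange K₀ F_ℚ) :
    gd_Psi F_ℚ b (gd_fam F_ℚ b c y) =
      HahnSeries.C c * coeffMap (algebraMap K₀ K) (y : LaurentSeries K₀) := by
  classical
  rw [gd_Psi_apply, gd_fam, Finsupp.sum_mapRange_index (by intro i; simp)]
  have h1 : ∀ (i : I) (γ : K₀), HahnSeries.C (b i) *
      coeffMap (algebraMap K₀ K) ((γ • y : laurentBaseChange K₀ F_ℚ) : LaurentSeries K₀) =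
      HahnSeries.C (γ • b i) * coeffMap (algebraMap K₀ K) (y : LaurentSeries K₀) := by
    intro i γ
    rw [gd_coe_smul, map_mul, gd_coeffMap_C, ← mul_assoc, ← map_mul, Algebra.smul_def, mul_comm (b i)]
  simp_rw [h1]
  rw [Finsupp.sum, ← Finset.sum_mul, ← map_sum]
  congr 2
  have := b.linearCombination_repr c
  rw [Finsupp.linearCombination_apply, Finsupp.sum] at this
  exact this

theorem gd_Psi_mem_span (g : I →₀ laurentBaseChange K₀ F_ℚ) :
    gd_Psi F_ℚ b g ∈ gd_span (K₀ := K₀) (K := K) F_ℚ := by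
  induction g using Finsupp.induction_linear with
  | zero => rw [map_zero]; exact zero_mem _
  | add g g' hg hg' => rw [map_add]; exact add_mem hg hg'
  | single i y =>
      rw [gd_Psi_single, HahnSeries.C_mul_eq_smul]
      exact Submodule.smul_mem _ _ (gd_coeffMap_mem_span F_ℚ y.2)

theorem gd_C_mul_Psi (c : K) (g : I →₀ laurentBaseChange K₀ F_ℚ) :
    ∃ g' : I →₀ laurentBaseChange K₀ F_ℚ, gd_Psi F_ℚ b g' = HahnSeries.C c * gd_Psi F_ℚ b g := by
  induction g using Finsupp.induction_linear with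
  | zero => exact ⟨0, by simp⟩
  | add g₁ g₂ h₁ h₂ =>
      obtain ⟨g₁', h₁'⟩ := h₁
      obtain ⟨g₂', h₂'⟩ := h₂
      exact ⟨g₁' + g₂', by rw [map_add, map_add, h₁', h₂', mul_add]⟩
  | single i y =>
      refine ⟨gd_fam F_ℚ b (c * b i) y, ?_⟩
      rw [gd_Psi_fam, gd_Psi_single, map_mul, mul_assoc]

/-- every element of the span is `Ψ g` for some `g` -/
theorem gd_exists_Psi {a : LaurentSeries K} (ha : a ∈ gd_span (K₀ := K₀) (K := K) F_ℚ) :
    ∃ g : I →₀ laurentBaseChange K₀ F_ℚ, gd_Psi F_ℚ b g = a := by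
  unfold gd_span at ha
  induction ha using Submodule.span_induction with
  | mem x hx =>
      obtain ⟨y, hy, rfl⟩ := hx
      refine ⟨gd_fam F_ℚ b 1 ⟨y, hy⟩, ?_⟩
      rw [gd_Psi_fam, map_one, one_mul]
  | zero => exact ⟨0, map_zero _⟩
  | add x y _ _ hx hy =>
      obtain ⟨g, hg⟩ := hx
      obtain ⟨g', hg'⟩ := hy
      exact ⟨g + g', by rw [map_add, hg, hg']⟩
  | smul c x _ hx =>
      obtain ⟨g, hg⟩ := hx
      obtain ⟨g', hg'⟩ := gd_C_mul_Psi F_ℚ b c g
      exact ⟨g', by rw [hg', hg, HahnSeries.C_mul_eq_smul]⟩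

end coord

/-! ### The residue homomorphism of a place with residue field `K₀` -/

section res

variable {K₀ F₀ : Type*} [Field K₀] [Field F₀] [Algebra K₀ F₀] (P : Place K₀ F₀)
  (hres : Function.Surjective (algebraMap K₀ P.ResidueField))

/-- `K₀ ≃ residue field` -/
noncomputable def gd_resEquiv : K₀ ≃+* P.ResidueField :=
  RingEquiv.ofBijective (algebraMap K₀ P.ResidueField)
    ⟨(algebraMap K₀ P.ResidueField).injective, hres⟩

/-- the residue homomorphism `O_P → K₀` -/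
noncomputable def gd_res : P.toValuationSubring →+* K₀ :=
  ((gd_resEquiv P hres).symm : P.ResidueField →+* K₀).comp
    (IsLocalRing.residue P.toValuationSubring)

theorem gd_res_algebraMap (γ : K₀) :
    gd_res P hres (algebraMap K₀ P.toValuationSubring γ) = γ := by
  have h1 : IsLocalRing.residue P.toValuationSubring (algebraMap K₀ P.toValuationSubring γ) =
      gd_resEquiv P hres γ := rfl
  rw [gd_res, RingHom.comp_apply, h1]
  exact (gd_resEquiv P hres).symm_apply_apply γ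

theorem gd_res_ne_zero_iff (y : P.toValuationSubring) : gd_res P hres y ≠ 0 ↔ IsUnit y := by
  rw [gd_res, RingHom.comp_apply]
  have h1 : ((gd_resEquiv P hres).symm : P.ResidueField →+* K₀)
      (IsLocalRing.residue P.toValuationSubring y) = 0 ↔
      IsLocalRing.residue P.toValuationSubring y = 0 :=
    (gd_resEquiv P hres).symm.map_eq_zero_iff
  rw [ne_eq, h1, IsLocalRing.residue_eq_zero_iff, IsLocalRing.mem_maximalIdeal, mem_nonunits_iff,
    not_not]

end res

/-! ### The Gauss valuation on the span -/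

section gauss

variable {K₀ K : Type*} [Field K₀] [Field K] [Algebra K₀ K] [Algebra ℚ K₀] [Algebra ℚ K]
  (F_ℚ : IntermediateField ℚ (LaurentSeries ℚ)) {I : Type*} (b : Module.Basis I K₀ K)
  (P : Place K₀ (laurentBaseChange K₀ F_ℚ))

/-- the Gauss value of an element of the span: the minimum of the orders of its coordinates -/
def gd_GW (a : LaurentSeries K) (k : ℤ) : Prop :=
  ∃ g : I →₀ laurentBaseChange K₀ F_ℚ, gd_Psi F_ℚ b g = a ∧
    (∀ i ∈ g.support, k ≤ P.ord (g i)) ∧ ∃ i ∈ g.support, P.ord (g i) = k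

theorem gd_GW_unique {a : LaurentSeries K} {k k' : ℤ} (h : gd_GW F_ℚ b P a k)
    (h' : gd_GW F_ℚ b P a k') : k = k' := by
  obtain ⟨g, hg, hle, i, hi, hik⟩ := h
  obtain ⟨g', hg', hle', i', hi', hik'⟩ := h'
  have : g = g' := gd_Psi_injective F_ℚ b (hg.trans hg'.symm)
  subst this
  have h1 := hle i' hi'
  have h2 := hle' i hi
  omega

theorem gd_GW_ne_zero {a : LaurentSeries K} {k : ℤ} (h : gd_GW F_ℚ b P a k) : a ≠ 0 := by
  obtain ⟨g, rfl, -, i, hi, -⟩ := h
  intro h0
  have : g = 0 := gd_Psi_injective F_ℚ b (h0.trans (map_zero _).symm)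
  rw [this] at hi
  simp at hi

theorem gd_GW_mem_span {a : LaurentSeries K} {k : ℤ} (h : gd_GW F_ℚ b P a k) :
    a ∈ gd_span (K₀ := K₀) (K := K) F_ℚ := by
  obtain ⟨g, rfl, -⟩ := h
  exact gd_Psi_mem_span F_ℚ b g

theorem gd_GW_exists {a : LaurentSeries K} (ha : a ∈ gd_span (K₀ := K₀) (K := K) F_ℚ)
    (ha0 : a ≠ 0) : ∃ k : ℤ, gd_GW F_ℚ b P a k := by
  obtain ⟨g, rfl⟩ := gd_exists_Psi F_ℚ b ha
  have hne : g.support.Nonempty := by
    rw [Finsupp.support_nonempty_iff]
    rintro rfl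
    exact ha0 (map_zero _)
  obtain ⟨i, hi, hmin⟩ := Finset.exists_min_image g.support (fun i => P.ord (g i)) hne
  exact ⟨P.ord (g i), g, rfl, hmin, i, hi, rfl⟩

theorem gd_GW_C_mul {c : K} (hc : c ≠ 0) {y : laurentBaseChange K₀ F_ℚ} (hy : y ≠ 0) :
    gd_GW F_ℚ b P (HahnSeries.C c * coeffMap (algebraMap K₀ K) (y : LaurentSeries K₀))
      (P.ord y) := by
  refine ⟨gd_fam F_ℚ b c y, gd_Psi_fam F_ℚ b c y, ?_, ?_⟩
  · intro i hi
    rw [Finsupp.mem_support_iff, gd_fam_apply] at hi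
    have hγ : b.repr c i ≠ 0 := fun h => hi (by rw [h, zero_smul])
    rw [gd_fam_apply, Algebra.smul_def, P.ord_mul (by simpa using hγ) hy, hw_ord_algebraMap,
      zero_add]
  · have hne : b.repr c ≠ 0 := fun h => hc (b.repr.map_eq_zero_iff.mp h)
    obtain ⟨i, hi⟩ := Finsupp.ne_iff.mp hne
    rw [Finsupp.zero_apply] at hi
    refine ⟨i, ?_, ?_⟩
    · rw [Finsupp.mem_support_iff, gd_fam_apply, Algebra.smul_def]
      exact mul_ne_zero (by simpa using hi) hy
    · rw [gd_fam_apply, Algebra.smul_def, P.ord_mul (by simpa using hi) hy, hw_ord_algebraMap,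
        zero_add]

theorem gd_GW_add {a a' : LaurentSeries K} {k k' k'' : ℤ} (h : gd_GW F_ℚ b P a k)
    (h' : gd_GW F_ℚ b P a' k') (h'' : gd_GW F_ℚ b P (a + a') k'') : min k k' ≤ k'' := by
  obtain ⟨g, hg, hle, -⟩ := h
  obtain ⟨g', hg', hle', -⟩ := h'
  obtain ⟨g'', hg'', -, i, hi, hik⟩ := h''
  have : g'' = g + g' := gd_Psi_injective F_ℚ b (by rw [hg'', map_add, hg, hg'])
  subst this
  rw [Finsupp.mem_support_iff, Finsupp.add_apply] at hi
  rw [Finsupp.add_apply] at hik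
  by_cases h0 : g i = 0
  · rw [h0, zero_add] at hi hik
    have := hle' i (Finsupp.mem_support_iff.mpr hi)
    omega
  by_cases h0' : g' i = 0
  · rw [h0', add_zero] at hi hik
    have := hle i (Finsupp.mem_support_iff.mpr hi)
    omega
  have h1 := hw_ord_add_ge P h0 h0' hi
  have h2 := hle i (Finsupp.mem_support_iff.mpr h0)
  have h3 := hle' i (Finsupp.mem_support_iff.mpr h0')
  rw [hik] at h1
  rcases min_le_iff.mp h1 with h4 | h4
  · exact (min_le_left _ _).trans (h2.trans h4)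
  · exact (min_le_right _ _).trans (h3.trans h4)

/-- the coordinates of a product -/
theorem gd_funcMap_Psi_mul (g g' : I →₀ laurentBaseChange K₀ F_ℚ) (m : I) :
    gd_funcMap (b.coord m) (gd_Psi F_ℚ b g * gd_Psi F_ℚ b g') =
      ∑ i ∈ g.support, ∑ j ∈ g'.support, HahnSeries.C (b.repr (b i * b j) m) *
        ((g i : LaurentSeries K₀) * (g' j : LaurentSeries K₀)) := by
  rw [gd_Psi_apply, gd_Psi_apply, Finsupp.sum, Finsupp.sum, Finset.sum_mul_sum,
    ← gd_funcMapHom_apply, map_sum]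
  refine Finset.sum_congr rfl fun i _ => ?_
  rw [map_sum]
  refine Finset.sum_congr rfl fun j _ => ?_
  have h1 : HahnSeries.C (b i) * coeffMap (algebraMap K₀ K) (g i : LaurentSeries K₀) *
      (HahnSeries.C (b j) * coeffMap (algebraMap K₀ K) (g' j : LaurentSeries K₀)) =
      HahnSeries.C (b i * b j) * coeffMap (algebraMap K₀ K)
        ((g i : LaurentSeries K₀) * (g' j : LaurentSeries K₀)) := by
    rw [map_mul, map_mul]
    ring
  rw [h1, gd_funcMapHom_apply, gd_funcMap_C_mul, Module.Basis.coord_apply]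


theorem gd_isUnit_of_ord_eq_zero {w : P.toValuationSubring}
    (hw0 : (w : laurentBaseChange K₀ F_ℚ) ≠ 0)
    (hw : P.ord (w : laurentBaseChange K₀ F_ℚ) = 0) : IsUnit w := by
  have hinv : (w : laurentBaseChange K₀ F_ℚ)⁻¹ ∈ P.toValuationSubring := by
    rw [hw_mem_iff_ord_nonneg P (inv_ne_zero hw0), P.ord_inv, hw, neg_zero]
  exact IsUnit.of_mul_eq_one ⟨_, hinv⟩ (Subtype.ext (mul_inv_cancel₀ hw0))

set_option maxHeartbeats 1000000 in
/-- **the Gauss lemma**: the Gauss value is multiplicative. -/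
theorem gd_GW_mul (hres : Function.Surjective (algebraMap K₀ P.ResidueField))
    {a a' : LaurentSeries K} {k k' : ℤ} (h : gd_GW F_ℚ b P a k) (h' : gd_GW F_ℚ b P a' k') :
    gd_GW F_ℚ b P (a * a') (k + k') := by
  classical
  obtain ⟨g, rfl, hle, i₀, hi₀, hi₀k⟩ := h
  obtain ⟨g', rfl, hle', j₀, hj₀, hj₀k⟩ := h'
  obtain ⟨g'', hg''⟩ := gd_exists_Psi F_ℚ b
    (gd_span_mul F_ℚ (gd_Psi_mem_span F_ℚ b g) (gd_Psi_mem_span F_ℚ b g'))
  -- the coordinates of the product, in `F₀`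
  have hcoord : ∀ m : I, g'' m =
      ∑ i ∈ g.support, ∑ j ∈ g'.support, (b.repr (b i * b j) m) • (g i * g' j) := by
    intro m
    apply Subtype.ext
    rw [← gd_funcMap_Psi F_ℚ b g'' m, hg'', gd_funcMap_Psi_mul, AddSubmonoidClass.coe_finsetSum]
    refine Finset.sum_congr rfl fun i _ => ?_
    rw [AddSubmonoidClass.coe_finsetSum]
    refine Finset.sum_congr rfl fun j _ => ?_
    rw [gd_coe_smul, MulMemClass.coe_mul]
  -- a uniformiser
  obtain ⟨π, hπ⟩ := IsDiscreteValuationRing.exists_irreducible P.toValuationSubring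
  set t : laurentBaseChange K₀ F_ℚ := (π : laurentBaseChange K₀ F_ℚ) with htdef
  have ht0 : t ≠ 0 := fun h0 => hπ.ne_zero (Subtype.ext h0)
  have ht : P.ord t = 1 := P.ord_coe_irreducible hπ
  -- the normalised coordinates lie in the valuation ring
  have hmemgen : ∀ (G : I →₀ laurentBaseChange K₀ F_ℚ) (κ : ℤ),
      (∀ i ∈ G.support, κ ≤ P.ord (G i)) → ∀ i, G i * t ^ (-κ) ∈ P.toValuationSubring := by
    intro G κ hG i
    by_cases h0 : G i = 0
    · rw [h0, zero_mul]; exact zero_mem _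
    · rw [hw_mem_iff_ord_nonneg P (mul_ne_zero h0 (zpow_ne_zero _ ht0)),
        P.ord_mul h0 (zpow_ne_zero _ ht0), P.ord_zpow, ht]
      have := hG i (Finsupp.mem_support_iff.mpr h0)
      omega
  have hmem := hmemgen g k hle
  have hmem' := hmemgen g' k' hle'
  set y : I → P.toValuationSubring := fun i => ⟨g i * t ^ (-k), hmem i⟩ with hy
  set y' : I → P.toValuationSubring := fun j => ⟨g' j * t ^ (-k'), hmem' j⟩ with hy'
  set z : I → P.toValuationSubring := fun m => ∑ i ∈ g.support, ∑ j ∈ g'.support,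
    algebraMap K₀ P.toValuationSubring (b.repr (b i * b j) m) * (y i * y' j) with hz
  have hzcoord : ∀ m : I, g'' m = t ^ (k + k') * ((z m : P.toValuationSubring) :
      laurentBaseChange K₀ F_ℚ) := by
    intro m
    rw [hcoord m, hz]
    simp only [AddSubmonoidClass.coe_finsetSum, MulMemClass.coe_mul, Finset.mul_sum]
    refine Finset.sum_congr rfl fun i _ => Finset.sum_congr rfl fun j _ => ?_
    rw [Place.coe_algebraMap, Algebra.smul_def, hy, hy']
    have h1 : t ^ (k + k') * (t ^ (-k) * t ^ (-k')) = 1 := by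
      rw [← zpow_add₀ ht0, ← zpow_add₀ ht0]
      have : k + k' + (-k + -k') = 0 := by ring
      rw [this, zpow_zero]
    calc algebraMap K₀ (laurentBaseChange K₀ F_ℚ) (b.repr (b i * b j) m) * (g i * g' j)
        = algebraMap K₀ (laurentBaseChange K₀ F_ℚ) (b.repr (b i * b j) m) * (g i * g' j) *
            (t ^ (k + k') * (t ^ (-k) * t ^ (-k'))) := by rw [h1, mul_one]
      _ = _ := by ring
  -- units
  have hu : IsUnit (y i₀) := by
    have hgi : g i₀ ≠ 0 := Finsupp.mem_support_iff.mp hi₀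
    apply gd_isUnit_of_ord_eq_zero F_ℚ P
    · exact mul_ne_zero hgi (zpow_ne_zero _ ht0)
    · show P.ord (g i₀ * t ^ (-k)) = 0
      rw [P.ord_mul hgi (zpow_ne_zero _ ht0), P.ord_zpow, ht, hi₀k]
      ring
  have hu' : IsUnit (y' j₀) := by
    have hgj : g' j₀ ≠ 0 := Finsupp.mem_support_iff.mp hj₀
    apply gd_isUnit_of_ord_eq_zero F_ℚ P
    · exact mul_ne_zero hgj (zpow_ne_zero _ ht0)
    · show P.ord (g' j₀ * t ^ (-k')) = 0
      rw [P.ord_mul hgj (zpow_ne_zero _ ht0), P.ord_zpow, ht, hj₀k]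
      ring
  obtain ⟨m, hm⟩ := gd_gauss_core b g.support g'.support
    (fun i => gd_res P hres (y i)) (fun j => gd_res P hres (y' j))
    ⟨i₀, hi₀, (gd_res_ne_zero_iff P hres _).mpr hu⟩ ⟨j₀, hj₀, (gd_res_ne_zero_iff P hres _).mpr hu'⟩
  have hφz : gd_res P hres (z m) = ∑ i ∈ g.support, ∑ j ∈ g'.support,
      b.repr (b i * b j) m * (gd_res P hres (y i) * gd_res P hres (y' j)) := by
    rw [hz, map_sum]
    refine Finset.sum_congr rfl fun i _ => ?_
    rw [map_sum]
    refine Finset.sum_congr rfl fun j _ => ?_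
    rw [map_mul (gd_res P hres), map_mul (gd_res P hres), gd_res_algebraMap]
  clear_value z y y'
  have hzu : IsUnit (z m) := (gd_res_ne_zero_iff P hres _).mp (by rw [hφz]; exact hm)
  have hzord : P.ord ((z m : P.toValuationSubring) : laurentBaseChange K₀ F_ℚ) = 0 := by
    have := P.ord_coe_unit hzu.unit
    rwa [IsUnit.unit_spec] at this
  have hzne : ((z m : P.toValuationSubring) : laurentBaseChange K₀ F_ℚ) ≠ 0 := by
    intro h0
    exact hzu.ne_zero (Subtype.ext h0)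
  refine ⟨g'', hg'', ?_, m, ?_, ?_⟩
  · intro m' hm'
    rw [Finsupp.mem_support_iff] at hm'
    have hz0 : ((z m' : P.toValuationSubring) : laurentBaseChange K₀ F_ℚ) ≠ 0 := by
      intro h0
      apply hm'
      rw [hzcoord m', h0, mul_zero]
    rw [hzcoord m', P.ord_mul (zpow_ne_zero _ ht0) hz0, P.ord_zpow, ht, mul_one]
    have := (hw_mem_iff_ord_nonneg P hz0).mp (z m').2
    omega
  · rw [Finsupp.mem_support_iff, hzcoord m]
    exact mul_ne_zero (zpow_ne_zero _ ht0) hzne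
  · have e1 : P.ord (t ^ (k + k') * ((z m : P.toValuationSubring) : laurentBaseChange K₀ F_ℚ)) =
        P.ord (t ^ (k + k')) + P.ord ((z m : P.toValuationSubring) : laurentBaseChange K₀ F_ℚ) :=
      P.ord_mul (zpow_ne_zero (k + k') ht0) hzne
    have e2 : P.ord (g'' m) =
        P.ord (t ^ (k + k') * ((z m : P.toValuationSubring) : laurentBaseChange K₀ F_ℚ)) :=
      congrArg P.ord (hzcoord m)
    rw [e2, e1, P.ord_zpow, ht, hzord]
    ring

end gauss

/-! ### The Gauss valuation on the function field over `K` -/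

section ext

variable {K₀ K : Type*} [Field K₀] [Field K] [Algebra K₀ K] [Algebra ℚ K₀] [Algebra ℚ K]
  (F_ℚ : IntermediateField ℚ (LaurentSeries ℚ)) {I : Type*} (b : Module.Basis I K₀ K)
  (P : Place K₀ (laurentBaseChange K₀ F_ℚ))
  (hres : Function.Surjective (algebraMap K₀ P.ResidueField))

/-- the Gauss value of an element of the function field over `K` -/
def gd_GV (f : laurentBaseChange K F_ℚ) (k : ℤ) : Prop :=
  ∃ (a a' : LaurentSeries K) (j j' : ℤ), (f : LaurentSeries K) * a' = a ∧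
    gd_GW F_ℚ b P a j ∧ gd_GW F_ℚ b P a' j' ∧ k = j - j'

theorem gd_GV_exists {f : laurentBaseChange K F_ℚ} (hf : f ≠ 0) :
    ∃ k : ℤ, gd_GV F_ℚ b P f k := by
  obtain ⟨a, ha, a', ha', ha'0, hfa⟩ := gd_exists_quot (K₀ := K₀) F_ℚ f.2
  have hf' : (f : LaurentSeries K) ≠ 0 := fun h => hf (Subtype.ext h)
  have ha0 : a ≠ 0 := by rw [← hfa]; exact mul_ne_zero hf' ha'0
  obtain ⟨j, hj⟩ := gd_GW_exists F_ℚ b P ha ha0
  obtain ⟨j', hj'⟩ := gd_GW_exists F_ℚ b P ha' ha'0
  exact ⟨j - j', a, a', j, j', hfa, hj, hj', rfl⟩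

theorem gd_GV_ne_zero {f : laurentBaseChange K F_ℚ} {k : ℤ} (h : gd_GV F_ℚ b P f k) : f ≠ 0 := by
  obtain ⟨a, a', j, j', hfa, hj, -, -⟩ := h
  rintro rfl
  apply gd_GW_ne_zero F_ℚ b P hj
  rw [← hfa]
  simp

include hres

theorem gd_GV_unique {f : laurentBaseChange K F_ℚ} {k k' : ℤ} (h : gd_GV F_ℚ b P f k)
    (h' : gd_GV F_ℚ b P f k') : k = k' := by
  obtain ⟨a, a', j, j', hfa, hj, hj', rfl⟩ := h
  obtain ⟨c, c', l, l', hfc, hl, hl', rfl⟩ := h'
  have h1 : a * c' = c * a' := by rw [← hfa, ← hfc]; ring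
  have h2 := gd_GW_mul F_ℚ b P hres hj hl'
  have h3 := gd_GW_mul F_ℚ b P hres hl hj'
  rw [h1] at h2
  have := gd_GW_unique F_ℚ b P h2 h3
  omega

theorem gd_GV_mul {f f' : laurentBaseChange K F_ℚ} {k k' : ℤ} (h : gd_GV F_ℚ b P f k)
    (h' : gd_GV F_ℚ b P f' k') : gd_GV F_ℚ b P (f * f') (k + k') := by
  obtain ⟨a, a', j, j', hfa, hj, hj', rfl⟩ := h
  obtain ⟨c, c', l, l', hfc, hl, hl', rfl⟩ := h'
  refine ⟨a * c, a' * c', j + l, j' + l', ?_, gd_GW_mul F_ℚ b P hres hj hl,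
    gd_GW_mul F_ℚ b P hres hj' hl', by ring⟩
  rw [← hfa, ← hfc, MulMemClass.coe_mul]
  ring

theorem gd_GV_add {f f' : laurentBaseChange K F_ℚ} {k k' k'' : ℤ} (h : gd_GV F_ℚ b P f k)
    (h' : gd_GV F_ℚ b P f' k') (h'' : gd_GV F_ℚ b P (f + f') k'') : min k k' ≤ k'' := by
  have hne := gd_GV_ne_zero F_ℚ b P h''
  obtain ⟨a, a', j, j', hfa, hj, hj', rfl⟩ := h
  obtain ⟨c, c', l, l', hfc, hl, hl', rfl⟩ := h'
  have h1 := gd_GW_mul F_ℚ b P hres hj hl'
  have h2 := gd_GW_mul F_ℚ b P hres hl hj'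
  have h3 := gd_GW_mul F_ℚ b P hres hj' hl'
  have hsum : ((f + f' : laurentBaseChange K F_ℚ) : LaurentSeries K) * (a' * c') =
      a * c' + c * a' := by
    rw [← hfa, ← hfc, AddMemClass.coe_add]
    ring
  have hne' : ((f + f' : laurentBaseChange K F_ℚ) : LaurentSeries K) ≠ 0 :=
    fun h0 => hne (Subtype.ext h0)
  have hsum0 : a * c' + c * a' ≠ 0 := by
    rw [← hsum]
    exact mul_ne_zero hne' (gd_GW_ne_zero F_ℚ b P h3)
  obtain ⟨s, hs⟩ := gd_GW_exists F_ℚ b P
    (add_mem (gd_GW_mem_span F_ℚ b P h1) (gd_GW_mem_span F_ℚ b P h2)) hsum0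
  have h4 := gd_GW_add F_ℚ b P h1 h2 hs
  have h5 : gd_GV F_ℚ b P (f + f') (s - (j' + l')) := ⟨_, _, s, j' + l', hsum, hs, h3, rfl⟩
  have h6 := gd_GV_unique F_ℚ b P hres h'' h5
  rcases min_le_iff.mp h4 with h7 | h7
  · exact (min_le_left _ _).trans (by omega)
  · exact (min_le_right _ _).trans (by omega)

omit hres in
theorem gd_GW_one : gd_GW F_ℚ b P (1 : LaurentSeries K) 0 := by
  have := gd_GW_C_mul F_ℚ b P (c := (1 : K)) one_ne_zero
    (y := (1 : laurentBaseChange K₀ F_ℚ)) one_ne_zero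
  rwa [Place.ord_one, map_one, OneMemClass.coe_one, map_one, mul_one] at this

omit hres in
theorem gd_GV_const {c : K} (hc : c ≠ 0) :
    gd_GV F_ℚ b P (algebraMap K (laurentBaseChange K F_ℚ) c) 0 := by
  have h1 := gd_GW_C_mul F_ℚ b P hc (y := (1 : laurentBaseChange K₀ F_ℚ)) one_ne_zero
  rw [Place.ord_one, OneMemClass.coe_one, map_one, mul_one] at h1
  refine ⟨_, 1, 0, 0, ?_, h1, gd_GW_one F_ℚ b P, by ring⟩
  rw [mul_one, HahnSeries.C_apply]
  exact algebraMap_laurentSeries_eq_single (L := K) c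

omit hres in
theorem gd_GV_coeffMap {y : laurentBaseChange K₀ F_ℚ} (hy : y ≠ 0) (h : laurentBaseChange K F_ℚ)
    (hh : (h : LaurentSeries K) = coeffMap (algebraMap K₀ K) (y : LaurentSeries K₀)) :
    gd_GV F_ℚ b P h (P.ord y) := by
  have h1 := gd_GW_C_mul F_ℚ b P (c := (1 : K)) one_ne_zero hy
  rw [map_one, one_mul] at h1
  exact ⟨_, 1, P.ord y, 0, by rw [mul_one, hh], h1, gd_GW_one F_ℚ b P, by ring⟩

omit hres in
/-- **the Gauss extension** of the place `P` of `F₀ / K₀` to `F / K` -/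
noncomputable def gd_gaussVal (f : laurentBaseChange K F_ℚ) : ℤ := by
  classical
  exact if h : ∃ k : ℤ, gd_GV F_ℚ b P f k then h.choose else 0

omit hres in
theorem gd_gaussVal_spec {f : laurentBaseChange K F_ℚ} (hf : f ≠ 0) :
    gd_GV F_ℚ b P f (gd_gaussVal F_ℚ b P f) := by
  have h := gd_GV_exists F_ℚ b P hf
  rw [gd_gaussVal, dif_pos h]
  exact h.choose_spec

theorem gd_gaussVal_eq {f : laurentBaseChange K F_ℚ} {k : ℤ} (h : gd_GV F_ℚ b P f k) :
    gd_gaussVal F_ℚ b P f = k :=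
  gd_GV_unique F_ℚ b P hres (gd_gaussVal_spec F_ℚ b P (gd_GV_ne_zero F_ℚ b P h)) h

theorem gd_gaussVal_isVal : gw_IsVal K (gd_gaussVal F_ℚ b P) where
  map_mul _ _ hf hg :=
    gd_gaussVal_eq F_ℚ b P hres
      (gd_GV_mul F_ℚ b P hres (gd_gaussVal_spec F_ℚ b P hf) (gd_gaussVal_spec F_ℚ b P hg))
  map_add _ _ hf hg hfg :=
    gd_GV_add F_ℚ b P hres (gd_gaussVal_spec F_ℚ b P hf) (gd_gaussVal_spec F_ℚ b P hg)
      (gd_gaussVal_spec F_ℚ b P hfg)
  map_const _ hc := gd_gaussVal_eq F_ℚ b P hres (gd_GV_const F_ℚ b P hc)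

theorem gd_gaussVal_coeffMap {y : laurentBaseChange K₀ F_ℚ} (hy : y ≠ 0)
    (h : laurentBaseChange K F_ℚ)
    (hh : (h : LaurentSeries K) = coeffMap (algebraMap K₀ K) (y : LaurentSeries K₀)) :
    gd_gaussVal F_ℚ b P h = P.ord y :=
  gd_gaussVal_eq F_ℚ b P hres (gd_GV_coeffMap F_ℚ b P hy h hh)

end ext

/-! ### Descent of divisibility -/

section final

variable {K₀ K : Type*} [Field K₀] [Field K] [Algebra K₀ K] [Algebra ℚ K₀] [Algebra ℚ K]
  (F_ℚ : IntermediateField ℚ (LaurentSeries ℚ))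

/-- **(A8)**: if the divisor of `ι_* f₀` on `F / K` is divisible by `n`, then so is the divisor of
`f₀` on `F₀ / K₀` (all places of `F₀ / K₀` having residue field `K₀`). -/
theorem gd_dvd_descend
    (hres : ∀ P : Place K₀ (laurentBaseChange K₀ F_ℚ),
      Function.Surjective (algebraMap K₀ P.ResidueField))
    {f₀ : laurentBaseChange K₀ F_ℚ} (hf₀ : f₀ ≠ 0) {n : ℕ} (h : laurentBaseChange K F_ℚ)
    (hh : (h : LaurentSeries K) = coeffMap (algebraMap K₀ K) (f₀ : LaurentSeries K₀))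
    (hdiv : ∀ Q : Place K (laurentBaseChange K F_ℚ), (n : ℤ) ∣ Q.ord h)
    (P : Place K₀ (laurentBaseChange K₀ F_ℚ)) : (n : ℤ) ∣ P.ord f₀ := by
  set b := Module.Basis.ofVectorSpace K₀ K with hb
  have hv := gd_gaussVal_isVal F_ℚ b P (hres P)
  have hh0 : h ≠ 0 := by
    intro h0
    apply hf₀
    apply Subtype.ext
    have h1 : coeffMap (algebraMap K₀ K) (f₀ : LaurentSeries K₀) = 0 := by rw [← hh, h0]; rfl
    ext k
    have h2 := congrArg (fun y : LaurentSeries K => y.coeff k) h1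
    simp only [coeffMap_coeff, HahnSeries.coeff_zero] at h2
    exact (algebraMap K₀ K).injective (h2.trans (map_zero _).symm)
  obtain ⟨u, -, hu⟩ := gw_val_dvd K hv hh0 (n : ℤ) (fun Q => Q.ord h / (n : ℤ))
    (fun Q => (Int.mul_ediv_cancel' (hdiv Q)).symm)
  rw [gd_gaussVal_coeffMap F_ℚ b P (hres P) hf₀ h hh] at hu
  exact ⟨_, hu⟩

end final

end Fermat.Agent.JT3
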