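/-
JT3 / T1 gateway, node (5) C-CTX, exports for the consumers (G1 finiteness, G3b, G4):

* `gc_ctx_complete N : gw_Complete (gc_ctx N)`, `gc_ctxW_complete N : gw_Complete (gc_ctxW N)`,
  `gc_ctx_rational`, `gc_ctxW_rational` (the seams of `Gateway/Injective.lean`);
* `gc_jF_transcendental N : Transcendental ℂ (gc_jF N)`,
  `gc_finrank_jF N : Module.finrank ℂ⟮gc_jF N⟯ (gc_F N) = Nat.card (Comb.Q N)`
  (the degree of `X₀(N) → X(1)` over `ℂ`).
-/
import Mathlib
import Fermat.Agent.JT3.Gateway.CComplete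
import Fermat.Agent.JT3.Gateway.Injective
import Fermat.Agent.JT3.Gateway.BarComplete

set_option autoImplicit false
set_option maxHeartbeats 400000

open UpperHalfPlane ModularForm Filter Topology Function Complex
open scoped MatrixGroups Manifold Real IntermediateField
open Fermat.Agent.S24

namespace Fermat.Agent.JT3

variable (N : ℕ) [NeZero N]

/-! ### completeness and rationality of the two complex contexts -/

theorem gc_ctx_complete : gw_Complete (gc_ctx N) := by
  intro n hn a _ h hh hinv hpow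
  have hw : IsWeakModFun N h :=
    gb_isWeakModFun hn (gc_an_isWeakModFun N a) hh hinv hpow
  obtain ⟨u, v, hv, huv⟩ := gc_complete N hw
  refine ⟨1, u, v, one_ne_zero, hv, fun z => ?_⟩
  have := congrFun huv z
  rw [one_mul]
  exact this

theorem gc_ctxW_complete : gw_Complete (gc_ctxW N) := by
  intro n hn a _ h hh hinv hpow
  have hw : IsWeakModFun N h :=
    gb_isWeakModFun hn (gc_anW_isWeakModFun N a) hh hinv hpow
  refine ⟨1, gc_ofWeak N hw, 1, one_ne_zero, one_ne_zero, fun z => ?_⟩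
  rw [one_mul, gc_ctxW_an, gc_ctxW_an, gc_anW_ofWeak, map_one]
  simp

theorem gc_ctx_rational : gw_Rational (gc_ctx N) := fun _ _ d _ _ => ⟨d, rfl⟩

theorem gc_ctxW_rational : gw_Rational (gc_ctxW N) := fun _ _ d _ _ => ⟨d, rfl⟩

/-- the element `j` of the context `gc_ctxW N` -/
noncomputable def gc_jW : gc_W N := gc_A0toW N (gc_jA N)

theorem gc_anW_jW : gc_anW N (gc_jW N) = kleinJ := by
  rw [gc_jW, gc_anW_A0toW, gc_an_jA]

theorem gc_algebraMap_jW : algebraMap (gc_W N) (gc_F N) (gc_jW N) = gc_jF N :=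
  gc_algebraMap_A0toW N (gc_jA N)

/-! ### the degree over `ℂ(j)` -/

theorem gc_jF_transcendental : Transcendental ℂ (gc_jF N) := by
  intro h
  apply gc_jq_transcendental
  obtain ⟨p, hp0, hp⟩ := h
  refine ⟨p, hp0, ?_⟩
  have h1 := Polynomial.aeval_algebraMap_apply (LaurentSeries ℂ) (gc_jF N) p
  have e : algebraMap (gc_F N) (LaurentSeries ℂ) (gc_jF N) = br_jqC := gc_jF_coe N
  rw [hp, map_zero, e] at h1
  exact h1

theorem gc_finrank_J_F : Module.finrank gc_J (gc_F N) = Nat.card (Comb.Q N) := by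
  have hE := gc_finrank_E_le N
  have := hE.1
  have := gc_finiteDimensional_JF N
  have hmul := Module.finrank_mul_finrank gc_J (gc_F N) (gc_E N)
  rw [gc_finrank_FE, mul_one] at hmul
  refine le_antisymm ?_ (gc_le_finrank_F N)
  rw [hmul, ← br_psi_eq]
  exact hE.2

/-- the isomorphism between `ℂ(j) ⊆ gc_F N` and `ℂ(j) ⊆ ℂ((q))` -/
noncomputable def gc_equivJ : ℂ⟮gc_jF N⟯ ≃ₐ[ℂ] gc_J :=
  ((ℂ⟮gc_jF N⟯).equivMap (gc_F N).val).trans (IntermediateField.equivOfEq (by
    rw [IntermediateField.adjoin_map, Set.image_singleton]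
    have h0 : (gc_F N).val (gc_jF N) = br_jqC := gc_jF_coe N
    rw [h0]))

theorem gc_equivJ_coe (x : ℂ⟮gc_jF N⟯) :
    ((gc_equivJ N x : gc_J) : LaurentSeries ℂ) = ((x : gc_F N) : LaurentSeries ℂ) := rfl

/-- **the degree of `X₀(N) → X(1)` over `ℂ`** -/
theorem gc_finrank_jF : Module.finrank ℂ⟮gc_jF N⟯ (gc_F N) = Nat.card (Comb.Q N) := by
  rw [← gc_finrank_J_F N]
  refine Algebra.finrank_eq_of_equiv_equiv (gc_equivJ N).toRingEquiv (RingEquiv.refl _) ?_
  refine RingHom.ext fun x => Subtype.ext ?_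
  simp only [RingHom.comp_apply, RingEquiv.coe_toRingHom, RingEquiv.refl_apply]
  rw [gc_algebraMap_JF]
  exact (gc_equivJ_coe N x)

theorem gc_finiteDimensional_jF : FiniteDimensional ℂ⟮gc_jF N⟯ (gc_F N) := by
  apply Module.finite_of_finrank_pos
  rw [gc_finrank_jF]
  exact Nat.card_pos

end Fermat.Agent.JT3
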