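/-
JT3 / T1 gateway: the complex-context inputs of `gw_surj_bar` (`Gateway/Main.lean`) that come from
C-CTX: `j` is a separating generator of `gc_F N / ℂ` (so helper23's Riemann API `rt_*` applies to
`gc_F N`), and the `q`-order valuation is not trivial on `gc_F N` (`ord_q j = -1`).
-/
import Mathlib
import Fermat.Agent.JT3.Gateway.CDegree
import Fermat.Agent.JT3.Gateway.DescentField
import Fermat.Agent.JT3.Riemann.Main

set_option autoImplicit false
set_option maxHeartbeats 400000

open scoped IntermediateField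
open Fermat.Agent.S24 AlgebraicCurve

namespace Fermat.Agent.JT3

variable (N : ℕ) [NeZero N]

/-- `j` is a separating generator of `gc_F N` over `ℂ` -/
theorem gc_isSepGen_jF : rt_IsSepGen ℂ (gc_jF N) := by
  haveI := gc_finiteDimensional_jF N
  exact rt_isSepGen_of_charZero (gc_jF_transcendental N)

theorem gc_coeff_jq_neg_one : br_jqC.coeff (-1 : ℤ) = 1 := by
  rw [br_jqC, ModularCurve.coeffMap_coeff, ModularCurve.coeff_jq_neg_one, map_one]

theorem gc_order_jq_neg : br_jqC.order < 0 := by
  have h : br_jqC.order ≤ -1 :=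
    HahnSeries.order_le_of_coeff_ne_zero (by rw [gc_coeff_jq_neg_one]; exact one_ne_zero)
  omega

theorem gc_jF_ne_zero : gc_jF N ≠ 0 := by
  intro h
  have h1 := congrArg (fun x : gc_F N => (x : LaurentSeries ℂ).coeff (-1 : ℤ)) h
  simp only [gc_jF_coe, gc_coeff_jq_neg_one, ZeroMemClass.coe_zero, HahnSeries.coeff_zero] at h1
  exact one_ne_zero h1

/-- the `q`-order valuation is not trivial on `gc_F N` -/
theorem gc_ordVal_nontrivial :
    ∃ f : gc_F N, f ≠ 0 ∧ gd_ordVal (ModularCurve.modularFunctionFieldFull N) f ≠ 0 := by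
  refine ⟨gc_jF N, gc_jF_ne_zero N, ?_⟩
  rw [gd_ordVal, gc_jF_coe]
  exact (gc_order_jq_neg).ne

end Fermat.Agent.JT3
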