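import Mathlib
import Fermat.Agent.JT3.Gateway.CField
import Fermat.Agent.JT3.Gateway.Finite
import Fermat.Agent.JT3.Gateway.DescentField
import Fermat.Agent.JT3.Gateway.DescentGauss

/-!
# JT3 / T1 gateway, node G4: descent `ℂ → Q̄` of `n`-divisible functions (prefix `gd_`)

**`gd_descent`**: if `χ` is the character of an `n`-divisible function of `gc_F N / ℂ`, then it is
the character of an `n`-divisible function of `Fbar N / Q̄`.  Inputs: completeness of the complex
context (`gw_Complete (gc_ctx N)`, giving (FIN) through `gw_fin`) and a separating generator of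
`gc_F N / ℂ`.

Proof: `gd_descent_rel` (finite orbit of the normalised representative under `Aut(ℂ / Q̄)`, hence
coefficients in `Q̄`, hence an element of `Fbar N` by linear disjointness), `gd_dvd_descend` (Gauss
extension of places) and the compatibility of the analytic realisations under base change.
-/

set_option autoImplicit false

open UpperHalfPlane CongruenceSubgroup
open scoped MatrixGroups Manifold

namespace Fermat.Agent.JT3

open Fermat.Agent.S24 Fermat.Agent.S24.Br AlgebraicCurve ModularCurve IntermediateField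

variable (N : ℕ) [NeZero N]

/-- rationality is automatic over `ℂ` -/
theorem gd_ctx_rational : gw_Rational (gc_ctx N) := fun _ _ d _ _ => ⟨d, rfl⟩

/-- base change of characters: the easy direction -/
theorem gd_hasChar_bc {n : ℕ} {f₀ : Fbar N} {χ : ↥(Gamma0 N) →* ℂˣ}
    (h : gw_HasChar (gw_ctxBar N) n f₀ χ) : gw_HasChar (gc_ctx N) n (gc_bc N f₀) χ := by
  obtain ⟨a, b, h, hb, hab, hh, hh0, hpow, hχ⟩ := h
  refine ⟨gc_bcA N a, gc_bcA N b, h, ?_, ?_, hh, hh0, ?_, hχ⟩
  · intro h0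
    apply hb
    have h1 : ((gc_bcA N b : gc_A0 N) : LaurentSeries ℂ) = 0 := by rw [h0]; rfl
    rw [gc_bcA_coe] at h1
    apply Subtype.ext
    exact (gd_coeffMap_eq_zero_iff (φ := (br_iota : Kbar →+* ℂ)) br_iota.injective _).mp h1
  · rw [← gc_bc_algebraMap, ← gc_bc_algebraMap, hab, map_mul, map_pow]
  · intro z
    rw [gc_ctx_an, gc_an_bcA]
    exact hpow z

/-- the function `j` over `ℂ` has a pole at `∞` -/
theorem gd_nontrivial :
    ∃ f : laurentBaseChange ℂ (modularFunctionFieldFull N), f ≠ 0 ∧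
      gd_ordVal (modularFunctionFieldFull N) f ≠ 0 := by
  have hmem : gc_gen 1 ∈ gc_F N := by
    rw [gc_F_eq]
    exact IntermediateField.subset_adjoin _ _ (gc_gen_mem_gens (one_dvd N))
  have hcoeff : (gc_gen 1).coeff (-1) = 1 := by
    rw [gc_gen, qExpand_one_apply, coeffEmb_coeff]
    have := coeff_jq_pow_self 1
    rw [pow_one] at this
    rw [show (-1 : ℤ) = -((1 : ℕ) : ℤ) by norm_num, this, map_one]
  have hne : (gc_gen 1).coeff (-1) ≠ 0 := by rw [hcoeff]; exact one_ne_zero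
  refine ⟨⟨gc_gen 1, hmem⟩, ?_, ?_⟩
  · intro h0
    apply hne
    have := congrArg (fun z : gc_F N => (z : LaurentSeries ℂ)) h0
    simp only at this
    rw [this]
    rfl
  · have h1 : (gc_gen 1).order ≤ -1 := HahnSeries.order_le_of_coeff_ne_zero hne
    show (gc_gen 1).order ≠ 0
    omega

/-- all places of `Fbar N / Q̄` have residue field `Q̄` -/
theorem gd_res_bar (P : Place Kbar (Fbar N)) :
    Function.Surjective (algebraMap Kbar P.ResidueField) := by
  have := br_finiteDimensional N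
  have : Algebra.IsAlgebraic Kbar⟮br_jBar N⟯ (Fbar N) := Algebra.IsAlgebraic.of_finite _ _
  exact hw_algebraMap_residueField_surjective (br_jBar N) P

/-- **G4: descent `ℂ → Q̄`.** -/
theorem gd_descent {n : ℕ} (hn : n ≠ 0) {x : gc_F N} (hx : rt_IsSepGen ℂ x)
    (hC : gw_Complete (gc_ctx N)) (χ : ↥(Gamma0 N) →* ℂˣ)
    (h : ∃ f : gc_F N, gw_IsDiv ℂ n f ∧ gw_HasChar (gc_ctx N) n f χ) :
    ∃ f₀ : Fbar N, gw_IsDiv Kbar n f₀ ∧ gw_HasChar (gw_ctxBar N) n f₀ χ := by
  obtain ⟨f, hf, hfχ⟩ := h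
  obtain ⟨T, hT, hfin⟩ := gw_fin hC (gd_ctx_rational N) hn
  have hfin' : ∀ f : gc_F N, f ≠ 0 → (∀ P : Place ℂ (gc_F N), (n : ℤ) ∣ P.ord f) →
      ∃ t ∈ T, gd_Rel ℂ n t f := by
    intro f hf0 hfd
    obtain ⟨t, ht, c, u, hc, hu, hfe⟩ := hfin f ⟨hf0, hfd⟩
    exact ⟨t, ht, c, u, hc, hu, hfe⟩
  obtain ⟨f₀, g, hg, hrel⟩ := gd_descent_rel (K₀ := Kbar) (K := ℂ) (modularFunctionFieldFull N) hx
    (gd_nontrivial N) hn T (fun t ht => hT t ht) hfin' hf.1 hf.2
  have hgbc : g = gc_bc N f₀ := Subtype.ext hg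
  have hg0 : g ≠ 0 := hrel.ne_zero hf.1
  have hgdiv : ∀ P : Place ℂ (gc_F N), (n : ℤ) ∣ P.ord g := hrel.dvd hf.1 hf.2
  have hf₀0 : f₀ ≠ 0 := by
    rintro rfl
    apply hg0
    rw [hgbc, map_zero]
  -- the character of `g`
  have hgχ : gw_HasChar (gc_ctx N) n g χ := by
    obtain ⟨c, u, hc, hu, rfl⟩ := hrel
    have h1 := gw_hasChar_mul (gw_hasChar_mul (gw_hasChar_const (gc_ctx N) hn hc)
      (gw_hasChar_pow_n (gc_ctx N) n hu)) hfχ
    have e : (1 : ↥(Gamma0 N) →* ℂˣ) * 1 * χ = χ := by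
      ext γ
      simp
    rw [e] at h1
    exact h1
  -- divisibility over `Q̄`
  have hdiv₀ : gw_IsDiv Kbar n f₀ :=
    ⟨hf₀0, fun P => gd_dvd_descend (K₀ := Kbar) (K := ℂ) (modularFunctionFieldFull N)
      (gd_res_bar N) hf₀0 g hg hgdiv P⟩
  refine ⟨f₀, hdiv₀, ?_⟩
  obtain ⟨χ₀, hχ₀⟩ := gw_hasChar_exists (C := gw_ctxBar N) hn hdiv₀
  have h2 := gd_hasChar_bc N hχ₀
  rw [← hgbc] at h2
  have : χ₀ = χ := gw_hasChar_unique hn h2 hgχ
  rwa [this] at hχ₀

end Fermat.Agent.JT3
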