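import Mathlib
import Fermat.Agent.JT3.Gateway.CharMap
import Fermat.Agent.JT3.Gateway.CField
import Fermat.Agent.JT3.Gateway.DescentField
import Fermat.Agent.JT3.Riemann.FBar

/-!
# JT3 / T1 gateway: the endgame

* `gw_hasChar_level`: level compatibility: the character of `f` at level `n` is the `m`-th power of
  its character at level `n · m`;
* `gw_hasChar_bc`: base change `Q̄ → ℂ` of a character datum;
* **`gw_surj_bar`**: surjectivity over `Q̄` from surjectivity over `ℂ`, completeness over `ℂ`, the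
  descent `gd_descent_rel` and "constant field extensions are unramified" (A8);
* **`gw_picEquivBar`**: `Pic⁰(X₀(N)_{Q̄})[n] ≃+ Additive (gw_X N n)` from surjectivity over `Q̄`.
-/

set_option autoImplicit false

open UpperHalfPlane CongruenceSubgroup
open scoped MatrixGroups Manifold

namespace Fermat.Agent.JT3

open Fermat.Agent.S24 AlgebraicCurve ModularCurve

section level

variable {N : ℕ} [NeZero N] {K F A : Type} [Field K] [Algebra K ℂ] [Field F] [Algebra K F]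
  [CommRing A] [IsDomain A] [Algebra K A] [Algebra A F] [IsScalarTower K A F]
  [IsFractionRing A F] {C : gw_Ctx N K F A}

/-- **level compatibility** -/
theorem gw_hasChar_level {n m : ℕ} (hm : m ≠ 0) {f : F} {χ : ↥(Gamma0 N) →* ℂˣ}
    (h : gw_HasChar C (n * m) f χ) : gw_HasChar C n f (χ ^ m) := by
  obtain ⟨a, b, h, hb, hab, hh, hh0, hpow, hχ⟩ := h
  refine ⟨a, b ^ m, h ^ m, pow_ne_zero m hb, ?_, hh.pow m, ?_, ?_, ?_⟩
  · rw [hab, map_pow, ← pow_mul, mul_comm m n]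
  · intro h0
    obtain ⟨z, hz⟩ := gw_exists_ne_zero hh0
    have := congrFun h0 z
    rw [Pi.pow_apply, Pi.zero_apply] at this
    exact hz (pow_eq_zero_iff hm |>.mp this)
  · intro z
    rw [Pi.pow_apply, ← pow_mul, mul_comm m n, hpow]
  · intro γ z
    rw [Pi.pow_apply, Pi.pow_apply, hχ, mul_pow, MonoidHom.pow_apply, Units.val_pow_eq_pow_val]

end level

/-! ### Base change `Q̄ → ℂ` -/

section bc

open Fermat.Agent.S24.Br

variable (N : ℕ) [NeZero N]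

theorem gw_hasChar_bc {n : ℕ} {f₀ : Fbar N} {χ : ↥(Gamma0 N) →* ℂˣ}
    (h : gw_HasChar (gw_ctxBar N) n f₀ χ) : gw_HasChar (gc_ctx N) n (gc_bc N f₀) χ := by
  obtain ⟨a, b, h, hb, hab, hh, hh0, hpow, hχ⟩ := h
  refine ⟨gc_bcA N a, gc_bcA N b, h, ?_, ?_, hh, hh0, ?_, hχ⟩
  · intro h0
    apply hb
    apply gw_algebraMap_injective (F := Fbar N)
    apply gc_bc_injective N
    rw [gc_bc_algebraMap, h0, map_zero, map_zero, map_zero]
  · rw [← gc_bc_algebraMap, ← gc_bc_algebraMap, hab, map_mul, map_pow]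
  · intro z
    rw [hpow z, gc_ctx_an, gc_an_bcA]
    rfl

/-- the context over `ℂ` is rational (trivially) -/
theorem gw_gc_rational : gw_Rational (gc_ctx N) := fun _ _ d _ _ => ⟨d, rfl⟩

/-- **surjectivity over `Q̄` from surjectivity over `ℂ`** (descent) -/
theorem gw_surj_bar {n : ℕ} (hn : n ≠ 0) (hCℂ : gw_Complete (gc_ctx N))
    {x : gc_F N} (hx : rt_IsSepGen ℂ x)
    (hnt : ∃ f : gc_F N, f ≠ 0 ∧ gd_ordVal (modularFunctionFieldFull N) f ≠ 0)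
    (hA8 : ∀ f₀ : Fbar N, gw_IsDiv ℂ n (gc_bc N f₀) → gw_IsDiv Kbar n f₀)
    (hsurjℂ : ∀ χ ∈ gw_X N n, ∃ f : gc_F N, gw_IsDiv ℂ n f ∧ gw_HasChar (gc_ctx N) n f χ) :
    ∀ χ ∈ gw_X N n, ∃ f₀ : Fbar N, gw_IsDiv Kbar n f₀ ∧ gw_HasChar (gw_ctxBar N) n f₀ χ := by
  intro χ hχ
  obtain ⟨f, hf, hfχ⟩ := hsurjℂ χ hχ
  obtain ⟨T, hT, hfin⟩ := gw_fin hCℂ (gw_gc_rational N) hn
  obtain ⟨f₀, h, hcoe, hrel⟩ := gd_descent_rel (K₀ := Kbar) (K := ℂ) (modularFunctionFieldFull N)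
    hx hnt hn T hT (fun f hf0 hdiv => hfin f ⟨hf0, hdiv⟩) hf.1 hf.2
  -- `h = gc_bc f₀`
  have hbc : gc_bc N f₀ = h := Subtype.ext hcoe.symm
  -- `h` is `n`-divisible with character `χ`
  have hh0 : h ≠ 0 := hrel.ne_zero hf.1
  have hhdiv : gw_IsDiv ℂ n h := ⟨hh0, hrel.dvd hf.1 hf.2⟩
  have hhχ : gw_HasChar (gc_ctx N) n h χ := by
    obtain ⟨c, u, hc, hu, hcu⟩ := hrel
    rw [hcu]
    have h1 := gw_hasChar_mul (gw_hasChar_mul (gw_hasChar_const (gc_ctx N) hn hc)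
      (gw_hasChar_pow_n (gc_ctx N) n hu)) hfχ
    rwa [show (1 * 1 * χ : ↥(Gamma0 N) →* ℂˣ) = χ from
      MonoidHom.ext fun γ => by simp] at h1
  -- descend
  have hdiv₀ : gw_IsDiv Kbar n f₀ := hA8 f₀ (by rw [hbc]; exact hhdiv)
  obtain ⟨χ₀, hχ₀⟩ := gw_hasChar_exists (C := gw_ctxBar N) hn hdiv₀
  have h2 := gw_hasChar_bc N hχ₀
  rw [hbc] at h2
  have h3 : χ₀ = χ := gw_hasChar_unique hn h2 hhχ
  exact ⟨f₀, hdiv₀, h3 ▸ hχ₀⟩

/-- **`Pic⁰(X₀(N)_{Q̄})[n] ≃ Hom(H₁(X₀(N)), μ_n)`** from surjectivity over `Q̄` -/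
noncomputable def gw_picEquivBar {n : ℕ} (hn : n ≠ 0)
    (hsurj : ∀ χ ∈ gw_X N n, ∃ f₀ : Fbar N, gw_IsDiv Kbar n f₀ ∧ gw_HasChar (gw_ctxBar N) n f₀ χ) :
    Pic0.torsion Kbar (Fbar N) n ≃+ Additive (gw_X N n) :=
  AddEquiv.ofBijective
    (gw_picMap hn (rt_isSepGen_jBar N) (gw_ctxBar_complete N) (gw_ctxBar_rational N))
    ⟨gw_picMap_injective hn (rt_isSepGen_jBar N) (gw_ctxBar_complete N) (gw_ctxBar_rational N),
      gw_picMap_surjective hn (rt_isSepGen_jBar N) (gw_ctxBar_complete N) (gw_ctxBar_rational N)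
        hsurj⟩

theorem gw_picEquivBar_apply {n : ℕ} (hn : n ≠ 0)
    (hsurj : ∀ χ ∈ gw_X N n, ∃ f₀ : Fbar N, gw_IsDiv Kbar n f₀ ∧ gw_HasChar (gw_ctxBar N) n f₀ χ)
    (y : Pic0.torsion Kbar (Fbar N) n) :
    gw_picEquivBar N hn hsurj y =
      gw_picMap hn (rt_isSepGen_jBar N) (gw_ctxBar_complete N) (gw_ctxBar_rational N) y := rfl

end bc

end Fermat.Agent.JT3
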