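import Mathlib
import Fermat.Agent.JT3.Gateway.Descent
import Fermat.Agent.JT3.Gateway.CInputs
import Fermat.Agent.JT3.Gateway.Main

/-!
# JT3 / T1 gateway, node G4: the descent `ℂ → Q̄` without open inputs (prefix `gd_`)

* `gd_A8`: the input `hA8` of `gw_surj_bar` (`Gateway/Main.lean`), verbatim: if the base change
  of `f₀ : Fbar N` to `ℂ` has `n`-divisible divisor, so has `f₀` (Gauss extension of places,
  `Gateway/DescentGauss.lean`);
* `gd_descent_char`: `gd_descent` with its two inputs (completeness of the complex context and the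
  separating generator `j`, both helper18's `CDegree.lean` / `CInputs.lean`) filled in;
* `gd_surj_bar`: `gw_surj_bar` with all inputs except the surjectivity over `ℂ` filled in.
-/

set_option autoImplicit false

open UpperHalfPlane CongruenceSubgroup
open scoped MatrixGroups Manifold

namespace Fermat.Agent.JT3

open Fermat.Agent.S24 Fermat.Agent.S24.Br AlgebraicCurve ModularCurve

variable (N : ℕ) [NeZero N]

/-- **(A8)** in the shape consumed by `gw_surj_bar` -/
theorem gd_A8 {n : ℕ} (f₀ : Fbar N) (h : gw_IsDiv ℂ n (gc_bc N f₀)) : gw_IsDiv Kbar n f₀ := by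
  have hf₀ : f₀ ≠ 0 := by
    rintro rfl
    exact h.1 (map_zero _)
  exact ⟨hf₀, fun P => gd_dvd_descend (K₀ := Kbar) (K := ℂ) (modularFunctionFieldFull N)
    (gd_res_bar N) hf₀ (gc_bc N f₀) (gc_bc_coe N f₀) h.2 P⟩

/-- **G4, unconditional**: the character of an `n`-divisible function over `ℂ` is the character of
an `n`-divisible function over `Q̄`. -/
theorem gd_descent_char {n : ℕ} (hn : n ≠ 0) (χ : ↥(Gamma0 N) →* ℂˣ)
    (h : ∃ f : gc_F N, gw_IsDiv ℂ n f ∧ gw_HasChar (gc_ctx N) n f χ) :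
    ∃ f₀ : Fbar N, gw_IsDiv Kbar n f₀ ∧ gw_HasChar (gw_ctxBar N) n f₀ χ :=
  gd_descent N hn (gc_isSepGen_jF N) (gc_ctx_complete N) χ h

/-- surjectivity over `Q̄` from surjectivity over `ℂ`, all other inputs filled in -/
theorem gd_surj_bar {n : ℕ} (hn : n ≠ 0)
    (hsurjℂ : ∀ χ ∈ gw_X N n, ∃ f : gc_F N, gw_IsDiv ℂ n f ∧ gw_HasChar (gc_ctx N) n f χ) :
    ∀ χ ∈ gw_X N n, ∃ f₀ : Fbar N, gw_IsDiv Kbar n f₀ ∧ gw_HasChar (gw_ctxBar N) n f₀ χ :=
  fun χ hχ => gd_descent_char N hn χ (hsurjℂ χ hχ)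

end Fermat.Agent.JT3
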