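import Mathlib
import Fermat.Agent.JT3.Gateway.Main

/-!
# JT3 / T1 gateway: compatibility of the character maps at the levels `n` and `n · m`

`gw_picMap_level`: for `y ∈ Pic⁰[n·m]`, the character of `m • y ∈ Pic⁰[n]` is the `m`-th power of the
character of `y`. This is the transition map of the Tate module on the side of the characters.
-/

set_option autoImplicit false

open UpperHalfPlane CongruenceSubgroup
open scoped MatrixGroups Manifold

namespace Fermat.Agent.JT3

open Fermat.Agent.S24 AlgebraicCurve ModularCurve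

variable {N : ℕ} [NeZero N] {K F A : Type} [Field K] [Algebra K ℂ] [Field F] [Algebra K F]
  [CommRing A] [IsDomain A] [Algebra K A] [Algebra A F] [IsScalarTower K A F]
  [IsFractionRing A F] {C : gw_Ctx N K F A}

omit [NeZero N] [Algebra K ℂ] [CommRing A] [IsDomain A] [Algebra K A] [Algebra A F]
  [IsScalarTower K A F] [IsFractionRing A F] in
theorem gw_nsmul_mem_torsion {n m : ℕ} (y : Pic0.torsion K F (n * m)) :
    m • (y : Pic0 K F) ∈ Pic0.torsion K F n := by
  rw [Pic0.mem_torsion]
  have h := Pic0.mem_torsion.1 y.2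
  rw [← h]
  push_cast
  rw [mul_smul, natCast_zsmul, natCast_zsmul, natCast_zsmul]

variable [IsAlgClosed K] {x : F} (hx : rt_IsSepGen K x)

/-- **level compatibility of the character maps** -/
theorem gw_picMap_level {n m : ℕ} (hn : n ≠ 0) (hm : m ≠ 0) (hC : gw_Complete C)
    (hR : gw_Rational C) (y : Pic0.torsion K F (n * m)) :
    ((Additive.toMul (gw_picMap hn hx hC hR ⟨m • (y : Pic0 K F), gw_nsmul_mem_torsion y⟩) :
        gw_X N n) : ↥(Gamma0 N) →* ℂˣ) =
      ((Additive.toMul (gw_picMap (mul_ne_zero hn hm) hx hC hR y) : gw_X N (n * m)) :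
        ↥(Gamma0 N) →* ℂˣ) ^ m := by
  have hnm : n * m ≠ 0 := mul_ne_zero hn hm
  -- represent `y` by a function
  obtain ⟨q, rfl⟩ := (gp_equiv hx hnm).symm.surjective y
  obtain ⟨f, hf⟩ := QuotientGroup.mk_surjective (Additive.toMul q)
  have hq : q = Additive.ofMul (QuotientGroup.mk f) := by rw [hf]; rfl
  subst hq
  set D : Divisor.degZero (K := K) (F := F) := gp_div0 hx hnm f with hD
  have hDf : ∀ P : Place K F, ((n * m : ℕ) : ℤ) * (D : Divisor K F) P = P.ord ((f : Fˣ) : F) :=
    fun P => gp_mul_divN_apply hx f.2 P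
  have hy : (((gp_equiv hx hnm).symm (Additive.ofMul (QuotientGroup.mk f)) :
      Pic0.torsion K F (n * m)) : Pic0 K F) = Pic0.mk D := gp_equiv_symm_mk hx hnm f
  have hDmem : Pic0.mk D ∈ Pic0.torsion K F (n * m) := by
    rw [← hy]
    exact Subtype.property _
  -- the character at level `n m`
  set χ := gw_charOf C hnm f with hχ
  have hχs : gw_HasChar C (n * m) (((f : Fˣ) : F)) χ := gw_charOf_spec C hnm f
  have h1 : ((Additive.toMul (gw_picMap hnm hx hC hR
      ((gp_equiv hx hnm).symm (Additive.ofMul (QuotientGroup.mk f)))) : gw_X N (n * m)) :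
        ↥(Gamma0 N) →* ℂˣ) = χ := by
    have h2 : (gp_equiv hx hnm).symm (Additive.ofMul (QuotientGroup.mk f)) =
        ⟨Pic0.mk D, hDmem⟩ := Subtype.ext hy
    rw [h2]
    exact gw_picMap_mk hnm hx hC hR D f hDf hDmem hχs
  rw [h1]
  -- the level `n`
  have hfn : (f : Fˣ) ∈ gp_S K F n := by
    intro P
    have h3 := f.2 P
    exact dvd_trans ⟨(m : ℤ), by push_cast; ring⟩ h3
  have hmD : ∀ P : Place K F, (n : ℤ) * ((m • D : Divisor.degZero (K := K) (F := F)) :
      Divisor K F) P = P.ord (((⟨(f : Fˣ), hfn⟩ : gp_S K F n) : Fˣ) : F) := by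
    intro P
    rw [← hDf P]
    show (n : ℤ) * ((m • (D : Divisor K F)) P) = _
    rw [Finsupp.smul_apply, nsmul_eq_mul]
    push_cast
    ring
  have hmk : m • (((gp_equiv hx hnm).symm (Additive.ofMul (QuotientGroup.mk f)) :
      Pic0.torsion K F (n * m)) : Pic0 K F) = Pic0.mk (m • D) := by
    rw [hy]
    rfl
  have hmem : Pic0.mk (m • D) ∈ Pic0.torsion K F n := by
    rw [← hmk]
    exact gw_nsmul_mem_torsion _
  have h4 : (⟨m • (((gp_equiv hx hnm).symm (Additive.ofMul (QuotientGroup.mk f)) :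
      Pic0.torsion K F (n * m)) : Pic0 K F), gw_nsmul_mem_torsion _⟩ : Pic0.torsion K F n) =
        ⟨Pic0.mk (m • D), hmem⟩ := Subtype.ext hmk
  rw [h4]
  exact gw_picMap_mk hn hx hC hR (m • D) ⟨(f : Fˣ), hfn⟩ hmD hmem (gw_hasChar_level hm hχs)

end Fermat.Agent.JT3
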