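import Mathlib
import Fermat.Agent.JT3.Gateway.CPlaces

/-!
# JT3 / T1 gateway, node G3b: functions with an unramified character are `n`-divisible

The converse of `gw_hasChar_parEll`: in a context `C : gw_Ctx N K F A` over an algebraically closed
field (with `j ∈ A` and `[F : K(j)] = #(SL(2,ℤ)/Γ₀(N))`), if `f` has the character `χ`
(`gw_HasChar C n f χ`: `f·bⁿ ∈ A` has a holomorphic `n`-th root with multiplier `χ`) and `χ` is
trivial on the elliptic and parabolic elements of `Γ₀(N)`, then the divisor of `f` is divisible by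
`n` (**`twd_isDiv_of_hasChar`**).

Proof: every place is the place of a germ embedding (`gcp_cases`); the germ of the root at the base
point is invariant under the twist of the stabiliser (which is generated by an elliptic resp.
parabolic element of `Γ₀(N)`), so its order is divisible by the ramification index
(`gcp_dvd_ord_of_root`).
-/

set_option autoImplicit false

open UpperHalfPlane CongruenceSubgroup ModularGroup Complex
open scoped MatrixGroups Manifold Real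

namespace Fermat.Agent.JT3

open Fermat.Agent.S24 AlgebraicCurve IntermediateField
open Fermat.Agent.S23 (alphaN)

/-! ### Group theory of the stabilisers -/

section group

variable {N : ℕ}

/-- if `σ⁻¹` fixes the coset `gΓ₀(N)` then `g⁻¹ σ g ∈ Γ₀(N)` -/
theorem twd_conj_mem {σ g : SL(2, ℤ)}
    (h : σ⁻¹ • ((g : SL(2, ℤ)) : Comb.Q N) = (g : Comb.Q N)) : g⁻¹ * σ * g ∈ Gamma0 N := by
  rw [Comb.smul_coset, QuotientGroup.eq] at h
  have e : (σ⁻¹ * g)⁻¹ * g = g⁻¹ * σ * g := by group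
  rwa [e] at h

/-- conjugates of elements of trace `≤ 2` in absolute value are elliptic or parabolic -/
theorem twd_isParEll_conj {σ g : SL(2, ℤ)} (hσ : (σ : Matrix (Fin 2) (Fin 2) ℤ).trace ^ 2 ≤ 4)
    (hmem : g⁻¹ * σ * g ∈ Gamma0 N) : gh_IsParEll N ⟨g⁻¹ * σ * g, hmem⟩ := by
  unfold gh_IsParEll
  have e : ((g⁻¹ * σ * g : SL(2, ℤ)) : Matrix (Fin 2) (Fin 2) ℤ).trace
      = (σ : Matrix (Fin 2) (Fin 2) ℤ).trace := by
    rw [Matrix.SpecialLinearGroup.coe_mul, Matrix.trace_mul_comm, ← Matrix.SpecialLinearGroup.coe_mul,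
      mul_inv_cancel_left]
  simpa only [e] using hσ

/-- the trace of `Tᵏ` is `2` -/
theorem twd_trace_T_pow (k : ℕ) :
    ((T ^ k : SL(2, ℤ)) : Matrix (Fin 2) (Fin 2) ℤ).trace ^ 2 ≤ 4 := by
  have h : ((T ^ k : SL(2, ℤ)) : Matrix (Fin 2) (Fin 2) ℤ) = !![1, (k : ℤ); 0, 1] := by
    rw [← zpow_natCast, ModularGroup.coe_T_zpow]
  rw [h, Matrix.trace_fin_two]
  norm_num

end group

/-! ### The local statements -/

section local_

variable {N : ℕ} [NeZero N] {K F A : Type} [Field K] [Algebra K ℂ] [Field F] [Algebra K F]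
  [CommRing A] [IsDomain A] [Algebra K A] [Algebra A F] [IsScalarTower K A F]
  [IsFractionRing A F] {C : gw_Ctx N K F A}
  {n : ℕ} {a : A} {u : ℍ → ℂ} {χ : ↥(Gamma0 N) →* ℂˣ}

/-- **finite points**: at the place of the index `x` of a base point `z0`, the order of
`a = uⁿ` is divisible by `n` -/
theorem twd_dvd_fin (hu : MDiff u) (hpow : ∀ z, u z ^ n = C.an a z)
    (hmul : ∀ (γ : ↥(Gamma0 N)) (z : ℍ), u ((γ : SL(2, ℤ)) • z) = (χ γ : ℂ) * u z)
    (hpe : ∀ γ, gh_IsParEll N γ → χ γ = 1)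
    {z0 : ℍ} {σ : SL(2, ℤ)} {m : ℕ} (hD : gcp_FinData z0 σ m) {t : F} {p₀ : LaurentSeries ℂ}
    (H : po_Hyp (K := K) t m (gm_rot σ z0) (gcp_phi C z0) p₀ (MulAction.toPerm σ⁻¹))
    (x : Comb.Q N) : (n : ℤ) ∣ (H.plc x).ord (algebraMap A F a) := by
  obtain ⟨g, rfl⟩ := QuotientGroup.mk_surjective x
  set w : ℍ → ℂ := fun z => u (g⁻¹ • z) with hw
  have hwmd : MDiff w := gm_mdiff_comp_smul g⁻¹ hu
  have hs : ff_germ z0 w ^ n = gcp_phi C z0 ((g : SL(2, ℤ)) : Comb.Q N) (algebraMap A F a) := by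
    rw [gcp_phi_mk_algebraMap, ff_germ, ff_germ, ← map_pow, ← gm_taylor_pow z0 hwmd n]
    congr 2
    ext z
    simp only [hw, Pi.pow_apply, hpow]
  obtain ⟨e, he⟩ := Int.eq_ofNat_of_zero_le (H.ord_plc_pos ((g : SL(2, ℤ)) : Comb.Q N)).le
  refine gcp_dvd_ord_of_root H _ _ (ff_germ z0 w) hs e he ?_
  intro i hi
  -- `e = 1` or `e = m`
  obtain ⟨ϖ, hϖ⟩ := H.exists_irreducible ((g : SL(2, ℤ)) : Comb.Q N)
  obtain ⟨gN, e', hgN, he', -, hee, hme, -⟩ := H.numerics _ hϖ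
  have hee' : e' = e := by
    have : (e' : ℤ) = e := by rw [← hee, he]
    exact_mod_cast this
  subst hee'
  have hcases : e' = 1 ∨ e' = m := by
    rcases hD.prime with h1 | hp
    · left
      rw [h1] at hme
      exact Nat.eq_one_of_mul_eq_one_left hme.symm
    · exact (Nat.dvd_prime hp).mp ⟨gN, by rw [hme]; ring⟩
  rcases hcases with h1 | hm
  · -- the index is fixed by `σ⁻¹`
    have hfix : σ⁻¹ • ((g : SL(2, ℤ)) : Comb.Q N) = (g : Comb.Q N) := by
      have := (H.pow_apply_eq_iff _ e' he 1).mpr (by rw [h1])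
      simpa using this
    have hmem := twd_conj_mem hfix
    have hχ1 : χ ⟨g⁻¹ * σ * g, hmem⟩ = 1 := hpe _ (twd_isParEll_conj hD.tr hmem)
    have hinv : (fun z => w (σ • z)) = w := by
      ext z
      simp only [hw]
      have e1 : g⁻¹ • σ • z = (g⁻¹ * σ * g) • g⁻¹ • z := by
        rw [← mul_smul, ← mul_smul, mul_inv_cancel_right]
      rw [e1]
      have := hmul ⟨g⁻¹ * σ * g, hmem⟩ (g⁻¹ • z)
      rw [hχ1, Units.val_one, one_mul] at this
      exact this
    have htw := ff_germ_twist σ hD.fix w hwmd i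
    rw [hinv] at htw
    rw [h1, pow_one]
    have h2 : gm_rot σ z0 ^ i * (ff_germ z0 w).coeff i = 1 * (ff_germ z0 w).coeff i := by
      rw [one_mul]; exact htw.symm
    exact mul_right_cancel₀ hi h2
  · rw [hm, hD.prim.pow_eq_one, one_zpow]

/-- **cusps**: at the place of the index `x` of the cusp family, the order of `a = uⁿ` is
divisible by `n` -/
theorem twd_dvd_inf (hn : n ≠ 0) (hu : MDiff u) (hpow : ∀ z, u z ^ n = C.an a z)
    (hmul : ∀ (γ : ↥(Gamma0 N)) (z : ℍ), u ((γ : SL(2, ℤ)) • z) = (χ γ : ℂ) * u z)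
    (hpe : ∀ γ, gh_IsParEll N γ → χ γ = 1) {t : F} {p₀ : LaurentSeries ℂ}
    (H : po_Hyp (K := K) t N (fi_zeta N) (gcp_phiInf C) p₀
      (MulAction.toPerm (ModularGroup.T⁻¹ : SL(2, ℤ))))
    (x : Comb.Q N) : (n : ℤ) ∣ (H.plc x).ord (algebraMap A F a) := by
  obtain ⟨g, rfl⟩ := QuotientGroup.mk_surjective x
  have hNR : (N : ℝ) ≠ 0 := by exact_mod_cast NeZero.ne N
  -- invariance of `u ∘ g⁻¹` under the conjugates of powers of `T` lying in `Γ₀(N)`
  have hinvk : ∀ k : ℕ, g⁻¹ * T ^ k * g ∈ Gamma0 N → ∀ z : ℍ,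
      u (g⁻¹ • (((k : ℝ)) +ᵥ z)) = u (g⁻¹ • z) := by
    intro k hmem z
    have hχ1 : χ ⟨g⁻¹ * T ^ k * g, hmem⟩ = 1 := hpe _ (twd_isParEll_conj (twd_trace_T_pow k) hmem)
    have e1 : g⁻¹ • (((k : ℝ)) +ᵥ z) = (g⁻¹ * T ^ k * g) • g⁻¹ • z := by
      rw [← mul_smul, mul_inv_cancel_right, mul_smul, ← zpow_natCast,
        UpperHalfPlane.modular_T_zpow_smul]
      simp
    rw [e1]
    have := hmul ⟨g⁻¹ * T ^ k * g, hmem⟩ (g⁻¹ • z)
    rw [hχ1, Units.val_one, one_mul] at this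
    exact this
  -- the root in the cusp coordinate
  set Kf : ℍ → ℂ := fun τ => u (g⁻¹ • alphaN N • τ) with hKf
  have hKmd : MDiff Kf :=
    (gm_mdiff_comp_smul g⁻¹ hu).comp
      (UpperHalfPlane.mdifferentiable_smul (Fermat.Agent.S23.det_alphaN_pos N))
  have hKpow : Kf ^ n = fun τ => C.an a (g⁻¹ • alphaN N • τ) := by
    ext τ
    simp only [hKf, Pi.pow_apply, hpow]
  have hG : gm_IsMerQ (Kf ^ n) := by
    rw [hKpow]
    exact C.an_merCusp a g⁻¹
  have hmemN : g⁻¹ * T ^ N * g ∈ Gamma0 N := by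
    have := gw_conj_T_pow_mem (N := N) g⁻¹
    rwa [inv_inv, zpow_natCast] at this
  have hper1 : ∀ τ : ℍ, Kf ((1 : ℝ) +ᵥ τ) = Kf τ := by
    intro τ
    simp only [hKf]
    rw [fi_alphaN_vadd, mul_one]
    exact hinvk N hmemN _
  have hKm : gm_IsMerQ Kf := gw_par_merQ hKmd hn hper1 hG
  have hs : gm_lq Kf ^ n = gcp_phiInf C ((g : SL(2, ℤ)) : Comb.Q N) (algebraMap A F a) := by
    rw [gcp_phiInf_mk_algebraMap, fi_germ, ← gm_lq_pow hKm, hKpow]
  obtain ⟨e, he⟩ := Int.eq_ofNat_of_zero_le (H.ord_plc_pos ((g : SL(2, ℤ)) : Comb.Q N)).le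
  refine gcp_dvd_ord_of_root H _ _ (gm_lq Kf) hs e he ?_
  intro i hi
  -- the index is fixed by `T⁻ᵉ`
  have hfix : (T ^ e)⁻¹ • ((g : SL(2, ℤ)) : Comb.Q N) = (g : Comb.Q N) := by
    have h1 := (H.pow_apply_eq_iff _ e he e).mpr dvd_rfl
    have h2 : (MulAction.toPerm (ModularGroup.T⁻¹ : SL(2, ℤ)) : Equiv.Perm (Comb.Q N)) ^ e
        = MulAction.toPerm ((T ^ e)⁻¹ : SL(2, ℤ)) := by
      rw [← inv_pow]
      exact (map_pow (MulAction.toPermHom SL(2, ℤ) (Comb.Q N)) (T⁻¹) e).symm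
    rw [h2] at h1
    exact h1
  have hmem := twd_conj_mem hfix
  have hinv : (fun τ => Kf ((((e : ℝ) / N : ℝ)) +ᵥ τ)) = Kf := by
    ext τ
    simp only [hKf]
    rw [fi_alphaN_vadd, mul_div_cancel₀ _ hNR]
    exact hinvk e hmem _
  have htw := gm_lq_coeff_vadd hKm ((e : ℝ) / N : ℝ) i
  rw [hinv] at htw
  have hz : fi_zeta N ^ e = cexp (2 * π * Complex.I * (((e : ℝ) / N : ℝ) : ℂ)) := by
    rw [fi_zeta, ← Complex.exp_nat_mul]
    congr 1
    push_cast
    ring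
  rw [hz]
  have h2 : cexp (2 * π * Complex.I * (((e : ℝ) / N : ℝ) : ℂ)) ^ i * (gm_lq Kf).coeff i
      = 1 * (gm_lq Kf).coeff i := by
    rw [one_mul]; exact htw.symm
  exact mul_right_cancel₀ hi h2

end local_

/-! ### The main statement -/

section main

variable {N : ℕ} [NeZero N] {K F A : Type} [Field K] [Algebra K ℂ] [Field F] [Algebra K F]
  [CommRing A] [IsDomain A] [Algebra K A] [Algebra A F] [IsScalarTower K A F]
  [IsFractionRing A F] [IsAlgClosed K] {C : gw_Ctx N K F A} {j1 : A}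

/-- **G3b**: a function with a character which is trivial on the elliptic and parabolic elements
of `Γ₀(N)` has a divisor divisible by `n` (the converse of `gw_hasChar_parEll`). -/
theorem twd_isDiv_of_hasChar (hj1 : C.an j1 = kleinJ) [FiniteDimensional K⟮algebraMap A F j1⟯ F]
    (hdeg : Module.finrank K⟮algebraMap A F j1⟯ F = Nat.card (Comb.Q N)) {n : ℕ} (hn : n ≠ 0)
    {f : F} (hf0 : f ≠ 0) {χ : ↥(Gamma0 N) →* ℂˣ} (hχ : gw_HasChar C n f χ)
    (hpe : ∀ γ, gh_IsParEll N γ → χ γ = 1) : gw_IsDiv K n f := by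
  obtain ⟨a, b, u, hb, hab, hu, -, hpow, hmul⟩ := hχ
  refine ⟨hf0, fun v => ?_⟩
  have hb' : algebraMap A F b ≠ 0 := gw_algebraMap_ne_zero hb
  have hva : (n : ℤ) ∣ v.ord (algebraMap A F a) := by
    rcases gcp_cases hj1 hdeg v with ⟨z0, c, σ, m, hD, H, x, hx⟩ | ⟨H, x, hx⟩
    · rw [← hx]
      exact twd_dvd_fin hu hpow hmul hpe hD H x
    · rw [← hx]
      exact twd_dvd_inf hn hu hpow hmul hpe H x
  rw [hab, v.ord_mul hf0 (pow_ne_zero _ hb'), ← zpow_natCast, v.ord_zpow] at hva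
  exact (Int.dvd_add_left (Dvd.intro _ rfl)).mp hva

end main

end Fermat.Agent.JT3
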