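import Mathlib
import Fermat.Agent.JT3.Gateway.TwistedDiv
import Fermat.Agent.JT3.Gateway.Classify

/-!
# JT3 / T1 gateway: the seam (C4) `gw_Classified` from Lemma A

`gcp_classified`: in a context `C : gw_Ctx N K F A` over an algebraically closed field, with
`j1 : A` realised by the `j`-function and `[F : K(j)] = #(SL(2,ℤ)/Γ₀(N))`, every place of `F/K` is
a point of `ℍ` or a cusp in the sense of `gw_Classified C` (`Gateway/Classify.lean`).
-/

set_option autoImplicit false

open UpperHalfPlane CongruenceSubgroup ModularGroup Complex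
open scoped MatrixGroups Manifold Real

namespace Fermat.Agent.JT3

open Fermat.Agent.S24 AlgebraicCurve IntermediateField

variable {N : ℕ} [NeZero N] {K F A : Type} [Field K] [Algebra K ℂ] [Field F] [Algebra K F]
  [CommRing A] [IsDomain A] [Algebra K A] [Algebra A F] [IsScalarTower K A F]
  [IsFractionRing A F] [IsAlgClosed K] {C : gw_Ctx N K F A} {j1 : A}

/-- **(C4)**: every place of `F/K` is a point of `ℍ` or a cusp -/
theorem gcp_classified (hj1 : C.an j1 = kleinJ) [FiniteDimensional K⟮algebraMap A F j1⟯ F]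
    (hdeg : Module.finrank K⟮algebraMap A F j1⟯ F = Nat.card (Comb.Q N)) : gw_Classified C := by
  intro P
  rcases gcp_cases hj1 hdeg P with ⟨z0, c, σ, m, hD, H, x, hx⟩ | ⟨H, x, hx⟩
  · left
    obtain ⟨g, rfl⟩ := QuotientGroup.mk_surjective x
    obtain ⟨ϖ, hϖ⟩ := H.exists_irreducible ((g : SL(2, ℤ)) : Comb.Q N)
    obtain ⟨gN, e', hgN, he', hg, hee, hme, -⟩ := H.numerics _ hϖ
    have hord : ∀ f : F, f ≠ 0 → gw_valPtAt C z0 g f = (gN : ℤ) * P.ord f := by
      intro f _
      rw [← hx, ← hg]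
      exact H.ord_eq _ hϖ f
    have hcases : e' = 1 ∨ e' = m := by
      rcases hD.prime with h1 | hp
      · left
        rw [h1] at hme
        exact Nat.eq_one_of_mul_eq_one_left hme.symm
      · exact (Nat.dvd_prime hp).mp ⟨gN, by rw [hme]; ring⟩
    rcases hcases with h1 | hm
    · have hfix : σ⁻¹ • ((g : SL(2, ℤ)) : Comb.Q N) = (g : Comb.Q N) := by
        have := (H.pow_apply_eq_iff _ e' hee 1).mpr (by rw [h1])
        simpa using this
      have hgm : gN = m := by rw [hme, h1, mul_one]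
      exact ⟨z0, g, σ, gN, hgN, hD.fix, twd_conj_mem hfix, by rw [hgm]; exact hD.prim, hord⟩
    · have hg1 : gN = 1 := by
        have h2 : gN * m = 1 * m := by
          rw [one_mul]
          calc gN * m = gN * e' := by rw [hm]
            _ = m := hme.symm
        exact Nat.eq_of_mul_eq_mul_right hD.pos h2
      refine ⟨z0, g, 1, 1, one_pos, one_smul _ _, ?_, ?_, ?_⟩
      · rw [mul_one, inv_mul_cancel]
        exact one_mem _
      · have h : gm_rot (1 : SL(2, ℤ)) z0 = 1 := by
          rw [gm_rot_eq_one_iff (1 : SL(2, ℤ)) (one_smul _ z0)]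
          simp
        rw [h]
        exact IsPrimitiveRoot.one
      · intro f hf
        rw [hord f hf, hg1]
  · right
    obtain ⟨g, rfl⟩ := QuotientGroup.mk_surjective x
    obtain ⟨ϖ, hϖ⟩ := H.exists_irreducible ((g : SL(2, ℤ)) : Comb.Q N)
    obtain ⟨gN, e', hgN, he', hg, hee, hme, -⟩ := H.numerics _ hϖ
    have hord : ∀ f : F, f ≠ 0 → gw_valCuspAt C g f = (gN : ℤ) * P.ord f := by
      intro f _
      rw [← hx, ← hg]
      exact H.ord_eq _ hϖ f
    have hfix : (T ^ e')⁻¹ • ((g : SL(2, ℤ)) : Comb.Q N) = (g : Comb.Q N) := by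
      have h1 := (H.pow_apply_eq_iff _ e' hee e').mpr dvd_rfl
      have h2 : (MulAction.toPerm (ModularGroup.T⁻¹ : SL(2, ℤ)) : Equiv.Perm (Comb.Q N)) ^ e'
          = MulAction.toPerm ((T ^ e')⁻¹ : SL(2, ℤ)) := by
        rw [← inv_pow]
        exact (map_pow (MulAction.toPermHom SL(2, ℤ) (Comb.Q N)) (T⁻¹) e').symm
      rw [h2] at h1
      exact h1
    have hmem := twd_conj_mem hfix
    refine ⟨g, (e' : ℤ), gN, hgN, by rw [zpow_natCast]; exact hmem, ?_, hord⟩
    have hz : fi_zeta N ^ e' = cexp (2 * π * Complex.I * (((((e' : ℤ) : ℝ)) / N : ℝ) : ℂ)) := by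
      rw [fi_zeta, ← Complex.exp_nat_mul]
      congr 1
      push_cast
      ring
    rw [← hz]
    exact H.hζ₀.pow H.hm (by rw [hme]; ring)

end Fermat.Agent.JT3
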