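import Mathlib
import Fermat.Agent.JT3.Gateway.CClassified
import Fermat.Agent.JT3.Gateway.CDegree
import Fermat.Agent.JT3.Gateway.TwistedWeak
import Fermat.Agent.JT3.Gateway.CharMap

/-!
# JT3 / T1 gateway, node G3: surjectivity of the character map over `ℂ`

* `gcp_classified_gc`, `gcp_classified_gcW`: the seam (C4) for the two complex contexts
  (`gw_Classified (gc_ctx N)`, `gw_Classified (gc_ctxW N)`), unconditional;
* **`twd_surj`**: every unramified character `χ` of `Γ₀(N)` of exponent `n` (`χ ∈ gw_X N n`) is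
  the character of an `n`-divisible function of `gc_F N`: the function is
  `(E_χ/Δ)ⁿ ∈ Frac ℂ[j(dz) : d ∣ N]` (weight `12` twisted Eisenstein series, `Gateway/TwistedWeak`).
-/

set_option autoImplicit false

open UpperHalfPlane CongruenceSubgroup ModularGroup Complex
open scoped MatrixGroups Manifold Real

namespace Fermat.Agent.JT3

open Fermat.Agent.S24 AlgebraicCurve IntermediateField

variable (N : ℕ) [NeZero N]

/-- **(C4) over `ℂ`**, context `ℂ[j(dz) : d ∣ N]` -/
theorem gcp_classified_gc : gw_Classified (gc_ctx N) := by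
  have : FiniteDimensional ℂ⟮algebraMap (gc_A0 N) (gc_F N) (gc_jA N)⟯ (gc_F N) :=
    gc_finiteDimensional_jF N
  exact gcp_classified (C := gc_ctx N) (j1 := gc_jA N) (gc_an_jA N) (gc_finrank_jF N)

/-- **(C4) over `ℂ`**, context of all weakly holomorphic modular functions -/
theorem gcp_classified_gcW : gw_Classified (gc_ctxW N) := by
  have : FiniteDimensional ℂ⟮algebraMap (gc_W N) (gc_F N) (gc_jW N)⟯ (gc_F N) := by
    rw [gc_algebraMap_jW]
    exact gc_finiteDimensional_jF N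
  refine gcp_classified (C := gc_ctxW N) (j1 := gc_jW N) (gc_anW_jW N) ?_
  rw [gc_algebraMap_jW]
  exact gc_finrank_jF N

variable {N}

omit [NeZero N] in
/-- a character which is trivial on the parabolic elements is trivial on the stabiliser of `∞` -/
theorem twd_trivAtInfty_of_parEll {χ : ↥(Gamma0 N) →* ℂˣ}
    (h : ∀ γ : ↥(Gamma0 N), gh_IsParEll N γ → χ γ = 1) : twe_TrivAtInfty N χ := by
  intro γ hγ
  apply h
  unfold gh_IsParEll
  have hdet := Comb.det_eq_one (γ : SL(2, ℤ))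
  rw [hγ, mul_zero, sub_zero] at hdet
  rw [Matrix.trace_fin_two]
  rcases Int.isUnit_iff.mp (IsUnit.of_mul_eq_one _ hdet) with h1 | h1
  · rw [h1, one_mul] at hdet
    show ((γ : SL(2, ℤ)) 0 0 + (γ : SL(2, ℤ)) 1 1) ^ 2 ≤ 4
    rw [h1, hdet]
    norm_num
  · rw [h1] at hdet
    have h2 : (γ : SL(2, ℤ)) 1 1 = -1 := by linarith
    show ((γ : SL(2, ℤ)) 0 0 + (γ : SL(2, ℤ)) 1 1) ^ 2 ≤ 4
    rw [h1, h2]
    norm_num

/-- **G3: surjectivity over `ℂ`**: every unramified character of exponent `n` is the character of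
an `n`-divisible function -/
theorem twd_surj {n : ℕ} (hn : n ≠ 0) :
    ∀ χ ∈ gw_X N n, ∃ f : gc_F N, gw_IsDiv ℂ n f ∧ gw_HasChar (gc_ctx N) n f χ := by
  rintro χ ⟨hχn, hpe⟩
  have htriv := twd_trivAtInfty_of_parEll hpe
  have hun := twe_unitary_of_pow_eq_one hn hχn
  have hh : MDiff (twe_g N χ) := twe_g_mdifferentiable hun
  have hh0 : twe_g N χ ≠ 0 := twe_g_ne_zero htriv hun
  have hweak : IsWeakModFun N (twe_g N χ ^ n) := twe_g_pow_isWeakModFun htriv hn hχn
  obtain ⟨u, v, hv, huv⟩ := gc_complete N hweak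
  obtain ⟨k, rfl⟩ : ∃ k, n = k + 1 := Nat.exists_eq_succ_of_ne_zero hn
  have hv' : algebraMap (gc_A0 N) (gc_F N) v ≠ 0 :=
    gw_algebraMap_ne_zero (A := gc_A0 N) (F := gc_F N) hv
  have hvan : gc_an N v ≠ 0 := (gc_ctx N).an_ne_zero hv
  have hvmd : MDiff (gc_an N v) := (gc_ctx N).an_mdiff v
  -- the root
  have hw0 : twe_g N χ * gc_an N v ≠ 0 := by
    intro h0
    rcases gw_eq_zero_or_eq_zero hh hvmd (fun z => congrFun h0 z) with h1 | h1
    · exact hh0 h1
    · exact hvan h1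
  have hu : u ≠ 0 := by
    rintro rfl
    rw [map_zero] at huv
    have hpow0 : twe_g N χ ^ (k + 1) ≠ 0 := by
      intro h0
      obtain ⟨z, hz⟩ := gw_exists_ne_zero hh0
      have := congrFun h0 z
      rw [Pi.pow_apply, Pi.zero_apply] at this
      exact hz (pow_eq_zero_iff (Nat.succ_ne_zero k) |>.mp this)
    rcases gw_eq_zero_or_eq_zero (hh.pow (k + 1)) hvmd (fun z => congrFun huv z) with h1 | h1
    · exact hpow0 h1
    · exact hvan h1
  have hu' : algebraMap (gc_A0 N) (gc_F N) u ≠ 0 :=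
    gw_algebraMap_ne_zero (A := gc_A0 N) (F := gc_F N) hu
  set f : gc_F N := algebraMap (gc_A0 N) (gc_F N) u / algebraMap (gc_A0 N) (gc_F N) v with hf
  have hf0 : f ≠ 0 := div_ne_zero hu' hv'
  have hχ' : gw_HasChar (gc_ctx N) (k + 1) f χ := by
    refine ⟨u * v ^ k, v, twe_g N χ * gc_an N v, hv, ?_, hh.mul hvmd, hw0, ?_, ?_⟩
    · rw [hf, map_mul, map_pow, pow_succ]
      field_simp
    · intro z
      have h1 := congrFun huv z
      simp only [Pi.mul_apply, Pi.pow_apply] at h1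
      rw [gc_ctx_an, map_mul, map_pow, Pi.mul_apply, Pi.mul_apply, Pi.pow_apply, mul_pow,
        pow_succ (gc_an N v z), ← mul_assoc, ← h1]
      ring
    · intro γ z
      have h2 : gc_an N v ((γ : SL(2, ℤ)) • z) = gc_an N v z :=
        (gc_ctx N).an_inv v (γ : SL(2, ℤ)) γ.2 z
      rw [Pi.mul_apply, Pi.mul_apply, twe_g_smul htriv γ z, h2, mul_assoc]
  have : FiniteDimensional ℂ⟮algebraMap (gc_A0 N) (gc_F N) (gc_jA N)⟯ (gc_F N) :=
    gc_finiteDimensional_jF N
  exact ⟨f, twd_isDiv_of_hasChar (C := gc_ctx N) (j1 := gc_jA N) (gc_an_jA N) (gc_finrank_jF N)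
    (Nat.succ_ne_zero k) hf0 hχ' hpe, hχ'⟩

end Fermat.Agent.JT3
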