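import Mathlib
import Fermat.Agent.JT3.Gateway.DescentFinal
import Fermat.Agent.JT3.Gateway.TwistedSurj
import Fermat.Agent.JT3.Gateway.Level

/-!
# JT3 / T1 gateway: the unconditional theorem (prefix `gw_`)

`gw_picEquiv N hn : Pic⁰(X₀(N)_{Q̄})[n] ≃+ Additive (gw_X N n)`, where
`gw_X N n = {χ : Γ₀(N) → ℂˣ | χⁿ = 1, χ = 1 on parabolic and elliptic elements}
  = Hom(H₁(X₀(N), ℤ), μ_n)`.

Inputs: injectivity + the characterisation (`CharMap.lean`), surjectivity over `ℂ`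
(helper17, `twd_surj`), descent `ℂ → Q̄` (helper26, `gd_surj_bar`), the complex context
(helper18, `gc_ctx`).
-/

set_option autoImplicit false

open UpperHalfPlane CongruenceSubgroup
open scoped MatrixGroups Manifold

namespace Fermat.Agent.JT3

open Fermat.Agent.S24 Fermat.Agent.S24.Br AlgebraicCurve ModularCurve

variable (N : ℕ) [NeZero N]

/-- surjectivity over `Q̄`, unconditionally -/
theorem gw_surj_final {n : ℕ} (hn : n ≠ 0) :
    ∀ χ ∈ gw_X N n, ∃ f₀ : Fbar N, gw_IsDiv Kbar n f₀ ∧ gw_HasChar (gw_ctxBar N) n f₀ χ :=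
  gd_surj_bar N hn (twd_surj hn)

/-- **`Pic⁰(X₀(N)_{Q̄})[n] ≃ Hom(H₁(X₀(N)), μ_n)`**, unconditionally -/
noncomputable def gw_picEquiv {n : ℕ} (hn : n ≠ 0) :
    Pic0.torsion Kbar (Fbar N) n ≃+ Additive (gw_X N n) :=
  gw_picEquivBar N hn (gw_surj_final N hn)

theorem gw_picEquiv_apply {n : ℕ} (hn : n ≠ 0) (y : Pic0.torsion Kbar (Fbar N) n) :
    gw_picEquiv N hn y =
      gw_picMap hn (rt_isSepGen_jBar N) (gw_ctxBar_complete N) (gw_ctxBar_rational N) y := rfl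

/-- the characterising property: if `n · D = div f` and `f` has the character `χ`, the class of
`D` is sent to `χ` -/
theorem gw_picEquiv_mk {n : ℕ} (hn : n ≠ 0) (D : Divisor.degZero (K := Kbar) (F := Fbar N))
    (f : gp_S Kbar (Fbar N) n)
    (h : ∀ P : Place Kbar (Fbar N), (n : ℤ) * (D : Divisor Kbar (Fbar N)) P =
      P.ord ((f : (Fbar N)ˣ) : Fbar N))
    (hD : Pic0.mk D ∈ Pic0.torsion Kbar (Fbar N) n) {χ : ↥(Gamma0 N) →* ℂˣ}
    (hχ : gw_HasChar (gw_ctxBar N) n (((f : (Fbar N)ˣ) : Fbar N)) χ) :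
    ((Additive.toMul (gw_picEquiv N hn ⟨Pic0.mk D, hD⟩) : gw_X N n) : ↥(Gamma0 N) →* ℂˣ) = χ :=
  gw_picMap_mk hn (rt_isSepGen_jBar N) (gw_ctxBar_complete N) (gw_ctxBar_rational N) D f h hD hχ

/-- level compatibility: the character of `m • y` at level `n` is the `m`-th power of the character
of `y` at level `n * m` -/
theorem gw_picEquiv_level {n m : ℕ} (hn : n ≠ 0) (hm : m ≠ 0)
    (y : Pic0.torsion Kbar (Fbar N) (n * m)) :
    ((Additive.toMul (gw_picEquiv N hn ⟨m • (y : Pic0 Kbar (Fbar N)), gw_nsmul_mem_torsion y⟩) :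
        gw_X N n) : ↥(Gamma0 N) →* ℂˣ) =
      ((Additive.toMul (gw_picEquiv N (mul_ne_zero hn hm) y) : gw_X N (n * m)) :
        ↥(Gamma0 N) →* ℂˣ) ^ m :=
  gw_picMap_level (rt_isSepGen_jBar N) hn hm (gw_ctxBar_complete N) (gw_ctxBar_rational N) y

end Fermat.Agent.JT3
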