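import Mathlib
import Fermat.Agent.JT3.Gateway.HeckeNormAn
import Fermat.Agent.JT3.Gateway.Character

/-!
# JT3 / T2-lite part 2b: the character of the norm (prefix `gwh_`)

If `f ∈ F̄_N` has the character `χ` (i.e. an `n`-th root `h` with `h(γ z) = χ(γ) h(z)`), then
`nl_normBeta N ℓ f = N_{F̄_{Nℓ}/F̄_N}(f(q^ℓ))` has the character `t2c_T χ` (helper5's coset
operator): its `n`-th root is `∏_x h(α_x z)` (`gwh_hasChar_norm`).
-/

set_option autoImplicit false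
set_option linter.unusedSectionVars false
set_option linter.style.haveILetI false

noncomputable section

open UpperHalfPlane hiding I
open Complex CongruenceSubgroup ModularCurve
open scoped Real Manifold MatrixGroups
open P2MW.S_ModularForm_heckeT_slash_eq_self_of_mem_Gamma0.ModularForm.HeckeSlashInvariance

namespace Fermat.Agent.JT3

open Fermat.Agent.S24 Fermat.Agent.S24.Br AlgebraicCurve

section

variable (N ℓ : ℕ) [NeZero N] [NeZero ℓ]

/-! ### `nl_normBeta` is multiplicative -/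

theorem gwh_normBeta_mul (x y : Fbar N) :
    nl_normBeta N ℓ (x * y) = nl_normBeta N ℓ x * nl_normBeta N ℓ y := by
  unfold nl_normBeta
  rw [map_mul, map_mul]

theorem gwh_normBeta_one : nl_normBeta N ℓ (1 : Fbar N) = 1 := by
  unfold nl_normBeta
  rw [map_one, map_one]

theorem gwh_normBeta_pow (x : Fbar N) (n : ℕ) :
    nl_normBeta N ℓ (x ^ n) = nl_normBeta N ℓ x ^ n := by
  unfold nl_normBeta
  rw [map_pow, map_pow]

theorem gwh_normBeta_ne_zero {x : Fbar N} (hx : x ≠ 0) : nl_normBeta N ℓ x ≠ 0 := by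
  unfold nl_normBeta
  letI := algebraAlong (heckeAlphaBar Kbar N ℓ)
  haveI : Module.Finite (Fbar N) (Fbar (N * ℓ)) := hib_finiteAlong_alpha N ℓ
  rw [Algebra.norm_ne_zero_iff]
  exact (map_ne_zero _).mpr hx

end

section char

variable {N ℓ : ℕ} [NeZero N] [NeZero ℓ] [Fact ℓ.Prime]

/-- the product `∏_x h(α_x z)` -/
def gwh_H (ℓ : ℕ) [Fact ℓ.Prime] (h : ℍ → ℂ) (z : ℍ) : ℂ :=
  ∏ x : OnePoint (ZMod ℓ), h (heckeRep ℓ x • z)

theorem gwh_H_mdiff {h : ℍ → ℂ} (hh : MDiff h) : MDiff (gwh_H ℓ h) := by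
  have h1 : ∀ x : OnePoint (ZMod ℓ), MDiff (fun z : ℍ => h (heckeRep ℓ x • z)) := fun x =>
    hh.comp (UpperHalfPlane.mdifferentiable_smul (t2p_det_pos x))
  have e : gwh_H ℓ h = ∏ x : OnePoint (ZMod ℓ), fun z : ℍ => h (heckeRep ℓ x • z) := by
    ext z
    rw [Finset.prod_apply]
    rfl
  rw [e]
  exact MDifferentiable.prod fun x _ => h1 x

/-- the multiplier of `∏_x h(α_x z)` is `t2c_T χ` -/
theorem gwh_H_smul (hℓN : ¬ ℓ ∣ N) {h : ℍ → ℂ} {χ : ↥(Gamma0 N) →* ℂˣ}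
    (hχ : ∀ (γ : ↥(Gamma0 N)) (z : ℍ), h ((γ : SL(2, ℤ)) • z) = (χ γ : ℂ) * h z)
    (γ : ↥(Gamma0 N)) (z : ℍ) :
    gwh_H ℓ h ((γ : SL(2, ℤ)) • z) = ((t2c_T hℓN χ γ : ℂˣ) : ℂ) * gwh_H ℓ h z := by
  unfold gwh_H
  have h1 : ∀ x : OnePoint (ZMod ℓ), h (heckeRep ℓ x • ((γ : SL(2, ℤ)) • z)) =
      (χ (t2c_coc hℓN x γ) : ℂ) * h (heckeRep ℓ (t2c_perm (γ : SL(2, ℤ)) x) • z) := by
    intro x
    rw [t2p_smul_smul hℓN x γ z, hχ, t2c_perm_apply]
  rw [Finset.prod_congr rfl fun x _ => h1 x, Finset.prod_mul_distrib, t2c_T_apply,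
    Units.coe_prod]
  congr 1
  exact Equiv.prod_comp (t2c_perm (γ : SL(2, ℤ))) fun x => h (heckeRep ℓ x • z)

/-- **the character of the norm**: if `f` has the character `χ`, then
`N_{F̄_{Nℓ}/F̄_N}(f(q^ℓ))` has the character `t2c_T χ` -/
theorem gwh_hasChar_norm (hℓN : ¬ ℓ ∣ N) {n : ℕ} (hn : n ≠ 0) {f : Fbar N}
    {χ : ↥(Gamma0 N) →* ℂˣ} (hf : gw_HasChar (gw_ctxBar N) n f χ) :
    gw_HasChar (gw_ctxBar N) n (nl_normBeta N ℓ f) (t2c_T hℓN χ) := by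
  have hf0 : f ≠ 0 := gw_hasChar_ne_zero hf
  obtain ⟨a, b, h, hb, hab, hh, hh0, hpow, hχ⟩ := hf
  have ha : a ≠ 0 := gw_witness_ne_zero hf0 hb hab
  obtain ⟨k, rfl⟩ : ∃ k, n = k + 1 := ⟨n - 1, by omega⟩
  -- the norms of `a` and `b` as fractions
  obtain ⟨a₁, c₁, hc₁, hac₁⟩ := IsFractionRing.div_surjective (A := A0 N)
    (nl_normBeta N ℓ (algebraMap (A0 N) (Fbar N) a))
  obtain ⟨a₂, c₂, hc₂, hac₂⟩ := IsFractionRing.div_surjective (A := A0 N)
    (nl_normBeta N ℓ (algebraMap (A0 N) (Fbar N) b))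
  have hc₁0 : algebraMap (A0 N) (Fbar N) c₁ ≠ 0 :=
    gw_algebraMap_ne_zero (nonZeroDivisors.ne_zero hc₁)
  have hc₂0 : algebraMap (A0 N) (Fbar N) c₂ ≠ 0 :=
    gw_algebraMap_ne_zero (nonZeroDivisors.ne_zero hc₂)
  have hNb : nl_normBeta N ℓ (algebraMap (A0 N) (Fbar N) b) ≠ 0 :=
    gwh_normBeta_ne_zero N ℓ (gw_algebraMap_ne_zero hb)
  have hNa : nl_normBeta N ℓ (algebraMap (A0 N) (Fbar N) a) ≠ 0 :=
    gwh_normBeta_ne_zero N ℓ (gw_algebraMap_ne_zero ha)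
  have ha₂0 : algebraMap (A0 N) (Fbar N) a₂ ≠ 0 := by
    intro h0
    rw [h0, zero_div] at hac₂
    exact hNb hac₂.symm
  have ha₁0 : algebraMap (A0 N) (Fbar N) a₁ ≠ 0 := by
    intro h0
    rw [h0, zero_div] at hac₁
    exact hNa hac₁.symm
  have h1 : nl_normBeta N ℓ (algebraMap (A0 N) (Fbar N) a) * algebraMap (A0 N) (Fbar N) c₁ =
      algebraMap (A0 N) (Fbar N) a₁ := by
    rw [← hac₁, div_mul_cancel₀ _ hc₁0]
  have h2 : nl_normBeta N ℓ (algebraMap (A0 N) (Fbar N) b) * algebraMap (A0 N) (Fbar N) c₂ =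
      algebraMap (A0 N) (Fbar N) a₂ := by
    rw [← hac₂, div_mul_cancel₀ _ hc₂0]
  -- the norm of the relation `a = f bⁿ`
  have hN : nl_normBeta N ℓ (algebraMap (A0 N) (Fbar N) a) =
      nl_normBeta N ℓ f * nl_normBeta N ℓ (algebraMap (A0 N) (Fbar N) b) ^ (k + 1) := by
    rw [hab, gwh_normBeta_mul, gwh_normBeta_pow]
  -- the `n`-th power of the candidate root
  have hpow' : ∀ z : ℍ, (gwh_H ℓ h z * ff_an N c₁ z * ff_an N c₂ z) ^ (k + 1) =
      (gw_ctxBar N).an (a₁ * c₁ ^ k * c₂ ^ (k + 1)) z := by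
    intro z
    have e1 : gwh_H ℓ h z ^ (k + 1) = ∏ x : OnePoint (ZMod ℓ), ff_an N a (heckeRep ℓ x • z) := by
      unfold gwh_H
      rw [← Finset.prod_pow]
      exact Finset.prod_congr rfl fun x _ => hpow _
    have e2 := gwh_norm_an N ℓ hℓN a c₁ a₁ h1 z
    have e3 : (gw_ctxBar N).an (a₁ * c₁ ^ k * c₂ ^ (k + 1)) z =
        ff_an N a₁ z * ff_an N c₁ z ^ k * ff_an N c₂ z ^ (k + 1) := by
      rw [map_mul, map_mul, map_pow, map_pow]
      rfl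
    rw [e3, e2, mul_pow, mul_pow, e1]
    ring
  have ha' : a₁ * c₁ ^ k * c₂ ^ (k + 1) ≠ 0 := by
    have h10 : a₁ ≠ 0 := fun h0 => ha₁0 (by rw [h0, map_zero])
    exact mul_ne_zero (mul_ne_zero h10 (pow_ne_zero _ (nonZeroDivisors.ne_zero hc₁)))
      (pow_ne_zero _ (nonZeroDivisors.ne_zero hc₂))
  refine ⟨a₁ * c₁ ^ k * c₂ ^ (k + 1), c₁ * a₂,
    fun z => gwh_H ℓ h z * ff_an N c₁ z * ff_an N c₂ z, ?_, ?_, ?_, ?_, hpow', ?_⟩
  · intro h0
    have := congrArg (algebraMap (A0 N) (Fbar N)) h0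
    rw [map_mul, map_zero] at this
    exact mul_ne_zero hc₁0 ha₂0 this
  · -- the algebraic relation
    have e1 : nl_normBeta N ℓ f = algebraMap (A0 N) (Fbar N) a₁ *
        algebraMap (A0 N) (Fbar N) c₂ ^ (k + 1) /
          (algebraMap (A0 N) (Fbar N) c₁ * algebraMap (A0 N) (Fbar N) a₂ ^ (k + 1)) := by
      rw [eq_div_iff (mul_ne_zero hc₁0 (pow_ne_zero _ ha₂0)), ← h1, ← h2, hN]
      ring
    rw [e1]
    simp only [map_mul, map_pow]
    field_simp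
    ring
  · exact ((gwh_H_mdiff hh).mul ((gw_ctxBar N).an_mdiff c₁)).mul ((gw_ctxBar N).an_mdiff c₂)
  · -- nonvanishing, from the `n`-th power
    intro h0
    apply (gw_ctxBar N).an_ne_zero ha'
    ext z
    rw [← hpow' z]
    have := congrFun h0 z
    simp only [Pi.zero_apply] at this
    rw [this, zero_pow hn]
    rfl
  · intro γ z
    have e1 : ff_an N c₁ ((γ : SL(2, ℤ)) • z) = ff_an N c₁ z := gw_an_smul (C := gw_ctxBar N) c₁ γ z
    have e2 : ff_an N c₂ ((γ : SL(2, ℤ)) • z) = ff_an N c₂ z := gw_an_smul (C := gw_ctxBar N) c₂ γ z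
    simp only []
    rw [gwh_H_smul hℓN hχ, e1, e2]
    ring

end char

end Fermat.Agent.JT3

end
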