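import Mathlib
import Fermat.Agent.JT3.Gateway.HeckeChar
import Fermat.Agent.JT3.Gateway.Final
import Fermat.Agent.JT3.T2.ParEll
import Fermat.Prelude.Def_ModularCurve_HeckeModule

/-!
# JT3 / T2-lite part 2c: Hecke equivariance of the gateway (prefix `gwh_`)

`gwh_picEquiv_hecke`: for a prime `ℓ ∤ N` and `y ∈ Pic⁰(X₀(N)_{Q̄})[n]`,
`e_n (T_ℓ y) = t2c_T (e_n y)`, where `e_n = gw_picEquiv N hn`, `T_ℓ = heckeOperatorBar N ℓ` is the
prelude's Hecke correspondence on `J₀(N)` and `t2c_T` is helper5's coset operator on characters of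
`Γ₀(N)`.

Proof: `y = [D]`, `n D = div f`, `f` with character `χ`; then `T_ℓ y = [T_ℓ D]`,
`n T_ℓ D = T_ℓ (div f) = div (nl_normBeta f)` (the prelude's norm formula, `hib_` inputs), and
`nl_normBeta f` has the character `t2c_T χ` (`gwh_hasChar_norm`).
-/

set_option autoImplicit false
set_option linter.unusedSectionVars false
set_option linter.style.haveILetI false

noncomputable section

open UpperHalfPlane hiding I
open CongruenceSubgroup ModularCurve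
open scoped MatrixGroups

namespace Fermat.Agent.JT3

open Fermat.Agent.S24 Fermat.Agent.S24.Br AlgebraicCurve

/-! ### generic: a correspondence applied to a principal divisor -/

section Generic

variable {K F F' : Type*} [Field K] [Field F] [Field F'] [Algebra K F] [Algebra K F']
  [HasPrincipalDivisors K F']

/-- `ψ_* φ^* (div f) = div (N_ψ (φ f))` -/
theorem gwh_correspondence_ord (φ ψ : F →ₐ[K] F') (hφ : φ.toRingHom.IsIntegral)
    (hψ : ψ.toRingHom.IsIntegral) (hfin : FiniteAlong K ψ) (hN : NormFormulaAlong K ψ hfin)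
    (f : F) (hf : f ≠ 0) (D : Divisor K F) (hD : ∀ v, D v = v.ord f) (v : Place K F) :
    Divisor.correspondence φ ψ hφ hψ D v
      = v.ord (letI := algebraAlong ψ; Algebra.norm F (φ f)) := by
  rw [Divisor.correspondence_apply]
  have h1 : ∀ w : Place K F', Divisor.pullbackAlong φ hφ D w = w.ord (φ f) := by
    intro w
    rw [Divisor.pullbackAlong_apply, hD, ← Place.ord_restrictAlong]
  have hφf : φ f ≠ 0 := (map_ne_zero φ).mpr hf
  letI := algebraAlong ψ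
  haveI := isScalarTower_along ψ
  haveI := isIntegral_along ψ hψ
  haveI : Module.Finite F F' := hfin
  exact hN (φ f) hφf _ h1 v

end Generic

section hecke

variable (N : ℕ) [NeZero N]

/-- the Hecke operator preserves the `n`-torsion -/
theorem gwh_hecke_mem_torsion (ℓ : Nat.Primes) {n : ℕ} (y : Pic0.torsion Kbar (Fbar N) n) :
    heckeOperatorBar N ℓ (y : Pic0 Kbar (Fbar N)) ∈ Pic0.torsion Kbar (Fbar N) n := by
  rw [Pic0.mem_torsion, ← map_zsmul, Pic0.mem_torsion.1 y.2, map_zero]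

/-- **Hecke equivariance of the gateway**: `e_n (T_ℓ y) = t2c_T (e_n y)` -/
theorem gwh_picEquiv_hecke {n : ℕ} (hn : n ≠ 0) (ℓ : Nat.Primes) (hℓN : ¬ (ℓ : ℕ) ∣ N)
    (y : Pic0.torsion Kbar (Fbar N) n) :
    haveI : Fact (ℓ : ℕ).Prime := ⟨ℓ.2⟩
    ((Additive.toMul (gw_picEquiv N hn
        ⟨heckeOperatorBar N ℓ (y : Pic0 Kbar (Fbar N)), gwh_hecke_mem_torsion N ℓ y⟩) :
      gw_X N n) : ↥(Gamma0 N) →* ℂˣ) =
    t2c_T hℓN ((Additive.toMul (gw_picEquiv N hn y) : gw_X N n) : ↥(Gamma0 N) →* ℂˣ) := by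
  haveI : Fact (ℓ : ℕ).Prime := ⟨ℓ.2⟩
  haveI : NeZero (ℓ : ℕ) := ⟨ℓ.2.ne_zero⟩
  show ((Additive.toMul (gw_picEquiv N hn
        ⟨heckeOperatorBar N ℓ (y : Pic0 Kbar (Fbar N)), gwh_hecke_mem_torsion N ℓ y⟩) :
      gw_X N n) : ↥(Gamma0 N) →* ℂˣ) =
    t2c_T hℓN ((Additive.toMul (gw_picEquiv N hn y) : gw_X N n) : ↥(Gamma0 N) →* ℂˣ)
  obtain ⟨y, hy⟩ := y
  obtain ⟨D, rfl⟩ := QuotientAddGroup.mk_surjective y
  change Pic0.mk D ∈ Pic0.torsion Kbar (Fbar N) n at hy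
  -- a function with `n D = div f`
  obtain ⟨f, hf0, hDf⟩ := (gp_mk_mem_torsion_iff D).1 hy
  have hfS : (Units.mk0 f hf0) ∈ gp_S Kbar (Fbar N) n := fun P => ⟨_, (hDf P).symm⟩
  have hdiv : gw_IsDiv Kbar n f := ⟨hf0, fun P => ⟨_, (hDf P).symm⟩⟩
  obtain ⟨χ, hχ⟩ := gw_hasChar_exists (C := gw_ctxBar N) hn hdiv
  have h1 : ((Additive.toMul (gw_picEquiv N hn ⟨Pic0.mk D, hy⟩) : gw_X N n) :
      ↥(Gamma0 N) →* ℂˣ) = χ :=
    gw_picEquiv_mk N hn D ⟨Units.mk0 f hf0, hfS⟩ hDf hy hχ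
  -- the Hecke operator on the class of `D`
  set hα := hib_alphaIntegral N (ℓ : ℕ) with hα_def
  set hβ := hib_betaIntegral N (ℓ : ℕ) with hβ_def
  set hFI := hib_fundamentalIdentityAlong_beta N (ℓ : ℕ) with hFI_def
  set hfin := hib_finiteAlong_alpha N (ℓ : ℕ) with hfin_def
  set hNF := hib_normFormulaAlong_alpha N (ℓ : ℕ) with hNF_def
  set D' : Divisor.degZero (K := Kbar) (F := Fbar N) :=
    Pic0.degZeroCorrespondence (heckeBetaBar Kbar N ℓ) (heckeAlphaBar Kbar N ℓ) hβ hα hFI D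
    with hD'
  have hT : heckeOperatorBar N ℓ (Pic0.mk D) = Pic0.mk D' := by
    rw [heckeOperatorBar_apply, hib_heckeOperatorAlong_eq]
    rfl
  -- `n T D = div (nl_normBeta f)`
  have hnD : ∀ v : Place Kbar (Fbar N),
      (((n : ℤ) • (D : Divisor Kbar (Fbar N))) : Divisor Kbar (Fbar N)) v = v.ord f := by
    intro v
    rw [Finsupp.smul_apply, smul_eq_mul, hDf]
  have hD'f : ∀ P : Place Kbar (Fbar N), (n : ℤ) * (D' : Divisor Kbar (Fbar N)) P =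
      P.ord (nl_normBeta N ℓ f) := by
    intro P
    have h2 := gwh_correspondence_ord (heckeBetaBar Kbar N ℓ) (heckeAlphaBar Kbar N ℓ) hβ hα
      hfin hNF f hf0 _ hnD P
    rw [map_zsmul, Finsupp.smul_apply, smul_eq_mul] at h2
    exact h2
  have hf'0 : nl_normBeta N ℓ f ≠ 0 := gwh_normBeta_ne_zero N ℓ hf0
  have hf'S : (Units.mk0 _ hf'0) ∈ gp_S Kbar (Fbar N) n := fun P => ⟨_, (hD'f P).symm⟩
  have hy' : Pic0.mk D' ∈ Pic0.torsion Kbar (Fbar N) n :=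
    (gp_mk_mem_torsion_iff D').2 ⟨_, hf'0, hD'f⟩
  have h2 : ((Additive.toMul (gw_picEquiv N hn ⟨Pic0.mk D', hy'⟩) : gw_X N n) :
      ↥(Gamma0 N) →* ℂˣ) = t2c_T hℓN χ :=
    gw_picEquiv_mk N hn D' ⟨Units.mk0 _ hf'0, hf'S⟩ hD'f hy' (gwh_hasChar_norm hℓN hn hχ)
  have h3 : ((Additive.toMul (gw_picEquiv N hn
        ⟨heckeOperatorBar N ℓ (Pic0.mk D), gwh_hecke_mem_torsion N ℓ ⟨Pic0.mk D, hy⟩⟩) :
      gw_X N n) : ↥(Gamma0 N) →* ℂˣ) = t2c_T hℓN χ := by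
    rw [← h2]
    congr 4
  exact h3.trans (congrArg (t2c_T hℓN) h1.symm)

/-- the coset operator `T_ℓ` on the group `gw_X N n = Hom(H₁(X₀(N)), μ_n)` -/
def gwh_TX {ℓ : ℕ} [Fact ℓ.Prime] (hℓN : ¬ ℓ ∣ N) (n : ℕ) : gw_X N n →* gw_X N n :=
  ((t2c_T hℓN).comp (gw_X N n).subtype).codRestrict (gw_X N n)
    fun χ => t2e_T_mem_gw_X hℓN χ.2

theorem gwh_TX_coe {ℓ : ℕ} [Fact ℓ.Prime] (hℓN : ¬ ℓ ∣ N) (n : ℕ) (χ : gw_X N n) :
    ((gwh_TX N hℓN n χ : gw_X N n) : ↥(Gamma0 N) →* ℂˣ) =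
      t2c_T hℓN (χ : ↥(Gamma0 N) →* ℂˣ) := rfl

/-- the Hecke operator on `Pic⁰[n]` -/
def gwh_heckeTorsion (ℓ : Nat.Primes) (n : ℕ) :
    Pic0.torsion Kbar (Fbar N) n →+ Pic0.torsion Kbar (Fbar N) n :=
  ((heckeOperatorBar N ℓ).toAddMonoidHom.comp (Pic0.torsion Kbar (Fbar N) n).subtype).codRestrict
    (Pic0.torsion Kbar (Fbar N) n) fun y => gwh_hecke_mem_torsion N ℓ y

theorem gwh_heckeTorsion_coe (ℓ : Nat.Primes) (n : ℕ) (y : Pic0.torsion Kbar (Fbar N) n) :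
    ((gwh_heckeTorsion N ℓ n y : Pic0.torsion Kbar (Fbar N) n) : Pic0 Kbar (Fbar N)) =
      heckeOperatorBar N ℓ (y : Pic0 Kbar (Fbar N)) := rfl

/-- **Hecke equivariance of the gateway**, operator form:
`e_n ∘ T_ℓ = T_ℓ ∘ e_n` on `Pic⁰(X₀(N))[n]` -/
theorem gwh_picEquiv_heckeTorsion {n : ℕ} (hn : n ≠ 0) (ℓ : Nat.Primes) (hℓN : ¬ (ℓ : ℕ) ∣ N)
    (y : Pic0.torsion Kbar (Fbar N) n) :
    haveI : Fact (ℓ : ℕ).Prime := ⟨ℓ.2⟩
    gw_picEquiv N hn (gwh_heckeTorsion N ℓ n y) =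
      Additive.ofMul (gwh_TX N hℓN n (Additive.toMul (gw_picEquiv N hn y))) := by
  haveI : Fact (ℓ : ℕ).Prime := ⟨ℓ.2⟩
  show gw_picEquiv N hn (gwh_heckeTorsion N ℓ n y) =
      Additive.ofMul (gwh_TX N hℓN n (Additive.toMul (gw_picEquiv N hn y)))
  apply Additive.toMul.injective
  apply Subtype.ext
  exact gwh_picEquiv_hecke N hn ℓ hℓN y

end hecke

end Fermat.Agent.JT3

end
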