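import Mathlib
import Fermat.Agent.S21.PermModule

set_option autoImplicit false

/-!
# Permutation modules in arbitrary characteristic: the refined kernels

For a group `G` acting on a finite type `X`, a field `k` of ANY characteristic and `σ : G`, the
subspace `ghf_K k σ` of the functions `c : X → k` with `∑_{j<n} c (σ ^ j • x) = 0` whenever
`σ ^ n • x = x` (`= (σ - 1) V` for the permutation module `V = k[X]`) has dimension
`#X - #(orbits of ⟨σ⟩)`; if `σ, τ` generate `G` and the action is transitive, the two refined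
kernels span a subspace of codimension at most one.  (Characteristic-free version of
`Fermat.Agent.S21.finrank_ker_normOp_add` / `card_le_finrank_sup_add_one`.)
-/

namespace Fermat.Agent.JT3

open MulAction Module Fermat.Agent.S21

section GhfPerm

variable {G X : Type*} [Group G] [MulAction G X] (k : Type*) [Field k]

/-- the refined kernel: `∑_{j<n} c (σ ^ j • x) = 0` whenever `σ ^ n • x = x`. -/
def ghf_K (σ : G) : Submodule k (X → k) where
  carrier := {c | ∀ (x : X) (n : ℕ), σ ^ n • x = x → ∑ j ∈ Finset.range n, c (σ ^ j • x) = 0}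
  zero_mem' := fun x n _ => by simp
  add_mem' := fun {a b} ha hb x n h => by
    simp only [Pi.add_apply, Finset.sum_add_distrib, ha x n h, hb x n h, add_zero]
  smul_mem' := fun r a ha x n h => by
    simp only [Pi.smul_apply, smul_eq_mul, ← Finset.mul_sum, ha x n h, mul_zero]

variable {k}

theorem ghf_mem_K {σ : G} {c : X → k} :
    c ∈ ghf_K k σ ↔
      ∀ (x : X) (n : ℕ), σ ^ n • x = x → ∑ j ∈ Finset.range n, c (σ ^ j • x) = 0 := Iff.rfl

/-- coboundaries `g ∘ σ - g` lie in the refined kernel. -/
theorem ghf_comp_sub_mem_K (σ : G) (g : X → k) : (fun x => g (σ • x) - g x) ∈ ghf_K k σ := by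
  intro x n h
  have h1 : ∀ j : ℕ, g (σ • σ ^ j • x) - g (σ ^ j • x)
      = (fun j : ℕ => g (σ ^ j • x)) (j + 1) - (fun j : ℕ => g (σ ^ j • x)) j := by
    intro j
    simp only [pow_succ', mul_smul]
  simp only [h1]
  rw [Finset.sum_range_sub (fun j : ℕ => g (σ ^ j • x)) n]
  simp [h]

theorem ghf_single_sub_single_mem_K [DecidableEq X] (σ : G) (x : X) :
    (Pi.single x (1 : k) - Pi.single (σ • x) (1 : k) : X → k) ∈ ghf_K k σ := by
  have h : (fun y => (Pi.single (σ • x) (1 : k) : X → k) (σ • y)
      - (Pi.single (σ • x) (1 : k) : X → k) y)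
      = (Pi.single x (1 : k) - Pi.single (σ • x) (1 : k) : X → k) := by
    funext y
    by_cases hy : y = x
    · subst hy; simp
    · have h2 : σ • y ≠ σ • x := fun h => hy (smul_left_cancel σ h)
      simp [Pi.single_eq_of_ne hy, Pi.single_eq_of_ne h2]
  rw [← h]
  exact ghf_comp_sub_mem_K σ _

variable (k)

open Classical in
/-- the orbit-sum map `c ↦ (O ↦ ∑_{x ∈ O} c x)`. -/
noncomputable def ghf_orbSum [Fintype X] (σ : G) :
    (X → k) →ₗ[k] (orbitRel.Quotient (Subgroup.zpowers σ) X → k) where
  toFun c := fun O => ∑ x, if orbMk σ x = O then c x else 0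
  map_add' a b := by
    funext O
    simp only [Pi.add_apply, ← Finset.sum_add_distrib]
    refine Finset.sum_congr rfl (fun x _ => ?_)
    split_ifs <;> simp
  map_smul' r a := by
    funext O
    simp only [Pi.smul_apply, smul_eq_mul, RingHom.id_apply, Finset.mul_sum]
    refine Finset.sum_congr rfl (fun x _ => ?_)
    split_ifs <;> simp

variable {k}

open Classical in
theorem ghf_orbSum_apply [Fintype X] (σ : G) (c : X → k)
    (O : orbitRel.Quotient (Subgroup.zpowers σ) X) :
    ghf_orbSum k σ c O = ∑ x, if orbMk σ x = O then c x else 0 := rfl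

open Classical in
theorem ghf_orbSum_surjective [Fintype X] (σ : G) : Function.Surjective (ghf_orbSum k (X := X) σ) := by
  intro f
  refine ⟨fun x => if x = (orbMk σ x).out then f (orbMk σ x) else 0, ?_⟩
  funext O
  rw [ghf_orbSum_apply]
  have h : ∀ x : X, (if orbMk σ x = O then
      (if x = (orbMk σ x).out then f (orbMk σ x) else 0) else 0)
      = if x = O.out then f O else 0 := by
    intro x
    by_cases h1 : orbMk σ x = O
    · rw [if_pos h1, h1]
    · rw [if_neg h1, if_neg]
      intro h2
      apply h1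
      rw [h2]
      exact Quotient.out_eq O
  rw [Finset.sum_congr rfl (fun x _ => h x), Finset.sum_ite_eq' Finset.univ O.out]
  simp

/-- `dim ker (orbit sum) + #orbits = #X`, in every characteristic. -/
theorem ghf_finrank_ker_orbSum_add [Fintype X] (σ : G) :
    finrank k (LinearMap.ker (ghf_orbSum k (X := X) σ))
      + Nat.card (orbitRel.Quotient (Subgroup.zpowers σ) X) = Nat.card X := by
  classical
  have : Fintype (orbitRel.Quotient (Subgroup.zpowers σ) X) := Fintype.ofFinite _
  have h1 := LinearMap.finrank_range_add_finrank_ker (ghf_orbSum k (X := X) σ)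
  rw [LinearMap.range_eq_top.mpr (ghf_orbSum_surjective σ), finrank_top,
    Module.finrank_fintype_fun_eq_card, Module.finrank_fintype_fun_eq_card] at h1
  rw [Nat.card_eq_fintype_card, Nat.card_eq_fintype_card]
  omega

/-- every point of a finite `G`-set is periodic under `σ`. -/
theorem ghf_period_pos [Finite X] (σ : G) (x₀ : X) : 0 < period σ x₀ := by
  obtain ⟨i, j, hij, h⟩ := Finite.exists_ne_map_eq_of_infinite (fun j : ℕ => σ ^ j • x₀)
  wlog hlt : i < j generalizing i j
  · exact this j i hij.symm h.symm (lt_of_le_of_ne (not_lt.mp hlt) hij.symm)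
  have h1 : σ ^ (j - i) • x₀ = x₀ := by
    have h2 : σ ^ j • x₀ = σ ^ i • σ ^ (j - i) • x₀ := by
      rw [← mul_smul, ← pow_add, Nat.add_sub_cancel' hlt.le]
    have h3 : σ ^ i • x₀ = σ ^ i • σ ^ (j - i) • x₀ := by
      change σ ^ i • x₀ = σ ^ j • x₀ at h
      rw [h, h2]
    exact (smul_left_cancel _ h3).symm
  exact period_pos_of_fixed (Nat.sub_pos_of_lt hlt) h1

/-- the refined kernel is contained in the kernel of the orbit-sum map. -/
theorem ghf_K_le_ker_orbSum [Fintype X] (σ : G) :
    ghf_K k σ ≤ LinearMap.ker (ghf_orbSum k (X := X) σ) := by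
  classical
  intro c hc
  rw [LinearMap.mem_ker]
  funext O
  obtain ⟨x₀, rfl⟩ := orbMk_surjective σ O
  have hw : 0 < period σ x₀ := ghf_period_pos σ x₀
  have hset : Finset.univ.filter (fun x => orbMk σ x = orbMk σ x₀)
      = (Finset.range (period σ x₀)).image (fun j => σ ^ j • x₀) := by
    ext x
    simp only [Finset.mem_filter, Finset.mem_univ, true_and, Finset.mem_image, Finset.mem_range]
    constructor
    · intro h
      have h1 : (orbitRel (Subgroup.zpowers σ) X) x x₀ := Quotient.exact h
      rw [orbitRel_apply] at h1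
      obtain ⟨⟨g, hg⟩, rfl⟩ := h1
      obtain ⟨n, rfl⟩ := Subgroup.mem_zpowers_iff.mp hg
      have hw' : ((period σ x₀ : ℕ) : ℤ) ≠ 0 := by exact_mod_cast hw.ne'
      have h2 : 0 ≤ n % (period σ x₀ : ℤ) := Int.emod_nonneg n hw'
      have h3 : n % (period σ x₀ : ℤ) < (period σ x₀ : ℤ) :=
        Int.emod_lt_of_pos n (by exact_mod_cast hw)
      refine ⟨(n % (period σ x₀ : ℤ)).toNat, ?_, ?_⟩
      · have := (Int.toNat_lt h2).mpr h3
        exact this
      · have h4 : σ ^ (n % (period σ x₀ : ℤ)).toNat = σ ^ (n % (period σ x₀ : ℤ)) := by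
          rw [← zpow_natCast, Int.toNat_of_nonneg h2]
        rw [h4, zpow_mod_period_smul]
        rfl
    · rintro ⟨j, -, rfl⟩
      exact orbMk_smul_pow σ j x₀
  have key : ∀ a b : ℕ, a ≤ b → b < period σ x₀ → σ ^ a • x₀ = σ ^ b • x₀ → a = b := by
    intro a b hle hb hab
    have h1 : σ ^ (b - a) • x₀ = x₀ := by
      have h2 : σ ^ b • x₀ = σ ^ a • σ ^ (b - a) • x₀ := by
        rw [← mul_smul, ← pow_add, Nat.add_sub_cancel' hle]
      have h3 : σ ^ a • x₀ = σ ^ a • σ ^ (b - a) • x₀ := by
        rw [hab, h2]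
      exact (smul_left_cancel _ h3).symm
    have h4 := pow_smul_eq_iff_period_dvd.mp h1
    have h5 : b - a < period σ x₀ := lt_of_le_of_lt (Nat.sub_le b a) hb
    have h6 : b - a = 0 := Nat.eq_zero_of_dvd_of_lt h4 h5
    omega
  have hinj : Set.InjOn (fun j => σ ^ j • x₀) (Finset.range (period σ x₀) : Set ℕ) := by
    intro a ha b hb hab
    simp only [Finset.coe_range, Set.mem_Iio] at ha hb
    rcases le_total a b with hle | hle
    · exact key a b hle hb hab
    · exact (key b a hle ha hab.symm).symm
  rw [ghf_orbSum_apply, ← Finset.sum_filter, hset, Finset.sum_image hinj]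
  exact hc x₀ _ (pow_period_smul σ x₀)

/-- `dim K_σ + #orbits ≤ #X`, in every characteristic. -/
theorem ghf_finrank_K_add_le [Finite X] (σ : G) :
    finrank k (ghf_K k (X := X) σ)
      + Nat.card (orbitRel.Quotient (Subgroup.zpowers σ) X) ≤ Nat.card X := by
  classical
  have : Fintype X := Fintype.ofFinite X
  have h1 := ghf_finrank_ker_orbSum_add (k := k) (X := X) σ
  have h2 := Submodule.finrank_mono (ghf_K_le_ker_orbSum (k := k) (X := X) σ)
  omega

/-- If `σ, τ` generate `G` and `G` acts transitively, then every function is, modulo the two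
refined kernels, a multiple of `δ_{x₀}`. -/
theorem ghf_top_le_K_sup_K_sup_span [DecidableEq X] [Finite X] [IsPretransitive G X] {σ τ : G}
    (hgen : Subgroup.closure {σ, τ} = ⊤) (x₀ : X) :
    (⊤ : Submodule k (X → k)) ≤
      (ghf_K k σ ⊔ ghf_K k τ) ⊔ Submodule.span k {(Pi.single x₀ (1 : k) : X → k)} := by
  classical
  have : Fintype X := Fintype.ofFinite X
  set K := ghf_K k (X := X) σ ⊔ ghf_K k τ with hK
  have key : ∀ g : G, ∀ x : X, (Pi.single x (1 : k) - Pi.single (g • x) (1 : k) : X → k) ∈ K := by
    intro g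
    have hg : g ∈ Subgroup.closure {σ, τ} := by rw [hgen]; trivial
    induction hg using Subgroup.closure_induction with
    | mem y hy =>
      intro x
      rcases hy with rfl | rfl
      · exact Submodule.mem_sup_left (ghf_single_sub_single_mem_K _ x)
      · exact Submodule.mem_sup_right (ghf_single_sub_single_mem_K _ x)
    | one => intro x; simp
    | mul a b _ _ iha ihb =>
      intro x
      have := K.add_mem (ihb x) (iha (b • x))
      rw [mul_smul]
      convert this using 1
      abel
    | inv a _ iha =>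
      intro x
      have := K.neg_mem (iha (a⁻¹ • x))
      rw [smul_inv_smul] at this
      convert this using 1
      abel
  intro m _
  have hm : m = ∑ x, m x • (Pi.single x (1 : k) : X → k) := by
    funext y
    simp [Finset.sum_apply, Pi.single_apply]
  rw [hm]
  refine Submodule.sum_mem _ (fun x _ => Submodule.smul_mem _ _ ?_)
  obtain ⟨g, rfl⟩ := MulAction.exists_smul_eq G x₀ x
  have h1 := key g x₀
  have : (Pi.single (g • x₀) (1 : k) : X → k)
      = Pi.single x₀ (1 : k) - (Pi.single x₀ (1 : k) - Pi.single (g • x₀) (1 : k)) := by abel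
  rw [this]
  exact Submodule.sub_mem _ (Submodule.mem_sup_right (Submodule.mem_span_singleton_self _))
    (Submodule.mem_sup_left h1)

theorem ghf_card_le_finrank_sup_add_one [Finite X] [IsPretransitive G X] {σ τ : G}
    (hgen : Subgroup.closure {σ, τ} = ⊤) (x₀ : X) :
    Nat.card X ≤ finrank k ↥(ghf_K k (X := X) σ ⊔ ghf_K k τ) + 1 := by
  classical
  have : Fintype X := Fintype.ofFinite X
  have h := ghf_top_le_K_sup_K_sup_span (k := k) hgen x₀
  have h2 := Submodule.finrank_mono h
  rw [finrank_top, Module.finrank_fintype_fun_eq_card] at h2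
  have h3 := Submodule.finrank_add_le_finrank_add_finrank
    (ghf_K k (X := X) σ ⊔ ghf_K k τ)
    (Submodule.span k {(Pi.single x₀ (1 : k) : X → k)})
  have h4 : finrank k (Submodule.span k {(Pi.single x₀ (1 : k) : X → k)}) ≤ 1 := by
    have := finrank_span_le_card (R := k) ({(Pi.single x₀ (1 : k) : X → k)} : Set (X → k))
    simpa using this
  rw [Nat.card_eq_fintype_card]
  omega

end GhfPerm

end Fermat.Agent.JT3
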