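/-
JT3 / gateway.  Prefix `ghf_`.

`H = gh_H N = Γ₀(N)^ab / (parabolic, elliptic)` is TORSION-FREE (free of rank `2g`).

Route: the cocycle-free "Shapiro + Mayer–Vietoris for `PSL(2, ℤ) = C₂ * C₃`" bound of
`S21/ParabolicBound.lean`, redone in arbitrary characteristic with the refined kernels `ghf_K`
of `Gateway/PermModuleFree.lean`: for EVERY field `k`,
`dim_k Hom(H, k) + o_S + o_{ST} + o_T ≤ #(SL(2, ℤ) ⧸ Γ₀(N)) + 2`, hence `dim_k Hom(H, k) ≤ 2 g = rank_ℤ H`
(`hurwitz_count`, `gh_finrank_genus`).  With `k = ZMod p` for every prime `p` the torsion of `H`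
vanishes.
-/
import Fermat.Agent.JT3.Gateway.Homology
import Fermat.Agent.JT3.Gateway.PermModuleFree

set_option autoImplicit false
set_option maxHeartbeats 400000

open CongruenceSubgroup ModularGroup MulAction Module ModularCurve
open Fermat.Agent.S24.Comb Fermat.Agent.S21
open scoped MatrixGroups

noncomputable section

namespace Fermat.Agent.JT3

/-! ### Traces of the powers of `S`, `S T`, `S T S⁻¹` -/

/-- `tr(g)² ≤ 4`. -/
def ghf_TrSq (g : SL(2, ℤ)) : Prop := (g : Matrix (Fin 2) (Fin 2) ℤ).trace ^ 2 ≤ 4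

theorem ghf_trSq_neg {g : SL(2, ℤ)} (h : ghf_TrSq g) : ghf_TrSq (-g) := by
  unfold ghf_TrSq at h ⊢
  rw [Matrix.SpecialLinearGroup.coe_neg, Matrix.trace_neg, neg_sq]
  exact h

theorem ghf_trSq_conj (g a : SL(2, ℤ)) (h : ghf_TrSq a) : ghf_TrSq (g⁻¹ * a * g) := by
  unfold ghf_TrSq at h ⊢
  have := trace_conj g⁻¹ a
  rw [inv_inv] at this
  rw [this]
  exact h

theorem ghf_trSq_S_pow (n : ℕ) : ghf_TrSq (S ^ n) := by
  have key : ∀ n : ℕ, ghf_TrSq (S ^ n) ∧ ghf_TrSq (S ^ (n + 1)) := by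
    intro n
    induction n with
    | zero =>
      refine ⟨?_, ?_⟩
      · unfold ghf_TrSq; decide
      · unfold ghf_TrSq; decide
    | succ n ih =>
      refine ⟨ih.2, ?_⟩
      have : S ^ (n + 1 + 1) = -(S ^ n) := by
        rw [add_assoc, pow_add, one_add_one_eq_two, S_sq, mul_neg, mul_one]
      rw [this]
      exact ghf_trSq_neg ih.1
  exact (key n).1

theorem ghf_trSq_ST_pow (n : ℕ) : ghf_TrSq ((S * T) ^ n) := by
  have key : ∀ n : ℕ, ghf_TrSq ((S * T) ^ n) ∧ ghf_TrSq ((S * T) ^ (n + 1))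
      ∧ ghf_TrSq ((S * T) ^ (n + 2)) := by
    intro n
    induction n with
    | zero =>
      refine ⟨?_, ?_, ?_⟩
      · unfold ghf_TrSq; decide
      · unfold ghf_TrSq; decide
      · unfold ghf_TrSq; decide
    | succ n ih =>
      refine ⟨ih.2.1, ih.2.2, ?_⟩
      have : (S * T) ^ (n + 1 + 2) = -((S * T) ^ n) := by
        rw [add_assoc, pow_add, show 1 + 2 = 3 from rfl, ST_cube, mul_neg, mul_one]
      rw [this]
      exact ghf_trSq_neg ih.1
  exact (key n).1

theorem ghf_trSq_Tc_pow (n : ℕ) : ghf_TrSq (Tc ^ n) := by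
  unfold ghf_TrSq Tc
  rw [conj_pow, trace_conj, ← zpow_natCast, coe_T_zpow]
  simp [Matrix.trace_fin_two]

/-! ### The space of homomorphisms `Γ₀(N) → k` killing the parabolic and elliptic elements -/

variable (N : ℕ) (k : Type*) [Field k]

/-- `Hom(H, k)`, as the `k`-subspace of the homomorphisms `Γ₀(N) → k` killing every element
with `tr² ≤ 4`. -/
def ghf_homs : Submodule k (Additive (Gamma0 N) →+ k) where
  carrier := {φ | ∀ γ : Gamma0 N, gh_IsParEll N γ → φ (Additive.ofMul γ) = 0}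
  zero_mem' := fun _ _ => rfl
  add_mem' := fun {a b} ha hb γ h => by
    rw [AddMonoidHom.add_apply, ha γ h, hb γ h, add_zero]
  smul_mem' := fun r a ha γ h => by
    rw [AddMonoidHom.smul_apply, ha γ h, smul_zero]

variable {N k}

theorem ghf_mem_homs {φ : Additive (Gamma0 N) →+ k} :
    φ ∈ ghf_homs N k ↔ ∀ γ : Gamma0 N, gh_IsParEll N γ → φ (Additive.ofMul γ) = 0 := Iff.rfl

theorem ghf_mem_homs_iff_parEll {φ : Additive (Gamma0 N) →+ k} :
    φ ∈ ghf_homs N k ↔ φ ∈ gh_parEllHoms N k := by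
  rw [gh_mem_parEllHoms_iff]
  exact Iff.rfl

variable (N k)

/-- A "primitive" of `φ` twisted by `m`: `prim φ m (g γ) = prim φ m g + φ γ`. -/
def ghf_prim (φ : Additive (Gamma0 N) →+ k) (m : Q N → k) (g : SL(2, ℤ)) : k :=
  φ (Additive.ofMul ⟨((g : Q N).out)⁻¹ * g, out_inv_mul_mem N g⟩) + m g

theorem ghf_prim_mul_right (φ : Additive (Gamma0 N) →+ k) (m : Q N → k) (g : SL(2, ℤ))
    (γ : Gamma0 N) :
    ghf_prim N k φ m (g * γ) = ghf_prim N k φ m g + φ (Additive.ofMul γ) := by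
  have hq : ((g * γ : SL(2, ℤ)) : Q N) = (g : Q N) := by
    rw [QuotientGroup.eq]
    simp
  have h2 : (⟨((((g * γ : SL(2, ℤ)) : Q N)).out)⁻¹ * (g * γ), out_inv_mul_mem N (g * γ)⟩ :
      Gamma0 N) = ⟨((g : Q N).out)⁻¹ * g, out_inv_mul_mem N g⟩ * γ := by
    apply Subtype.ext
    simp only [Subgroup.coe_mul]
    rw [hq, mul_assoc]
  unfold ghf_prim
  rw [h2, ofMul_mul, map_add, hq]
  ring

/-- The "cocycle" `x = hΓ ↦ F (σ h) - F h`, `F = prim φ m`, as a linear map in `(φ, m)`. -/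
def ghf_coc (σ : SL(2, ℤ)) :
    ((Additive (Gamma0 N) →+ k) × (Q N → k)) →ₗ[k] (Q N → k) where
  toFun p := fun x => ghf_prim N k p.1 p.2 (σ * x.out) - ghf_prim N k p.1 p.2 x.out
  map_add' p q := by
    funext x
    simp only [ghf_prim, Prod.fst_add, Prod.snd_add, AddMonoidHom.add_apply, Pi.add_apply]
    ring
  map_smul' c p := by
    funext x
    simp only [ghf_prim, Prod.smul_fst, Prod.smul_snd, AddMonoidHom.smul_apply, Pi.smul_apply,
      smul_eq_mul, RingHom.id_apply]
    ring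

theorem ghf_coc_apply_mk (σ : SL(2, ℤ)) (p : (Additive (Gamma0 N) →+ k) × (Q N → k))
    (h : SL(2, ℤ)) :
    ghf_coc N k σ p (h : Q N) = ghf_prim N k p.1 p.2 (σ * h) - ghf_prim N k p.1 p.2 h := by
  obtain ⟨γ, hγ⟩ := QuotientGroup.mk_out_eq_mul (Gamma0 N) h
  change ghf_prim N k p.1 p.2 (σ * (h : Q N).out) - ghf_prim N k p.1 p.2 (h : Q N).out = _
  rw [hγ, ← mul_assoc, ghf_prim_mul_right, ghf_prim_mul_right]
  ring

theorem ghf_coc_mul (σ τ : SL(2, ℤ)) (p : (Additive (Gamma0 N) →+ k) × (Q N → k)) (x : Q N) :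
    ghf_coc N k (σ * τ) p x = ghf_coc N k σ p (τ • x) + ghf_coc N k τ p x := by
  induction x using QuotientGroup.induction_on with
  | H h =>
    rw [smul_coset, ghf_coc_apply_mk, ghf_coc_apply_mk, ghf_coc_apply_mk, mul_assoc]
    ring

theorem ghf_sum_coc (σ : SL(2, ℤ)) (n : ℕ) (p : (Additive (Gamma0 N) →+ k) × (Q N → k))
    (h : SL(2, ℤ)) :
    ∑ j ∈ Finset.range n, ghf_coc N k σ p (σ ^ j • (h : Q N))
      = ghf_prim N k p.1 p.2 (σ ^ n * h) - ghf_prim N k p.1 p.2 h := by
  have : ∀ j ∈ Finset.range n, ghf_coc N k σ p (σ ^ j • (h : Q N))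
      = ghf_prim N k p.1 p.2 (σ ^ (j + 1) * h) - ghf_prim N k p.1 p.2 (σ ^ j * h) := by
    intro j _
    rw [smul_coset, ghf_coc_apply_mk, ← mul_assoc, ← pow_succ']
  rw [Finset.sum_congr rfl this, Finset.sum_range_sub (fun j => ghf_prim N k p.1 p.2 (σ ^ j * h))]
  simp

/-- the cocycle of `σ` lies in the refined kernel as soon as all powers of `σ` have `tr² ≤ 4`. -/
theorem ghf_coc_mem_K (σ : SL(2, ℤ)) (hσ : ∀ n : ℕ, ghf_TrSq (σ ^ n))
    (p : (Additive (Gamma0 N) →+ k) × (Q N → k)) (hp : p.1 ∈ ghf_homs N k) :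
    ghf_coc N k σ p ∈ ghf_K k (X := Q N) σ := by
  intro x n hx
  induction x using QuotientGroup.induction_on with
  | H h =>
    rw [ghf_sum_coc]
    rw [smul_coset] at hx
    have hmem : h⁻¹ * σ ^ n * h ∈ Gamma0 N := by
      have := QuotientGroup.eq.mp hx.symm
      rwa [← mul_assoc] at this
    have h1 : σ ^ n * h = h * ((⟨h⁻¹ * σ ^ n * h, hmem⟩ : Gamma0 N) : SL(2, ℤ)) := by
      simp only
      group
    have h2 : p.1 (Additive.ofMul (⟨h⁻¹ * σ ^ n * h, hmem⟩ : Gamma0 N)) = 0 :=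
      ghf_mem_homs.mp hp ⟨h⁻¹ * σ ^ n * h, hmem⟩ (ghf_trSq_conj h _ (hσ n))
    rw [h1, ghf_prim_mul_right, h2]
    ring

/-! ### The map `Θ` and its kernel -/

/-- The linear map `Θ (φ, m) = (c_S, c_{ST})`. -/
def ghf_theta :
    (↥(ghf_homs N k) × (Q N → k)) →ₗ[k] ((Q N → k) × (Q N → k)) :=
  (LinearMap.prod (ghf_coc N k S) (ghf_coc N k (S * T))) ∘ₗ
    (LinearMap.prodMap (ghf_homs N k).subtype LinearMap.id)

theorem ghf_theta_apply (p : ↥(ghf_homs N k) × (Q N → k)) :
    ghf_theta N k p = (ghf_coc N k S (p.1.1, p.2), ghf_coc N k (S * T) (p.1.1, p.2)) := rfl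

theorem ghf_theta_fst_mem (p : ↥(ghf_homs N k) × (Q N → k)) :
    (ghf_theta N k p).1 ∈ ghf_K k (X := Q N) S := by
  rw [ghf_theta_apply]
  exact ghf_coc_mem_K N k S ghf_trSq_S_pow (p.1.1, p.2) p.1.2

theorem ghf_theta_snd_mem (p : ↥(ghf_homs N k) × (Q N → k)) :
    (ghf_theta N k p).2 ∈ ghf_K k (X := Q N) (S * T) := by
  rw [ghf_theta_apply]
  exact ghf_coc_mem_K N k (S * T) ghf_trSq_ST_pow (p.1.1, p.2) p.1.2

theorem ghf_theta_sub_mem (p : ↥(ghf_homs N k) × (Q N → k)) :
    (ghf_theta N k p).2 - (ghf_theta N k p).1 ∈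
      (ghf_K k (X := Q N) Tc).map (LinearMap.funLeft k k (fun x : Q N => S • x)) := by
  refine ⟨ghf_coc N k Tc (p.1.1, p.2), ghf_coc_mem_K N k Tc ghf_trSq_Tc_pow (p.1.1, p.2) p.1.2, ?_⟩
  funext x
  have := ghf_coc_mul N k Tc S (p.1.1, p.2) x
  rw [Tc_mul_S] at this
  rw [ghf_theta_apply]
  simp only [LinearMap.funLeft_apply, Pi.sub_apply]
  rw [this]
  ring

theorem ghf_ker_theta_le :
    LinearMap.ker (ghf_theta N k) ≤
      Submodule.span k {((0 : ↥(ghf_homs N k)), (fun _ : Q N => (1 : k)))} := by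
  intro p hp
  rw [LinearMap.mem_ker, ghf_theta_apply, Prod.mk_eq_zero] at hp
  obtain ⟨h1, h2⟩ := hp
  set F := ghf_prim N k p.1.1 p.2 with hF
  have hS : ∀ h, F (S * h) = F h := by
    intro h
    have := congrFun h1 (h : Q N)
    rw [ghf_coc_apply_mk] at this
    exact sub_eq_zero.mp this
  have hU : ∀ h, F (S * T * h) = F h := by
    intro h
    have := congrFun h2 (h : Q N)
    rw [ghf_coc_apply_mk] at this
    exact sub_eq_zero.mp this
  have hall : ∀ g : SL(2, ℤ), ∀ h, F (g * h) = F h := by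
    intro g
    have hg : g ∈ Subgroup.closure ({S, S * T} : Set SL(2, ℤ)) := by
      rw [closure_S_ST]; trivial
    induction hg using Subgroup.closure_induction with
    | mem y hy =>
      rcases hy with rfl | rfl
      · exact hS
      · exact hU
    | one => intro h; rw [one_mul]
    | mul a b _ _ iha ihb => intro h; rw [mul_assoc, iha, ihb]
    | inv a _ iha =>
      intro h
      have := iha (a⁻¹ * h)
      rw [mul_inv_cancel_left] at this
      exact this.symm
  have hconst : ∀ g, F g = F 1 := by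
    intro g
    have := hall g 1
    rwa [mul_one] at this
  have hφ : ∀ γ : Gamma0 N, p.1.1 (Additive.ofMul γ) = 0 := by
    intro γ
    have := ghf_prim_mul_right N k p.1.1 p.2 1 γ
    rw [one_mul] at this
    change F γ = F 1 + _ at this
    rw [hconst] at this
    linear_combination -this
  have hm : ∀ x : Q N, p.2 x = F 1 := by
    intro x
    induction x using QuotientGroup.induction_on with
    | H g =>
      have h3 : F g = p.2 (g : Q N) := by
        rw [hF]
        unfold ghf_prim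
        rw [hφ, zero_add]
      rw [← h3, hconst]
  rw [Submodule.mem_span_singleton]
  refine ⟨F 1, ?_⟩
  apply Prod.ext
  · apply Subtype.ext
    apply AddMonoidHom.ext
    intro γ
    change (F 1 • (0 : ↥(ghf_homs N k))).1 γ = p.1.1 γ
    rw [smul_zero]
    exact (hφ (Additive.toMul γ)).symm
  · funext x
    simp [hm x]

theorem ghf_finrank_ker_theta_le : finrank k (LinearMap.ker (ghf_theta N k)) ≤ 1 := by
  have h := Submodule.finrank_mono (ghf_ker_theta_le N k)
  have h4 := finrank_span_le_card (R := k)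
    ({((0 : ↥(ghf_homs N k)), (fun _ : Q N => (1 : k)))} :
      Set (↥(ghf_homs N k) × (Q N → k)))
  simp only [Set.toFinset_singleton, Finset.card_singleton] at h4
  exact h.trans h4

variable [NeZero N]

theorem ghf_finiteDimensional_homs : FiniteDimensional k ↥(ghf_homs N k) := by
  have hinj : Function.Injective ((ghf_theta N k) ∘ₗ (LinearMap.inl k _ (Q N → k))) := by
    rw [injective_iff_map_eq_zero]
    intro φ hφ
    have hk : ((φ, 0) : ↥(ghf_homs N k) × (Q N → k)) ∈ LinearMap.ker (ghf_theta N k) := hφ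
    have := ghf_ker_theta_le N k hk
    rw [Submodule.mem_span_singleton] at this
    obtain ⟨a, ha⟩ := this
    have := congrArg Prod.fst ha
    simpa using this.symm
  exact FiniteDimensional.of_injective _ hinj

set_option synthInstance.maxHeartbeats 400000 in
/-- **Group-theoretic bound in every characteristic**, in natural numbers. -/
theorem ghf_finrank_homs_add_le :
    finrank k ↥(ghf_homs N k)
      + Nat.card (orbitRel.Quotient (Subgroup.zpowers S) (Q N))
      + Nat.card (orbitRel.Quotient (Subgroup.zpowers (S * T)) (Q N))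
      + Nat.card (orbitRel.Quotient (Subgroup.zpowers T) (Q N)) ≤ Nat.card (Q N) + 2 := by
  classical
  have := ghf_finiteDimensional_homs N k
  have : Fintype (Q N) := Fintype.ofFinite _
  have dS : finrank k (ghf_K k (X := Q N) S)
      + Nat.card (orbitRel.Quotient (Subgroup.zpowers S) (Q N)) ≤ Nat.card (Q N) :=
    ghf_finrank_K_add_le (k := k) (X := Q N) S
  have dU : finrank k (ghf_K k (X := Q N) (S * T))
      + Nat.card (orbitRel.Quotient (Subgroup.zpowers (S * T)) (Q N)) ≤ Nat.card (Q N) :=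
    ghf_finrank_K_add_le (k := k) (X := Q N) (S * T)
  have dT : finrank k (ghf_K k (X := Q N) Tc)
      + Nat.card (orbitRel.Quotient (Subgroup.zpowers Tc) (Q N)) ≤ Nat.card (Q N) :=
    ghf_finrank_K_add_le (k := k) (X := Q N) Tc
  have hconj : Nat.card (orbitRel.Quotient (Subgroup.zpowers Tc) (Q N))
      = Nat.card (orbitRel.Quotient (Subgroup.zpowers T) (Q N)) := card_orbits_conj T S
  have hsup := ghf_card_le_finrank_sup_add_one (k := k) (X := Q N) closure_S_ST
    ((1 : SL(2, ℤ)) : Q N)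
  have hsi := Submodule.finrank_sup_add_finrank_inf_eq
    (ghf_K k (X := Q N) S) (ghf_K k (X := Q N) (S * T))
  have hZle : finrank k ((ghf_K k (X := Q N) Tc).map
      (LinearMap.funLeft k k (fun x : Q N => S • x)))
      ≤ finrank k (ghf_K k (X := Q N) Tc) := Submodule.finrank_map_le _ _
  set KS := ghf_K k (X := Q N) S with hKS
  set KU := ghf_K k (X := Q N) (S * T) with hKU
  set KT := ghf_K k (X := Q N) Tc with hKT
  set Z := KT.map (LinearMap.funLeft k k (fun x : Q N => S • x)) with hZ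
  have : Module.Free k ↥(ghf_homs N k) :=
    @Module.Free.of_divisionRing k ↥(ghf_homs N k) _
      (inferInstance : AddCommGroup ↥(ghf_homs N k)) _
  have hrk := LinearMap.finrank_range_add_finrank_ker (K := k)
    (V := ↥(ghf_homs N k) × (Q N → k)) (V₂ := (Q N → k) × (Q N → k)) (ghf_theta N k)
  rw [Module.finrank_prod, Module.finrank_fintype_fun_eq_card, ← Nat.card_eq_fintype_card] at hrk
  have hk := ghf_finrank_ker_theta_le N k
  set R := LinearMap.range (ghf_theta N k) with hR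
  have hRle : finrank k R ≤ finrank k ↥(KS ⊓ KU) + finrank k Z := by
    set D : R →ₗ[k] (Q N → k) :=
      (LinearMap.snd k (Q N → k) (Q N → k) - LinearMap.fst k (Q N → k) (Q N → k)).domRestrict R
      with hD
    have h1 := LinearMap.finrank_range_add_finrank_ker D
    have h2 : finrank k (LinearMap.range D) ≤ finrank k Z := by
      apply Submodule.finrank_mono
      rintro _ ⟨⟨r, ⟨p, rfl⟩⟩, rfl⟩
      exact ghf_theta_sub_mem N k p
    have h3 : finrank k (LinearMap.ker D) ≤ finrank k ↥(KS ⊓ KU) := by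
      let f : LinearMap.ker D →ₗ[k] ↥(KS ⊓ KU) :=
        LinearMap.codRestrict (KS ⊓ KU)
          ((LinearMap.fst k (Q N → k) (Q N → k)) ∘ₗ R.subtype ∘ₗ (LinearMap.ker D).subtype) (by
            rintro ⟨⟨r, ⟨p, rfl⟩⟩, hr⟩
            have hr' : (ghf_theta N k p).2 - (ghf_theta N k p).1 = 0 := hr
            have h12 : (ghf_theta N k p).1 = (ghf_theta N k p).2 := (sub_eq_zero.mp hr').symm
            refine ⟨ghf_theta_fst_mem N k p, ?_⟩
            change (ghf_theta N k p).1 ∈ KU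
            rw [h12]
            exact ghf_theta_snd_mem N k p)
      apply LinearMap.finrank_le_finrank_of_injective (f := f)
      rintro ⟨⟨a, ha⟩, hka⟩ ⟨⟨b, hb⟩, hkb⟩ hab
      have e1 : a.1 = b.1 := congrArg Subtype.val hab
      have ea : a.2 - a.1 = 0 := hka
      have eb : b.2 - b.1 = 0 := hkb
      have e2 : a.2 = b.2 := by
        rw [sub_eq_zero.mp ea, sub_eq_zero.mp eb, e1]
      apply Subtype.ext
      apply Subtype.ext
      exact Prod.ext e1 e2
    omega
  omega

/-- **`dim_k Hom(H, k) ≤ 2 g(N)` for every field `k`.** -/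
theorem ghf_finrank_homs_le :
    (finrank k ↥(ghf_homs N k) : ℚ) ≤ 2 * genusFormula N := by
  have h := ghf_finrank_homs_add_le N k
  have hh := hurwitz_count N
  have h' : (finrank k ↥(ghf_homs N k) : ℚ)
      + Nat.card (orbitRel.Quotient (Subgroup.zpowers S) (Q N))
      + Nat.card (orbitRel.Quotient (Subgroup.zpowers (S * T)) (Q N))
      + Nat.card (orbitRel.Quotient (Subgroup.zpowers T) (Q N)) ≤ Nat.card (Q N) + 2 := by
    exact_mod_cast h
  linarith

/-! ### Torsion-freeness of `H` -/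

omit [NeZero N] in
/-- a nontrivial finite abelian group has a nonzero homomorphism to some `ZMod p`, `p` prime. -/
theorem ghf_exists_hom_zmod (Y : Type*) [AddCommGroup Y] [Finite Y] [Nontrivial Y] :
    ∃ (p : ℕ) (_ : p.Prime) (ψ : Y →+ ZMod p), ψ ≠ 0 := by
  classical
  have hcard : 1 < Nat.card Y := Finite.one_lt_card
  obtain ⟨p, hp, hpd⟩ := Nat.exists_prime_and_dvd (ne_of_gt hcard)
  have := Fact.mk hp
  have : Fintype Y := Fintype.ofFinite Y
  obtain ⟨y, hy⟩ := exists_prime_addOrderOf_dvd_card (G := Y) p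
    (by rwa [← Nat.card_eq_fintype_card])
  let P : AddSubgroup Y := (nsmulAddMonoidHom p : Y →+ Y).range
  have hP : ∀ x : Y, p • x ∈ P := fun x => ⟨x, rfl⟩
  have hne : P ≠ ⊤ := by
    intro htop
    have hsurj : Function.Surjective (nsmulAddMonoidHom p : Y →+ Y) :=
      AddMonoidHom.range_eq_top.mp htop
    have hinj := Finite.injective_iff_surjective.mpr hsurj
    have h0 : (nsmulAddMonoidHom p : Y →+ Y) y = (nsmulAddMonoidHom p : Y →+ Y) 0 := by
      change p • y = p • (0 : Y)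
      rw [← hy, addOrderOf_nsmul_eq_zero, smul_zero]
    have hy0 : y = 0 := hinj h0
    rw [hy0, addOrderOf_zero] at hy
    exact hp.one_lt.ne hy
  let inst : Module (ZMod p) (Y ⧸ P) := QuotientAddGroup.zmodModule (n := p) (H := P) hP
  obtain ⟨z, hz⟩ : ∃ z : Y, z ∉ P := by
    by_contra h
    exact hne (eq_top_iff.mpr fun x _ => by_contra fun hx => h ⟨x, hx⟩)
  have hq : (QuotientAddGroup.mk z : Y ⧸ P) ≠ 0 := by
    rwa [Ne, QuotientAddGroup.eq_zero_iff]
  have hfree : Module.Free (ZMod p) (Y ⧸ P) := Module.Free.of_divisionRing (ZMod p) (Y ⧸ P)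
  have hproj : Module.Projective (ZMod p) (Y ⧸ P) :=
    @Module.Projective.of_free (ZMod p) _ (Y ⧸ P) _ inst hfree
  obtain ⟨f, hf⟩ :=
    @Module.Projective.exists_dual_ne_zero (Y ⧸ P) _ (ZMod p) _ inst hproj _ hq
  refine ⟨p, hp, f.toAddMonoidHom.comp (QuotientAddGroup.mk' P), ?_⟩
  intro h0
  apply hf
  have := DFunLike.congr_fun h0 z
  simpa using this

set_option synthInstance.maxHeartbeats 400000 in
/-- `Hom(H, 𝔽_p)` is finite. -/
theorem ghf_finite_hom_zmod (p : ℕ) [Fact p.Prime] : Finite (gh_H N →+ ZMod p) := by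
  have hfd := ghf_finiteDimensional_homs N (ZMod p)
  have e1 : (gh_H N →+ ZMod p) ≃ ↥(gh_parEllHoms N (ZMod p)) := (gh_homEquiv).toEquiv
  have e2 : ↥(gh_parEllHoms N (ZMod p)) ≃ ↥(ghf_homs N (ZMod p)) :=
    Equiv.subtypeEquivRight (fun φ => ghf_mem_homs_iff_parEll.symm)
  have : Finite ↥(ghf_homs N (ZMod p)) := Module.finite_of_finite (ZMod p)
  exact Finite.of_equiv _ (e1.trans e2).symm

set_option synthInstance.maxHeartbeats 400000 in
/-- `|Hom(H, 𝔽_p)| ≤ p^(2g)` for every prime `p`. -/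
theorem ghf_card_hom_zmod_le (p : ℕ) [Fact p.Prime] :
    Nat.card (gh_H N →+ ZMod p) ≤ p ^ (2 * finrank ℂ (CuspForm (Gamma0 N) 2)) := by
  have hfd := ghf_finiteDimensional_homs N (ZMod p)
  have e1 : (gh_H N →+ ZMod p) ≃ ↥(gh_parEllHoms N (ZMod p)) := (gh_homEquiv).toEquiv
  have e2 : ↥(gh_parEllHoms N (ZMod p)) ≃ ↥(ghf_homs N (ZMod p)) :=
    Equiv.subtypeEquivRight (fun φ => ghf_mem_homs_iff_parEll.symm)
  rw [Nat.card_congr (e1.trans e2),
    Module.natCard_eq_pow_finrank (K := ZMod p) (V := ↥(ghf_homs N (ZMod p))), Nat.card_zmod]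
  apply Nat.pow_le_pow_right (Fact.out : p.Prime).pos
  have h1 := ghf_finrank_homs_le N (ZMod p)
  have h2 := Fermat.Agent.S20.gl_s20 N
  rw [← h2] at h1
  have h3 : (finrank (ZMod p) ↥(ghf_homs N (ZMod p)) : ℚ)
      ≤ ((2 * finrank ℂ (CuspForm (Gamma0 N) 2) : ℕ) : ℚ) := by
    push_cast
    exact h1
  exact_mod_cast h3

/-- **`H = Γ₀(N)^ab / (parabolic, elliptic)` is torsion-free.** -/
theorem ghf_torsCard : gh_torsCard N = 1 := by
  classical
  obtain ⟨Y, _, _, ⟨f⟩⟩ := gh_exists_equiv_H N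
  unfold gh_torsCard
  rw [gh_card_torsion f]
  by_contra hY
  have hYnt : Nontrivial Y := by
    rw [← Finite.one_lt_card_iff_nontrivial]
    have : Nat.card Y ≠ 0 := Nat.card_pos.ne'
    omega
  obtain ⟨p, hp, ψ, hψ⟩ := ghf_exists_hom_zmod Y
  have := Fact.mk hp
  obtain ⟨y₀, hy₀⟩ : ∃ y₀ : Y, ψ y₀ ≠ 0 := by
    by_contra h
    exact hψ (AddMonoidHom.ext fun y => by_contra fun hy => h ⟨y, hy⟩)
  set r := 2 * finrank ℂ (CuspForm (Gamma0 N) 2) with hr
  let J : (Fin r → ZMod p) × ZMod p → (gh_H N →+ ZMod p) := fun ca =>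
    { toFun := fun x => ∑ i, ((f x).1 i : ℤ) • ca.1 i + ca.2 * ψ (f x).2
      map_zero' := by simp
      map_add' := fun x y => by
        simp only [map_add, Prod.fst_add, Prod.snd_add, Pi.add_apply, add_smul,
          Finset.sum_add_distrib, mul_add]
        ring }
  have hJ : Function.Injective J := by
    rintro ⟨c, a⟩ ⟨c', a'⟩ h
    have hev : ∀ x : gh_H N, ∑ i, ((f x).1 i : ℤ) • c i + a * ψ (f x).2
        = ∑ i, ((f x).1 i : ℤ) • c' i + a' * ψ (f x).2 := fun x => DFunLike.congr_fun h x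
    have hc : c = c' := by
      funext i
      have := hev (f.symm (Pi.single i 1, 0))
      rw [f.apply_symm_apply] at this
      simpa [Pi.single_apply, ite_smul] using this
    have ha : a = a' := by
      have := hev (f.symm (0, y₀))
      rw [f.apply_symm_apply] at this
      simp only [Pi.zero_apply, zero_smul, Finset.sum_const_zero, zero_add] at this
      exact mul_right_cancel₀ hy₀ this
    rw [hc, ha]
  have hle := ghf_card_hom_zmod_le N p
  have hfin : Finite (gh_H N →+ ZMod p) := ghf_finite_hom_zmod N p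
  have hge := Nat.card_le_card_of_injective J hJ
  rw [Nat.card_prod, Nat.card_fun, Nat.card_zmod, Nat.card_eq_fintype_card, Fintype.card_fin]
    at hge
  have hpos : 0 < p ^ r := pow_pos hp.pos r
  have h2 : p ^ r * p ≤ p ^ r := hge.trans hle
  have h3 : p ^ r * 2 ≤ p ^ r * p := Nat.mul_le_mul_left _ hp.two_le
  omega

/-- the torsion subgroup of `H` is trivial. -/
theorem ghf_torsion_eq_bot : AddCommGroup.torsion (gh_H N) = ⊥ := by
  have h := ghf_torsCard N
  unfold gh_torsCard at h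
  have h1 := Nat.card_eq_one_iff_unique.mp h
  rw [eq_bot_iff]
  intro x hx
  have h2 : (⟨x, hx⟩ : AddCommGroup.torsion (gh_H N)) = 0 := h1.1.elim _ _
  rw [AddSubgroup.mem_bot]
  exact congrArg Subtype.val h2

/-- `n • x = 0` with `n ≠ 0` forces `x = 0` in `H`. -/
theorem ghf_eq_zero_of_nsmul_eq_zero {n : ℕ} (hn : n ≠ 0) {x : gh_H N} (h : n • x = 0) :
    x = 0 := by
  have hx : x ∈ AddCommGroup.torsion (gh_H N) := by
    rw [AddCommGroup.mem_torsion, isOfFinAddOrder_iff_nsmul_eq_zero]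
    exact ⟨n, Nat.pos_of_ne_zero hn, h⟩
  rw [ghf_torsion_eq_bot, AddSubgroup.mem_bot] at hx
  exact hx

/-- **`H ≃+ ℤ^(2g)`**, `g = dim S₂(Γ₀(N))`. -/
theorem ghf_equiv :
    Nonempty (gh_H N ≃+ (Fin (2 * finrank ℂ (CuspForm (Gamma0 N) 2)) → ℤ)) := by
  obtain ⟨Y, _, _, ⟨f⟩⟩ := gh_exists_equiv_H N
  have h := ghf_torsCard N
  unfold gh_torsCard at h
  rw [gh_card_torsion f] at h
  have h1 := Nat.card_eq_one_iff_unique.mp h
  have : Subsingleton Y := h1.1
  have : Unique Y := uniqueOfSubsingleton 0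
  exact ⟨f.trans AddEquiv.prodUnique⟩

/-- a (noncanonical) basis of `H`: `H ≃+ ℤ^(2g)`. -/
def ghf_basisEquiv : gh_H N ≃+ (Fin (2 * finrank ℂ (CuspForm (Gamma0 N) 2)) → ℤ) :=
  Classical.choice (ghf_equiv N)

instance ghf_free : Module.Free ℤ (gh_H N) :=
  Module.Free.of_equiv (ghf_basisEquiv N).symm.toIntLinearEquiv

/-- **`|Hom(H, ℤ/m)| = m^(2g)` for every `m`.** -/
theorem ghf_card_hom_zmod (m : ℕ) :
    Nat.card (gh_H N →+ ZMod m) = m ^ (2 * finrank ℂ (CuspForm (Gamma0 N) 2)) :=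
  gh_card_hom_zmod N m (by rw [ghf_torsCard]; exact Nat.coprime_one_right m)

/-- the number of characters `Γ₀(N) →* M` (`M` finite cyclic) trivial on the parabolic and the
elliptic elements is `|M|^(2g)`, unconditionally. -/
theorem ghf_card_char (M : Type*) [CommGroup M] [IsCyclic M] [Finite M] :
    Nat.card {χ : Gamma0 N →* M // ∀ γ : Gamma0 N, gh_IsParEll N γ → χ γ = 1} =
      Nat.card M ^ (2 * finrank ℂ (CuspForm (Gamma0 N) 2)) :=
  gh_card_char N M (by rw [ghf_torsCard]; exact Nat.coprime_one_right _)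

/-- the case `M = μ_n(ℂ)`, unconditionally. -/
theorem ghf_card_char_rootsOfUnity (n : ℕ) [NeZero n] :
    Nat.card {χ : Gamma0 N →* rootsOfUnity n ℂ // ∀ γ : Gamma0 N, gh_IsParEll N γ → χ γ = 1} =
      n ^ (2 * finrank ℂ (CuspForm (Gamma0 N) 2)) :=
  gh_card_char_rootsOfUnity N n (by rw [ghf_torsCard]; exact Nat.coprime_one_right _)

/-- **`Hom(H, A) ≃+ A^(2g)` for EVERY abelian group `A`** (evaluation on a basis). -/
def ghf_homEquivPi (A : Type*) [AddCommGroup A] :
    (gh_H N →+ A) ≃+ (Fin (2 * finrank ℂ (CuspForm (Gamma0 N) 2)) → A) :=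
  gh_homEquivPi (Y := PUnit.{1}) (A := A)
    ((ghf_basisEquiv N).trans (AddEquiv.prodUnique (N := PUnit.{1})).symm)
    (fun a h => by
      have h1 : Nat.card PUnit.{1} = 1 := Nat.card_unique
      rwa [h1, one_smul] at h)

theorem ghf_homEquivPi_apply (A : Type*) [AddCommGroup A] (ψ : gh_H N →+ A)
    (i : Fin (2 * finrank ℂ (CuspForm (Gamma0 N) 2))) :
    ghf_homEquivPi N A ψ i = ψ ((ghf_basisEquiv N).symm (Pi.single i 1)) := by
  unfold ghf_homEquivPi
  rw [gh_homEquivPi_apply]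
  rfl

/-- **every homomorphism `H → B` lifts along a surjection `A → B`** (`H` is free). -/
theorem ghf_exists_lift {A B : Type*} [AddCommGroup A] [AddCommGroup B] (π : A →+ B)
    (hπ : Function.Surjective π) (ψ : gh_H N →+ B) : ∃ ψ' : gh_H N →+ A, π.comp ψ' = ψ := by
  classical
  choose a ha using fun i => hπ (ghf_homEquivPi N B ψ i)
  refine ⟨(ghf_homEquivPi N A).symm a, ?_⟩
  apply (ghf_homEquivPi N B).injective
  funext i
  rw [← ha i]
  change π ((ghf_homEquivPi N A).symm a _) = _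
  have h1 := congrFun ((ghf_homEquivPi N A).apply_symm_apply a) i
  exact congrArg π h1

end Fermat.Agent.JT3
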